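/-
MAZ / X-MOD analytic core (helper32), file 1: Liouville's theorem for elliptic functions,
in the analytic and in the meromorphic form, on top of Mathlib's `PeriodPair`.
-/
import Mathlib

set_option autoImplicit false

open Filter Topology
open scoped PeriodPair

namespace Fermat.Agent.MAZ.Analytic.Elliptic32

variable (L : PeriodPair)

/-- Liouville: an entire function which is periodic for a lattice is constant. -/
theorem eq_of_differentiable_of_periodic {f : ℂ → ℂ} (hf : Differentiable ℂ f)
    (hper : ∀ z w : ℂ, w ∈ L.lattice → f (z + w) = f z) (z w : ℂ) : f z = f w :=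
  hf.apply_eq_apply_of_bounded
    (IsZLattice.isCompact_range_of_periodic L.lattice f hf.continuous hper).isBounded z w

/-- Liouville, meromorphic form: a meromorphic function on `ℂ` without poles which is periodic
for a lattice is constant on punctured neighbourhoods of every point. -/
theorem exists_const_of_meromorphic_of_periodic {f : ℂ → ℂ} (hf : Meromorphic f)
    (hord : ∀ x, 0 ≤ meromorphicOrderAt f x)
    (hper : ∀ z w : ℂ, w ∈ L.lattice → f (z + w) = f z) :
    ∃ c : ℂ, ∀ x, f =ᶠ[𝓝[≠] x] fun _ => c := by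
  have hfU : MeromorphicOn f Set.univ := fun x _ => hf x
  set g := toMeromorphicNFOn f Set.univ with hg
  have hgf : ∀ x, g =ᶠ[𝓝[≠] x] f := fun x =>
    hfU.toMeromorphicNFOn_eq_self_on_nhdsNE (Set.mem_univ x)
  have hgNF : MeromorphicNFOn g Set.univ := meromorphicNFOn_toMeromorphicNFOn f Set.univ
  have hgan : ∀ x, AnalyticAt ℂ g x := by
    intro x
    have h1 : MeromorphicNFAt g x := hgNF (Set.mem_univ x)
    rw [← h1.meromorphicOrderAt_nonneg_iff_analyticAt, meromorphicOrderAt_congr (hgf x)]
    exact hord x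
  have hgd : Differentiable ℂ g := fun x => (hgan x).differentiableAt
  have hgper : ∀ z w : ℂ, w ∈ L.lattice → g (z + w) = g z := by
    intro z w hw
    have hc1 : ContinuousAt (fun y => g (y + w)) z :=
      (hgd.continuous.comp (continuous_add_const w)).continuousAt
    have hc2 : ContinuousAt g z := hgd.continuous.continuousAt
    have h1 : (fun y => g (y + w)) =ᶠ[𝓝[≠] z] g := by
      have h2 : (fun y => g (y + w)) =ᶠ[𝓝[≠] z] fun y => f (y + w) := by
        have h3 : Tendsto (fun y : ℂ => y + w) (𝓝[≠] z) (𝓝[≠] (z + w)) := by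
          refine tendsto_nhdsWithin_of_tendsto_nhds_of_eventually_within _ ?_ ?_
          · exact ((continuous_add_const w).tendsto z).mono_left nhdsWithin_le_nhds
          · filter_upwards [self_mem_nhdsWithin] with y hy
            simpa using hy
        exact h3.eventually (hgf (z + w))
      refine h2.trans ?_
      refine EventuallyEq.trans ?_ (hgf z).symm
      exact Eventually.of_forall fun y => hper y w hw
    exact ((hc1.eventuallyEq_nhds_iff_eventuallyEq_nhdsNE hc2).1 h1).eq_of_nhds
  refine ⟨g 0, fun x => ?_⟩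
  filter_upwards [hgf x] with y hy
  rw [← hy]
  exact eq_of_differentiable_of_periodic L hgd hgper y 0

/-- Consequence: the value at any point of continuity is the constant. -/
theorem eq_of_meromorphic_of_periodic {f : ℂ → ℂ} (hf : Meromorphic f)
    (hord : ∀ x, 0 ≤ meromorphicOrderAt f x)
    (hper : ∀ z w : ℂ, w ∈ L.lattice → f (z + w) = f z)
    {x y : ℂ} (hx : ContinuousAt f x) (hy : ContinuousAt f y) : f x = f y := by
  obtain ⟨c, hc⟩ := exists_const_of_meromorphic_of_periodic L hf hord hper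
  have h1 : ∀ z, ContinuousAt f z → f z = c := by
    intro z hz
    have : f =ᶠ[𝓝 z] fun _ => c :=
      (hz.eventuallyEq_nhds_iff_eventuallyEq_nhdsNE continuousAt_const).1 (hc z)
    exact this.eq_of_nhds
  rw [h1 x hx, h1 y hy]

/-! ### Basic facts on `℘`, `℘'`, `℘''` -/

theorem countable_lattice : (L.lattice : Set ℂ).Countable := by
  have : Countable L.lattice := L.latticeEquivProd.toEquiv.countable_iff.2 inferInstance
  exact Set.countable_coe_iff.1 this

/-- The complement of a countable subset of `ℂ` is preconnected. -/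
theorem isPreconnected_compl_of_countable {S : Set ℂ} (hS : S.Countable) : IsPreconnected Sᶜ := by
  have h : 1 < Module.rank ℝ ℂ := by
    rw [Complex.rank_real_complex]; norm_num
  exact (hS.isPathConnected_compl_of_one_lt_rank h).isConnected.isPreconnected

theorem isOpen_compl_lattice : IsOpen (L.lattice : Set ℂ)ᶜ := L.isClosed_lattice.isOpen_compl

theorem meromorphicOrderAt_derivWeierstrassP_zero : meromorphicOrderAt ℘'[L] 0 = -3 := by
  rw [← L.deriv_weierstrassP]
  have h := L.order_weierstrassP 0 (zero_mem _)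
  have := meromorphicOrderAt_deriv_eq_sub_one (f := ℘[L]) (x := 0) (n := -2) (by norm_num) h
  rw [this]; norm_num

/-- The second derivative `℘''`. -/
noncomputable def wp2 (z : ℂ) : ℂ := deriv ℘'[L] z

theorem analyticOnNhd_wp2 : AnalyticOnNhd ℂ (wp2 L) (L.lattice : Set ℂ)ᶜ :=
  L.analyticOnNhd_derivWeierstrassP.deriv

theorem hasDerivAt_weierstrassP {z : ℂ} (hz : z ∉ L.lattice) : HasDerivAt ℘[L] (℘'[L] z) z := by
  have h := (L.analyticOnNhd_weierstrassP z hz).differentiableAt.hasDerivAt
  rwa [L.deriv_weierstrassP] at h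

theorem hasDerivAt_derivWeierstrassP {z : ℂ} (hz : z ∉ L.lattice) :
    HasDerivAt ℘'[L] (wp2 L z) z :=
  (L.analyticOnNhd_derivWeierstrassP z hz).differentiableAt.hasDerivAt

/-- `℘'' = 6 ℘² - g₂ / 2`. -/
theorem wp2_eq {z : ℂ} (hz : z ∉ L.lattice) : wp2 L z = 6 * ℘[L] z ^ 2 - L.g₂ / 2 := by
  -- differentiate the differential equation
  have hmul : ∀ w ∈ (L.lattice : Set ℂ)ᶜ,
      (2 * wp2 L w - 12 * ℘[L] w ^ 2 + L.g₂) * ℘'[L] w = 0 := by
    intro w hw
    have hw' : w ∉ L.lattice := hw
    have h1 : HasDerivAt (fun y => ℘'[L] y ^ 2) (2 * ℘'[L] w * wp2 L w) w := by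
      have := (hasDerivAt_derivWeierstrassP L hw').fun_pow 2
      simpa using this
    have h2 : HasDerivAt (fun y => 4 * ℘[L] y ^ 3 - L.g₂ * ℘[L] y - L.g₃)
        (4 * (3 * ℘[L] w ^ 2 * ℘'[L] w) - L.g₂ * ℘'[L] w) w := by
      have h3 := (hasDerivAt_weierstrassP L hw').fun_pow 3
      have h4 := ((h3.const_mul 4).sub ((hasDerivAt_weierstrassP L hw').const_mul L.g₂)).sub_const L.g₃
      simpa using h4
    have h5 : (fun y => ℘'[L] y ^ 2) =ᶠ[𝓝 w] fun y => 4 * ℘[L] y ^ 3 - L.g₂ * ℘[L] y - L.g₃ := by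
      filter_upwards [(isOpen_compl_lattice L).mem_nhds hw] with y hy
      exact L.derivWeierstrassP_sq y hy
    have h6 := h1.unique (h2.congr_of_eventuallyEq h5)
    linear_combination h6
  have hU : IsPreconnected (L.lattice : Set ℂ)ᶜ :=
    isPreconnected_compl_of_countable (countable_lattice L)
  have han : AnalyticOnNhd ℂ (fun w => 2 * wp2 L w - 12 * ℘[L] w ^ 2 + L.g₂) (L.lattice : Set ℂ)ᶜ := by
    intro w hw
    have := analyticOnNhd_wp2 L w hw
    have := L.analyticOnNhd_weierstrassP w hw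
    fun_prop
  rcases han.eq_zero_or_eq_zero_of_mul_eq_zero L.analyticOnNhd_derivWeierstrassP hmul hU with h | h
  · have := h z hz
    linear_combination this / 2
  · exfalso
    -- `℘'` is not identically zero: it has a pole at `0`
    have h0 := meromorphicOrderAt_derivWeierstrassP_zero L
    have : meromorphicOrderAt ℘'[L] 0 = ⊤ := by
      rw [meromorphicOrderAt_eq_top_iff]
      have hnhds : (L.lattice \ {0} : Set ℂ)ᶜ ∈ 𝓝 (0 : ℂ) :=
        L.compl_lattice_sdiff_singleton_mem_nhds 0
      filter_upwards [self_mem_nhdsWithin, mem_nhdsWithin_of_mem_nhds hnhds] with w hw hw'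
      apply h w
      intro hmem
      exact hw' ⟨hmem, hw⟩
    rw [this] at h0
    have h1 : ((-3 : ℤ) : WithTop ℤ) = -3 := by norm_cast
    rw [← h1] at h0
    exact WithTop.top_ne_coe h0

/-! ### Injectivity of `(℘, ℘')` modulo the lattice -/

/-- Uniqueness for the linear ODE `u'' = φ u` with zero initial data, for analytic functions. -/
theorem eventuallyEq_zero_of_linear_ode {u φ : ℂ → ℂ} {x : ℂ} (hu : AnalyticAt ℂ u x)
    (hφ : AnalyticAt ℂ φ x) (h0 : u x = 0) (h1 : deriv u x = 0)
    (hode : ∀ᶠ s in 𝓝 x, deriv (deriv u) s = φ s * u s) : u =ᶠ[𝓝 x] 0 := by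
  by_contra hne
  have htop : analyticOrderAt u x ≠ ⊤ := fun h => hne (analyticOrderAt_eq_top.1 h)
  obtain ⟨n, hn⟩ := ENat.ne_top_iff_exists.1 htop
  have hu' : AnalyticAt ℂ (deriv u) x := hu.deriv
  have hu'' : AnalyticAt ℂ (deriv (deriv u)) x := hu'.deriv
  -- order of u' is n - 1
  have e1 : analyticOrderAt (deriv u) x + 1 = n := by
    have := hu.analyticOrderAt_deriv_add_one
    simp only [h0, sub_zero] at this
    rw [this, ← hn]
  have e2 : analyticOrderAt (deriv (deriv u)) x + 1 = analyticOrderAt (deriv u) x := by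
    have := hu'.analyticOrderAt_deriv_add_one
    simp only [h1, sub_zero] at this
    exact this
  have e3 : analyticOrderAt (deriv (deriv u)) x = analyticOrderAt φ x + n := by
    rw [analyticOrderAt_congr hode, hn]
    exact analyticOrderAt_mul hφ hu
  rw [← e2, e3] at e1
  -- (ord φ + n) + 1 + 1 = n : impossible
  cases h : analyticOrderAt φ x with
  | top => simp [h] at e1
  | coe m =>
    rw [h] at e1
    have : ((m + n + 1 + 1 : ℕ) : ℕ∞) = n := by push_cast; exact e1
    have := ENat.natCast_inj.1 this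
    omega

/-- The set of `s` with `s + z ∈ Λ`. -/
def shiftSet (z : ℂ) : Set ℂ := {s | s + z ∈ L.lattice}

theorem mem_shiftSet {z s : ℂ} : s ∈ shiftSet L z ↔ s + z ∈ L.lattice := Iff.rfl

theorem shiftSet_eq_image (z : ℂ) : shiftSet L z = (fun l : ℂ => l - z) '' (L.lattice : Set ℂ) := by
  ext s
  simp only [mem_shiftSet, Set.mem_image, SetLike.mem_coe]
  constructor
  · intro h; exact ⟨s + z, h, by ring⟩
  · rintro ⟨l, hl, rfl⟩; simpa using hl

theorem countable_shiftSet (z : ℂ) : (shiftSet L z).Countable := by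
  rw [shiftSet_eq_image]; exact (countable_lattice L).image _

theorem isClosed_shiftSet (z : ℂ) : IsClosed (shiftSet L z) := by
  have : shiftSet L z = (fun s : ℂ => s + z) ⁻¹' (L.lattice : Set ℂ) := rfl
  rw [this]
  exact L.isClosed_lattice.preimage (continuous_add_const z)

theorem analyticAt_weierstrassP_add {z s : ℂ} (h : s + z ∉ L.lattice) :
    AnalyticAt ℂ (fun s => ℘[L] (s + z)) s := by
  have h1 : AnalyticAt ℂ ℘[L] (s + z) := L.analyticOnNhd_weierstrassP _ h
  have h2 : AnalyticAt ℂ (fun s : ℂ => s + z) s := by fun_prop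
  exact h1.comp_of_eq h2 rfl

theorem analyticAt_derivWeierstrassP_add {z s : ℂ} (h : s + z ∉ L.lattice) :
    AnalyticAt ℂ (fun s => ℘'[L] (s + z)) s := by
  have h1 : AnalyticAt ℂ ℘'[L] (s + z) := L.analyticOnNhd_derivWeierstrassP _ h
  have h2 : AnalyticAt ℂ (fun s : ℂ => s + z) s := by fun_prop
  exact h1.comp_of_eq h2 rfl

theorem hasDerivAt_weierstrassP_add {z s : ℂ} (h : s + z ∉ L.lattice) :
    HasDerivAt (fun s => ℘[L] (s + z)) (℘'[L] (s + z)) s := by
  have := (hasDerivAt_weierstrassP L h).comp_add_const s z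
  exact this

theorem hasDerivAt_derivWeierstrassP_add {z s : ℂ} (h : s + z ∉ L.lattice) :
    HasDerivAt (fun s => ℘'[L] (s + z)) (wp2 L (s + z)) s := by
  have := (hasDerivAt_derivWeierstrassP L h).comp_add_const s z
  exact this

/-- `(℘, ℘')` is injective modulo the lattice. -/
theorem sub_mem_lattice_of_eq {z w : ℂ} (hz : z ∉ L.lattice) (hw : w ∉ L.lattice)
    (h : ℘[L] z = ℘[L] w) (h' : ℘'[L] z = ℘'[L] w) : z - w ∈ L.lattice := by
  by_contra hzw
  set S : Set ℂ := shiftSet L z ∪ shiftSet L w with hS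
  have hScount : S.Countable := (countable_shiftSet L z).union (countable_shiftSet L w)
  have hSclosed : IsClosed S := (isClosed_shiftSet L z).union (isClosed_shiftSet L w)
  have hVopen : IsOpen Sᶜ := hSclosed.isOpen_compl
  have hVconn : IsPreconnected Sᶜ := isPreconnected_compl_of_countable hScount
  have hmemV : ∀ s, s ∈ Sᶜ ↔ s + z ∉ L.lattice ∧ s + w ∉ L.lattice := by
    intro s
    simp only [hS, Set.mem_compl_iff, Set.mem_union, mem_shiftSet, not_or]
  have h0V : (0 : ℂ) ∈ Sᶜ := by
    rw [hmemV]; simpa using ⟨hz, hw⟩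
  set u : ℂ → ℂ := fun s => ℘[L] (s + z) - ℘[L] (s + w) with hu
  have huan : AnalyticOnNhd ℂ u Sᶜ := by
    intro s hs
    rw [hmemV] at hs
    exact (analyticAt_weierstrassP_add L hs.1).sub (analyticAt_weierstrassP_add L hs.2)
  -- derivatives of u on V
  have hderiv1 : ∀ s ∈ Sᶜ, HasDerivAt u (℘'[L] (s + z) - ℘'[L] (s + w)) s := by
    intro s hs
    rw [hmemV] at hs
    exact (hasDerivAt_weierstrassP_add L hs.1).sub (hasDerivAt_weierstrassP_add L hs.2)
  have hderiv1' : ∀ s ∈ Sᶜ, deriv u s = ℘'[L] (s + z) - ℘'[L] (s + w) :=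
    fun s hs => (hderiv1 s hs).deriv
  have hderiv2 : ∀ s ∈ Sᶜ, deriv (deriv u) s = wp2 L (s + z) - wp2 L (s + w) := by
    intro s hs
    have h1 : deriv u =ᶠ[𝓝 s] fun s => ℘'[L] (s + z) - ℘'[L] (s + w) := by
      filter_upwards [hVopen.mem_nhds hs] with y hy using hderiv1' y hy
    rw [h1.deriv_eq]
    rw [hmemV] at hs
    exact ((hasDerivAt_derivWeierstrassP_add L hs.1).sub
      (hasDerivAt_derivWeierstrassP_add L hs.2)).deriv
  have hu0 : u 0 = 0 := by simp [hu, h]
  have hu1 : deriv u 0 = 0 := by rw [hderiv1' 0 h0V]; simp [h']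
  set φ : ℂ → ℂ := fun s => 6 * (℘[L] (s + z) + ℘[L] (s + w)) with hφ
  have hφan : AnalyticAt ℂ φ 0 := by
    have h1 := analyticAt_weierstrassP_add L (z := z) (s := 0) (by simpa using hz)
    have h2 := analyticAt_weierstrassP_add L (z := w) (s := 0) (by simpa using hw)
    simp only [hφ]
    exact analyticAt_const.mul (h1.add h2)
  have hode : ∀ᶠ s in 𝓝 (0 : ℂ), deriv (deriv u) s = φ s * u s := by
    filter_upwards [hVopen.mem_nhds h0V] with s hs
    rw [hderiv2 s hs]
    rw [hmemV] at hs
    rw [wp2_eq L hs.1, wp2_eq L hs.2]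
    simp only [hφ, hu]
    ring
  have hzero : u =ᶠ[𝓝 0] 0 :=
    eventuallyEq_zero_of_linear_ode (huan 0 h0V) hφan hu0 hu1 hode
  have huV : Set.EqOn u 0 Sᶜ :=
    huan.eqOn_zero_of_preconnected_of_eventuallyEq_zero hVconn h0V hzero
  -- now look at the point s₀ = -z
  have hwz : -z + w ∉ L.lattice := by
    intro hmem
    apply hzw
    have : z - w = -(-z + w) := by ring
    rw [this]
    exact neg_mem hmem
  have hord1 : meromorphicOrderAt (fun s => ℘[L] (s + z)) (-z) = -2 := by
    have := meromorphicOrderAt_comp_add_const_eq_meromorphicOrderAt (f := ℘[L]) (x := -z) (c := z)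
    rw [show (℘[L] ∘ fun x => x + z) = fun s => ℘[L] (s + z) from rfl] at this
    rw [this, neg_add_cancel]
    exact L.order_weierstrassP 0 (zero_mem _)
  have hord2 : 0 ≤ meromorphicOrderAt (fun s => ℘[L] (s + w)) (-z) :=
    (analyticAt_weierstrassP_add L hwz).meromorphicOrderAt_nonneg
  have hcongr : (fun s => ℘[L] (s + z)) =ᶠ[𝓝[≠] (-z)] fun s => ℘[L] (s + w) := by
    have h1 : ∀ᶠ s in 𝓝[≠] (-z), s + z ∉ L.lattice := by
      have hnhds : (L.lattice \ {0} : Set ℂ)ᶜ ∈ 𝓝 (0 : ℂ) :=
        L.compl_lattice_sdiff_singleton_mem_nhds 0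
      have ht : Tendsto (fun s : ℂ => s + z) (𝓝 (-z)) (𝓝 0) := by
        have := (continuous_add_const z).tendsto (-z)
        simpa using this
      filter_upwards [self_mem_nhdsWithin, mem_nhdsWithin_of_mem_nhds (ht hnhds)] with s hs hs'
      intro hmem
      apply hs'
      refine ⟨hmem, ?_⟩
      simp only [Set.mem_singleton_iff]
      intro h0
      apply hs
      simp only [Set.mem_singleton_iff]
      linear_combination h0
    have h2 : ∀ᶠ s in 𝓝[≠] (-z), s + w ∉ L.lattice := by
      have : ∀ᶠ s in 𝓝 (-z), s + w ∉ L.lattice :=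
        ((continuous_add_const w).tendsto (-z)).eventually
          ((isOpen_compl_lattice L).mem_nhds hwz)
      exact this.filter_mono nhdsWithin_le_nhds
    filter_upwards [h1, h2] with s hs1 hs2
    have := huV ((hmemV s).2 ⟨hs1, hs2⟩)
    simp only [hu, Pi.zero_apply] at this
    exact sub_eq_zero.1 this
  rw [meromorphicOrderAt_congr hcongr] at hord1
  rw [hord1] at hord2
  exact absurd hord2 (by decide)

/-! ### Fibres of `℘`, zeros of `℘'`, surjectivity -/

theorem neg_notMem_lattice {z : ℂ} (hz : z ∉ L.lattice) : -z ∉ L.lattice := fun h => hz (by simpa using neg_mem h)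

theorem weierstrassP_eq_of_sub_mem {z w : ℂ} (h : z - w ∈ L.lattice) : ℘[L] z = ℘[L] w := by
  have := L.weierstrassP_add_coe w ⟨z - w, h⟩
  simpa using this

theorem derivWeierstrassP_eq_of_sub_mem {z w : ℂ} (h : z - w ∈ L.lattice) : ℘'[L] z = ℘'[L] w := by
  have := L.derivWeierstrassP_add_coe w ⟨z - w, h⟩
  simpa using this

/-- `℘ z = ℘ w` iff `z ≡ ± w` modulo the lattice. -/
theorem weierstrassP_eq_iff {z w : ℂ} (hz : z ∉ L.lattice) (hw : w ∉ L.lattice) :
    ℘[L] z = ℘[L] w ↔ z - w ∈ L.lattice ∨ z + w ∈ L.lattice := by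
  constructor
  · intro h
    have hsq : ℘'[L] z ^ 2 = ℘'[L] w ^ 2 := by
      rw [L.derivWeierstrassP_sq z hz, L.derivWeierstrassP_sq w hw, h]
    rcases sq_eq_sq_iff_eq_or_eq_neg.1 hsq with h' | h'
    · exact Or.inl (sub_mem_lattice_of_eq L hz hw h h')
    · right
      have := sub_mem_lattice_of_eq L hz (neg_notMem_lattice L hw)
        (by rw [L.weierstrassP_neg]; exact h) (by rw [L.derivWeierstrassP_neg]; exact h')
      simpa using this
  · rintro (h | h)
    · exact weierstrassP_eq_of_sub_mem L h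
    · rw [← L.weierstrassP_neg w]
      exact weierstrassP_eq_of_sub_mem L (by simpa using h)

/-- The zeros of `℘'` are the half periods. -/
theorem derivWeierstrassP_eq_zero_iff {z : ℂ} (hz : z ∉ L.lattice) :
    ℘'[L] z = 0 ↔ z + z ∈ L.lattice := by
  constructor
  · intro h
    have := sub_mem_lattice_of_eq L hz (neg_notMem_lattice L hz)
      (by rw [L.weierstrassP_neg]) (by rw [L.derivWeierstrassP_neg, h, neg_zero])
    simpa using this
  · intro h
    have h1 : ℘'[L] z = ℘'[L] (-z) :=
      derivWeierstrassP_eq_of_sub_mem L (by simpa using h)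
    rw [L.derivWeierstrassP_neg] at h1
    have : (2 : ℂ) * ℘'[L] z = 0 := by linear_combination h1
    simpa using this

/-- `℘` is surjective. -/
theorem exists_weierstrassP_eq (c : ℂ) : ∃ z, z ∉ L.lattice ∧ ℘[L] z = c := by
  by_contra hne
  push Not at hne
  set f : ℂ → ℂ := fun z => (℘[L] z - c)⁻¹ with hf
  have hmero : Meromorphic f := by
    intro x
    have : MeromorphicAt ℘[L] x := L.meromorphic_weierstrassP x
    fun_prop
  have hper : ∀ z w : ℂ, w ∈ L.lattice → f (z + w) = f z := by
    intro z w hw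
    simp only [hf]
    rw [L.weierstrassP_add_coe z ⟨w, hw⟩]
  have hsub : ∀ x ∈ L.lattice, meromorphicOrderAt (fun z => ℘[L] z - c) x = -2 := by
    intro x hx
    have h1 := L.order_weierstrassP x hx
    have h2 : meromorphicOrderAt (fun _ : ℂ => -c) x ≥ 0 :=
      (analyticAt_const (v := -c)).meromorphicOrderAt_nonneg
    have h3 : meromorphicOrderAt ℘[L] x < meromorphicOrderAt (fun _ : ℂ => -c) x := by
      rw [h1]; exact lt_of_lt_of_le (by decide) h2
    have := meromorphicOrderAt_add_eq_left_of_lt (f₁ := ℘[L]) (f₂ := fun _ => -c)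
      (analyticAt_const (v := -c)).meromorphicAt h3
    rw [← h1, ← this]
    rfl
  have hord : ∀ x, 0 ≤ meromorphicOrderAt f x := by
    intro x
    by_cases hx : x ∈ L.lattice
    · have : meromorphicOrderAt f x = 2 := by
        have h1 : meromorphicOrderAt f x = -meromorphicOrderAt (fun z => ℘[L] z - c) x :=
          meromorphicOrderAt_inv (f := fun z => ℘[L] z - c)
        rw [h1, hsub x hx]; rfl
      rw [this]; decide
    · apply AnalyticAt.meromorphicOrderAt_nonneg
      have h1 : AnalyticAt ℂ (fun z => ℘[L] z - c) x :=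
        (L.analyticOnNhd_weierstrassP x hx).sub analyticAt_const
      exact h1.inv (sub_ne_zero.2 (hne x hx))
  obtain ⟨a, ha⟩ := exists_const_of_meromorphic_of_periodic L hmero hord hper
  -- at the lattice point 0 the function tends to 0, so a = 0
  have ha0 : a = 0 := by
    have h2 : 0 < meromorphicOrderAt f 0 := by
      have h1 : meromorphicOrderAt f 0 = -meromorphicOrderAt (fun z => ℘[L] z - c) 0 :=
        meromorphicOrderAt_inv (f := fun z => ℘[L] z - c)
      rw [h1, hsub 0 (zero_mem _)]; decide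
    have h3 := tendsto_zero_of_meromorphicOrderAt_pos h2
    have h4 : Tendsto f (𝓝[≠] 0) (𝓝 a) := (tendsto_const_nhds).congr' (ha 0).symm
    exact tendsto_nhds_unique h4 h3
  -- but at a non-lattice point the function does not vanish
  have hω : L.ω₁ / 2 ∉ L.lattice := L.ω₁_div_two_notMem_lattice
  have hcont : ContinuousAt f (L.ω₁ / 2) := by
    have h1 : AnalyticAt ℂ (fun z => ℘[L] z - c) (L.ω₁ / 2) :=
      (L.analyticOnNhd_weierstrassP _ hω).sub analyticAt_const
    exact (h1.inv (sub_ne_zero.2 (hne _ hω))).continuousAt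
  have : f (L.ω₁ / 2) = a :=
    ((hcont.eventuallyEq_nhds_iff_eventuallyEq_nhdsNE continuousAt_const).1 (ha _)).eq_of_nhds
  rw [ha0] at this
  simp only [hf, inv_eq_zero] at this
  exact hne _ hω (sub_eq_zero.1 this)

end Fermat.Agent.MAZ.Analytic.Elliptic32
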