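/-
MAZ / X-MOD analytic core (helper32), file 2: the collinearity form of the addition theorem for `℘`.
-/
import Fermat.Agent.MAZ.Analytic.Elliptic32

set_option autoImplicit false

open Filter Topology
open scoped PeriodPair

namespace Fermat.Agent.MAZ.Analytic.AddThm32

open Fermat.Agent.MAZ.Analytic.Elliptic32

variable (L : PeriodPair)

/-- `b(z) = ℘(z + w) - ℘(w)`. -/
noncomputable def bfun (w z : ℂ) : ℂ := ℘[L] (z + w) - ℘[L] w

/-- `c(z) = -℘'(z + w) - ℘'(w)`. -/
noncomputable def cfun (w z : ℂ) : ℂ := -℘'[L] (z + w) - ℘'[L] w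

/-- The collinearity determinant of the three points attached to `z`, `w`, `-(z + w)`. -/
noncomputable def Dfun (w z : ℂ) : ℂ :=
  (℘[L] w - ℘[L] z) * cfun L w z + (℘'[L] z - ℘'[L] w) * bfun L w z

/-- The auxiliary function `h(z) = 2 b(z) + z c(z)`. -/
noncomputable def hfun (w z : ℂ) : ℂ := 2 * bfun L w z + z * cfun L w z

theorem weierstrassP_eq_except (z : ℂ) : ℘[L] z = ℘[L - (0 : ℂ)] z + 1 / z ^ 2 := by
  have h := L.weierstrassPExcept_add (0 : L.lattice) z
  simp only [ZeroMemClass.coe_zero, sub_zero] at h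
  rw [← h]; simp

theorem derivWeierstrassP_eq_except (z : ℂ) : ℘'[L] z = ℘'[L - (0 : ℂ)] z - 2 / z ^ 3 := by
  have h := L.derivWeierstrassPExcept_sub (0 : L.lattice) z
  simp only [ZeroMemClass.coe_zero, sub_zero] at h
  rw [← h]

variable {L}

theorem analyticAt_bfun {w z : ℂ} (h : z + w ∉ L.lattice) : AnalyticAt ℂ (bfun L w) z :=
  (analyticAt_weierstrassP_add L h).sub analyticAt_const

theorem analyticAt_cfun {w z : ℂ} (h : z + w ∉ L.lattice) : AnalyticAt ℂ (cfun L w) z :=
  ((analyticAt_derivWeierstrassP_add L h).neg).sub analyticAt_const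

theorem analyticAt_hfun {w z : ℂ} (h : z + w ∉ L.lattice) : AnalyticAt ℂ (hfun L w) z := by
  have h1 := analyticAt_bfun h
  have h2 := analyticAt_cfun h
  unfold hfun
  fun_prop

theorem hasDerivAt_bfun {w z : ℂ} (h : z + w ∉ L.lattice) :
    HasDerivAt (bfun L w) (℘'[L] (z + w)) z :=
  (hasDerivAt_weierstrassP_add L h).sub_const _

theorem hasDerivAt_cfun {w z : ℂ} (h : z + w ∉ L.lattice) :
    HasDerivAt (cfun L w) (-wp2 L (z + w)) z :=
  ((hasDerivAt_derivWeierstrassP_add L h).neg).sub_const _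

theorem hasDerivAt_hfun {w z : ℂ} (h : z + w ∉ L.lattice) :
    HasDerivAt (hfun L w) (℘'[L] (z + w) - ℘'[L] w - z * wp2 L (z + w)) z := by
  have h1 := (hasDerivAt_bfun h).const_mul (2 : ℂ)
  have h2 := (hasDerivAt_id z).mul (hasDerivAt_cfun h)
  have h3 := h1.add h2
  have h4 : hfun L w = (fun y => 2 * bfun L w y) + id * cfun L w := by
    funext y; simp [hfun]
  rw [h4]
  refine h3.congr_deriv ?_
  simp only [id, cfun]
  ring

theorem eventually_add_notMem {w : ℂ} (hw : w ∉ L.lattice) : ∀ᶠ z in 𝓝 (0 : ℂ), z + w ∉ L.lattice := by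
  have : Tendsto (fun z : ℂ => z + w) (𝓝 0) (𝓝 w) := by
    have := (continuous_add_const w).tendsto 0
    simpa using this
  exact this.eventually ((isOpen_compl_lattice L).mem_nhds hw)

theorem analyticAt_wp2_add {w z : ℂ} (h : z + w ∉ L.lattice) :
    AnalyticAt ℂ (fun z => wp2 L (z + w)) z := by
  have h1 : AnalyticAt ℂ (wp2 L) (z + w) := analyticOnNhd_wp2 L _ h
  have h2 : AnalyticAt ℂ (fun s : ℂ => s + w) z := by fun_prop
  exact h1.comp_of_eq h2 rfl

/-- `h` vanishes to order at least three at the origin. -/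
theorem three_le_analyticOrderAt_hfun {w : ℂ} (hw : w ∉ L.lattice) :
    (3 : ℕ) ≤ analyticOrderAt (hfun L w) 0 := by
  have hw0 : (0 : ℂ) + w ∉ L.lattice := by simpa using hw
  rw [natCast_le_analyticOrderAt_iff_iteratedDeriv_eq_zero (analyticAt_hfun hw0)]
  have hd1 : deriv (hfun L w) =ᶠ[𝓝 0] fun z => ℘'[L] (z + w) - ℘'[L] w - z * wp2 L (z + w) := by
    filter_upwards [eventually_add_notMem hw] with z hz using (hasDerivAt_hfun hz).deriv
  have hd2 : HasDerivAt (fun z => ℘'[L] (z + w) - ℘'[L] w - z * wp2 L (z + w))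
      (wp2 L (0 + w) - (1 * wp2 L (0 + w) + 0 * deriv (fun z => wp2 L (z + w)) 0)) 0 := by
    have h1 := (hasDerivAt_derivWeierstrassP_add L hw0).sub_const (℘'[L] w)
    have h2 := (hasDerivAt_id (0 : ℂ)).mul (analyticAt_wp2_add hw0).differentiableAt.hasDerivAt
    exact h1.sub h2
  intro i hi
  interval_cases i
  · simp [hfun, bfun, cfun]
  · rw [iteratedDeriv_one, hd1.eq_of_nhds]
    simp
  · rw [iteratedDeriv_succ, iteratedDeriv_one, hd1.deriv_eq, hd2.deriv]
    ring


/-- Near the origin, the collinearity determinant agrees with an analytic function. -/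
theorem exists_analyticAt_eq_Dfun {w : ℂ} (hw : w ∉ L.lattice) :
    ∃ g : ℂ → ℂ, AnalyticAt ℂ g 0 ∧ Dfun L w =ᶠ[𝓝[≠] 0] g := by
  have hw0 : (0 : ℂ) + w ∉ L.lattice := by simpa using hw
  obtain ⟨k, hk, hhk⟩ := (natCast_le_analyticOrderAt (analyticAt_hfun hw0)).1
    (three_le_analyticOrderAt_hfun hw)
  refine ⟨fun z => (℘[L] w - ℘[L - (0 : ℂ)] z) * cfun L w z
      + (℘'[L - (0 : ℂ)] z - ℘'[L] w) * bfun L w z - k z, ?_, ?_⟩
  · have h1 := analyticAt_bfun hw0
    have h2 := analyticAt_cfun hw0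
    have h3 : AnalyticAt ℂ ℘[L - (0 : ℂ)] 0 := L.analyticAt_weierstrassPExcept 0
    have h4 : AnalyticAt ℂ ℘'[L - (0 : ℂ)] 0 := L.analyticAt_derivWeierstrassPExcept 0
    fun_prop
  · filter_upwards [self_mem_nhdsWithin, mem_nhdsWithin_of_mem_nhds hhk] with z hz hkz
    have hz0 : z ≠ 0 := hz
    simp only [sub_zero, smul_eq_mul] at hkz
    have hk' : k z = hfun L w z / z ^ 3 := by
      rw [hkz]; field_simp
    rw [hk']
    simp only [Dfun, hfun]
    rw [weierstrassP_eq_except L z, derivWeierstrassP_eq_except L z]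
    field_simp
    ring


variable (L) in
theorem Dfun_add_lattice (w z l : ℂ) (hl : l ∈ L.lattice) : Dfun L w (z + l) = Dfun L w z := by
  have h1 : ℘[L] (z + l) = ℘[L] z := L.weierstrassP_add_coe z ⟨l, hl⟩
  have h2 : ℘'[L] (z + l) = ℘'[L] z := L.derivWeierstrassP_add_coe z ⟨l, hl⟩
  have h3 : ℘[L] (z + l + w) = ℘[L] (z + w) := by
    rw [show z + l + w = z + w + l by ring]; exact L.weierstrassP_add_coe _ ⟨l, hl⟩
  have h4 : ℘'[L] (z + l + w) = ℘'[L] (z + w) := by
    rw [show z + l + w = z + w + l by ring]; exact L.derivWeierstrassP_add_coe _ ⟨l, hl⟩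
  simp only [Dfun, bfun, cfun, h1, h2, h3, h4]

variable (L) in
/-- The symmetry `z ↔ -(z + w)` of the determinant. -/
theorem Dfun_symm (w z : ℂ) : Dfun L w z = -Dfun L w (-z - w) := by
  have h1 : ℘[L] (-z - w) = ℘[L] (z + w) := by
    rw [show -z - w = -(z + w) by ring, L.weierstrassP_neg]
  have h2 : ℘'[L] (-z - w) = -℘'[L] (z + w) := by
    rw [show -z - w = -(z + w) by ring, L.derivWeierstrassP_neg]
  have h3 : ℘[L] (-z - w + w) = ℘[L] z := by
    rw [show -z - w + w = -z by ring, L.weierstrassP_neg]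
  have h4 : ℘'[L] (-z - w + w) = -℘'[L] z := by
    rw [show -z - w + w = -z by ring, L.derivWeierstrassP_neg]
  simp only [Dfun, bfun, cfun, h1, h2, h3, h4]
  ring

variable (L) in
theorem meromorphic_Dfun (w : ℂ) : Meromorphic (Dfun L w) := by
  have h1 : Meromorphic ℘[L] := L.meromorphic_weierstrassP
  have h2 : Meromorphic ℘'[L] := L.meromorphic_derivWeierstrassP
  have h3 : Meromorphic (fun z => ℘[L] (z + w)) := fun x =>
    (h1 (x + w)).comp_analyticAt (g := fun z : ℂ => z + w) (by fun_prop)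
  have h4 : Meromorphic (fun z => ℘'[L] (z + w)) := fun x =>
    (h2 (x + w)).comp_analyticAt (g := fun z : ℂ => z + w) (by fun_prop)
  unfold Dfun bfun cfun
  fun_prop

theorem analyticAt_Dfun {w z : ℂ} (hz : z ∉ L.lattice) (hzw : z + w ∉ L.lattice) :
    AnalyticAt ℂ (Dfun L w) z := by
  have h1 := analyticAt_bfun hzw
  have h2 := analyticAt_cfun hzw
  have h3 : AnalyticAt ℂ ℘[L] z := L.analyticOnNhd_weierstrassP z hz
  have h4 : AnalyticAt ℂ ℘'[L] z := L.analyticOnNhd_derivWeierstrassP z hz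
  unfold Dfun
  fun_prop

theorem meromorphicOrderAt_Dfun_nonneg_of_mem {w x : ℂ} (hw : w ∉ L.lattice) (hx : x ∈ L.lattice) :
    0 ≤ meromorphicOrderAt (Dfun L w) x := by
  obtain ⟨g, hg, hDg⟩ := exists_analyticAt_eq_Dfun hw
  have h0 : 0 ≤ meromorphicOrderAt (Dfun L w) 0 := by
    rw [meromorphicOrderAt_congr hDg]; exact hg.meromorphicOrderAt_nonneg
  have h1 : Dfun L w ∘ (· - x) = Dfun L w := by
    funext z
    have := Dfun_add_lattice L w (z - x) x hx
    simpa using this.symm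
  have h2 := meromorphicOrderAt_comp_sub_const_eq_meromorphicOrderAt (f := Dfun L w) (x := x) (c := x)
  rw [h1, sub_self] at h2
  rw [h2]; exact h0

theorem meromorphicOrderAt_Dfun_nonneg {w : ℂ} (hw : w ∉ L.lattice) (x : ℂ) :
    0 ≤ meromorphicOrderAt (Dfun L w) x := by
  by_cases hx : x ∈ L.lattice
  · exact meromorphicOrderAt_Dfun_nonneg_of_mem hw hx
  by_cases hxw : x + w ∈ L.lattice
  · -- use the symmetry
    have h1 : Dfun L w = (fun z => -Dfun L w z) ∘ (fun z => -z - w) := by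
      funext z; simp [Dfun_symm L w z]
    have hg : AnalyticAt ℂ (fun z : ℂ => -z - w) x := by fun_prop
    have hg' : deriv (fun z : ℂ => -z - w) x ≠ 0 := by
      have : HasDerivAt (fun z : ℂ => -z - w) (-1) x := ((hasDerivAt_id x).neg).sub_const w
      rw [this.deriv]; norm_num
    have h2 := meromorphicOrderAt_comp_of_deriv_ne_zero (f := fun z => -Dfun L w z) hg hg'
    rw [← h1] at h2
    rw [h2, ← meromorphicOrderAt_fun_neg]
    apply meromorphicOrderAt_Dfun_nonneg_of_mem hw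
    have : -x - w = -(x + w) := by ring
    rw [this]; exact neg_mem hxw
  · exact (analyticAt_Dfun hx hxw).meromorphicOrderAt_nonneg

/-- **Collinearity**: the points attached to `z`, `w`, `-(z + w)` lie on a line. -/
theorem Dfun_eq_zero {w z : ℂ} (hw : w ∉ L.lattice) (hz : z ∉ L.lattice)
    (hzw : z + w ∉ L.lattice) : Dfun L w z = 0 := by
  have hw2 : w / 2 ∉ L.lattice := by
    intro h
    apply hw
    have : w = w / 2 + w / 2 := by ring
    rw [this]; exact add_mem h h
  have hx0 : -(w / 2) ∉ L.lattice := neg_notMem_lattice L hw2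
  have hx0w : -(w / 2) + w ∉ L.lattice := by
    rw [show -(w / 2) + w = w / 2 by ring]; exact hw2
  have h1 := eq_of_meromorphic_of_periodic L (meromorphic_Dfun L w)
    (meromorphicOrderAt_Dfun_nonneg hw) (fun z l hl => Dfun_add_lattice L w z l hl)
    (analyticAt_Dfun hz hzw).continuousAt (analyticAt_Dfun hx0 hx0w).continuousAt
  rw [h1]
  have e1 : ℘[L] (-(w / 2)) = ℘[L] (w / 2) := L.weierstrassP_neg _
  have e2 : ℘'[L] (-(w / 2)) = -℘'[L] (w / 2) := L.derivWeierstrassP_neg _
  simp only [Dfun, bfun, cfun, show -(w / 2) + w = w / 2 by ring, e1, e2]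
  ring

end Fermat.Agent.MAZ.Analytic.AddThm32
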