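/-
Program MAZ (S15), G-side, line 6 (C-BALANCE / KUM-CONJ), sub-brick (i) — helper32.

**Complex conjugation on the analytic side of the Kummer setting.**

`conjH z = -conj z` on `ℍ`; `conjFun f = conj ∘ f ∘ conjH`; `conjHol : HolH →+* HolH`;
`conjMer : MerH →+* MerH` (involutive, semilinear over complex conjugation on the constants);
`conjLS` = coefficientwise conjugation on `ℂ((q))`; `conjFC N : FC N ≃+* FC N`.

The three commutation rules with the Kummer setting `kumSetting N`
(`ι` = constants, `Θ = realMer N`, `act γ = slMer γ`):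

* `conjMer_const`   : `conjMer (ι c) = ι (conj c)`;
* `conjMer_realMer` : `conjMer (realMer N y) = realMer N (conjFC N y)`;
* `conjMer_slMer`   : `conjMer (slMer γ h) = slMer (jConjSL γ) (conjMer h)`
  (`jConjSL` = conjugation by `diag(-1, 1)`, Prelude `Def_ModularCurve_PeriodHomPair`).

Also: `hasQExp_conj`, `hasQExpMer_conj` (the `q`-expansion of `conjFun g` is the coefficientwise
conjugate), `conjMer_embC`.
-/
import Mathlib
import Fermat.Agent.ES.HEQ.QExpMer19
import Fermat.Prelude.Def_ModularCurve_PeriodHomPair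
import Fermat.Prelude.Def_GaloisRep_ComplexConjugation
import Fermat.Prelude.Def_ModularCurve_X0ModL

set_option autoImplicit false
set_option linter.unusedSectionVars false

open UpperHalfPlane Complex
open scoped MatrixGroups Manifold ComplexConjugate

noncomputable section

namespace Fermat.Agent.MAZ.Analytic.ConjMer32

open Fermat.Agent.X0 Fermat.Agent.X0.Analytic Fermat.Agent.X0.JQExp Fermat.Agent.X0.SurjPoint
open Fermat.Agent.ES.KUM Fermat.Agent.ES.HEQ.QExpMer19
open ModularCurve ModularCurve.Period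

/-! ### the reflection `z ↦ -conj z` of the upper half plane -/

/-- `z ↦ -conj z` on the upper half plane. -/
def conjH (z : ℍ) : ℍ := ⟨-(conj (z : ℂ)), by
  have : (-(conj (z : ℂ))).im = (z : ℂ).im := by simp
  rw [this]; exact z.im_pos⟩

@[simp] theorem coe_conjH (z : ℍ) : (conjH z : ℂ) = -(conj (z : ℂ)) := rfl

@[simp] theorem conjH_conjH (z : ℍ) : conjH (conjH z) = z := by
  apply UpperHalfPlane.ext
  simp

/-- the reflection intertwines `γ` with `jConjSL γ = diag(-1,1) γ diag(-1,1)`. -/
theorem conjH_smul (γ : SL(2, ℤ)) (z : ℍ) : conjH (γ • z) = jConjSL γ • conjH z := by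
  apply UpperHalfPlane.ext
  rw [coe_conjH, UpperHalfPlane.coe_specialLinearGroup_apply,
    UpperHalfPlane.coe_specialLinearGroup_apply]
  simp only [jConjSL_coe, jConjMat_apply_zero_zero, jConjMat_apply_zero_one,
    jConjMat_apply_one_zero, jConjMat_apply_one_one, coe_conjH]
  simp only [map_div₀, map_add, map_mul, Complex.conj_ofReal, map_neg, ofReal_neg]
  rw [← neg_div]
  congr 1 <;> ring

theorem conjH_smul' (γ : SL(2, ℤ)) (z : ℍ) : conjH (jConjSL γ • z) = γ • conjH z := by
  rw [conjH_smul, jConjSL_jConjSL]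

/-! ### conjugation of functions on `ℍ` -/

/-- `f ↦ conj ∘ f ∘ (z ↦ -conj z)`. -/
def conjFun (f : ℍ → ℂ) : ℍ → ℂ := fun z => conj (f (conjH z))

@[simp] theorem conjFun_apply (f : ℍ → ℂ) (z : ℍ) : conjFun f z = conj (f (conjH z)) := rfl

@[simp] theorem conjFun_conjFun (f : ℍ → ℂ) : conjFun (conjFun f) = f := by
  funext z
  simp

theorem conjFun_add (f g : ℍ → ℂ) : conjFun (f + g) = conjFun f + conjFun g := by
  funext z; simp

theorem conjFun_mul (f g : ℍ → ℂ) : conjFun (f * g) = conjFun f * conjFun g := by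
  funext z; simp

theorem conjFun_const (c : ℂ) : conjFun (fun _ => c) = fun _ => conj c := rfl

theorem conjFun_one : conjFun (1 : ℍ → ℂ) = 1 := by
  funext z; simp

theorem conjFun_zero : conjFun (0 : ℍ → ℂ) = 0 := by
  funext z; simp

theorem conjFun_compSL (f : ℍ → ℂ) (γ : SL(2, ℤ)) :
    conjFun (compSL f γ) = compSL (conjFun f) (jConjSL γ) := by
  funext z
  show conj (f (γ • conjH z)) = conj (f (conjH (jConjSL γ • z)))
  rw [conjH_smul']

theorem ofComplex_neg_conj {w : ℂ} (hw : 0 < w.im) :
    ofComplex (-(conj w)) = conjH (ofComplex w) := by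
  apply UpperHalfPlane.ext
  have h1 : 0 < (-(conj w)).im := by simpa using hw
  rw [ofComplex_apply_of_im_pos h1, coe_conjH, ofComplex_apply_of_im_pos hw]

/-- `conjFun` preserves holomorphy. -/
theorem conjFun_mem_HolH {f : ℍ → ℂ} (hf : f ∈ HolH) : conjFun f ∈ HolH := by
  rw [mem_HolH, UpperHalfPlane.mdifferentiable_iff] at hf ⊢
  intro w hw
  have hw' : 0 < w.im := hw
  have h1 : (-(conj w)) ∈ {z : ℂ | 0 < z.im} := by
    show 0 < (-(conj w)).im
    simpa using hw'
  have hF : DifferentiableAt ℂ (f ∘ ofComplex) (-(conj w)) :=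
    (hf _ h1).differentiableAt (isOpen_upperHalfPlaneSet.mem_nhds h1)
  have hF1 : DifferentiableAt ℂ (fun u : ℂ => (f ∘ ofComplex) (-u)) (conj w) :=
    hF.comp (conj w) (differentiableAt_id.neg)
  have hg := hF1.conj_conj
  rw [Complex.conj_conj] at hg
  refine (hg.congr_of_eventuallyEq ?_).differentiableWithinAt
  filter_upwards [isOpen_upperHalfPlaneSet.mem_nhds hw] with u hu
  have hu' : 0 < u.im := hu
  show conj (f (conjH (ofComplex u))) = conj (f (ofComplex (-(conj u))))
  rw [ofComplex_neg_conj hu']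

/-- conjugation as a ring endomorphism of `HolH` (semilinear over complex conjugation). -/
def conjHol : HolH →+* HolH where
  toFun f := ⟨conjFun f.1, conjFun_mem_HolH f.2⟩
  map_one' := Subtype.ext conjFun_one
  map_mul' f g := Subtype.ext (conjFun_mul f.1 g.1)
  map_zero' := Subtype.ext conjFun_zero
  map_add' f g := Subtype.ext (conjFun_add f.1 g.1)

@[simp] theorem coe_conjHol (f : HolH) : ((conjHol f : HolH) : ℍ → ℂ) = conjFun f.1 := rfl

@[simp] theorem conjHol_conjHol (f : HolH) : conjHol (conjHol f) = f :=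
  Subtype.ext (conjFun_conjFun f.1)

theorem conjHol_injective : Function.Injective conjHol :=
  Function.LeftInverse.injective conjHol_conjHol

theorem conjHol_algebraMap (c : ℂ) :
    conjHol (algebraMap ℂ HolH c) = algebraMap ℂ HolH (conj c) :=
  Subtype.ext (conjFun_const c)

theorem conjHol_compSLHom (γ : SL(2, ℤ)) (f : HolH) :
    conjHol (compSLHom γ f) = compSLHom (jConjSL γ) (conjHol f) :=
  Subtype.ext (conjFun_compSL f.1 γ)

/-! ### conjugation of meromorphic functions -/

/-- conjugation on the field of meromorphic functions on `ℍ`: `a / b ↦ conjHol a / conjHol b`. -/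
def conjMer : MerH →+* MerH :=
  IsFractionRing.lift (A := HolH) (K := MerH)
    (g := (algebraMap HolH MerH).comp conjHol)
    ((IsFractionRing.injective HolH MerH).comp conjHol_injective)

theorem conjMer_algebraMap (a : HolH) :
    conjMer (algebraMap HolH MerH a) = algebraMap HolH MerH (conjHol a) :=
  IsFractionRing.lift_algebraMap _ a

theorem conjMer_div (a b : HolH) :
    conjMer (algebraMap HolH MerH a / algebraMap HolH MerH b) =
      algebraMap HolH MerH (conjHol a) / algebraMap HolH MerH (conjHol b) := by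
  rw [map_div₀, conjMer_algebraMap, conjMer_algebraMap]

/-- `conjMer` is an involution. -/
@[simp] theorem conjMer_conjMer (h : MerH) : conjMer (conjMer h) = h := by
  obtain ⟨a, b, -, rfl⟩ := exists_div_MerH h
  rw [conjMer_div, conjMer_div, conjHol_conjHol, conjHol_conjHol]

theorem conjMer_injective : Function.Injective conjMer :=
  Function.LeftInverse.injective conjMer_conjMer

/-- `conjMer` as a ring automorphism. -/
def conjMerEquiv : MerH ≃+* MerH :=
  RingEquiv.ofBijective conjMer
    ⟨conjMer_injective, fun h => ⟨conjMer h, conjMer_conjMer h⟩⟩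

@[simp] theorem conjMerEquiv_apply (h : MerH) : conjMerEquiv h = conjMer h := rfl

/-- **rule 1**: `conjMer` is semilinear over complex conjugation on the constants. -/
theorem conjMer_const (c : ℂ) :
    conjMer (algebraMap HolH MerH (algebraMap ℂ HolH c)) =
      algebraMap HolH MerH (algebraMap ℂ HolH (conj c)) := by
  rw [conjMer_algebraMap, conjHol_algebraMap]

/-- **rule 3**: `conjMer ∘ slMer γ = slMer (jConjSL γ) ∘ conjMer`. -/
theorem conjMer_slMer (γ : SL(2, ℤ)) (h : MerH) :
    conjMer (slMer γ h) = slMer (jConjSL γ) (conjMer h) := by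
  obtain ⟨a, b, -, rfl⟩ := exists_div_MerH h
  rw [slMer_div, conjMer_div, conjMer_div, slMer_div, conjHol_compSLHom, conjHol_compSLHom]

theorem slMer_conjMer (γ : SL(2, ℤ)) (h : MerH) :
    slMer γ (conjMer h) = conjMer (slMer (jConjSL γ) h) := by
  rw [conjMer_slMer, jConjSL_jConjSL]

/-! ### `q`-expansions -/

/-- coefficientwise complex conjugation on `ℂ((q))`. -/
def conjLS : LaurentSeries ℂ →+* LaurentSeries ℂ := coeffMap (starRingEnd ℂ)

@[simp] theorem conjLS_coeff (x : LaurentSeries ℂ) (k : ℤ) :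
    (conjLS x).coeff k = conj (x.coeff k) := coeffMap_coeff _ x k

@[simp] theorem conjLS_conjLS (x : LaurentSeries ℂ) : conjLS (conjLS x) = x := by
  unfold conjLS
  rw [coeffMap_coeffMap,
    coeffMap_congr (g := RingHom.id ℂ) (RingHom.ext fun a => Complex.conj_conj a) x, coeffMap_id]

theorem conjLS_injective : Function.Injective conjLS :=
  Function.LeftInverse.injective conjLS_conjLS

/-- `q(-conj z) = conj q(z)`. -/
theorem qH_conjH (z : ℍ) : qH (conjH z) = conj (qH z) := by
  unfold qH Function.Periodic.qParam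
  rw [← Complex.exp_conj]
  congr 1
  simp only [coe_conjH, map_div₀, map_mul, Complex.conj_I, Complex.conj_ofReal, map_ofNat]
  ring

/-- the conjugate `q ↦ conj (G (conj q))` of a function on the disc. -/
def conjDisc (G : ℂ → ℂ) : ℂ → ℂ := fun q => conj (G (conj q))

theorem conjDisc_differentiableOn {G : ℂ → ℂ} (hG : DifferentiableOn ℂ G (Metric.ball 0 1)) :
    DifferentiableOn ℂ (conjDisc G) (Metric.ball 0 1) := by
  intro q hq
  have hq' : conj q ∈ Metric.ball (0 : ℂ) 1 := by
    rw [mem_ball_zero_iff] at hq ⊢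
    rwa [RCLike.norm_conj]
  have h1 : DifferentiableAt ℂ G (conj q) :=
    (hG _ hq').differentiableAt (Metric.isOpen_ball.mem_nhds hq')
  have h2 := h1.conj_conj
  rw [Complex.conj_conj] at h2
  exact h2.differentiableWithinAt

theorem tps_conjDisc {G : ℂ → ℂ} (hG : DifferentiableOn ℂ G (Metric.ball 0 1)) :
    tps (conjDisc G) = PowerSeries.map (starRingEnd ℂ) (tps G) := by
  have h : ∀ q : ℂ, ‖q‖ < 1 →
      HasSum (fun n => conj (PowerSeries.coeff n (tps G)) * q ^ n) (conjDisc G q) := by
    intro q hq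
    have hq' : ‖conj q‖ < 1 := by rwa [RCLike.norm_conj]
    have h1 := hasSum_tps hG hq'
    have h2 := (Complex.hasSum_conj'
      (f := fun m : ℕ => PowerSeries.coeff m (tps G) * conj q ^ m) (x := G (conj q))).mpr h1
    refine h2.congr_fun fun n => ?_
    simp [map_mul, map_pow]
  rw [tps_eq_of_hasSum h]
  ext n
  simp

theorem conjLS_lau (m : ℕ) (P : PowerSeries ℂ) :
    conjLS (lau m P) = lau m (PowerSeries.map (starRingEnd ℂ) P) := by
  unfold lau conjLS
  rw [map_mul, coeffMap_single, coeffMap_ofPowerSeries, map_one]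

/-- **the `q`-expansion of `conjFun g` is the coefficientwise conjugate of that of `g`.** -/
theorem hasQExp_conj {f : LaurentSeries ℂ} {g : ℍ → ℂ} (h : HasQExp f g) :
    HasQExp (conjLS f) (conjFun g) := by
  obtain ⟨m, G, hG, hf, hg⟩ := h
  refine ⟨m, conjDisc G, conjDisc_differentiableOn hG, ?_, fun z => ?_⟩
  · rw [hf, conjLS_lau, tps_conjDisc hG]
  · show conj (g (conjH z)) * qH z ^ m = conj (G (conj (qH z)))
    rw [← qH_conjH, ← hg (conjH z), map_mul, map_pow, qH_conjH, Complex.conj_conj]

/-- the same for meromorphic functions. -/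
theorem hasQExpMer_conj {x : LaurentSeries ℂ} {h : MerH} (H : HasQExpMer x h) :
    HasQExpMer (conjLS x) (conjMer h) := by
  obtain ⟨a, b, fa, fb, hfb, ha, hb, hx, hh⟩ := H
  refine ⟨conjHol a, conjHol b, conjLS fa, conjLS fb, ?_, hasQExp_conj ha, hasQExp_conj hb, ?_, ?_⟩
  · exact (map_ne_zero_iff _ conjLS_injective).mpr hfb
  · rw [← map_mul, hx]
  · rw [← conjMer_algebraMap, ← conjMer_algebraMap, ← map_mul, hh]

/-! ### the function field `F_ℂ` -/

variable (N : ℕ) [NeZero N]

/-- coefficientwise complex conjugation on `F_ℂ = ℂ(j_d : d ∣ N) ⊆ ℂ((q))`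
(the Prelude's `arithmeticRingAut` at `complexConjAlgEquiv`). -/
def conjFC : FC N ≃+* FC N :=
  arithmeticRingAut (L := ℂ) (modularFunctionFieldFull N) complexConjAlgEquiv

theorem coe_conjFC (y : FC N) :
    ((conjFC N y : FC N) : LaurentSeries ℂ) = conjLS (y : LaurentSeries ℂ) := by
  unfold conjFC conjLS
  rw [coe_arithmeticRingAut_apply]
  exact coeffMap_congr (RingHom.ext fun _ => rfl) _

@[simp] theorem conjFC_conjFC (y : FC N) : conjFC N (conjFC N y) = y :=
  Subtype.ext (by rw [coe_conjFC, coe_conjFC, conjLS_conjLS])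

theorem conjFC_algebraMap (c : ℂ) :
    conjFC N (algebraMap ℂ (FC N) c) = algebraMap ℂ (FC N) (conj c) :=
  arithmeticRingAut_algebraMap (modularFunctionFieldFull N) complexConjAlgEquiv c

/-- **rule 2**: `conjMer ∘ realMer N = realMer N ∘ conjFC N`. -/
theorem conjMer_realMer (y : FC N) : conjMer (realMer N y) = realMer N (conjFC N y) := by
  have h1 := hasQExpMer_conj (hasQExpMer_realMer N y)
  have h2 := hasQExpMer_realMer N (conjFC N y)
  rw [coe_conjFC] at h2
  exact h1.unique h2

/-- the same for all the embeddings `embC N g`. -/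
theorem conjMer_embC (g : SL(2, ℤ)) (y : FC N) :
    conjMer (embC N g y) = embC N (jConjSL g) (conjFC N y) := by
  rw [embC_eq_slMer, embC_eq_slMer, conjMer_slMer, conjMer_realMer, map_inv]

end Fermat.Agent.MAZ.Analytic.ConjMer32
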