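/-
Program MAZ (S15), analytic chapter (helper49): pure algebra of a cubic `4 x³ - g₂ x - g₃` with three
distinct roots `e₁ e₂ e₃` in a field of characteristic `≠ 2` (no analysis): `e₁ + e₂ + e₃ = 0`, the
symmetric functions, the factorisation and the discriminant
`g₂³ - 27 g₃² = 16 ((e₁-e₂)(e₁-e₃)(e₂-e₃))²`.

Intended use: `e_i = ℘[L] ω_i` at three pairwise incongruent half periods (the root property is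
`℘'(ω_i) = 0` + the differential equation), for `L` and for a superlattice `L'` whose half periods are
those of `L`.  Mathlib only.
-/
import Mathlib

set_option autoImplicit false

namespace Fermat.Agent.MAZ.Analytic.CubicAlg49

variable {K : Type*} [Field K] {g₂ g₃ e₁ e₂ e₃ : K}

/-- `g₂ = 4 (e₁² + e₁ e₂ + e₂²)` for two distinct roots. -/
theorem g₂_eq_of_two_roots (h1 : 4 * e₁ ^ 3 - g₂ * e₁ - g₃ = 0) (h2 : 4 * e₂ ^ 3 - g₂ * e₂ - g₃ = 0)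
    (h12 : e₁ ≠ e₂) : g₂ = 4 * (e₁ ^ 2 + e₁ * e₂ + e₂ ^ 2) := by
  have h : (e₁ - e₂) * (4 * (e₁ ^ 2 + e₁ * e₂ + e₂ ^ 2) - g₂) = 0 := by
    linear_combination h1 - h2
  rcases mul_eq_zero.mp h with h | h
  · exact absurd (sub_eq_zero.mp h) h12
  · linear_combination -h

/-- The three roots sum to zero. -/
theorem sum_eq_zero (two_ne : (2 : K) ≠ 0) (h1 : 4 * e₁ ^ 3 - g₂ * e₁ - g₃ = 0)
    (h2 : 4 * e₂ ^ 3 - g₂ * e₂ - g₃ = 0) (h3 : 4 * e₃ ^ 3 - g₂ * e₃ - g₃ = 0)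
    (h12 : e₁ ≠ e₂) (h13 : e₁ ≠ e₃) (h23 : e₂ ≠ e₃) : e₁ + e₂ + e₃ = 0 := by
  have a := g₂_eq_of_two_roots h1 h2 h12
  have b := g₂_eq_of_two_roots h1 h3 h13
  have h4 : (4 : K) ≠ 0 := by
    have : (4 : K) = 2 * 2 := by norm_num
    rw [this]
    exact mul_ne_zero two_ne two_ne
  have h : (4 : K) * ((e₂ - e₃) * (e₁ + e₂ + e₃)) = 0 := by
    linear_combination b - a
  rcases mul_eq_zero.mp h with h | h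
  · exact absurd h h4
  rcases mul_eq_zero.mp h with h | h
  · exact absurd (sub_eq_zero.mp h) h23
  · exact h

/-- `g₂ = -4 (e₁ e₂ + e₁ e₃ + e₂ e₃)`. -/
theorem g₂_eq (two_ne : (2 : K) ≠ 0) (h1 : 4 * e₁ ^ 3 - g₂ * e₁ - g₃ = 0)
    (h2 : 4 * e₂ ^ 3 - g₂ * e₂ - g₃ = 0) (h3 : 4 * e₃ ^ 3 - g₂ * e₃ - g₃ = 0)
    (h12 : e₁ ≠ e₂) (h13 : e₁ ≠ e₃) (h23 : e₂ ≠ e₃) :
    g₂ = -4 * (e₁ * e₂ + e₁ * e₃ + e₂ * e₃) := by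
  have a := g₂_eq_of_two_roots h1 h2 h12
  have s := sum_eq_zero two_ne h1 h2 h3 h12 h13 h23
  have e3 : e₃ = -e₁ - e₂ := by linear_combination s
  rw [a, e3]
  ring

/-- `g₃ = 4 e₁ e₂ e₃`. -/
theorem g₃_eq (two_ne : (2 : K) ≠ 0) (h1 : 4 * e₁ ^ 3 - g₂ * e₁ - g₃ = 0)
    (h2 : 4 * e₂ ^ 3 - g₂ * e₂ - g₃ = 0) (h3 : 4 * e₃ ^ 3 - g₂ * e₃ - g₃ = 0)
    (h12 : e₁ ≠ e₂) (h13 : e₁ ≠ e₃) (h23 : e₂ ≠ e₃) : g₃ = 4 * e₁ * e₂ * e₃ := by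
  have a := g₂_eq_of_two_roots h1 h2 h12
  have s := sum_eq_zero two_ne h1 h2 h3 h12 h13 h23
  have e3 : e₃ = -e₁ - e₂ := by linear_combination s
  have : g₃ = 4 * e₁ ^ 3 - g₂ * e₁ := by linear_combination -h1
  rw [this, a, e3]
  ring

/-- The factorisation `4 x³ - g₂ x - g₃ = 4 (x - e₁)(x - e₂)(x - e₃)`. -/
theorem cubic_eq (two_ne : (2 : K) ≠ 0) (h1 : 4 * e₁ ^ 3 - g₂ * e₁ - g₃ = 0)
    (h2 : 4 * e₂ ^ 3 - g₂ * e₂ - g₃ = 0) (h3 : 4 * e₃ ^ 3 - g₂ * e₃ - g₃ = 0)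
    (h12 : e₁ ≠ e₂) (h13 : e₁ ≠ e₃) (h23 : e₂ ≠ e₃) (x : K) :
    4 * x ^ 3 - g₂ * x - g₃ = 4 * (x - e₁) * (x - e₂) * (x - e₃) := by
  have s := sum_eq_zero two_ne h1 h2 h3 h12 h13 h23
  have e3 : e₃ = -e₁ - e₂ := by linear_combination s
  rw [g₂_eq two_ne h1 h2 h3 h12 h13 h23, g₃_eq two_ne h1 h2 h3 h12 h13 h23, e3]
  ring

/-- The discriminant `g₂³ - 27 g₃² = 16 ((e₁ - e₂)(e₁ - e₃)(e₂ - e₃))²`. -/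
theorem disc_eq (two_ne : (2 : K) ≠ 0) (h1 : 4 * e₁ ^ 3 - g₂ * e₁ - g₃ = 0)
    (h2 : 4 * e₂ ^ 3 - g₂ * e₂ - g₃ = 0) (h3 : 4 * e₃ ^ 3 - g₂ * e₃ - g₃ = 0)
    (h12 : e₁ ≠ e₂) (h13 : e₁ ≠ e₃) (h23 : e₂ ≠ e₃) :
    g₂ ^ 3 - 27 * g₃ ^ 2 = 16 * ((e₁ - e₂) * (e₁ - e₃) * (e₂ - e₃)) ^ 2 := by
  have s := sum_eq_zero two_ne h1 h2 h3 h12 h13 h23
  have e3 : e₃ = -e₁ - e₂ := by linear_combination s
  rw [g₂_eq two_ne h1 h2 h3 h12 h13 h23, g₃_eq two_ne h1 h2 h3 h12 h13 h23, e3]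
  ring

/-- The discriminant is nonzero. -/
theorem disc_ne_zero (two_ne : (2 : K) ≠ 0) (h1 : 4 * e₁ ^ 3 - g₂ * e₁ - g₃ = 0)
    (h2 : 4 * e₂ ^ 3 - g₂ * e₂ - g₃ = 0) (h3 : 4 * e₃ ^ 3 - g₂ * e₃ - g₃ = 0)
    (h12 : e₁ ≠ e₂) (h13 : e₁ ≠ e₃) (h23 : e₂ ≠ e₃) : g₂ ^ 3 - 27 * g₃ ^ 2 ≠ 0 := by
  rw [disc_eq two_ne h1 h2 h3 h12 h13 h23]
  have h16 : (16 : K) ≠ 0 := by
    have : (16 : K) = 2 * 2 * 2 * 2 := by norm_num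
    rw [this]
    exact mul_ne_zero (mul_ne_zero (mul_ne_zero two_ne two_ne) two_ne) two_ne
  exact mul_ne_zero h16 (pow_ne_zero 2 (mul_ne_zero (mul_ne_zero (sub_ne_zero.mpr h12)
    (sub_ne_zero.mpr h13)) (sub_ne_zero.mpr h23)))

/-- The algebraic heart of the discriminant identity (D): if the root differences of two cubics are
related by `c_i c_j (e'_j - e'_i) = (e_j - e_i)^p c_l` and `c₁ c₂ c₃ ≠ 0`, `Pr² = 4^(p-1) c₁ c₂ c₃`,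
then `Δ' Pr⁴ = Δ^p`. -/
theorem delta_of_relations {g₂' g₃' e₁' e₂' e₃' c₁ c₂ c₃ Pr : K} (p : ℕ) (hp : 0 < p)
    (hΔ : g₂ ^ 3 - 27 * g₃ ^ 2 = 16 * ((e₁ - e₂) * (e₁ - e₃) * (e₂ - e₃)) ^ 2)
    (hΔ' : g₂' ^ 3 - 27 * g₃' ^ 2 = 16 * ((e₁' - e₂') * (e₁' - e₃') * (e₂' - e₃')) ^ 2)
    (r12 : c₁ * c₂ * (e₁' - e₂') = (e₁ - e₂) ^ p * c₃)
    (r13 : c₁ * c₃ * (e₁' - e₃') = (e₁ - e₃) ^ p * c₂)
    (r23 : c₂ * c₃ * (e₂' - e₃') = (e₂ - e₃) ^ p * c₁)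
    (hc : c₁ * c₂ * c₃ ≠ 0) (hPr : Pr ^ 2 = 4 ^ (p - 1) * (c₁ * c₂ * c₃)) :
    (g₂' ^ 3 - 27 * g₃' ^ 2) * Pr ^ 4 = (g₂ ^ 3 - 27 * g₃ ^ 2) ^ p := by
  set c := c₁ * c₂ * c₃ with hcdef
  set P' := (e₁' - e₂') * (e₁' - e₃') * (e₂' - e₃') with hP'
  set P := (e₁ - e₂) * (e₁ - e₃) * (e₂ - e₃) with hP
  -- `c * P' = P ^ p`
  have h1 : c * (c * P') = c * P ^ p := by
    have : c * (c * P') = (c₁ * c₂ * (e₁' - e₂')) * (c₁ * c₃ * (e₁' - e₃')) *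
        (c₂ * c₃ * (e₂' - e₃')) := by
      simp only [hcdef, hP']; ring
    rw [this, r12, r13, r23]
    simp only [hcdef, hP, mul_pow]
    ring
  have h2 : c * P' = P ^ p := mul_left_cancel₀ hc h1
  have h4 : Pr ^ 4 = 16 ^ (p - 1) * c ^ 2 := by
    have : Pr ^ 4 = (Pr ^ 2) ^ 2 := by ring
    rw [this, hPr, mul_pow, ← pow_mul, show (16 : K) = 4 ^ 2 by norm_num, ← pow_mul]
    congr 2
    ring
  obtain ⟨q, rfl⟩ : ∃ q, p = q + 1 := ⟨p - 1, by omega⟩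
  rw [hΔ, hΔ', h4, Nat.add_sub_cancel, mul_pow 16 (P ^ 2) (q + 1), ← pow_mul P 2 (q + 1)]
  have h3 : (c * P') ^ 2 = P ^ (2 * (q + 1)) := by rw [h2, ← pow_mul, mul_comm]
  calc 16 * P' ^ 2 * (16 ^ q * c ^ 2) = 16 ^ (q + 1) * (c * P') ^ 2 := by ring
    _ = 16 ^ (q + 1) * P ^ (2 * (q + 1)) := by rw [h3]

end Fermat.Agent.MAZ.Analytic.CubicAlg49
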