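import Mathlib

set_option autoImplicit false

open scoped PeriodPair

namespace Fermat.Agent.MAZ.Analytic.SuperLattice32

/-- The period pair with the two periods swapped. -/
noncomputable def swap (L : PeriodPair) : PeriodPair where
  ω₁ := L.ω₂
  ω₂ := L.ω₁
  indep := by
    rw [LinearIndependent.pair_iff]
    intro s t h
    have := LinearIndependent.pair_iff.mp L.indep t s (by rw [add_comm]; exact h)
    exact ⟨this.2, this.1⟩

theorem swap_lattice (L : PeriodPair) : (swap L).lattice = L.lattice := by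
  unfold PeriodPair.lattice swap
  simp only
  rw [Set.pair_comm]

/-- The case `p ∤ b` of the construction of the superlattice. -/
theorem exists_superlattice_aux (L : PeriodPair) (p : ℕ) (hp0 : p ≠ 0) (z₀ : ℂ) (a b b' m : ℤ)
    (hz : (p : ℂ) * z₀ = a * L.ω₁ + b * L.ω₂) (hb : b * b' = 1 + p * m) :
    ∃ L' : PeriodPair, L'.lattice = L.lattice ⊔ Submodule.span ℤ {z₀} := by
  have hpC : (p : ℂ) ≠ 0 := Nat.cast_ne_zero.2 hp0
  have hbC : (b : ℂ) * b' = 1 + p * m := by exact_mod_cast congrArg (Int.cast : ℤ → ℂ) hb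
  set z₁ : ℂ := b' * z₀ - m * L.ω₂ with hz₁
  have hpz₁ : (p : ℂ) * z₁ = (a * b') * L.ω₁ + L.ω₂ := by
    rw [hz₁]
    linear_combination (b' : ℂ) * hz + L.ω₂ * hbC
  have hz₁' : z₁ = ((a * b' : ℂ) / p) * L.ω₁ + (1 / (p : ℂ)) * L.ω₂ := by
    field_simp
    linear_combination hpz₁
  refine ⟨⟨L.ω₁, z₁, ?_⟩, ?_⟩
  · rw [LinearIndependent.pair_iff]
    intro s t h
    rw [hz₁'] at h
    have h' : ((s + t * ((a * b' : ℝ) / p) : ℝ)) • L.ω₁ + ((t / p : ℝ)) • L.ω₂ = 0 := by
      simp only [Complex.real_smul] at h ⊢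
      push_cast
      linear_combination h
    have := LinearIndependent.pair_iff.mp L.indep _ _ h'
    have hpR : (p : ℝ) ≠ 0 := Nat.cast_ne_zero.2 hp0
    have ht : t = 0 := by
      have h2 := this.2
      rcases div_eq_zero_iff.1 h2 with h3 | h3
      · exact h3
      · exact absurd h3 hpR
    refine ⟨?_, ht⟩
    have := this.1
    rw [ht] at this
    simpa using this
  · have hω₂ : L.ω₂ = (p : ℤ) • z₁ - (a * b') • L.ω₁ := by
      simp only [zsmul_eq_mul]
      push_cast
      linear_combination (-1 : ℂ) * hpz₁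
    have hz₀ : z₀ = b • z₁ - (m * a) • L.ω₁ := by
      simp only [zsmul_eq_mul]
      push_cast
      rw [hz₁]
      linear_combination (-(m : ℂ)) * hz + (-z₀) * hbC
    have hz₁mem : z₁ = b' • z₀ - m • L.ω₂ := by
      simp only [zsmul_eq_mul]
      exact hz₁
    show Submodule.span ℤ {L.ω₁, z₁} = L.lattice ⊔ Submodule.span ℤ {z₀}
    apply le_antisymm
    · rw [Submodule.span_le]
      intro x hx
      rcases hx with rfl | rfl
      · exact Submodule.mem_sup_left L.ω₁_mem_lattice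
      · rw [SetLike.mem_coe, hz₁mem]
        apply Submodule.sub_mem
        · exact Submodule.mem_sup_right (Submodule.smul_mem _ _ (Submodule.mem_span_singleton_self _))
        · exact Submodule.mem_sup_left (Submodule.smul_mem _ _ L.ω₂_mem_lattice)
    · have h1 : L.ω₁ ∈ Submodule.span ℤ {L.ω₁, z₁} := Submodule.subset_span (by simp)
      have h2 : z₁ ∈ Submodule.span ℤ {L.ω₁, z₁} := Submodule.subset_span (by simp)
      apply sup_le
      · unfold PeriodPair.lattice
        rw [Submodule.span_le]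
        intro x hx
        rcases hx with rfl | rfl
        · exact h1
        · rw [SetLike.mem_coe, hω₂]
          exact Submodule.sub_mem _ (Submodule.smul_mem _ _ h2) (Submodule.smul_mem _ _ h1)
      · rw [Submodule.span_le]
        intro x hx
        rw [Set.mem_singleton_iff] at hx
        subst hx
        rw [SetLike.mem_coe, hz₀]
        exact Submodule.sub_mem _ (Submodule.smul_mem _ _ h2) (Submodule.smul_mem _ _ h1)


/-- **Existence of the superlattice** `Λ' = Λ + ℤ z₀` as a period pair. -/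
theorem exists_superlattice (L : PeriodPair) (p : ℕ) (hp : p.Prime) (z₀ : ℂ)
    (h1 : (p : ℂ) * z₀ ∈ L.lattice) (h0 : z₀ ∉ L.lattice) :
    ∃ L' : PeriodPair, L'.lattice = L.lattice ⊔ Submodule.span ℤ {z₀} := by
  obtain ⟨a, b, hab⟩ := PeriodPair.mem_lattice.1 h1
  have hpZ : Prime (p : ℤ) := Nat.prime_iff_prime_int.mp hp
  have hpC : (p : ℂ) ≠ 0 := Nat.cast_ne_zero.2 hp.ne_zero
  by_cases hb : (p : ℤ) ∣ b
  · have ha : ¬ (p : ℤ) ∣ a := by
      intro ha
      obtain ⟨a', rfl⟩ := ha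
      obtain ⟨b', rfl⟩ := hb
      apply h0
      rw [PeriodPair.mem_lattice]
      refine ⟨a', b', ?_⟩
      apply mul_left_cancel₀ hpC
      push_cast at hab
      linear_combination hab
    obtain ⟨u, v, huv⟩ := (Prime.coprime_iff_not_dvd hpZ).2 ha
    obtain ⟨L', hL'⟩ := exists_superlattice_aux (swap L) p hp.ne_zero z₀ b a v (-u)
      (by show (p : ℂ) * z₀ = b * L.ω₂ + a * L.ω₁; linear_combination -hab)
      (by linear_combination huv)
    exact ⟨L', by rw [hL', swap_lattice]⟩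
  · obtain ⟨u, v, huv⟩ := (Prime.coprime_iff_not_dvd hpZ).2 hb
    exact exists_superlattice_aux L p hp.ne_zero z₀ a b v (-u) hab.symm (by linear_combination huv)

/-- Membership in the superlattice. -/
theorem mem_sup_span_iff (L : PeriodPair) (z₀ x : ℂ) :
    x ∈ L.lattice ⊔ Submodule.span ℤ {z₀} ↔ ∃ k : ℤ, x - k * z₀ ∈ L.lattice := by
  rw [Submodule.mem_sup]
  constructor
  · rintro ⟨l, hl, y, hy, rfl⟩
    obtain ⟨k, rfl⟩ := Submodule.mem_span_singleton.1 hy
    exact ⟨k, by simpa using hl⟩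
  · rintro ⟨k, hk⟩
    exact ⟨x - k * z₀, hk, k * z₀,
      Submodule.mem_span_singleton.2 ⟨k, by simp⟩, by ring⟩


/-- Integer multiples of `z₀` prime to `p` stay outside the lattice. -/
theorem intCast_mul_notMem (L : PeriodPair) {p : ℕ} (hp : p.Prime) {z₀ : ℂ}
    (h1 : (p : ℂ) * z₀ ∈ L.lattice) (h0 : z₀ ∉ L.lattice) {k : ℤ} (hk : ¬ (p : ℤ) ∣ k) :
    (k : ℂ) * z₀ ∉ L.lattice := by
  intro hkz
  have hpZ : Prime (p : ℤ) := Nat.prime_iff_prime_int.mp hp
  obtain ⟨u, v, huv⟩ := (Prime.coprime_iff_not_dvd hpZ).2 hk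
  apply h0
  have : z₀ = u • ((p : ℂ) * z₀) + v • ((k : ℂ) * z₀) := by
    simp only [zsmul_eq_mul]
    have := congrArg (Int.cast : ℤ → ℂ) huv
    push_cast at this
    linear_combination (-z₀) * this
  rw [this]
  exact add_mem (Submodule.smul_mem _ _ h1) (Submodule.smul_mem _ _ hkz)

theorem natCast_mul_notMem (L : PeriodPair) {p : ℕ} (hp : p.Prime) {z₀ : ℂ}
    (h1 : (p : ℂ) * z₀ ∈ L.lattice) (h0 : z₀ ∉ L.lattice) {k : ℕ} (hk0 : 0 < k) (hkp : k < p) :
    (k : ℂ) * z₀ ∉ L.lattice := by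
  have := intCast_mul_notMem L hp h1 h0 (k := (k : ℤ)) (by
    intro hdvd
    have := Int.natCast_dvd_natCast.1 hdvd
    exact absurd (Nat.le_of_dvd hk0 this) (not_le.2 hkp))
  simpa using this

/-- Membership in the superlattice, with a representative `k < p`. -/
theorem mem_sup_span_iff_nat (L : PeriodPair) {p : ℕ} (hp0 : p ≠ 0) {z₀ : ℂ}
    (h1 : (p : ℂ) * z₀ ∈ L.lattice) (x : ℂ) :
    x ∈ L.lattice ⊔ Submodule.span ℤ {z₀} ↔ ∃ k : ℕ, k < p ∧ x - k * z₀ ∈ L.lattice := by
  rw [mem_sup_span_iff]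
  constructor
  · rintro ⟨k, hk⟩
    have hpZ : (p : ℤ) ≠ 0 := by exact_mod_cast hp0
    have hmod : 0 ≤ k % (p : ℤ) := Int.emod_nonneg _ hpZ
    have hlt : k % (p : ℤ) < p := Int.emod_lt_of_pos _ (by positivity)
    refine ⟨(k % (p : ℤ)).toNat, by omega, ?_⟩
    have hcast : (((k % (p : ℤ)).toNat : ℕ) : ℂ) = ((k % (p : ℤ) : ℤ) : ℂ) := by
      have : (((k % (p : ℤ)).toNat : ℕ) : ℤ) = k % (p : ℤ) := Int.toNat_of_nonneg hmod
      exact_mod_cast congrArg (Int.cast : ℤ → ℂ) this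
    rw [hcast]
    have hdiv : k = k % (p : ℤ) + p * (k / p) := (Int.emod_add_mul_ediv k p).symm
    have : x - ((k % (p : ℤ) : ℤ) : ℂ) * z₀ = (x - k * z₀) + (k / (p : ℤ)) • ((p : ℂ) * z₀) := by
      simp only [zsmul_eq_mul]
      have := congrArg (Int.cast : ℤ → ℂ) hdiv
      push_cast at this
      linear_combination z₀ * this
    rw [this]
    exact add_mem hk (Submodule.smul_mem _ _ h1)
  · rintro ⟨k, _, hk⟩
    exact ⟨(k : ℤ), by simpa using hk⟩

theorem lattice_le_sup (L : PeriodPair) (z₀ : ℂ) :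
    L.lattice ≤ L.lattice ⊔ Submodule.span ℤ {z₀} := le_sup_left

theorem self_mem_sup (L : PeriodPair) (z₀ : ℂ) : z₀ ∈ L.lattice ⊔ Submodule.span ℤ {z₀} :=
  Submodule.mem_sup_right (Submodule.mem_span_singleton_self _)

end Fermat.Agent.MAZ.Analytic.SuperLattice32
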