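/-
Programme MAZ (S15), analytic side (helper27): MEROMORPHIC ORDERS OF `℘`, `℘'` AND THEIR TRANSLATES,
in the form needed to check the hypothesis `hord` of `EllLiouville27.exists_const_of_periodic`.
Mathlib only.
-/
import Mathlib

set_option autoImplicit false

open Filter Topology Set

namespace Fermat.Agent.MAZ.Analytic.WPOrder27

open PeriodPair

/-! ### Generic lemmas on orders -/

section Generic

variable {g : ℂ → ℂ} {x : ℂ}

/-- An analytic function minus its value at `x` has positive order at `x`. -/
theorem one_le_order_sub (hg : AnalyticAt ℂ g x) :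
    1 ≤ meromorphicOrderAt (fun z => g z - g x) x := by
  have hg' : AnalyticAt ℂ (fun z => g z - g x) x := hg.sub analyticAt_const
  rw [hg'.meromorphicOrderAt_eq]
  have h : ((1 : ℕ) : ℕ∞) ≤ analyticOrderAt (fun z => g z - g x) x := by
    rw [natCast_le_analyticOrderAt_iff_iteratedDeriv_eq_zero hg']
    intro i hi
    obtain rfl : i = 0 := by omega
    simp
  have := (ENat.monotone_map_iff (f := (Nat.cast : ℕ → ℤ))).mpr Nat.mono_cast h
  simpa using this

/-- An analytic function with vanishing derivative at `x`, minus its value at `x`, has order at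
least two at `x`. -/
theorem two_le_order_sub_of_deriv_eq_zero (hg : AnalyticAt ℂ g x) (h1 : deriv g x = 0) :
    2 ≤ meromorphicOrderAt (fun z => g z - g x) x := by
  have hg' : AnalyticAt ℂ (fun z => g z - g x) x := hg.sub analyticAt_const
  rw [hg'.meromorphicOrderAt_eq]
  have h : ((2 : ℕ) : ℕ∞) ≤ analyticOrderAt (fun z => g z - g x) x := by
    rw [natCast_le_analyticOrderAt_iff_iteratedDeriv_eq_zero hg']
    intro i hi
    interval_cases i
    · simp
    · rw [iteratedDeriv_one, deriv_sub_const]
      exact h1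
  have := (ENat.monotone_map_iff (f := (Nat.cast : ℕ → ℤ))).mpr Nat.mono_cast h
  simpa using this

/-- Subtracting a constant does not change a negative order. -/
theorem order_sub_const_of_neg (h : meromorphicOrderAt g x < 0) (c : ℂ) :
    meromorphicOrderAt (fun z => g z - c) x = meromorphicOrderAt g x := by
  have hc : MeromorphicAt (fun _ : ℂ => -c) x := MeromorphicAt.const _ _
  have hlt : meromorphicOrderAt g x < meromorphicOrderAt (fun _ : ℂ => -c) x :=
    lt_of_lt_of_le h (analyticAt_const.meromorphicOrderAt_nonneg)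
  have := meromorphicOrderAt_add_eq_left_of_lt hc hlt
  have hfun : (fun z => g z - c) = g + fun _ : ℂ => -c := by
    funext z
    simp [sub_eq_add_neg]
  rw [hfun]
  exact this

end Generic

/-! ### `℘` and `℘'` -/

variable (L : PeriodPair)

theorem analyticAt_weierstrassP {z : ℂ} (hz : z ∉ L.lattice) : AnalyticAt ℂ ℘[L] z :=
  L.analyticOnNhd_weierstrassP z hz

theorem analyticAt_derivWeierstrassP {z : ℂ} (hz : z ∉ L.lattice) : AnalyticAt ℂ ℘'[L] z :=
  L.analyticOnNhd_derivWeierstrassP z hz

/-- `℘'` has a triple pole at every lattice point. -/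
theorem order_derivWeierstrassP {l : ℂ} (hl : l ∈ L.lattice) :
    meromorphicOrderAt ℘'[L] l = -3 := by
  rw [← L.deriv_weierstrassP]
  have h := meromorphicOrderAt_deriv_eq_sub_one (f := ℘[L]) (x := l) (n := -2) (by norm_num)
    (by rw [L.order_weierstrassP l hl]; rfl)
  rw [h]
  rfl

/-- `℘ - c` has a double pole at every lattice point. -/
theorem order_weierstrassP_sub_const {l : ℂ} (hl : l ∈ L.lattice) (c : ℂ) :
    meromorphicOrderAt (fun z => ℘[L] z - c) l = -2 := by
  rw [order_sub_const_of_neg (by rw [L.order_weierstrassP l hl]; decide),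
    L.order_weierstrassP l hl]

/-! ### Translates -/

theorem order_weierstrassP_comp_add (a x : ℂ) :
    meromorphicOrderAt (fun z => ℘[L] (z + a)) x = meromorphicOrderAt ℘[L] (x + a) :=
  meromorphicOrderAt_fun_comp_add_const_eq_meromorphicOrderAt

theorem order_derivWeierstrassP_comp_add (a x : ℂ) :
    meromorphicOrderAt (fun z => ℘'[L] (z + a)) x = meromorphicOrderAt ℘'[L] (x + a) :=
  meromorphicOrderAt_fun_comp_add_const_eq_meromorphicOrderAt

theorem meromorphic_weierstrassP_comp_add (a : ℂ) : Meromorphic (fun z => ℘[L] (z + a)) := by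
  intro x
  have h : MeromorphicAt ℘[L] (x + a) := L.meromorphic_weierstrassP (x + a)
  exact meromorphicAt_comp_add_const_iff_meromorphicAt.mpr h

theorem meromorphic_derivWeierstrassP_comp_add (a : ℂ) :
    Meromorphic (fun z => ℘'[L] (z + a)) := by
  intro x
  have h : MeromorphicAt ℘'[L] (x + a) := L.meromorphic_derivWeierstrassP (x + a)
  exact meromorphicAt_comp_add_const_iff_meromorphicAt.mpr h

theorem analyticAt_weierstrassP_comp_add {a x : ℂ} (h : x + a ∉ L.lattice) :
    AnalyticAt ℂ (fun z => ℘[L] (z + a)) x :=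
  (analyticAt_weierstrassP L h).comp_of_eq (analyticAt_id.add analyticAt_const) rfl

theorem analyticAt_derivWeierstrassP_comp_add {a x : ℂ} (h : x + a ∉ L.lattice) :
    AnalyticAt ℂ (fun z => ℘'[L] (z + a)) x :=
  (analyticAt_derivWeierstrassP L h).comp_of_eq (analyticAt_id.add analyticAt_const) rfl

/-- The translate `℘(· + a) - c` has a double pole where `x + a` is a lattice point. -/
theorem order_weierstrassP_comp_add_sub_const {a x : ℂ} (h : x + a ∈ L.lattice) (c : ℂ) :
    meromorphicOrderAt (fun z => ℘[L] (z + a) - c) x = -2 := by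
  have h1 : meromorphicOrderAt (fun z => ℘[L] (z + a)) x = -2 := by
    rw [order_weierstrassP_comp_add, L.order_weierstrassP _ h]
  rw [order_sub_const_of_neg (by rw [h1]; decide), h1]

/-- The translate `℘'(· + a)` has a triple pole where `x + a` is a lattice point. -/
theorem order_derivWeierstrassP_comp_add_of_mem {a x : ℂ} (h : x + a ∈ L.lattice) :
    meromorphicOrderAt (fun z => ℘'[L] (z + a)) x = -3 := by
  rw [order_derivWeierstrassP_comp_add, order_derivWeierstrassP L h]

/-- If `℘'(ω) = 0` (`ω ∉ L`), then `℘(· ) - ℘(ω)` vanishes to order at least two at `ω`. -/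
theorem two_le_order_weierstrassP_sub {ω : ℂ} (hω : ω ∉ L.lattice) (h0 : ℘'[L] ω = 0) :
    2 ≤ meromorphicOrderAt (fun z => ℘[L] z - ℘[L] ω) ω := by
  refine two_le_order_sub_of_deriv_eq_zero (analyticAt_weierstrassP L hω) ?_
  rw [L.deriv_weierstrassP]
  exact h0

/-- If `℘'(ω) = 0` (`ω ∉ L`), then `℘(· + ω) - ℘(ω)` vanishes to order at least two at every
lattice point. -/
theorem two_le_order_weierstrassP_comp_add_sub {ω l : ℂ} (hω : ω ∉ L.lattice)
    (hl : l ∈ L.lattice) (h0 : ℘'[L] ω = 0) :
    2 ≤ meromorphicOrderAt (fun z => ℘[L] (z + ω) - ℘[L] ω) l := by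
  have hlω : l + ω ∉ L.lattice := fun h => hω (by
    have := L.lattice.sub_mem h hl
    simpa using this)
  have hper : ℘[L] ω = ℘[L] (l + ω) := by
    rw [add_comm]
    exact (L.weierstrassP_add_coe ω ⟨l, hl⟩).symm
  have hper' : ℘'[L] (l + ω) = 0 := by
    rw [add_comm]
    rw [show ℘'[L] (ω + l) = ℘'[L] ω from L.derivWeierstrassP_add_coe ω ⟨l, hl⟩]
    exact h0
  have h1 := two_le_order_sub_of_deriv_eq_zero (g := fun z => ℘[L] (z + ω)) (x := l)
    (analyticAt_weierstrassP_comp_add L hlω) (by
      have hd : deriv (fun z => ℘[L] (z + ω)) l = deriv ℘[L] (l + ω) := by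
        exact deriv_comp_add_const _ _ _
      rw [hd, L.deriv_weierstrassP]
      exact hper')
  rw [hper]
  exact h1

end Fermat.Agent.MAZ.Analytic.WPOrder27
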