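/-
Program MAZ (S15), X-side brick AN2-(★)+(D), helper86.  THE DISCRIMINANT IDENTITY FOR A
SUPERLATTICE OF ODD PRIME INDEX (Mathlib + the MAZ/Analytic toolbox).

Setting: `L L' : PeriodPair`, `p` an odd prime, `z0 ∉ L`, `p z0 ∈ L`, `L' = L + ℤ z0`.

* `derivWeierstrassP_mul_ne_zero` : `℘'[L](k z0) ≠ 0` for `0 < k < p`;
* `star_identity` **(★)** : for `z ∉ L'`, `℘'[L'] z · ∏_{0<k<p} ℘'[L](k z0) = ∏_{k<p} ℘'[L](z + k z0)`
  (Liouville on `L'` for the ratio: orders `-3 + 3` on `L'`; at the zeros of `℘'[L']`, which are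
  simple, the numerator vanishes; the constant is the limit at `0`);
* `deriv_star_half` : (★) differentiated at a half period `ω` of `L`:
  `℘''[L'](ω) · C = ℘''[L](ω) · ∏_{0<k<p} ℘'[L](ω + k z0)`;
* `disc_of_roots`, `disc_eq_neg_two_mul_prod_of_half` : (HP3)/(HP5) for an abstract triple of half
  periods;
* `delta_identity` **(D)** : `Δ(L') · (∏_{0<k<p} ℘'[L](k z0))⁴ = Δ(L)^p`, `Δ = g₂³ - 27 g₃²`.
-/
import Mathlib
import Fermat.Agent.MAZ.Analytic.HalfPeriod86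
import Fermat.Agent.MAZ.Analytic.Elliptic32
import Fermat.Agent.MAZ.Analytic.WPOrder27
import Fermat.Agent.MAZ.Analytic.SuperLattice32

set_option autoImplicit false
set_option linter.unusedSectionVars false

open Complex Filter Topology

namespace Fermat.Agent.MAZ.Analytic.DeltaId86

open PeriodPair
open Fermat.Agent.MAZ.Analytic

/-! ### The setting: `L ⊂ L' = L + ℤ z0` of odd prime index `p` -/

section Setting

variable (L L' : PeriodPair) {p : ℕ} (hp : p.Prime) {z0 : ℂ}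
  (h1 : (p : ℂ) * z0 ∈ L.lattice) (h0 : z0 ∉ L.lattice)
  (hL' : L'.lattice = L.lattice ⊔ Submodule.span ℤ {z0})

include hL' in
theorem lattice_le : L.lattice ≤ L'.lattice := by
  rw [hL']; exact le_sup_left

include hL' in
theorem z0_mem : z0 ∈ L'.lattice := by
  rw [hL']; exact SuperLattice32.self_mem_sup L z0

include hL' in
theorem natCast_mul_mem (k : ℕ) : (k : ℂ) * z0 ∈ L'.lattice := by
  have h := L'.lattice.smul_mem (k : ℤ) (z0_mem L L' hL')
  simpa [zsmul_eq_mul] using h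

include hp h1 hL' in
theorem mem_iff (x : ℂ) : x ∈ L'.lattice ↔ ∃ k : ℕ, k < p ∧ x - k * z0 ∈ L.lattice := by
  rw [hL']
  exact SuperLattice32.mem_sup_span_iff_nat L hp.ne_zero h1 x

include hp h1 h0 in
theorem mul_notMem {k : ℕ} (hk0 : 0 < k) (hkp : k < p) : (k : ℂ) * z0 ∉ L.lattice :=
  SuperLattice32.natCast_mul_notMem L hp h1 h0 hk0 hkp

include hp h1 h0 in
theorem two_mul_notMem (hp2 : p ≠ 2) {k : ℕ} (hk0 : 0 < k) (hkp : k < p) :
    (2 : ℂ) * ((k : ℂ) * z0) ∉ L.lattice := by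
  have h := SuperLattice32.intCast_mul_notMem L hp h1 h0 (k := ((2 * k : ℕ) : ℤ)) (by
    intro hdvd
    have h2 : p ∣ 2 * k := Int.natCast_dvd_natCast.1 hdvd
    rcases (Nat.Prime.dvd_mul hp).1 h2 with h3 | h3
    · have := Nat.le_of_dvd (by norm_num) h3
      have := hp.two_le
      omega
    · exact absurd (Nat.le_of_dvd hk0 h3) (not_le.2 hkp))
  intro hmem
  apply h
  have e : (((2 * k : ℕ) : ℤ) : ℂ) * z0 = 2 * ((k : ℂ) * z0) := by
    push_cast
    ring
  rw [e]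
  exact hmem

include hp h1 h0 in
/-- `℘'[L] (k z0) ≠ 0` for `0 < k < p` (`p` odd). -/
theorem derivWeierstrassP_mul_ne_zero (hp2 : p ≠ 2) {k : ℕ} (hk0 : 0 < k) (hkp : k < p) :
    ℘'[L] ((k : ℂ) * z0) ≠ 0 :=
  HalfPeriod86.derivWeierstrassP_ne_zero L _ (two_mul_notMem L hp h1 h0 hp2 hk0 hkp)

/-! ### The numerator -/

/-- `∏_{k<p} ℘'[L](z + k z0)` as a product of functions. -/
noncomputable def num (p : ℕ) (z0 : ℂ) : ℂ → ℂ :=
  ∏ k ∈ Finset.range p, fun z : ℂ => ℘'[L] (z + (k : ℂ) * z0)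

theorem num_apply (p : ℕ) (z0 z : ℂ) :
    num L p z0 z = ∏ k ∈ Finset.range p, ℘'[L] (z + (k : ℂ) * z0) := by
  unfold num
  rw [Finset.prod_apply]

theorem num_add_of_mem (p : ℕ) (z0 z : ℂ) {l : ℂ} (hl : l ∈ L.lattice) :
    num L p z0 (z + l) = num L p z0 z := by
  rw [num_apply, num_apply]
  refine Finset.prod_congr rfl fun k _ => ?_
  have e : z + l + (k : ℂ) * z0 = (z + (k : ℂ) * z0) + l := by ring
  rw [e, HalfPeriod86.derivWeierstrassP_add_of_mem L _ hl]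

include h1 in
theorem num_add_z0 (hp0 : 0 < p) (z : ℂ) : num L p z0 (z + z0) = num L p z0 z := by
  rw [num_apply, num_apply]
  set f : ℕ → ℂ := fun k => ℘'[L] (z + (k : ℂ) * z0) with hf
  have e1 : ∀ k : ℕ, ℘'[L] (z + z0 + (k : ℂ) * z0) = f (1 + k) := by
    intro k
    rw [hf]
    show ℘'[L] (z + z0 + (k : ℂ) * z0) = ℘'[L] (z + ((1 + k : ℕ) : ℂ) * z0)
    congr 1
    push_cast
    ring
  simp_rw [e1]
  have e2 : ∏ k ∈ Finset.range p, f (1 + k) = ∏ k ∈ Finset.Ico 1 (p + 1), f k := by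
    rw [Finset.prod_Ico_eq_prod_range]
    simp
  have e3 : ∏ k ∈ Finset.range p, f k = f 0 * ∏ k ∈ Finset.Ico 1 p, f k := by
    rw [Finset.range_eq_Ico, Finset.prod_eq_prod_Ico_succ_bot hp0]
  have e4 : f p = f 0 := by
    rw [hf]
    show ℘'[L] (z + (p : ℂ) * z0) = ℘'[L] (z + ((0 : ℕ) : ℂ) * z0)
    rw [HalfPeriod86.derivWeierstrassP_add_of_mem L _ h1]
    simp
  rw [e2, e3, Finset.prod_Ico_succ_top (by omega : 1 ≤ p), e4, mul_comm]

include h1 in
theorem num_add_natCast_mul (hp0 : 0 < p) (z : ℂ) (k : ℕ) :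
    num L p z0 (z + (k : ℂ) * z0) = num L p z0 z := by
  induction k with
  | zero => simp
  | succ k ih =>
    have e : z + ((k + 1 : ℕ) : ℂ) * z0 = (z + (k : ℂ) * z0) + z0 := by push_cast; ring
    rw [e, num_add_z0 L h1 hp0, ih]

include hp h1 hL' in
theorem num_add_of_mem' (z : ℂ) {w : ℂ} (hw : w ∈ L'.lattice) :
    num L p z0 (z + w) = num L p z0 z := by
  obtain ⟨k, -, hk⟩ := (mem_iff L L' hp h1 hL' w).1 hw
  have e : z + w = (z + (k : ℂ) * z0) + (w - k * z0) := by ring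
  rw [e, num_add_of_mem L p z0 _ hk, num_add_natCast_mul L h1 hp.pos]


/-! ### Orders of the numerator -/

theorem meromorphic_num (p : ℕ) (z0 : ℂ) : Meromorphic (num L p z0) := by
  unfold num
  exact Meromorphic.prod fun k _ => WPOrder27.meromorphic_derivWeierstrassP_comp_add L _

include hp h1 hL' in
theorem add_notMem_of_notMem' {x : ℂ} (hx : x ∉ L'.lattice) (k : ℕ) :
    x + (k : ℂ) * z0 ∉ L.lattice := by
  intro h
  apply hx
  have h2 : x + (k : ℂ) * z0 ∈ L'.lattice := lattice_le L L' hL' h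
  have h3 := L'.lattice.sub_mem h2 (natCast_mul_mem L L' hL' k)
  simpa using h3

include hp h1 hL' in
theorem analyticAt_num {x : ℂ} (hx : x ∉ L'.lattice) : AnalyticAt ℂ (num L p z0) x := by
  unfold num
  refine Finset.analyticAt_prod _ fun k _ => ?_
  exact WPOrder27.analyticAt_derivWeierstrassP_comp_add L
    (add_notMem_of_notMem' L L' hp h1 hL' hx k)

include hp h1 h0 hL' in
/-- At a point of `L'` the numerator has at worst a triple pole. -/
theorem order_num_ge {x : ℂ} (hx : x ∈ L'.lattice) :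
    (-3 : WithTop ℤ) ≤ meromorphicOrderAt (num L p z0) x := by
  classical
  obtain ⟨k, hkp, hk⟩ := (mem_iff L L' hp h1 hL' x).1 hx
  -- the index of the factor with a pole
  obtain ⟨k', hk'p, hk'⟩ : ∃ k' : ℕ, k' < p ∧ x + (k' : ℂ) * z0 ∈ L.lattice := by
    by_cases hk0 : k = 0
    · subst hk0
      exact ⟨0, hp.pos, by simpa using hk⟩
    · refine ⟨p - k, by omega, ?_⟩
      have e : x + ((p - k : ℕ) : ℂ) * z0 = (x - k * z0) + (p : ℂ) * z0 := by
        rw [Nat.cast_sub hkp.le]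
        ring
      rw [e]
      exact add_mem hk h1
  have hmer : ∀ j ∈ Finset.range p, MeromorphicAt (fun z : ℂ => ℘'[L] (z + (j : ℂ) * z0)) x :=
    fun j _ => WPOrder27.meromorphic_derivWeierstrassP_comp_add L _ x
  unfold num
  rw [meromorphicOrderAt_prod hmer,
    ← Finset.add_sum_erase _ _ (Finset.mem_range.mpr hk'p),
    WPOrder27.order_derivWeierstrassP_comp_add_of_mem L hk']
  have hrest : (0 : WithTop ℤ) ≤ ∑ j ∈ (Finset.range p).erase k',
      meromorphicOrderAt (fun z : ℂ => ℘'[L] (z + (j : ℂ) * z0)) x := by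
    refine Finset.sum_nonneg fun j hj => ?_
    have hjk : j ≠ k' := Finset.ne_of_mem_erase hj
    have hjp : j < p := Finset.mem_range.mp (Finset.mem_of_mem_erase hj)
    refine (WPOrder27.analyticAt_derivWeierstrassP_comp_add L ?_).meromorphicOrderAt_nonneg
    intro hmem
    -- then `(j - k') z0 ∈ L`
    rcases Nat.lt_or_gt_of_ne hjk with hlt | hgt
    · have h3 := L.lattice.sub_mem hk' hmem
      have e : (x + (k' : ℂ) * z0) - (x + (j : ℂ) * z0) = ((k' - j : ℕ) : ℂ) * z0 := by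
        rw [Nat.cast_sub hlt.le]
        ring
      rw [e] at h3
      exact mul_notMem L hp h1 h0 (by omega) (by omega) h3
    · have h3 := L.lattice.sub_mem hmem hk'
      have e : (x + (j : ℂ) * z0) - (x + (k' : ℂ) * z0) = ((j - k' : ℕ) : ℂ) * z0 := by
        rw [Nat.cast_sub hgt.le]
        ring
      rw [e] at h3
      exact mul_notMem L hp h1 h0 (by omega) (by omega) h3
  calc (-3 : WithTop ℤ) = -3 + 0 := by simp
    _ ≤ -3 + ∑ j ∈ (Finset.range p).erase k',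
        meromorphicOrderAt (fun z : ℂ => ℘'[L] (z + (j : ℂ) * z0)) x :=
      add_le_add_right hrest _


/-! ### The numerator vanishes at the zeros of `℘'[L']` -/

theorem exists_half_index (hp : p.Prime) (hp2 : p ≠ 2) {m : ℕ} (hm : m < p) :
    ∃ k : ℕ, k < p ∧ (m + 2 * k = 0 ∨ m + 2 * k = p ∨ m + 2 * k = 2 * p) := by
  have hodd : Odd p := hp.odd_of_ne_two hp2
  obtain ⟨i, hi⟩ := hodd
  rcases Nat.even_or_odd m with ⟨j, hj⟩ | ⟨j, hj⟩
  · by_cases hj0 : j = 0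
    · exact ⟨0, hp.pos, Or.inl (by omega)⟩
    · exact ⟨p - j, by omega, Or.inr (Or.inr (by omega))⟩
  · exact ⟨i - j, by omega, Or.inr (Or.inl (by omega))⟩

include hp h1 hL' in
theorem num_eq_zero_of_half (hp2 : p ≠ 2) {x : ℂ} (hx : x ∉ L'.lattice)
    (hxx : x + x ∈ L'.lattice) : num L p z0 x = 0 := by
  obtain ⟨m, hmp, hm⟩ := (mem_iff L L' hp h1 hL' (x + x)).1 hxx
  obtain ⟨k, hkp, hk⟩ := exists_half_index hp hp2 hmp
  rw [num_apply]
  refine Finset.prod_eq_zero (Finset.mem_range.mpr hkp) ?_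
  rw [Elliptic32.derivWeierstrassP_eq_zero_iff L (add_notMem_of_notMem' L L' hp h1 hL' hx k)]
  have e : (x + (k : ℂ) * z0) + (x + (k : ℂ) * z0) =
      (x + x - (m : ℂ) * z0) + ((m + 2 * k : ℕ) : ℂ) * z0 := by
    push_cast
    ring
  rw [e]
  refine add_mem hm ?_
  rcases hk with hk | hk | hk
  · rw [hk]; simp
  · rw [hk]; exact h1
  · rw [hk]
    have e2 : ((2 * p : ℕ) : ℂ) * z0 = (p : ℂ) * z0 + (p : ℂ) * z0 := by push_cast; ring
    rw [e2]
    exact add_mem h1 h1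

/-! ### The ratio and Liouville -/

/-- The ratio `∏_k ℘'[L](z + k z0) / ℘'[L'] z`. -/
noncomputable def ratio (p : ℕ) (z0 : ℂ) : ℂ → ℂ := num L p z0 * (℘'[L'])⁻¹

theorem ratio_apply (p : ℕ) (z0 z : ℂ) :
    ratio L L' p z0 z = num L p z0 z * (℘'[L'] z)⁻¹ := rfl

theorem meromorphic_ratio (p : ℕ) (z0 : ℂ) : Meromorphic (ratio L L' p z0) :=
  (meromorphic_num L p z0).mul L'.meromorphic_derivWeierstrassP.inv

include hp h1 hL' in
theorem ratio_add_of_mem (z : ℂ) {w : ℂ} (hw : w ∈ L'.lattice) :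
    ratio L L' p z0 (z + w) = ratio L L' p z0 z := by
  rw [ratio_apply, ratio_apply, num_add_of_mem' L L' hp h1 hL' z hw,
    HalfPeriod86.derivWeierstrassP_add_of_mem L' z hw]

include hp h1 h0 hL' in
theorem order_ratio_nonneg (hp2 : p ≠ 2) (x : ℂ) :
    0 ≤ meromorphicOrderAt (ratio L L' p z0) x := by
  have hmn : MeromorphicAt (num L p z0) x := meromorphic_num L p z0 x
  have hmd : MeromorphicAt (℘'[L'])⁻¹ x := (L'.meromorphic_derivWeierstrassP x).inv
  unfold ratio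
  rw [meromorphicOrderAt_mul hmn hmd, meromorphicOrderAt_inv]
  by_cases hx : x ∈ L'.lattice
  · -- a pole of both
    rw [WPOrder27.order_derivWeierstrassP L' hx]
    have h := order_num_ge L L' hp h1 h0 hL' hx
    calc (0 : WithTop ℤ) = -3 + -(-3 : WithTop ℤ) := by
          have : (-(-3 : WithTop ℤ)) = ((3 : ℤ) : WithTop ℤ) := rfl
          rw [this]
          rfl
      _ ≤ meromorphicOrderAt (num L p z0) x + -(-3 : WithTop ℤ) := add_le_add_left h _
  · have hnum : AnalyticAt ℂ (num L p z0) x := analyticAt_num L L' hp h1 hL' hx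
    have hden : AnalyticAt ℂ ℘'[L'] x := WPOrder27.analyticAt_derivWeierstrassP L' hx
    by_cases hd0 : ℘'[L'] x = 0
    · -- a simple zero of the denominator, a zero of the numerator
      have hxx : x + x ∈ L'.lattice := (Elliptic32.derivWeierstrassP_eq_zero_iff L' hx).1 hd0
      have hd1 : deriv ℘'[L'] x ≠ 0 :=
        HalfPeriod86.deriv_derivWeierstrassP_half_ne_zero L' hx hxx
      have ho : analyticOrderAt ℘'[L'] x = 1 :=
        hden.analyticOrderAt_eq_one_of_zero_deriv_ne_zero hd0 hd1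
      have ho' : meromorphicOrderAt ℘'[L'] x = 1 := by
        rw [hden.meromorphicOrderAt_eq, ho]
        rfl
      have hn0 : num L p z0 x = 0 := num_eq_zero_of_half L L' hp h1 hL' hp2 hx hxx
      have hn1 : 1 ≤ meromorphicOrderAt (num L p z0) x := by
        have h := WPOrder27.one_le_order_sub hnum
        rw [hn0] at h
        simpa using h
      rw [ho']
      calc (0 : WithTop ℤ) = 1 + -(1 : WithTop ℤ) := by
            have : (-(1 : WithTop ℤ)) = ((-1 : ℤ) : WithTop ℤ) := rfl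
            rw [this]
            rfl
        _ ≤ meromorphicOrderAt (num L p z0) x + -(1 : WithTop ℤ) := add_le_add_left hn1 _
    · have hinv : AnalyticAt ℂ (℘'[L'])⁻¹ x := hden.inv hd0
      have h2 := (hnum.mul hinv).meromorphicOrderAt_nonneg
      rw [meromorphicOrderAt_mul hmn hmd, meromorphicOrderAt_inv] at h2
      exact h2

include hp h1 h0 hL' in
/-- **Liouville for the ratio.** -/
theorem exists_ratio_const (hp2 : p ≠ 2) :
    ∃ c : ℂ, ∀ x, ratio L L' p z0 =ᶠ[𝓝[≠] x] fun _ => c :=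
  Elliptic32.exists_const_of_meromorphic_of_periodic L' (meromorphic_ratio L L' p z0)
    (order_ratio_nonneg L L' hp h1 h0 hL' hp2)
    (fun z _ hw => ratio_add_of_mem L L' hp h1 hL' z hw)


/-! ### The value of the constant -/

/-- `C = ∏_{0<k<p} ℘'[L](k z0)`. -/
noncomputable def Cst (p : ℕ) (z0 : ℂ) : ℂ := ∏ k ∈ Finset.Ico 1 p, ℘'[L] ((k : ℂ) * z0)

include hp h1 h0 in
theorem Cst_ne_zero (hp2 : p ≠ 2) : Cst L p z0 ≠ 0 := by
  unfold Cst
  rw [Finset.prod_ne_zero_iff]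
  intro k hk
  rw [Finset.mem_Ico] at hk
  exact derivWeierstrassP_mul_ne_zero L hp h1 h0 hp2 (by omega) hk.2

/-- The regular part of the numerator at `0`. -/
noncomputable def Bfun (p : ℕ) (z0 : ℂ) : ℂ → ℂ :=
  ∏ k ∈ Finset.Ico 1 p, fun z : ℂ => ℘'[L] (z + (k : ℂ) * z0)

theorem Bfun_apply (p : ℕ) (z0 z : ℂ) :
    Bfun L p z0 z = ∏ k ∈ Finset.Ico 1 p, ℘'[L] (z + (k : ℂ) * z0) := by
  unfold Bfun
  rw [Finset.prod_apply]

theorem Bfun_zero (p : ℕ) (z0 : ℂ) : Bfun L p z0 0 = Cst L p z0 := by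
  rw [Bfun_apply]
  unfold Cst
  simp

include hp h1 h0 in
theorem analyticAt_Bfun_zero : AnalyticAt ℂ (Bfun L p z0) 0 := by
  unfold Bfun
  refine Finset.analyticAt_prod _ fun k hk => ?_
  rw [Finset.mem_Ico] at hk
  refine WPOrder27.analyticAt_derivWeierstrassP_comp_add L ?_
  rw [zero_add]
  exact mul_notMem L hp h1 h0 (by omega) hk.2

theorem num_eq_mul_Bfun (hp0 : 0 < p) (z : ℂ) :
    num L p z0 z = ℘'[L] z * Bfun L p z0 z := by
  rw [num_apply, Bfun_apply, Finset.range_eq_Ico, Finset.prod_eq_prod_Ico_succ_bot hp0]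
  simp

include hp h1 h0 hL' in
theorem ratio_const_eq {c : ℂ}
    (hc : ∀ x, ratio L L' p z0 =ᶠ[𝓝[≠] x] fun _ => c) : c = Cst L p z0 := by
  have ha : AnalyticAt ℂ ℘'[L - (0 : ℂ)] 0 := L.analyticAt_derivWeierstrassPExcept 0
  have hb : AnalyticAt ℂ ℘'[L' - (0 : ℂ)] 0 := L'.analyticAt_derivWeierstrassPExcept 0
  have hB : AnalyticAt ℂ (Bfun L p z0) 0 := analyticAt_Bfun_zero L hp h1 h0
  set g : ℂ → ℂ := fun z =>
    (z ^ 3 * ℘'[L - (0 : ℂ)] z - 2) * Bfun L p z0 z / (z ^ 3 * ℘'[L' - (0 : ℂ)] z - 2) with hg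
  have hgc : ContinuousAt g 0 := by
    have hnum : ContinuousAt (fun z : ℂ => (z ^ 3 * ℘'[L - (0 : ℂ)] z - 2) * Bfun L p z0 z) 0 :=
      ((((continuous_pow 3).continuousAt).mul ha.continuousAt).sub continuousAt_const).mul
        hB.continuousAt
    have hden : ContinuousAt (fun z : ℂ => z ^ 3 * ℘'[L' - (0 : ℂ)] z - 2) 0 :=
      (((continuous_pow 3).continuousAt).mul hb.continuousAt).sub continuousAt_const
    exact hnum.div hden (by norm_num)
  have hg0 : g 0 = Cst L p z0 := by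
    rw [hg]
    simp only [ne_eq, OfNat.ofNat_ne_zero, not_false_eq_true, zero_pow, zero_mul, zero_sub]
    rw [Bfun_zero]
    field_simp
  -- the ratio agrees with `g` on a punctured neighbourhood of `0`
  have hev : ratio L L' p z0 =ᶠ[𝓝[≠] (0 : ℂ)] g := by
    filter_upwards [self_mem_nhdsWithin] with z hz
    have hz0 : z ≠ 0 := hz
    have hz3 : z ^ 3 ≠ 0 := pow_ne_zero 3 hz0
    have e1 := L.derivWeierstrassPExcept_def (0 : L.lattice) z
    have e2 := L'.derivWeierstrassPExcept_def (0 : L'.lattice) z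
    simp only [ZeroMemClass.coe_zero, sub_zero] at e1 e2
    rw [ratio_apply, num_eq_mul_Bfun L hp.pos, hg]
    show ℘'[L] z * Bfun L p z0 z * (℘'[L'] z)⁻¹ =
      (z ^ 3 * ℘'[L - (0 : ℂ)] z - 2) * Bfun L p z0 z / (z ^ 3 * ℘'[L' - (0 : ℂ)] z - 2)
    rw [e1, e2]
    have e3 : z ^ 3 * (℘'[L] z + 2 / z ^ 3) - 2 = z ^ 3 * ℘'[L] z := by
      field_simp
      ring
    have e4 : z ^ 3 * (℘'[L'] z + 2 / z ^ 3) - 2 = z ^ 3 * ℘'[L'] z := by
      field_simp
      ring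
    rw [e3, e4, mul_assoc (z ^ 3), mul_div_mul_left _ _ hz3, div_eq_mul_inv]
  have ht1 : Tendsto g (𝓝[≠] (0 : ℂ)) (𝓝 (Cst L p z0)) := by
    rw [← hg0]
    exact hgc.tendsto.mono_left nhdsWithin_le_nhds
  have ht2 : Tendsto g (𝓝[≠] (0 : ℂ)) (𝓝 c) :=
    tendsto_const_nhds.congr' ((hc 0).symm.trans hev)
  exact tendsto_nhds_unique ht2 ht1

include hp h1 h0 hL' in
/-- **(★)** `℘'[L'] z · ∏_{0<k<p} ℘'[L](k z0) = ∏_{k<p} ℘'[L](z + k z0)`. -/
theorem star_identity (hp2 : p ≠ 2) (z : ℂ) (hz : z ∉ L'.lattice) :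
    ℘'[L'] z * ∏ k ∈ Finset.Ico 1 p, ℘'[L] ((k : ℂ) * z0) =
      ∏ k ∈ Finset.range p, ℘'[L] (z + (k : ℂ) * z0) := by
  obtain ⟨c, hc⟩ := exists_ratio_const L L' hp h1 h0 hL' hp2
  have hcC := ratio_const_eq L L' hp h1 h0 hL' hc
  subst hcC
  have hC0 := Cst_ne_zero L hp h1 h0 hp2
  have hc1 : ContinuousAt (num L p z0) z := (analyticAt_num L L' hp h1 hL' hz).continuousAt
  have hc2 : ContinuousAt (fun w => ℘'[L'] w * Cst L p z0) z :=
    (WPOrder27.analyticAt_derivWeierstrassP L' hz).continuousAt.mul continuousAt_const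
  have hev : num L p z0 =ᶠ[𝓝[≠] z] fun w => ℘'[L'] w * Cst L p z0 := by
    filter_upwards [hc z] with w hw
    rw [ratio_apply] at hw
    have hd : ℘'[L'] w ≠ 0 := by
      intro h0'
      rw [h0', inv_zero, mul_zero] at hw
      exact hC0 hw.symm
    rw [← hw]
    field_simp
  have h := ((hc1.eventuallyEq_nhds_iff_eventuallyEq_nhdsNE hc2).1 hev).eq_of_nhds
  rw [num_apply] at h
  rw [h]
  rfl


/-! ### The derivative of (★) at the half periods of `L` -/

include hp h1 h0 hL' in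
/-- A half period of `L` is not in `L'` (`p` odd). -/
theorem half_notMem' (hp2 : p ≠ 2) {ω : ℂ} (hω : ω ∉ L.lattice) (hω2 : ω + ω ∈ L.lattice) :
    ω ∉ L'.lattice := by
  intro hmem
  obtain ⟨k, hkp, hk⟩ := (mem_iff L L' hp h1 hL' ω).1 hmem
  by_cases hk0 : k = 0
  · subst hk0
    exact hω (by simpa using hk)
  · have h2 : (ω - k * z0) + (ω - k * z0) ∈ L.lattice := add_mem hk hk
    have h3 := L.lattice.sub_mem hω2 h2
    have e : (ω + ω) - ((ω - k * z0) + (ω - k * z0)) = 2 * ((k : ℂ) * z0) := by ring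
    rw [e] at h3
    exact two_mul_notMem L hp h1 h0 hp2 (by omega) hkp h3

include hp h1 hL' in
theorem analyticAt_Bfun {x : ℂ} (hx : x ∉ L'.lattice) : AnalyticAt ℂ (Bfun L p z0) x := by
  unfold Bfun
  refine Finset.analyticAt_prod _ fun k _ => ?_
  exact WPOrder27.analyticAt_derivWeierstrassP_comp_add L
    (add_notMem_of_notMem' L L' hp h1 hL' hx k)

include hp h1 h0 hL' in
theorem deriv_star_half (hp2 : p ≠ 2) {ω : ℂ} (hω : ω ∉ L.lattice) (hω2 : ω + ω ∈ L.lattice) :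
    deriv ℘'[L'] ω * Cst L p z0 =
      deriv ℘'[L] ω * ∏ k ∈ Finset.Ico 1 p, ℘'[L] (ω + (k : ℂ) * z0) := by
  have hωL' : ω ∉ L'.lattice := half_notMem' L L' hp h1 h0 hL' hp2 hω hω2
  have hev : (fun z => ℘'[L'] z * Cst L p z0) =ᶠ[𝓝 ω] fun z => ℘'[L] z * Bfun L p z0 z := by
    have hU : ∀ᶠ z in 𝓝 ω, z ∉ L'.lattice := L'.isClosed_lattice.isOpen_compl.mem_nhds hωL'
    filter_upwards [hU] with z hz
    have h := star_identity L L' hp h1 h0 hL' hp2 z hz
    rw [← num_apply, num_eq_mul_Bfun L hp.pos] at h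
    exact h
  have hd1 : HasDerivAt (fun z => ℘'[L'] z * Cst L p z0) (deriv ℘'[L'] ω * Cst L p z0) ω :=
    (WPOrder27.analyticAt_derivWeierstrassP L' hωL').differentiableAt.hasDerivAt.mul_const _
  have hP : HasDerivAt ℘'[L] (deriv ℘'[L] ω) ω :=
    (WPOrder27.analyticAt_derivWeierstrassP L hω).differentiableAt.hasDerivAt
  have hB : HasDerivAt (Bfun L p z0) (deriv (Bfun L p z0) ω) ω :=
    (analyticAt_Bfun L L' hp h1 hL' hωL').differentiableAt.hasDerivAt
  have hd2 := hP.mul hB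
  have h0' : ℘'[L] ω = 0 := HalfPeriod86.derivWeierstrassP_half L hω2
  have hder : deriv (fun z => ℘'[L'] z * Cst L p z0) ω =
      deriv (fun z => ℘'[L] z * Bfun L p z0 z) ω := hev.deriv_eq
  rw [hd1.deriv] at hder
  have hd2' : deriv (fun z => ℘'[L] z * Bfun L p z0 z) ω =
      deriv ℘'[L] ω * Bfun L p z0 ω + ℘'[L] ω * deriv (Bfun L p z0) ω := hd2.deriv
  rw [hd2', h0', zero_mul, add_zero, Bfun_apply] at hder
  exact hder

/-! ### Algebra of three distinct roots of the cubic -/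

theorem disc_of_roots {g2 g3 x y z : ℂ} (hx : 4 * x ^ 3 - g2 * x - g3 = 0)
    (hy : 4 * y ^ 3 - g2 * y - g3 = 0) (hz : 4 * z ^ 3 - g2 * z - g3 = 0)
    (hxy : x ≠ y) (hxz : x ≠ z) (hyz : y ≠ z) :
    g2 ^ 3 - 27 * g3 ^ 2 = 16 * ((x - y) * (x - z) * (y - z)) ^ 2 := by
  have hA : (x - y) * (4 * (x ^ 2 + x * y + y ^ 2) - g2) = 0 := by linear_combination hx - hy
  have hB : (x - z) * (4 * (x ^ 2 + x * z + z ^ 2) - g2) = 0 := by linear_combination hx - hz
  have hA' := (mul_eq_zero.mp hA).resolve_left (sub_ne_zero.mpr hxy)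
  have hB' := (mul_eq_zero.mp hB).resolve_left (sub_ne_zero.mpr hxz)
  have hC : (y - z) * (4 * (x + y + z)) = 0 := by linear_combination hA' - hB'
  have hC' := (mul_eq_zero.mp hC).resolve_left (sub_ne_zero.mpr hyz)
  have hz' : z = -x - y := by linear_combination (1 / 4 : ℂ) * hC'
  have hg2 : g2 = 4 * (x ^ 2 + x * y + y ^ 2) := by linear_combination -hA'
  have hg3 : g3 = 4 * x ^ 3 - g2 * x := by linear_combination -hx
  rw [hg3, hg2, hz']
  ring

/-- **(HP5), abstract form**: `Δ(M) = -2 ℘''(a) ℘''(b) ℘''(c)` for three half periods with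
`a + b ≡ c`. -/
theorem disc_eq_neg_two_mul_prod_of_half (M : PeriodPair) {a b c l : ℂ}
    (ha : a ∉ M.lattice) (hb : b ∉ M.lattice) (hc : c ∉ M.lattice)
    (ha2 : a + a ∈ M.lattice) (hb2 : b + b ∈ M.lattice) (hc2 : c + c ∈ M.lattice)
    (hl : l ∈ M.lattice) (hsum : a + b = c + l) :
    M.g₂ ^ 3 - 27 * M.g₃ ^ 2 = -2 * (deriv ℘'[M] a * deriv ℘'[M] b * deriv ℘'[M] c) := by
  have ka : (℘[M] c - ℘[M] a) * (℘[M] b - ℘[M] a) = deriv ℘'[M] a / 2 :=
    HalfPeriod86.key M ha hb hc ha2 hl (by rw [add_comm]; exact hsum)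
  have kb : (℘[M] c - ℘[M] b) * (℘[M] a - ℘[M] b) = deriv ℘'[M] b / 2 :=
    HalfPeriod86.key M hb ha hc hb2 hl hsum
  have kc : (℘[M] b - ℘[M] c) * (℘[M] a - ℘[M] c) = deriv ℘'[M] c / 2 := by
    refine HalfPeriod86.key M hc ha hb hc2 (l := a + a - l) (sub_mem ha2 hl) ?_
    linear_combination -hsum
  have na := HalfPeriod86.deriv_derivWeierstrassP_half_ne_zero M ha ha2
  have nb := HalfPeriod86.deriv_derivWeierstrassP_half_ne_zero M hb hb2
  have hab : ℘[M] a ≠ ℘[M] b := by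
    intro h
    rw [h, sub_self, mul_zero] at ka
    exact na (by have := ka.symm; simpa using this)
  have hac : ℘[M] a ≠ ℘[M] c := by
    intro h
    rw [h, sub_self, zero_mul] at ka
    exact na (by have := ka.symm; simpa using this)
  have hbc : ℘[M] b ≠ ℘[M] c := by
    intro h
    rw [h, sub_self, zero_mul] at kb
    exact nb (by have := kb.symm; simpa using this)
  have hd := disc_of_roots (HalfPeriod86.cubic_root M ha ha2) (HalfPeriod86.cubic_root M hb hb2)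
    (HalfPeriod86.cubic_root M hc hc2) hab hac hbc
  rw [hd]
  have ea : deriv ℘'[M] a = 2 * ((℘[M] c - ℘[M] a) * (℘[M] b - ℘[M] a)) := by
    linear_combination (-2 : ℂ) * ka
  have eb : deriv ℘'[M] b = 2 * ((℘[M] c - ℘[M] b) * (℘[M] a - ℘[M] b)) := by
    linear_combination (-2 : ℂ) * kb
  have ec : deriv ℘'[M] c = 2 * ((℘[M] b - ℘[M] c) * (℘[M] a - ℘[M] c)) := by
    linear_combination (-2 : ℂ) * kc
  rw [ea, eb, ec]
  ring


/-! ### (D) -/

include hp h1 h0 hL' in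
/-- **(D)** `Δ(L') · (∏_{0<k<p} ℘'[L](k z0))⁴ = Δ(L)^p`. -/
theorem delta_identity (hp2 : p ≠ 2) :
    (L'.g₂ ^ 3 - 27 * L'.g₃ ^ 2) * (∏ k ∈ Finset.Ico 1 p, ℘'[L] ((k : ℂ) * z0)) ^ 4 =
      (L.g₂ ^ 3 - 27 * L.g₃ ^ 2) ^ p := by
  set a := HalfPeriod86.h₁ L with ha
  set b := HalfPeriod86.h₂ L with hb
  set c := HalfPeriod86.h₃ L with hc
  have haL := HalfPeriod86.h₁_notMem L
  have hbL := HalfPeriod86.h₂_notMem L
  have hcL := HalfPeriod86.h₃_notMem L
  have ha2 := HalfPeriod86.h₁_add_self L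
  have hb2 := HalfPeriod86.h₂_add_self L
  have hc2 := HalfPeriod86.h₃_add_self L
  have hle := lattice_le L L' hL'
  -- the three derivatives of (★)
  have da := deriv_star_half L L' hp h1 h0 hL' hp2 haL ha2
  have db := deriv_star_half L L' hp h1 h0 hL' hp2 hbL hb2
  have dc := deriv_star_half L L' hp h1 h0 hL' hp2 hcL hc2
  -- (HP4) at the points `k z0`
  have hHP4 : Cst L p z0 * (∏ k ∈ Finset.Ico 1 p, ℘'[L] (a + (k : ℂ) * z0)) *
      (∏ k ∈ Finset.Ico 1 p, ℘'[L] (b + (k : ℂ) * z0)) *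
      (∏ k ∈ Finset.Ico 1 p, ℘'[L] (c + (k : ℂ) * z0)) =
      (L.g₂ ^ 3 - 27 * L.g₃ ^ 2) ^ (p - 1) := by
    unfold Cst
    rw [← Finset.prod_mul_distrib, ← Finset.prod_mul_distrib, ← Finset.prod_mul_distrib]
    have hcard : (Finset.Ico 1 p).card = p - 1 := Nat.card_Ico 1 p
    rw [← hcard, ← Finset.prod_const]
    refine Finset.prod_congr rfl fun k hk => ?_
    rw [Finset.mem_Ico] at hk
    have h := HalfPeriod86.prod_deriv_shift' L ((k : ℂ) * z0)
      (two_mul_notMem L hp h1 h0 hp2 (by omega) hk.2)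
    rw [add_comm a, add_comm b, add_comm c]
    exact h
  -- (HP5) for `L'` and for `L`
  have hΔ' : L'.g₂ ^ 3 - 27 * L'.g₃ ^ 2 =
      -2 * (deriv ℘'[L'] a * deriv ℘'[L'] b * deriv ℘'[L'] c) :=
    disc_eq_neg_two_mul_prod_of_half L' (half_notMem' L L' hp h1 h0 hL' hp2 haL ha2)
      (half_notMem' L L' hp h1 h0 hL' hp2 hbL hb2) (half_notMem' L L' hp h1 h0 hL' hp2 hcL hc2)
      (hle ha2) (hle hb2) (hle hc2) (zero_mem _)
      (by rw [ha, hb, hc]; unfold HalfPeriod86.h₁ HalfPeriod86.h₂ HalfPeriod86.h₃; ring)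
  have hΔ : L.g₂ ^ 3 - 27 * L.g₃ ^ 2 =
      -2 * (deriv ℘'[L] a * deriv ℘'[L] b * deriv ℘'[L] c) :=
    HalfPeriod86.disc_eq_neg_two_mul_prod L
  have hpow : (L.g₂ ^ 3 - 27 * L.g₃ ^ 2) ^ p =
      (L.g₂ ^ 3 - 27 * L.g₃ ^ 2) ^ (p - 1) * (L.g₂ ^ 3 - 27 * L.g₃ ^ 2) := by
    rw [← pow_succ]
    congr 1
    have := hp.pos
    omega
  show (L'.g₂ ^ 3 - 27 * L'.g₃ ^ 2) * Cst L p z0 ^ 4 = (L.g₂ ^ 3 - 27 * L.g₃ ^ 2) ^ p
  rw [hpow, ← hHP4, hΔ']
  have e : -2 * (deriv ℘'[L'] a * deriv ℘'[L'] b * deriv ℘'[L'] c) * Cst L p z0 ^ 4 =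
      -2 * ((deriv ℘'[L'] a * Cst L p z0) * (deriv ℘'[L'] b * Cst L p z0) *
        (deriv ℘'[L'] c * Cst L p z0)) * Cst L p z0 := by ring
  rw [e, da, db, dc, hΔ]
  ring

end Setting

end Fermat.Agent.MAZ.Analytic.DeltaId86
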