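/-
Programme MAZ (S15), analytic side (helper27): LIOUVILLE FOR ELLIPTIC FUNCTIONS WITH REMOVABLE
SINGULARITIES.  Mathlib only.

`exists_const_of_periodic`: a meromorphic function on `ℂ` which is periodic with respect to a
`ℤ`-lattice and has non-negative order at every point agrees with a constant at every point where
it is analytic.  (Proof: its normal form `toMeromorphicNFOn f univ` is entire and periodic, hence
bounded, hence constant.)  No patching by hand of the values at the singular points is needed.
-/
import Mathlib

set_option autoImplicit false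

open Filter Topology Set

namespace Fermat.Agent.MAZ.Analytic.EllLiouville27

section General

variable {f : ℂ → ℂ}

/-- The normal form of a meromorphic function whose orders are all non-negative is entire. -/
theorem differentiable_toNF (hf : Meromorphic f) (hord : ∀ z, 0 ≤ meromorphicOrderAt f z) :
    Differentiable ℂ (toMeromorphicNFOn f univ) := by
  have hfU : MeromorphicOn f univ := fun z _ => hf z
  intro z
  have hNF : MeromorphicNFAt (toMeromorphicNFOn f univ) z :=
    meromorphicNFOn_toMeromorphicNFOn f univ (mem_univ z)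
  have h0 : 0 ≤ meromorphicOrderAt (toMeromorphicNFOn f univ) z := by
    rw [meromorphicOrderAt_toMeromorphicNFOn hfU (mem_univ z)]
    exact hord z
  exact (hNF.meromorphicOrderAt_nonneg_iff_analyticAt.mp h0).differentiableAt

/-- The normal form agrees with `f` wherever `f` is analytic. -/
theorem toNF_eq_of_analyticAt (hf : Meromorphic f) {z : ℂ} (hz : AnalyticAt ℂ f z) :
    toMeromorphicNFOn f univ z = f z := by
  have hfU : MeromorphicOn f univ := fun z _ => hf z
  rw [toMeromorphicNFOn_eq_toMeromorphicNFAt hfU (mem_univ z),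
    toMeromorphicNFAt_eq_self.mpr hz.meromorphicNFAt]

/-- The normal form is the limit of `f` along the punctured neighbourhood filter. -/
theorem tendsto_toNF (hf : Meromorphic f) (hord : ∀ z, 0 ≤ meromorphicOrderAt f z) (z : ℂ) :
    Tendsto f (𝓝[≠] z) (𝓝 (toMeromorphicNFOn f univ z)) := by
  have hfU : MeromorphicOn f univ := fun z _ => hf z
  have hc : ContinuousAt (toMeromorphicNFOn f univ) z :=
    (differentiable_toNF hf hord z).continuousAt
  have h1 : Tendsto (toMeromorphicNFOn f univ) (𝓝[≠] z) (𝓝 (toMeromorphicNFOn f univ z)) :=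
    hc.tendsto.mono_left nhdsWithin_le_nhds
  exact h1.congr' (hfU.toMeromorphicNFOn_eq_self_on_nhdsNE (mem_univ z))

/-- Periodicity passes to the normal form. -/
theorem toNF_add_period (hf : Meromorphic f) (hord : ∀ z, 0 ≤ meromorphicOrderAt f z) {l : ℂ}
    (hl : ∀ z, f (z + l) = f z) (z : ℂ) :
    toMeromorphicNFOn f univ (z + l) = toMeromorphicNFOn f univ z := by
  have h1 := tendsto_toNF hf hord (z + l)
  have h2 := tendsto_toNF hf hord z
  have hmap : Tendsto (fun w : ℂ => w + l) (𝓝[≠] z) (𝓝[≠] (z + l)) := by
    refine tendsto_nhdsWithin_of_tendsto_nhds_of_eventually_within _ ?_ ?_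
    · exact ((continuous_id.add continuous_const).tendsto z).mono_left nhdsWithin_le_nhds
    · filter_upwards [self_mem_nhdsWithin] with w hw
      simpa using hw
  have h3 : Tendsto (fun w : ℂ => f (w + l)) (𝓝[≠] z) (𝓝 (toMeromorphicNFOn f univ (z + l))) :=
    h1.comp hmap
  have h4 : Tendsto f (𝓝[≠] z) (𝓝 (toMeromorphicNFOn f univ (z + l))) := by
    refine h3.congr fun w => hl w
  exact tendsto_nhds_unique h4 h2

/-- **Liouville for elliptic functions with removable singularities.** -/
theorem exists_const_of_periodic_lattice (Λ : Submodule ℤ ℂ) [DiscreteTopology Λ]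
    [IsZLattice ℝ Λ] (hf : Meromorphic f) (hper : ∀ l ∈ Λ, ∀ z, f (z + l) = f z)
    (hord : ∀ z, 0 ≤ meromorphicOrderAt f z) :
    ∃ c : ℂ, ∀ z, AnalyticAt ℂ f z → f z = c := by
  have hd := differentiable_toNF hf hord
  refine ⟨toMeromorphicNFOn f univ 0, fun z hz => ?_⟩
  rw [← toNF_eq_of_analyticAt hf hz]
  exact hd.apply_eq_apply_of_bounded
    (IsZLattice.isCompact_range_of_periodic Λ _ hd.continuous
      fun z w hw => toNF_add_period hf hord (hper w hw) z).isBounded z 0

/-- **Liouville for elliptic functions with removable singularities**, `PeriodPair` form. -/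
theorem exists_const_of_periodic (L : PeriodPair) (hf : Meromorphic f)
    (hper : ∀ l ∈ L.lattice, ∀ z, f (z + l) = f z)
    (hord : ∀ z, 0 ≤ meromorphicOrderAt f z) :
    ∃ c : ℂ, ∀ z, AnalyticAt ℂ f z → f z = c :=
  exists_const_of_periodic_lattice L.lattice hf hper hord

/-- Two-point form: the values at any two points of analyticity agree. -/
theorem eq_of_periodic (L : PeriodPair) (hf : Meromorphic f)
    (hper : ∀ l ∈ L.lattice, ∀ z, f (z + l) = f z)
    (hord : ∀ z, 0 ≤ meromorphicOrderAt f z) {z w : ℂ} (hz : AnalyticAt ℂ f z)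
    (hw : AnalyticAt ℂ f w) : f z = f w := by
  obtain ⟨c, hc⟩ := exists_const_of_periodic L hf hper hord
  rw [hc z hz, hc w hw]

end General

end Fermat.Agent.MAZ.Analytic.EllLiouville27
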