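/-
MAZ / Analytic (helper80): THE DISCRIMINANT IDENTITY (D) FOR AN INDEX-`p` SUPERLATTICE, by a route
which uses no derivative identities:

  `Δ(L') · (∏_{k=1}^{p-1} ℘'_L(k z0))⁴ = Δ(L)^p`   for `L' = L + ℤ z0`, `p z0 ∈ L`, `p` odd prime.

* (P) for a half period `ω` of `L` and `z ∉ L'`:
  `∏_{k<p} (℘_L(z + k z0) - ℘_L ω) = (∏_{0<k<p} (℘_L(k z0) - ℘_L ω)) · (℘_{L'} z - ℘_{L'} ω)`
  (Liouville for the difference of the two sides, which vanishes at `z = ω`);
* (Q) (P) at the other half periods + the translation formula (HP2);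
* (R) the discriminant of the cubic with roots `e₁ e₂ e₃`.
-/
import Mathlib
import Fermat.Agent.MAZ.Analytic.EllLiouville27
import Fermat.Agent.MAZ.Analytic.WPOrder27
import Fermat.Agent.MAZ.Analytic.Elliptic32
import Fermat.Agent.MAZ.Analytic.AddThm32

set_option autoImplicit false

open Filter Topology Set
open scoped PeriodPair

namespace Fermat.Agent.MAZ.Analytic.DeltaIdentity80

open Fermat.Agent.MAZ.Analytic.EllLiouville27 Fermat.Agent.MAZ.Analytic.WPOrder27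
  Fermat.Agent.MAZ.Analytic.Elliptic32

/-! ### Half periods -/

/-- `ω` is a half period of `L`: `ω ∉ L`, `2ω ∈ L`. -/
def IsHalf (L : PeriodPair) (ω : ℂ) : Prop := ω ∉ L.lattice ∧ ω + ω ∈ L.lattice

section Half

variable {L : PeriodPair} {ω η : ℂ}

theorem IsHalf.deriv_eq_zero (h : IsHalf L ω) : ℘'[L] ω = 0 :=
  (derivWeierstrassP_eq_zero_iff L h.1).2 h.2

/-- The difference of two incongruent half periods is a half period. -/
theorem IsHalf.sub (hω : IsHalf L ω) (hη : IsHalf L η) (h : ω - η ∉ L.lattice) :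
    IsHalf L (ω - η) := by
  refine ⟨h, ?_⟩
  have : ω - η + (ω - η) = (ω + ω) - (η + η) := by ring
  rw [this]
  exact L.lattice.sub_mem hω.2 hη.2

/-- The sum of two incongruent half periods is a half period. -/
theorem IsHalf.add (hω : IsHalf L ω) (hη : IsHalf L η) (h : ω - η ∉ L.lattice) :
    IsHalf L (ω + η) := by
  refine ⟨fun h' => h ?_, ?_⟩
  · have : ω - η = (ω + η) - (η + η) := by ring
    rw [this]
    exact L.lattice.sub_mem h' hη.2
  · have : ω + η + (ω + η) = (ω + ω) + (η + η) := by ring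
    rw [this]
    exact L.lattice.add_mem hω.2 hη.2

/-- Incongruent half periods have different `℘`-values. -/
theorem IsHalf.wp_ne (hω : IsHalf L ω) (hη : IsHalf L η) (h : ω - η ∉ L.lattice) :
    ℘[L] ω ≠ ℘[L] η := by
  intro he
  rcases (weierstrassP_eq_iff L hω.1 hη.1).1 he with h' | h'
  · exact h h'
  · exact (hω.add hη h).1 h'

/-- The value of `℘` at a half period is a root of `4X³ - g₂X - g₃`. -/
theorem IsHalf.cubic (h : IsHalf L ω) :
    4 * ℘[L] ω ^ 3 - L.g₂ * ℘[L] ω - L.g₃ = 0 := by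
  have := L.derivWeierstrassP_sq ω h.1
  rw [h.deriv_eq_zero] at this
  linear_combination -this

end Half

/-! ### The cubic with three distinct roots -/

section Cubic

variable {g2 g3 e1 e2 e3 : ℂ}

theorem cubic_sum (h1 : 4 * e1 ^ 3 - g2 * e1 - g3 = 0) (h2 : 4 * e2 ^ 3 - g2 * e2 - g3 = 0)
    (h3 : 4 * e3 ^ 3 - g2 * e3 - g3 = 0) (h12 : e1 ≠ e2) (h13 : e1 ≠ e3) (h23 : e2 ≠ e3) :
    e1 + e2 + e3 = 0 ∧ g2 = -4 * (e1 * e2 + e1 * e3 + e2 * e3) ∧ g3 = 4 * (e1 * e2 * e3) := by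
  have ha : 4 * (e1 ^ 2 + e1 * e2 + e2 ^ 2) = g2 := by
    have : (e1 - e2) * (4 * (e1 ^ 2 + e1 * e2 + e2 ^ 2) - g2) = 0 := by
      linear_combination h1 - h2
    rcases mul_eq_zero.1 this with h | h
    · exact absurd (sub_eq_zero.1 h) h12
    · linear_combination h
  have hb : 4 * (e1 ^ 2 + e1 * e3 + e3 ^ 2) = g2 := by
    have : (e1 - e3) * (4 * (e1 ^ 2 + e1 * e3 + e3 ^ 2) - g2) = 0 := by
      linear_combination h1 - h3
    rcases mul_eq_zero.1 this with h | h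
    · exact absurd (sub_eq_zero.1 h) h13
    · linear_combination h
  have hs : e1 + e2 + e3 = 0 := by
    have : (e2 - e3) * (4 * (e1 + e2 + e3)) = 0 := by linear_combination ha - hb
    rcases mul_eq_zero.1 this with h | h
    · exact absurd (sub_eq_zero.1 h) h23
    · exact (mul_eq_zero.1 h).resolve_left (by norm_num)
  have he3 : e3 = -e1 - e2 := by linear_combination hs
  refine ⟨hs, ?_, ?_⟩
  · rw [← ha, he3]; ring
  · have : g3 = 4 * e1 ^ 3 - g2 * e1 := by linear_combination -h1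
    rw [this, ← ha, he3]; ring

/-- Factorisation of the cubic. -/
theorem cubic_factor (h1 : 4 * e1 ^ 3 - g2 * e1 - g3 = 0) (h2 : 4 * e2 ^ 3 - g2 * e2 - g3 = 0)
    (h3 : 4 * e3 ^ 3 - g2 * e3 - g3 = 0) (h12 : e1 ≠ e2) (h13 : e1 ≠ e3) (h23 : e2 ≠ e3) (x : ℂ) :
    4 * x ^ 3 - g2 * x - g3 = 4 * ((x - e1) * (x - e2) * (x - e3)) := by
  obtain ⟨hs, hg2, hg3⟩ := cubic_sum h1 h2 h3 h12 h13 h23
  have he3 : e3 = -e1 - e2 := by linear_combination hs
  rw [hg2, hg3, he3]; ring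

/-- Discriminant of the cubic. -/
theorem cubic_disc (h1 : 4 * e1 ^ 3 - g2 * e1 - g3 = 0) (h2 : 4 * e2 ^ 3 - g2 * e2 - g3 = 0)
    (h3 : 4 * e3 ^ 3 - g2 * e3 - g3 = 0) (h12 : e1 ≠ e2) (h13 : e1 ≠ e3) (h23 : e2 ≠ e3) :
    g2 ^ 3 - 27 * g3 ^ 2 = 16 * ((e1 - e2) * (e1 - e3) * (e2 - e3)) ^ 2 := by
  obtain ⟨hs, hg2, hg3⟩ := cubic_sum h1 h2 h3 h12 h13 h23
  have he3 : e3 = -e1 - e2 := by linear_combination hs
  rw [hg2, hg3, he3]; ring

end Cubic

/-! ### An index-`p` superlattice -/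

/-- `L' = L + ℤ z0` where `z0` has exact order `p` (odd) modulo `L`. -/
structure IsSuper (L L' : PeriodPair) (p : ℕ) (z0 : ℂ) : Prop where
  odd : Odd p
  mem_iff : ∀ k : ℤ, (k : ℂ) * z0 ∈ L.lattice ↔ (p : ℤ) ∣ k
  lattice_eq : L'.lattice = L.lattice ⊔ Submodule.span ℤ {z0}

namespace IsSuper

variable {L L' : PeriodPair} {p : ℕ} {z0 : ℂ} (H : IsSuper L L' p z0)
include H

theorem pos : 0 < p := H.odd.pos

theorem le : L.lattice ≤ L'.lattice := by
  rw [H.lattice_eq]; exact le_sup_left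

theorem z0_mem : z0 ∈ L'.lattice := by
  rw [H.lattice_eq]
  exact (le_sup_right : Submodule.span ℤ {z0} ≤ _) (Submodule.mem_span_singleton_self z0)

theorem p_mul_mem : (p : ℂ) * z0 ∈ L.lattice := by
  have := (H.mem_iff p).2 dvd_rfl
  simpa using this

theorem mem_iff' {x : ℂ} : x ∈ L'.lattice ↔ ∃ k : ℤ, x - (k : ℂ) * z0 ∈ L.lattice := by
  rw [H.lattice_eq, Submodule.mem_sup]
  constructor
  · rintro ⟨a, ha, b, hb, rfl⟩
    obtain ⟨k, rfl⟩ := Submodule.mem_span_singleton.1 hb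
    refine ⟨k, ?_⟩
    have : a + k • z0 - (k : ℂ) * z0 = a := by simp [zsmul_eq_mul]
    rw [this]; exact ha
  · rintro ⟨k, hk⟩
    refine ⟨x - (k : ℂ) * z0, hk, (k : ℂ) * z0, ?_, by ring⟩
    rw [Submodule.mem_span_singleton]
    exact ⟨k, by simp [zsmul_eq_mul]⟩

theorem natCast_mul_notMem {k : ℕ} (hk : k ∈ Finset.Ico 1 p) : (k : ℂ) * z0 ∉ L.lattice := by
  intro h
  have h' := (H.mem_iff k).1 (by simpa using h)
  rw [Finset.mem_Ico] at hk
  have : p ∣ k := by exact_mod_cast h'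
  exact absurd (Nat.le_of_dvd (by omega) this) (by omega)

/-- A half period of `L` is not in `L'`. -/
theorem half_notMem {ω : ℂ} (hω : IsHalf L ω) : ω ∉ L'.lattice := by
  intro h
  obtain ⟨k, hk⟩ := H.mem_iff'.1 h
  -- `2 k z0 ∈ L`
  have h2 : ((2 * k : ℤ) : ℂ) * z0 ∈ L.lattice := by
    have h3 := L.lattice.sub_mem hω.2 (L.lattice.add_mem hk hk)
    have : ω + ω - (ω - (k : ℂ) * z0 + (ω - (k : ℂ) * z0)) = ((2 * k : ℤ) : ℂ) * z0 := by
      push_cast; ring
    rwa [this] at h3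
  have hd : (p : ℤ) ∣ 2 * k := (H.mem_iff _).1 h2
  have hpk : (p : ℤ) ∣ k := by
    have hcop : IsCoprime (p : ℤ) 2 := by
      rw [Int.isCoprime_iff_gcd_eq_one]
      obtain ⟨m, hm⟩ := H.odd
      rw [hm]
      simp [Int.gcd]
    exact hcop.dvd_of_dvd_mul_left hd
  have hk' : (k : ℂ) * z0 ∈ L.lattice := (H.mem_iff k).2 hpk
  apply hω.1
  have := L.lattice.add_mem hk hk'
  simpa using this

theorem isHalf {ω : ℂ} (hω : IsHalf L ω) : IsHalf L' ω :=
  ⟨H.half_notMem hω, H.le hω.2⟩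

theorem sub_notMem {ω η : ℂ} (hω : IsHalf L ω) (hη : IsHalf L η) (h : ω - η ∉ L.lattice) :
    ω - η ∉ L'.lattice :=
  H.half_notMem (hω.sub hη h)

/-- If `z ∉ L'` then no `z + k z0` lies in `L`. -/
theorem add_mul_notMem {z : ℂ} (hz : z ∉ L'.lattice) (k : ℕ) : z + (k : ℂ) * z0 ∉ L.lattice := by
  intro h
  apply hz
  rw [H.mem_iff']
  refine ⟨-(k : ℤ), ?_⟩
  have : z - ((-(k : ℤ) : ℤ) : ℂ) * z0 = z + (k : ℂ) * z0 := by push_cast; ring
  rw [this]; exact h

/-- `k z0 + ω ∉ L` for `0 < k < p` and a half period `ω`. -/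
theorem mul_add_half_notMem {ω : ℂ} (hω : IsHalf L ω) (k : ℕ) :
    (k : ℂ) * z0 + ω ∉ L.lattice := by
  rw [add_comm]
  exact H.add_mul_notMem (H.half_notMem hω) k

end IsSuper

/-! ### The product formula (P) -/

/-- `B(z) = ∏_{0<k<p} (℘_L(z + k z0) - e)`. -/
noncomputable def Bfun (L : PeriodPair) (p : ℕ) (z0 e z : ℂ) : ℂ :=
  ∏ k ∈ Finset.Ico 1 p, (℘[L] (z + (k : ℂ) * z0) - e)

/-- `P(z) = ∏_{k<p} (℘_L(z + k z0) - e)`. -/
noncomputable def Pfun (L : PeriodPair) (p : ℕ) (z0 e z : ℂ) : ℂ :=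
  ∏ k ∈ Finset.range p, (℘[L] (z + (k : ℂ) * z0) - e)

theorem Pfun_eq (L : PeriodPair) {p : ℕ} (hp : 0 < p) (z0 e z : ℂ) :
    Pfun L p z0 e z = (℘[L] z - e) * Bfun L p z0 e z := by
  unfold Pfun Bfun
  rw [Finset.range_eq_Ico, Finset.prod_eq_prod_Ico_succ_bot hp]
  simp

section ProductFormula

variable {L L' : PeriodPair} {p : ℕ} {z0 : ℂ} (H : IsSuper L L' p z0) (e : ℂ)
include H

theorem Pfun_add_z0 (z : ℂ) : Pfun L p z0 e (z + z0) = Pfun L p z0 e z := by
  obtain ⟨n, rfl⟩ : ∃ n, p = n + 1 := ⟨p - 1, by have := H.pos; omega⟩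
  unfold Pfun
  have h1 : ∀ k : ℕ, ℘[L] (z + z0 + (k : ℂ) * z0) - e = ℘[L] (z + ((k + 1 : ℕ) : ℂ) * z0) - e := by
    intro k
    congr 2
    push_cast; ring
  simp_rw [h1]
  rw [Finset.prod_range_succ (fun k => ℘[L] (z + ((k + 1 : ℕ) : ℂ) * z0) - e),
    Finset.prod_range_succ' (fun k => ℘[L] (z + ((k : ℕ) : ℂ) * z0) - e)]
  congr 1
  have hmem : ((n + 1 : ℕ) : ℂ) * z0 ∈ L.lattice := H.p_mul_mem
  have := L.weierstrassP_add_coe z ⟨_, hmem⟩
  simp only at this
  rw [this]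
  simp

omit H in
theorem Pfun_add_lattice (z : ℂ) {l : ℂ} (hl : l ∈ L.lattice) :
    Pfun L p z0 e (z + l) = Pfun L p z0 e z := by
  unfold Pfun
  refine Finset.prod_congr rfl fun k _ => ?_
  have : z + l + (k : ℂ) * z0 = z + (k : ℂ) * z0 + l := by ring
  rw [this]
  have := L.weierstrassP_add_coe (z + (k : ℂ) * z0) ⟨l, hl⟩
  simp only at this
  rw [this]

/-- `B` is even. -/
theorem Bfun_neg (z : ℂ) : Bfun L p z0 e (-z) = Bfun L p z0 e z := by
  unfold Bfun
  have h1 : ∀ j ∈ Finset.Ico 1 p, ℘[L] (-z + (j : ℂ) * z0) - e =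
      (fun i : ℕ => ℘[L] (z + (i : ℂ) * z0) - e) (p - j) := by
    intro j hj
    rw [Finset.mem_Ico] at hj
    simp only
    congr 1
    have hcast : ((p - j : ℕ) : ℂ) = (p : ℂ) - j := by
      rw [Nat.cast_sub hj.2.le]
    rw [hcast, ← L.weierstrassP_neg (z + ((p : ℂ) - j) * z0)]
    apply weierstrassP_eq_of_sub_mem
    have : -z + (j : ℂ) * z0 - -(z + ((p : ℂ) - j) * z0) = (p : ℂ) * z0 := by ring
    rw [this]
    exact H.p_mul_mem
  rw [Finset.prod_congr rfl h1]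
  have h2 := Finset.prod_Ico_reflect (fun i : ℕ => ℘[L] (z + (i : ℂ) * z0) - e) 1
    (show p ≤ p + 1 from Nat.le_succ p)
  rw [h2]
  have h3 : p + 1 - p = 1 := by omega
  rw [h3, Nat.add_sub_cancel]

theorem analyticAt_Bfun_zero : AnalyticAt ℂ (Bfun L p z0 e) 0 := by
  unfold Bfun
  refine Finset.analyticAt_fun_prod _ fun k hk => ?_
  refine (analyticAt_weierstrassP_comp_add L ?_).sub analyticAt_const
  rw [zero_add]
  exact H.natCast_mul_notMem hk

theorem deriv_Bfun_zero : deriv (Bfun L p z0 e) 0 = 0 := by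
  have h1 : (fun z => Bfun L p z0 e (-z)) = Bfun L p z0 e := funext (Bfun_neg H e)
  have h2 := deriv_comp_neg (Bfun L p z0 e) 0
  rw [h1, neg_zero] at h2
  have : (2 : ℂ) * deriv (Bfun L p z0 e) 0 = 0 := by linear_combination h2
  simpa using this

/-- `G = P - B(0)·(℘_{L'} - e')`. -/
noncomputable def Gfun (L L' : PeriodPair) (p : ℕ) (z0 e e' z : ℂ) : ℂ :=
  Pfun L p z0 e z - Bfun L p z0 e 0 * (℘[L'] z - e')

omit H in
theorem meromorphic_Gfun (e' : ℂ) : Meromorphic (Gfun L L' p z0 e e') := by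
  intro x
  unfold Gfun Pfun
  refine MeromorphicAt.sub ?_ ?_
  · refine MeromorphicAt.fun_prod fun k _ => ?_
    exact ((meromorphic_weierstrassP_comp_add L _) x).sub (MeromorphicAt.const _ x)
  · exact (MeromorphicAt.const _ x).mul ((L'.meromorphic_weierstrassP x).sub (MeromorphicAt.const _ x))

theorem Gfun_add_mem (e' : ℂ) {x : ℂ} (hx : x ∈ L'.lattice) (z : ℂ) :
    Gfun L L' p z0 e e' (z + x) = Gfun L L' p z0 e e' z := by
  let S : AddSubgroup ℂ :=
    { carrier := {x | ∀ z, Gfun L L' p z0 e e' (z + x) = Gfun L L' p z0 e e' z}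
      zero_mem' := by intro z; simp
      add_mem' := by
        intro a b ha hb z
        rw [← add_assoc, hb, ha]
      neg_mem' := by
        intro a ha z
        have := ha (z + -a)
        rw [neg_add_cancel_right] at this
        exact this.symm }
  have hle : L'.lattice ≤ AddSubgroup.toIntSubmodule S := by
    rw [H.lattice_eq]
    refine sup_le ?_ ?_
    · intro l hl
      show l ∈ S
      intro z
      unfold Gfun
      rw [Pfun_add_lattice e z hl]
      have := L'.weierstrassP_add_coe z ⟨l, H.le hl⟩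
      simp only at this
      rw [this]
    · rw [Submodule.span_le, Set.singleton_subset_iff]
      show z0 ∈ S
      intro z
      unfold Gfun
      rw [Pfun_add_z0 H e z]
      have := L'.weierstrassP_add_coe z ⟨z0, H.z0_mem⟩
      simp only at this
      rw [this]
  exact hle hx z

theorem order_Gfun_zero (e' : ℂ) : 0 ≤ meromorphicOrderAt (Gfun L L' p z0 e e') 0 := by
  set B := Bfun L p z0 e with hB
  have hBan : AnalyticAt ℂ B 0 := analyticAt_Bfun_zero H e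
  set T1 : ℂ → ℂ := (id ^ 2)⁻¹ * (fun z => B z - B 0) with hT1
  set T2 : ℂ → ℂ := fun z => (℘[L - (0 : ℂ)] z - e) * B z - B 0 * (℘[L' - (0 : ℂ)] z - e') with hT2
  have hG : Gfun L L' p z0 e e' = T1 + T2 := by
    funext z
    simp only [hT1, hT2, Pi.add_apply, Pi.mul_apply, Pi.inv_apply, Pi.pow_apply, id_eq, Gfun]
    rw [Pfun_eq L H.pos, AddThm32.weierstrassP_eq_except L z, AddThm32.weierstrassP_eq_except L' z]
    ring
  have hT2an : AnalyticAt ℂ T2 0 := by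
    have h1 : AnalyticAt ℂ ℘[L - (0 : ℂ)] 0 := L.analyticAt_weierstrassPExcept 0
    have h2 : AnalyticAt ℂ ℘[L' - (0 : ℂ)] 0 := L'.analyticAt_weierstrassPExcept 0
    exact ((h1.sub analyticAt_const).mul hBan).sub (analyticAt_const.mul (h2.sub analyticAt_const))
  have hsubmer : MeromorphicAt (fun z => B z - B 0) 0 := (hBan.sub analyticAt_const).meromorphicAt
  have hinvmer : MeromorphicAt ((id ^ 2)⁻¹ : ℂ → ℂ) 0 := by fun_prop
  have hT1ord : 0 ≤ meromorphicOrderAt T1 0 := by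
    rw [hT1, meromorphicOrderAt_mul hinvmer hsubmer, meromorphicOrderAt_inv,
      meromorphicOrderAt_pow (by fun_prop), meromorphicOrderAt_id]
    have h2 : (2 : WithTop ℤ) ≤ meromorphicOrderAt (fun z => B z - B 0) 0 :=
      two_le_order_sub_of_deriv_eq_zero hBan (deriv_Bfun_zero H e)
    calc (0 : WithTop ℤ) = -(2 • (1 : WithTop ℤ)) + 2 := by rfl
      _ ≤ -(2 • (1 : WithTop ℤ)) + meromorphicOrderAt (fun z => B z - B 0) 0 :=
        add_le_add_right h2 _
  have hT1mer : MeromorphicAt T1 0 := hinvmer.mul hsubmer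
  rw [hG]
  refine le_trans ?_ (meromorphicOrderAt_add hT1mer hT2an.meromorphicAt)
  exact le_min hT1ord hT2an.meromorphicOrderAt_nonneg

theorem order_Gfun (e' : ℂ) (x : ℂ) (hx : x ∈ L'.lattice) :
    0 ≤ meromorphicOrderAt (Gfun L L' p z0 e e') x := by
  have h1 : (Gfun L L' p z0 e e') ∘ (· + x) = Gfun L L' p z0 e e' := by
    funext z
    exact Gfun_add_mem H e e' hx z
  have h2 := meromorphicOrderAt_comp_add_const_eq_meromorphicOrderAt
    (f := Gfun L L' p z0 e e') (x := 0) (c := x)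
  rw [h1, zero_add] at h2
  rw [← h2]
  exact order_Gfun_zero H e e'

omit H in
theorem analyticAt_Pfun (H : IsSuper L L' p z0) {z : ℂ} (hz : z ∉ L'.lattice) :
    AnalyticAt ℂ (Pfun L p z0 e) z := by
  unfold Pfun
  refine Finset.analyticAt_fun_prod _ fun k _ => ?_
  exact (analyticAt_weierstrassP_comp_add L (H.add_mul_notMem hz k)).sub analyticAt_const

theorem analyticAt_Gfun (e' : ℂ) {z : ℂ} (hz : z ∉ L'.lattice) :
    AnalyticAt ℂ (Gfun L L' p z0 e e') z := by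
  unfold Gfun
  exact (analyticAt_Pfun e H hz).sub
    (analyticAt_const.mul ((analyticAt_weierstrassP L' hz).sub analyticAt_const))

end ProductFormula

/-- **The product formula (P).** -/
theorem prod_formula {L L' : PeriodPair} {p : ℕ} {z0 : ℂ} (H : IsSuper L L' p z0) {ω : ℂ}
    (hω : IsHalf L ω) {z : ℂ} (hz : z ∉ L'.lattice) :
    Pfun L p z0 (℘[L] ω) z = Bfun L p z0 (℘[L] ω) 0 * (℘[L'] z - ℘[L'] ω) := by
  have hord : ∀ x, 0 ≤ meromorphicOrderAt (Gfun L L' p z0 (℘[L] ω) (℘[L'] ω)) x := by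
    intro x
    by_cases hx : x ∈ L'.lattice
    · exact order_Gfun H _ _ x hx
    · exact (analyticAt_Gfun H _ _ hx).meromorphicOrderAt_nonneg
  have key := eq_of_periodic L' (meromorphic_Gfun _ _)
    (fun l hl z => Gfun_add_mem H _ _ hl z) hord
    (analyticAt_Gfun H (℘[L] ω) (℘[L'] ω) hz)
    (analyticAt_Gfun H (℘[L] ω) (℘[L'] ω) (H.half_notMem hω))
  have h0 : Gfun L L' p z0 (℘[L] ω) (℘[L'] ω) ω = 0 := by
    unfold Gfun
    rw [Pfun_eq L H.pos]
    ring
  rw [h0] at key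
  unfold Gfun at key
  linear_combination key

/-! ### (HP2): the translation formula at a half period -/

section HP2

variable {L : PeriodPair} {ω η : ℂ}

/-- `F(z) = (℘(z + ω) - ℘ ω)(℘ z - ℘ ω)`. -/
noncomputable def Ffun (L : PeriodPair) (ω z : ℂ) : ℂ :=
  (℘[L] (z + ω) - ℘[L] ω) * (℘[L] z - ℘[L] ω)

theorem meromorphic_Ffun (L : PeriodPair) (ω : ℂ) : Meromorphic (Ffun L ω) := by
  intro x
  unfold Ffun
  exact (((meromorphic_weierstrassP_comp_add L ω) x).sub (MeromorphicAt.const _ x)).mul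
    ((L.meromorphic_weierstrassP x).sub (MeromorphicAt.const _ x))

theorem Ffun_add_mem (L : PeriodPair) (ω : ℂ) {l : ℂ} (hl : l ∈ L.lattice) (z : ℂ) :
    Ffun L ω (z + l) = Ffun L ω z := by
  unfold Ffun
  have h1 := L.weierstrassP_add_coe z ⟨l, hl⟩
  have h2 := L.weierstrassP_add_coe (z + ω) ⟨l, hl⟩
  simp only at h1 h2
  have : z + l + ω = z + ω + l := by ring
  rw [this, h1, h2]

theorem analyticAt_Ffun {z : ℂ} (hz : z ∉ L.lattice) (hz' : z + ω ∉ L.lattice) :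
    AnalyticAt ℂ (Ffun L ω) z := by
  unfold Ffun
  exact ((analyticAt_weierstrassP_comp_add L hz').sub analyticAt_const).mul
    ((analyticAt_weierstrassP L hz).sub analyticAt_const)

theorem order_Ffun (hω : IsHalf L ω) (x : ℂ) : 0 ≤ meromorphicOrderAt (Ffun L ω) x := by
  have hmer1 : MeromorphicAt (fun z => ℘[L] (z + ω) - ℘[L] ω) x :=
    ((meromorphic_weierstrassP_comp_add L ω) x).sub (MeromorphicAt.const _ x)
  have hmer2 : MeromorphicAt (fun z => ℘[L] z - ℘[L] ω) x :=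
    (L.meromorphic_weierstrassP x).sub (MeromorphicAt.const _ x)
  have hF : Ffun L ω = (fun z => ℘[L] (z + ω) - ℘[L] ω) * (fun z => ℘[L] z - ℘[L] ω) := by
    funext z; rfl
  by_cases hx : x ∈ L.lattice
  · rw [hF, meromorphicOrderAt_mul hmer1 hmer2, order_weierstrassP_sub_const L hx]
    have h2 := two_le_order_weierstrassP_comp_add_sub L hω.1 hx hω.deriv_eq_zero
    calc (0 : WithTop ℤ) = 2 + (-2 : ℤ) := by rfl
      _ ≤ _ := add_le_add_left h2 _
  by_cases hx' : x + ω ∈ L.lattice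
  · rw [hF, meromorphicOrderAt_mul hmer1 hmer2, order_weierstrassP_comp_add_sub_const L hx']
    -- `℘ x = ℘ ω`, `℘' x = 0`
    have hxω : x - -ω ∈ L.lattice := by simpa using hx'
    have hval : ℘[L] x = ℘[L] ω := by
      rw [weierstrassP_eq_of_sub_mem L hxω, L.weierstrassP_neg]
    have hder : ℘'[L] x = 0 := by
      rw [derivWeierstrassP_eq_of_sub_mem L hxω, L.derivWeierstrassP_neg, hω.deriv_eq_zero,
        neg_zero]
    have h2 := two_le_order_weierstrassP_sub L hx hder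
    rw [hval] at h2
    calc (0 : WithTop ℤ) = (-2 : ℤ) + 2 := by rfl
      _ ≤ _ := add_le_add_right h2 _
  · exact (analyticAt_Ffun hx hx').meromorphicOrderAt_nonneg

/-- **(HP2)** -/
theorem mul_translate_half (hω : IsHalf L ω) (hη : IsHalf L η) (h : ω - η ∉ L.lattice) {z : ℂ}
    (hz : z ∉ L.lattice) (hz' : z + ω ∉ L.lattice) :
    (℘[L] (z + ω) - ℘[L] ω) * (℘[L] z - ℘[L] ω) =
      (℘[L] ω - ℘[L] η) * (℘[L] ω - ℘[L] (ω + η)) := by
  have hηω : η + ω ∉ L.lattice := by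
    rw [add_comm]; exact (hω.add hη h).1
  have key := eq_of_periodic L (meromorphic_Ffun L ω) (fun l hl z => Ffun_add_mem L ω hl z)
    (order_Ffun hω) (analyticAt_Ffun hz hz') (analyticAt_Ffun hη.1 hηω)
  unfold Ffun at key
  rw [key, add_comm η ω]
  ring

end HP2

/-! ### (Q) and (R) -/

section Final

variable {L L' : PeriodPair} {p : ℕ} {z0 : ℂ} (H : IsSuper L L' p z0)
include H

/-- `A_ω ≠ 0`. -/
theorem Bfun_zero_ne_zero {ω : ℂ} (hω : IsHalf L ω) : Bfun L p z0 (℘[L] ω) 0 ≠ 0 := by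
  unfold Bfun
  rw [Finset.prod_ne_zero_iff]
  intro k hk hzero
  rw [zero_add, sub_eq_zero] at hzero
  have h1 := H.natCast_mul_notMem hk
  have h2 := H.mul_add_half_notMem hω k
  rcases (weierstrassP_eq_iff L h1 hω.1).1 hzero with h | h
  · apply h2
    have : (k : ℂ) * z0 + ω = (k : ℂ) * z0 - ω + (ω + ω) := by ring
    rw [this]
    exact L.lattice.add_mem h hω.2
  · exact h2 h

/-- **(Q)** -/
theorem Q_formula {a b : ℂ} (ha : IsHalf L a) (hb : IsHalf L b) (hab : a - b ∉ L.lattice) :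
    (℘[L'] a - ℘[L'] b) * (Bfun L p z0 (℘[L] a) 0 * Bfun L p z0 (℘[L] b) 0) =
      (℘[L] a - ℘[L] b) ^ p * Bfun L p z0 (℘[L] (a + b)) 0 := by
  -- (i) + (ii)
  have h1 : Bfun L p z0 (℘[L] b) a * Bfun L p z0 (℘[L] a) 0 =
      (℘[L] a - ℘[L] b) ^ (p - 1) * Bfun L p z0 (℘[L] (a + b)) 0 := by
    unfold Bfun
    rw [← Finset.prod_mul_distrib]
    have hcard : (Finset.Ico 1 p).card = p - 1 := by simp
    rw [← hcard, ← Finset.prod_const, ← Finset.prod_mul_distrib]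
    refine Finset.prod_congr rfl fun k hk => ?_
    have hk1 : (0 : ℂ) + (k : ℂ) * z0 ∉ L.lattice := by
      rw [zero_add]; exact H.natCast_mul_notMem hk
    have hk2 : (0 : ℂ) + (k : ℂ) * z0 + a ∉ L.lattice := by
      rw [zero_add]; exact H.mul_add_half_notMem ha k
    have h2 := mul_translate_half ha hb hab hk1 hk2
    have h3 : (0 : ℂ) + (k : ℂ) * z0 + a = a + (k : ℂ) * z0 := by ring
    rw [h3] at h2
    linear_combination h2
  -- (iii)
  have h2 := prod_formula H hb (H.half_notMem ha)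
  rw [Pfun_eq L H.pos] at h2
  have hp : p = (p - 1) + 1 := by have := H.pos; omega
  have h3 : (℘[L] a - ℘[L] b) ^ p = (℘[L] a - ℘[L] b) ^ (p - 1) * (℘[L] a - ℘[L] b) := by
    conv_lhs => rw [hp, pow_succ]
  rw [h3]
  linear_combination (-Bfun L p z0 (℘[L] a) 0) * h2 + (℘[L] a - ℘[L] b) * h1

/-- `4^(p-1) A_a A_b A_c = (∏ ℘'(k z0))²`. -/
theorem prod_deriv_sq {a b : ℂ} (ha : IsHalf L a) (hb : IsHalf L b) (hab : a - b ∉ L.lattice) :
    (4 : ℂ) ^ (p - 1) * (Bfun L p z0 (℘[L] a) 0 * Bfun L p z0 (℘[L] b) 0 *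
      Bfun L p z0 (℘[L] (a + b)) 0) = (∏ k ∈ Finset.Ico 1 p, ℘'[L] ((k : ℂ) * z0)) ^ 2 := by
  have hc : IsHalf L (a + b) := ha.add hb hab
  have hac : a - (a + b) ∉ L.lattice := by
    intro h; apply hb.1
    have := L.lattice.neg_mem h
    simpa using this
  have hbc : b - (a + b) ∉ L.lattice := by
    intro h; apply ha.1
    have := L.lattice.neg_mem h
    simpa using this
  unfold Bfun
  have hcard : (Finset.Ico 1 p).card = p - 1 := by simp
  rw [← hcard, ← Finset.prod_const, ← Finset.prod_mul_distrib, ← Finset.prod_mul_distrib,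
    ← Finset.prod_mul_distrib, ← Finset.prod_pow]
  refine Finset.prod_congr rfl fun k hk => ?_
  rw [zero_add]
  have hk1 := H.natCast_mul_notMem hk
  rw [L.derivWeierstrassP_sq _ hk1,
    cubic_factor ha.cubic hb.cubic hc.cubic (ha.wp_ne hb hab) (ha.wp_ne hc hac) (hb.wp_ne hc hbc)]

/-- **(R)** the discriminant identity, for a superlattice in the sense of `IsSuper`. -/
theorem delta_identity_of_isSuper :
    (L'.g₂ ^ 3 - 27 * L'.g₃ ^ 2) * (∏ k ∈ Finset.Ico 1 p, ℘'[L] ((k : ℂ) * z0)) ^ 4 =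
      (L.g₂ ^ 3 - 27 * L.g₃ ^ 2) ^ p := by
  -- the half periods
  set a : ℂ := L.ω₁ / 2 with ha_def
  set b : ℂ := L.ω₂ / 2 with hb_def
  have ha : IsHalf L a := ⟨L.ω₁_div_two_notMem_lattice, by
    have : a + a = L.ω₁ := by rw [ha_def]; ring
    rw [this]; exact L.ω₁_mem_lattice⟩
  have hb : IsHalf L b := ⟨L.ω₂_div_two_notMem_lattice, by
    have : b + b = L.ω₂ := by rw [hb_def]; ring
    rw [this]; exact L.ω₂_mem_lattice⟩
  have hab : a - b ∉ L.lattice := by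
    have h := (PeriodPair.mul_ω₁_add_mul_ω₂_mem_lattice (L := L) (α := 1 / 2)
      (β := -1 / 2)).not.mpr (by norm_num)
    have : a - b = ((1 / 2 : ℚ) : ℂ) * L.ω₁ + ((-1 / 2 : ℚ) : ℂ) * L.ω₂ := by
      rw [ha_def, hb_def]; push_cast; ring
    rw [this]; exact h
  set c : ℂ := a + b with hc_def
  have hc : IsHalf L c := ha.add hb hab
  have hac : a - c ∉ L.lattice := by
    intro h; apply hb.1
    have := L.lattice.neg_mem h
    simpa [hc_def] using this
  have hbc : b - c ∉ L.lattice := by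
    intro h; apply ha.1
    have := L.lattice.neg_mem h
    simpa [hc_def] using this
  -- values
  have eac : ℘[L] (a + c) = ℘[L] b := by
    apply weierstrassP_eq_of_sub_mem
    have : a + c - b = a + a := by rw [hc_def]; ring
    rw [this]; exact ha.2
  have ebc : ℘[L] (b + c) = ℘[L] a := by
    apply weierstrassP_eq_of_sub_mem
    have : b + c - a = b + b := by rw [hc_def]; ring
    rw [this]; exact hb.2
  -- the three (Q)'s
  have Q1 := Q_formula H ha hb hab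
  have Q2 := Q_formula H ha hc hac
  have Q3 := Q_formula H hb hc hbc
  rw [eac] at Q2
  rw [ebc] at Q3
  rw [← hc_def] at Q1
  set Aa := Bfun L p z0 (℘[L] a) 0 with hAa
  set Ab := Bfun L p z0 (℘[L] b) 0 with hAb
  set Ac := Bfun L p z0 (℘[L] c) 0 with hAc
  have hAa0 : Aa ≠ 0 := Bfun_zero_ne_zero H ha
  have hAb0 : Ab ≠ 0 := Bfun_zero_ne_zero H hb
  have hAc0 : Ac ≠ 0 := Bfun_zero_ne_zero H hc
  -- discriminants
  have hD := cubic_disc ha.cubic hb.cubic hc.cubic (ha.wp_ne hb hab) (ha.wp_ne hc hac)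
    (hb.wp_ne hc hbc)
  have ha' := H.isHalf ha
  have hb' := H.isHalf hb
  have hc' := H.isHalf hc
  have hD' := cubic_disc ha'.cubic hb'.cubic hc'.cubic
    (ha'.wp_ne hb' (H.sub_notMem ha hb hab)) (ha'.wp_ne hc' (H.sub_notMem ha hc hac))
    (hb'.wp_ne hc' (H.sub_notMem hb hc hbc))
  have hP := prod_deriv_sq H ha hb hab
  rw [← hc_def] at hP
  -- combine
  set D' := (℘[L'] a - ℘[L'] b) * (℘[L'] a - ℘[L'] c) * (℘[L'] b - ℘[L'] c) with hD'def
  set D := (℘[L] a - ℘[L] b) * (℘[L] a - ℘[L] c) * (℘[L] b - ℘[L] c) with hDdef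
  have hmain : D' * (Aa * Ab * Ac) = D ^ p := by
    have h1 : D' * (Aa * Ab * Ac) * (Aa * Ab * Ac) = D ^ p * (Aa * Ab * Ac) := by
      rw [hDdef, mul_pow, mul_pow]
      linear_combination
        (((℘[L'] a - ℘[L'] c) * (Aa * Ac)) * ((℘[L'] b - ℘[L'] c) * (Ab * Ac))) * Q1 +
        ((℘[L] a - ℘[L] b) ^ p * Ac * ((℘[L'] b - ℘[L'] c) * (Ab * Ac))) * Q2 +
        ((℘[L] a - ℘[L] b) ^ p * Ac * ((℘[L] a - ℘[L] c) ^ p * Ab)) * Q3
    exact mul_right_cancel₀ (mul_ne_zero (mul_ne_zero hAa0 hAb0) hAc0) h1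
  have hp : p = (p - 1) + 1 := by have := H.pos; omega
  have h16 : (16 : ℂ) ^ p = 16 * ((4 : ℂ) ^ (p - 1)) ^ 2 := by
    conv_lhs => rw [hp, pow_succ]
    rw [← pow_mul, mul_comm (p - 1) 2, pow_mul]
    norm_num
    ring
  have hP4 : (∏ k ∈ Finset.Ico 1 p, ℘'[L] ((k : ℂ) * z0)) ^ 4 =
      ((4 : ℂ) ^ (p - 1) * (Aa * Ab * Ac)) ^ 2 := by
    rw [hP]; ring
  have hpow : (16 * D ^ 2) ^ p = 16 ^ p * (D ^ p) ^ 2 := by
    rw [mul_pow, ← pow_mul, mul_comm 2 p, pow_mul]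
  rw [hD', hD, hP4, hpow, h16, ← hmain]
  ring

end Final

/-- **(D)**, literal form of the MAZ brick table: `L' = L + ℤ z0`, `p z0 ∈ L`, `z0 ∉ L`, `p` an odd
prime. -/
theorem delta_identity (L L' : PeriodPair) {p : ℕ} (hp : p.Prime) (hp2 : p ≠ 2) (z0 : ℂ)
    (hz0 : (p : ℂ) * z0 ∈ L.lattice) (hz0' : z0 ∉ L.lattice)
    (hL' : L'.lattice = L.lattice ⊔ Submodule.span ℤ {z0}) :
    (L'.g₂ ^ 3 - 27 * L'.g₃ ^ 2) * (∏ k ∈ Finset.Ico 1 p, ℘'[L] ((k : ℂ) * z0)) ^ 4 =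
      (L.g₂ ^ 3 - 27 * L.g₃ ^ 2) ^ p := by
  refine delta_identity_of_isSuper ⟨hp.odd_of_ne_two hp2, fun k => ⟨fun h => ?_, ?_⟩, hL'⟩
  · by_contra hnd
    apply hz0'
    have hcop : IsCoprime k (p : ℤ) := by
      rw [Int.isCoprime_iff_gcd_eq_one, Int.gcd_comm]
      exact (Nat.Prime.coprime_iff_not_dvd hp).2 (by
        intro h'
        exact hnd (Int.natCast_dvd.2 h'))
    obtain ⟨u, v, huv⟩ := hcop
    have : z0 = u • ((k : ℂ) * z0) + v • ((p : ℂ) * z0) := by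
      have h1 : ((u * k + v * p : ℤ) : ℂ) = 1 := by exact_mod_cast congrArg (Int.cast : ℤ → ℂ) huv
      simp only [zsmul_eq_mul]
      push_cast at h1
      linear_combination (-z0) * h1
    rw [this]
    exact L.lattice.add_mem (L.lattice.smul_mem u h) (L.lattice.smul_mem v hz0)
  · rintro ⟨m, rfl⟩
    have : (((p : ℤ) * m : ℤ) : ℂ) * z0 = m • ((p : ℂ) * z0) := by
      simp only [zsmul_eq_mul]; push_cast; ring
    rw [this]
    exact L.lattice.smul_mem m hz0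

end Fermat.Agent.MAZ.Analytic.DeltaIdentity80
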