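/-
Program MAZ (S15), X-side, analytic chapter (helper49): a BACKUP ROUTE to the discriminant identity

  (D)   Δ(L') · (∏_{k=1}^{p-1} ℘'_L(k z0))⁴ = Δ(L)^p        (L' = L + ℤ z0, p z0 ∈ L, p odd prime)

which uses ONE Liouville-type lemma and algebra only (no residues, no differentiation of products):

  (PROD)  ∏_{k<n} (℘_L(z + k z0) - ℘_L(w)) = (∏_{0<k<n} (℘_L(k z0) - ℘_L(w))) · (℘_{L'}(z) - ℘_{L'}(w))

for a cyclic superlattice `L' = L + ℤ z0` of index `n` (`z, w ∉ L'`).  `n = 2` gives the half-period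
package (distinctness of `e₁, e₂, e₃` and `(℘(z+ω_j) - e_j)(℘ z - e_j) = (e_j - e_i)(e_j - e_l)`),
`n = p` gives `e'_j - e'_i = (e_j - e_i)^p c_l / (c_i c_j)` and hence (D).

Mathlib only.
-/
import Mathlib

set_option autoImplicit false

open Complex Filter Topology PeriodPair

namespace Fermat.Agent.MAZ.Analytic.DeltaProd49

/-! ### 1. Two general analytic lemmas -/

/-- An analytic function which is even near `0` is `g 0 + z ^ 2 * h z` with `h` analytic. -/
theorem exists_sq_mul_of_even {g : ℂ → ℂ} (hg : AnalyticAt ℂ g 0)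
    (heven : ∀ᶠ z in 𝓝 (0 : ℂ), g (-z) = g z) :
    ∃ h : ℂ → ℂ, AnalyticAt ℂ h 0 ∧ ∀ z, g z = g 0 + z ^ 2 * h z := by
  obtain ⟨q, hq⟩ := hg
  have h1 : AnalyticAt ℂ (dslope g 0) 0 := ⟨_, hq.has_fpower_series_dslope_fslope⟩
  obtain ⟨q1, hq1⟩ := h1
  have h2 : AnalyticAt ℂ (dslope (dslope g 0) 0) 0 := ⟨_, hq1.has_fpower_series_dslope_fslope⟩
  have hg' : AnalyticAt ℂ g 0 := ⟨_, hq⟩
  -- derivative at 0 vanishes
  have hd : deriv g 0 = 0 := by
    have e1 : deriv (fun z => g (-z)) 0 = deriv g 0 := by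
      apply Filter.EventuallyEq.deriv_eq
      exact heven
    have e2 : deriv (fun z => g (-z)) 0 = - deriv g (-0) := by
      have := deriv_comp_neg g (0 : ℂ)
      simpa using this
    rw [neg_zero] at e2
    have : deriv g 0 = - deriv g 0 := e1.symm.trans e2
    have h2 : (2 : ℂ) * deriv g 0 = 0 := by linear_combination this
    simpa using h2
  refine ⟨dslope (dslope g 0) 0, h2, fun z => ?_⟩
  have a1 : (z - 0) • dslope g 0 z = g z - g 0 := sub_smul_dslope g 0 z
  have a2 : (z - 0) • dslope (dslope g 0) 0 z = dslope g 0 z - dslope g 0 0 :=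
    sub_smul_dslope (dslope g 0) 0 z
  rw [dslope_same, hd] at a2
  simp only [sub_zero, smul_eq_mul] at a1 a2
  rw [pow_two, mul_assoc, a2, a1]
  ring


/-- **Liouville for lattice-periodic functions with removable singularities on the lattice.** -/
theorem exists_const_of_periodic (Λ : PeriodPair) (H : ℂ → ℂ)
    (hper : ∀ l ∈ Λ.lattice, ∀ z, H (z + l) = H z)
    (hana : ∀ z, z ∉ Λ.lattice → DifferentiableAt ℂ H z)
    (h : ℂ → ℂ) (hh : AnalyticAt ℂ h 0) (hloc : ∀ᶠ z in 𝓝[≠] (0 : ℂ), H z = h z) :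
    ∃ c : ℂ, ∀ z, z ∉ Λ.lattice → H z = c := by
  classical
  set Ht : ℂ → ℂ := fun z => if z ∈ Λ.lattice then h 0 else H z with hHt
  have hHt_per : ∀ l ∈ Λ.lattice, ∀ z, Ht (z + l) = Ht z := by
    intro l hl z
    simp only [hHt]
    have : z + l ∈ Λ.lattice ↔ z ∈ Λ.lattice :=
      ⟨fun h' => by simpa using Λ.lattice.sub_mem h' hl, fun h' => Λ.lattice.add_mem h' hl⟩
    by_cases hz : z ∈ Λ.lattice
    · rw [if_pos hz, if_pos (this.mpr hz)]
    · rw [if_neg hz, if_neg (fun h' => hz (this.mp h')), hper l hl]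
  have hdiff : Differentiable ℂ Ht := by
    intro x
    by_cases hx : x ∈ Λ.lattice
    · -- near a lattice point, `Ht z = h (z - x)`
      have hcomp : AnalyticAt ℂ (fun z => h (z - x)) x := by
        have : AnalyticAt ℂ h (x - x) := by rw [sub_self]; exact hh
        exact AnalyticAt.fun_comp (f := fun z => z - x) (g := h) this (by fun_prop)
      refine (hcomp.differentiableAt.congr_of_eventuallyEq ?_)
      -- eventually equal
      have hmem := Λ.compl_lattice_sdiff_singleton_mem_nhds x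
      have hloc' : ∀ᶠ z in 𝓝 x, z - x ≠ 0 → H (z - x) = h (z - x) := by
        have ht : Tendsto (fun z : ℂ => z - x) (𝓝 x) (𝓝 0) := by
          have : Tendsto (fun z : ℂ => z - x) (𝓝 x) (𝓝 (x - x)) :=
            (continuous_id.sub continuous_const).tendsto x
          simpa using this
        rw [eventually_nhdsWithin_iff] at hloc
        exact (ht.eventually hloc).mono fun z hz hne => hz hne
      filter_upwards [hmem, hloc'] with z hz hz'
      by_cases hzx : z = x
      · subst hzx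
        simp [hHt, hx]
      · have hzl : z ∉ Λ.lattice := fun hzl => hz ⟨hzl, hzx⟩
        simp only [hHt, if_neg hzl]
        rw [← hz' (sub_ne_zero.mpr hzx)]
        have := hper (-x) (Λ.lattice.neg_mem hx) z
        rw [← sub_eq_add_neg] at this
        exact this.symm
    · refine ((hana x hx).congr_of_eventuallyEq ?_)
      filter_upwards [Λ.isClosed_lattice.isOpen_compl.mem_nhds hx] with z hz
      simp [hHt, show z ∉ Λ.lattice from hz]
  have hconst : ∀ x, Ht x = Ht 0 := fun x =>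
    hdiff.apply_eq_apply_of_bounded (IsZLattice.isCompact_range_of_periodic Λ.lattice _
      hdiff.continuous fun z w hw => hHt_per w hw z).isBounded x 0
  refine ⟨Ht 0, fun z hz => ?_⟩
  have := hconst z
  simpa [hHt, hz] using this


/-! ### 2. Cyclic superlattices and the product formula -/

/-- `L' = L + ℤ z0` with `z0` of exact order `n` modulo `L`. -/
structure CyclicSup (L L' : PeriodPair) (n : ℕ) (z0 : ℂ) : Prop where
  pos : 0 < n
  lat : L'.lattice = L.lattice ⊔ Submodule.span ℤ {z0}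
  tors : (n : ℂ) * z0 ∈ L.lattice
  min : ∀ k : ℕ, 0 < k → k < n → (k : ℂ) * z0 ∉ L.lattice

namespace CyclicSup

variable {L L' : PeriodPair} {n : ℕ} {z0 : ℂ}

theorem le (h : CyclicSup L L' n z0) : L.lattice ≤ L'.lattice := by
  rw [h.lat]; exact le_sup_left

theorem z0_mem (h : CyclicSup L L' n z0) : z0 ∈ L'.lattice := by
  rw [h.lat]
  exact (le_sup_right : Submodule.span ℤ {z0} ≤ _) (Submodule.mem_span_singleton_self z0)

theorem nat_mul_z0_mem (h : CyclicSup L L' n z0) (k : ℕ) : (k : ℂ) * z0 ∈ L'.lattice := by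
  have := L'.lattice.smul_mem (k : ℤ) h.z0_mem
  simpa [zsmul_eq_mul] using this

theorem int_mul_z0_mem (h : CyclicSup L L' n z0) (k : ℤ) : (k : ℂ) * z0 ∈ L'.lattice := by
  have := L'.lattice.smul_mem k h.z0_mem
  simpa [zsmul_eq_mul] using this

/-- every element of `L'` is `l + m z0`. -/
theorem exists_eq_add (h : CyclicSup L L' n z0) {x : ℂ} (hx : x ∈ L'.lattice) :
    ∃ l ∈ L.lattice, ∃ m : ℤ, x = l + m * z0 := by
  rw [h.lat, Submodule.mem_sup] at hx
  obtain ⟨l, hl, y, hy, rfl⟩ := hx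
  obtain ⟨m, rfl⟩ := Submodule.mem_span_singleton.mp hy
  exact ⟨l, hl, m, by simp [zsmul_eq_mul]⟩

theorem add_nat_mul_notMem (h : CyclicSup L L' n z0) {z : ℂ} (hz : z ∉ L'.lattice) (k : ℕ) :
    z + k * z0 ∉ L.lattice := by
  intro hmem
  apply hz
  have := L'.lattice.sub_mem (h.le hmem) (h.nat_mul_z0_mem k)
  simpa using this

end CyclicSup

section Prod

variable (L : PeriodPair) (n : ℕ) (z0 : ℂ)

/-- The product `∏_{k<n} (℘(z + k z0) - ℘ w)`. -/
noncomputable def bigProd (w z : ℂ) : ℂ :=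
  ∏ k ∈ Finset.range n, (℘[L] (z + k * z0) - ℘[L] w)

/-- The cofactor `∏_{0<k<n} (℘(z + k z0) - ℘ w)`. -/
noncomputable def coProd (w z : ℂ) : ℂ :=
  ∏ k ∈ Finset.Ico 1 n, (℘[L] (z + k * z0) - ℘[L] w)

variable {L n z0}

theorem bigProd_eq (hn : 0 < n) (w z : ℂ) :
    bigProd L n z0 w z = (℘[L] z - ℘[L] w) * coProd L n z0 w z := by
  unfold bigProd coProd
  rw [Finset.prod_range_eq_mul_Ico _ hn]
  simp

theorem wp_add_mem (z : ℂ) {l : ℂ} (hl : l ∈ L.lattice) : ℘[L] (z + l) = ℘[L] z :=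
  L.weierstrassP_add_coe z ⟨l, hl⟩

theorem bigProd_add_mem (w z : ℂ) {l : ℂ} (hl : l ∈ L.lattice) :
    bigProd L n z0 w (z + l) = bigProd L n z0 w z := by
  unfold bigProd
  refine Finset.prod_congr rfl fun k _ => ?_
  rw [show z + l + k * z0 = z + k * z0 + l by ring, wp_add_mem _ hl]

theorem bigProd_add_z0 (hn : 0 < n) (htors : (n : ℂ) * z0 ∈ L.lattice) (w z : ℂ) :
    bigProd L n z0 w (z + z0) = bigProd L n z0 w z := by
  unfold bigProd
  set f : ℕ → ℂ := fun k => ℘[L] (z + k * z0) - ℘[L] w with hf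
  have h1 : ∀ k : ℕ, ℘[L] (z + z0 + (k : ℂ) * z0) - ℘[L] w = f (k + 1) := by
    intro k
    simp only [hf]
    congr 2
    push_cast
    ring
  simp_rw [h1]
  have hfn : f n = f 0 := by
    simp only [hf]
    rw [wp_add_mem _ htors]
    simp
  rw [Finset.range_eq_Ico, Finset.prod_Ico_add' f 0 n 1, zero_add,
    Finset.prod_Ico_succ_top hn f, hfn, mul_comm, ← Finset.range_eq_Ico,
    Finset.prod_range_eq_mul_Ico f hn]

theorem bigProd_add_int_mul_z0 (hn : 0 < n) (htors : (n : ℂ) * z0 ∈ L.lattice) (w z : ℂ) (m : ℤ) :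
    bigProd L n z0 w (z + m * z0) = bigProd L n z0 w z := by
  have hper : Function.Periodic (bigProd L n z0 w) z0 := fun z => bigProd_add_z0 hn htors w z
  have := (hper.zsmul m) z
  simpa [zsmul_eq_mul] using this

theorem coProd_neg (htors : (n : ℂ) * z0 ∈ L.lattice) (w z : ℂ) :
    coProd L n z0 w (-z) = coProd L n z0 w z := by
  unfold coProd
  set f : ℕ → ℂ := fun k => ℘[L] (z + k * z0) - ℘[L] w with hf
  have h1 : ∀ k ∈ Finset.Ico 1 n, ℘[L] (-z + k * z0) - ℘[L] w = f (n - k) := by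
    intro k hk
    have hk' := (Finset.mem_Ico.mp hk).2
    simp only [hf]
    congr 1
    rw [← L.weierstrassP_neg (-z + k * z0), ← wp_add_mem _ htors, Nat.cast_sub hk'.le]
    congr 1
    ring
  rw [Finset.prod_congr rfl h1, Finset.prod_Ico_reflect f 1 (Nat.le_succ n)]
  simp

theorem analyticAt_wp_shift (L : PeriodPair) (a z : ℂ) (h : z + a ∉ L.lattice) :
    AnalyticAt ℂ (fun z => ℘[L] (z + a)) z := by
  have h1 : AnalyticAt ℂ ℘[L] (z + a) := L.analyticOnNhd_weierstrassP _ h
  exact AnalyticAt.fun_comp (f := fun z => z + a) (g := ℘[L]) h1 (by fun_prop)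

theorem wp_eq_except_add (L : PeriodPair) (z : ℂ) :
    ℘[L] z = ℘[L - (0 : ℂ)] z + 1 / z ^ 2 := by
  have := L.weierstrassPExcept_def (0 : L.lattice) z
  simp only [ZeroMemClass.coe_zero, sub_zero] at this
  rw [this]
  simp

variable {L' : PeriodPair}

/-- **The product formula** for a cyclic superlattice. -/
theorem prod_formula (h : CyclicSup L L' n z0) {z w : ℂ} (hz : z ∉ L'.lattice)
    (hw : w ∉ L'.lattice) :
    bigProd L n z0 w z = coProd L n z0 w 0 * (℘[L'] z - ℘[L'] w) := by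
  set C := coProd L n z0 w 0 with hC
  set H : ℂ → ℂ := fun z => bigProd L n z0 w z - C * ℘[L'] z with hH
  -- periodicity
  have hper : ∀ l ∈ L'.lattice, ∀ z, H (z + l) = H z := by
    intro l' hl' z
    obtain ⟨l, hl, m, rfl⟩ := h.exists_eq_add hl'
    simp only [hH]
    rw [wp_add_mem z hl', show z + (l + m * z0) = z + m * z0 + l by ring,
      bigProd_add_mem _ _ hl, bigProd_add_int_mul_z0 h.pos h.tors]
  -- analyticity off the lattice
  have hana : ∀ z, z ∉ L'.lattice → DifferentiableAt ℂ H z := by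
    intro z hz
    have h1 : AnalyticAt ℂ (fun z => bigProd L n z0 w z) z := by
      unfold bigProd
      refine Finset.analyticAt_fun_prod _ fun k _ => ?_
      exact (analyticAt_wp_shift L _ z (h.add_nat_mul_notMem hz k)).sub analyticAt_const
    have h2 : AnalyticAt ℂ ℘[L'] z := L'.analyticOnNhd_weierstrassP _ hz
    exact (h1.sub (analyticAt_const.mul h2)).differentiableAt
  -- the cofactor is analytic and even
  have hg : AnalyticAt ℂ (fun z => coProd L n z0 w z) 0 := by
    unfold coProd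
    refine Finset.analyticAt_fun_prod _ fun k hk => ?_
    have hk' := Finset.mem_Ico.mp hk
    refine (analyticAt_wp_shift L _ 0 ?_).sub analyticAt_const
    rw [zero_add]
    exact h.min k hk'.1 hk'.2
  obtain ⟨g₂, hg₂, hgeq⟩ := exists_sq_mul_of_even hg
    (Filter.Eventually.of_forall fun z => coProd_neg h.tors w z)
  -- local expression
  set hl : ℂ → ℂ := fun z => (℘[L - (0 : ℂ)] z - ℘[L] w) * coProd L n z0 w z + g₂ z
    - C * ℘[L' - (0 : ℂ)] z with hhl
  have hhl_an : AnalyticAt ℂ hl 0 := by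
    have a1 : AnalyticAt ℂ ℘[L - (0 : ℂ)] 0 := L.analyticAt_weierstrassPExcept 0
    have a2 : AnalyticAt ℂ ℘[L' - (0 : ℂ)] 0 := L'.analyticAt_weierstrassPExcept 0
    exact (((a1.sub analyticAt_const).mul hg).add hg₂).sub (analyticAt_const.mul a2)
  have hloc : ∀ᶠ z in 𝓝[≠] (0 : ℂ), H z = hl z := by
    refine eventually_nhdsWithin_of_forall fun z hz => ?_
    have hz0 : z ≠ 0 := hz
    simp only [hH, hhl]
    rw [bigProd_eq h.pos, wp_eq_except_add L z, wp_eq_except_add L' z]
    have hgz : coProd L n z0 w z = C + z ^ 2 * g₂ z := hgeq z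
    rw [hgz]
    field_simp
    ring
  obtain ⟨c, hc⟩ := exists_const_of_periodic L' H hper hana hl hhl_an hloc
  have hcw := hc w hw
  have hcz := hc z hz
  simp only [hH] at hcw hcz
  rw [bigProd_eq h.pos, sub_self, zero_mul, zero_sub] at hcw
  rw [← hcw] at hcz
  linear_combination hcz

end Prod


/-! ### 3. Isolated zeros of `℘ - e` -/

/-- `℘ - e` has isolated zeros: it does not vanish on a punctured neighbourhood of any point. -/
theorem eventually_wp_sub_ne (L : PeriodPair) (e x : ℂ) :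
    ∀ᶠ z in 𝓝[≠] x, ℘[L] z - e ≠ 0 := by
  have hmero : Meromorphic (fun z => ℘[L] z - e) := by
    have := L.meromorphic_weierstrassP
    fun_prop
  have h0 : meromorphicOrderAt (fun z => ℘[L] z - e) 0 ≠ ⊤ := by
    intro htop
    rw [meromorphicOrderAt_eq_top_iff] at htop
    have hcongr : ℘[L] =ᶠ[𝓝[≠] (0 : ℂ)] fun _ => e := by
      filter_upwards [htop] with z hz
      exact sub_eq_zero.mp hz
    have h1 := meromorphicOrderAt_congr hcongr
    rw [L.order_weierstrassP 0 (L.lattice.zero_mem)] at h1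
    have h2 : (0 : WithTop ℤ) ≤ meromorphicOrderAt (fun _ : ℂ => e) 0 :=
      (analyticAt_const (𝕜 := ℂ) (v := e) (x := (0 : ℂ))).meromorphicOrderAt_nonneg
    rw [← h1] at h2
    exact absurd h2 (by decide)
  have hx := (hmero.exists_meromorphicOrderAt_ne_top_iff_forall.mp ⟨0, h0⟩) x
  exact (meromorphicOrderAt_ne_top_iff_eventually_ne_zero (hmero x)).mp hx


/-! ### 4. Index two: the abstract half-period package -/

section IndexTwo

variable {L L'' : PeriodPair} {ω : ℂ}

theorem CyclicSup.two_mul_mem (hs : CyclicSup L L'' 2 ω) : 2 * ω ∈ L.lattice := by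
  have := hs.tors
  simpa using this

theorem CyclicSup.notMem_two (hs : CyclicSup L L'' 2 ω) : ω ∉ L.lattice := by
  have := hs.min 1 one_pos one_lt_two
  simpa using this

theorem bigProd_two (w z : ℂ) :
    bigProd L 2 ω w z = (℘[L] z - ℘[L] w) * (℘[L] (z + ω) - ℘[L] w) := by
  unfold bigProd
  simp [Finset.prod_range_succ]

theorem coProd_two (w z : ℂ) : coProd L 2 ω w z = ℘[L] (z + ω) - ℘[L] w := by
  unfold coProd
  simp

/-- PROD for an index-two superlattice. -/
theorem prod_formula_two (hs : CyclicSup L L'' 2 ω) {z w : ℂ} (hz : z ∉ L''.lattice)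
    (hw : w ∉ L''.lattice) :
    (℘[L] z - ℘[L] w) * (℘[L] (z + ω) - ℘[L] w) =
      (℘[L] ω - ℘[L] w) * (℘[L''] z - ℘[L''] w) := by
  have := prod_formula hs hz hw
  rwa [bigProd_two, coProd_two, zero_add] at this

/-- Eventually in a punctured neighbourhood of `0`, `z ∉ L''`. -/
theorem eventually_notMem (Λ : PeriodPair) : ∀ᶠ z in 𝓝[≠] (0 : ℂ), z ∉ Λ.lattice := by
  rw [eventually_nhdsWithin_iff]
  filter_upwards [Λ.compl_lattice_sdiff_singleton_mem_nhds 0] with z hz hz0 hmem
  exact hz ⟨hmem, hz0⟩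

theorem eventually_wp_shift_sub_ne (L : PeriodPair) (e a : ℂ) :
    ∀ᶠ z in 𝓝[≠] (0 : ℂ), ℘[L] (z + a) - e ≠ 0 := by
  have h := eventually_wp_sub_ne L e a
  rw [eventually_nhdsWithin_iff] at h ⊢
  have ht : Tendsto (fun z : ℂ => z + a) (𝓝 0) (𝓝 a) := by
    have : Tendsto (fun z : ℂ => z + a) (𝓝 0) (𝓝 (0 + a)) :=
      (continuous_id.add continuous_const).tendsto 0
    simpa using this
  filter_upwards [ht.eventually h] with z hz hz0
  exact hz (by simpa using hz0)

/-- Values of `℘` at the new half period and at an old point outside `L''` differ. -/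
theorem wp_ne_of_cyclicSup_two (hs : CyclicSup L L'' 2 ω) {η : ℂ} (hη : η ∉ L''.lattice) :
    ℘[L] ω ≠ ℘[L] η := by
  intro heq
  have hev : ∀ᶠ z in 𝓝[≠] (0 : ℂ), False := by
    filter_upwards [eventually_notMem L'', eventually_wp_sub_ne L (℘[L] η) 0,
      eventually_wp_shift_sub_ne L (℘[L] η) ω] with z hz h1 h2
    have := prod_formula_two hs hz hη
    rw [heq, sub_self, zero_mul] at this
    exact (mul_ne_zero h1 h2) this
  exact (hev.exists).elim fun _ h => h

/-- **HP2** in abstract form. -/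
theorem hp2_of_cyclicSup_two (hs : CyclicSup L L'' 2 ω) {η η' : ℂ} (hη : η ∉ L''.lattice)
    (hη' : η' ∉ L''.lattice) (hηη' : η - η' ∈ L''.lattice) (hne : ℘[L] η ≠ ℘[L] η')
    {z : ℂ} (hz : z ∉ L''.lattice) :
    (℘[L] z - ℘[L] ω) * (℘[L] (z + ω) - ℘[L] ω) =
      (℘[L] ω - ℘[L] η) * (℘[L] ω - ℘[L] η') := by
  have h1 := prod_formula_two hs hz hη
  have h2 := prod_formula_two hs hz hη'
  have h3 : ℘[L''] η = ℘[L''] η' := by
    have := L''.weierstrassP_add_coe η' ⟨η - η', hηη'⟩
    simp only [add_sub_cancel] at this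
    exact this
  rw [h3] at h1
  have hab : ℘[L] η - ℘[L] η' ≠ 0 := sub_ne_zero.mpr hne
  apply mul_left_cancel₀ hab
  linear_combination (℘[L] ω - ℘[L] η') * h1 - (℘[L] ω - ℘[L] η) * h2

end IndexTwo


/-- membership in an index-two superlattice -/
theorem CyclicSup.mem_two_iff {L L'' : PeriodPair} {ω : ℂ} (hs : CyclicSup L L'' 2 ω) (x : ℂ) :
    x ∈ L''.lattice ↔ x ∈ L.lattice ∨ x - ω ∈ L.lattice := by
  constructor
  · intro hx
    obtain ⟨l, hl, m, rfl⟩ := hs.exists_eq_add hx
    have h2 := hs.two_mul_mem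
    rcases Int.even_or_odd' m with ⟨k, rfl | rfl⟩
    · left
      refine L.lattice.add_mem hl ?_
      have := L.lattice.smul_mem k h2
      convert this using 1
      simp only [zsmul_eq_mul]
      push_cast
      ring
    · right
      have := L.lattice.add_mem hl (L.lattice.smul_mem k h2)
      convert this using 1
      simp only [zsmul_eq_mul]
      push_cast
      ring
  · rintro (hx | hx)
    · exact hs.le hx
    · have := L''.lattice.add_mem (hs.le hx) hs.z0_mem
      simpa using this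

/-- half-integral combinations of the periods which are not in the lattice -/
theorem half_notMem (L : PeriodPair) (a b : ℤ) (hab : ¬ ((2 : ℤ) ∣ a ∧ (2 : ℤ) ∣ b)) :
    ((a : ℂ) * L.ω₁ + (b : ℂ) * L.ω₂) / 2 ∉ L.lattice := by
  intro hmem
  obtain ⟨m, n, hmn⟩ := PeriodPair.mem_lattice.mp hmem
  have key := LinearIndependent.pair_iff.mp L.indep ((a : ℝ) - 2 * m) ((b : ℝ) - 2 * n) (by
    simp only [Complex.real_smul]
    push_cast
    linear_combination (-2 : ℂ) * hmn)
  apply hab
  constructor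
  · refine ⟨m, ?_⟩
    have := key.1
    have h : (a : ℝ) = ((2 * m : ℤ) : ℝ) := by push_cast; linarith
    exact_mod_cast h
  · refine ⟨n, ?_⟩
    have := key.2
    have h : (b : ℝ) = ((2 * n : ℤ) : ℝ) := by push_cast; linarith
    exact_mod_cast h


/-! ### 5. The three index-two superlattices -/

section HalfLattices

variable (L : PeriodPair)

/-- the three half periods -/
noncomputable def h₁ : ℂ := L.ω₁ / 2
noncomputable def h₂ : ℂ := L.ω₂ / 2
noncomputable def h₃ : ℂ := (L.ω₁ + L.ω₂) / 2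

theorem h₁_notMem : h₁ L ∉ L.lattice := L.ω₁_div_two_notMem_lattice
theorem h₂_notMem : h₂ L ∉ L.lattice := L.ω₂_div_two_notMem_lattice
theorem h₃_notMem : h₃ L ∉ L.lattice := by
  have := (L.mul_ω₁_add_mul_ω₂_mem_lattice (α := 1 / 2) (β := 1 / 2)).not.mpr (by norm_num)
  unfold h₃
  convert this using 2
  push_cast
  ring

theorem two_h₁ : 2 * h₁ L ∈ L.lattice := by
  unfold h₁; rw [mul_div_cancel₀ _ (two_ne_zero)]; exact L.ω₁_mem_lattice
theorem two_h₂ : 2 * h₂ L ∈ L.lattice := by
  unfold h₂; rw [mul_div_cancel₀ _ (two_ne_zero)]; exact L.ω₂_mem_lattice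
theorem two_h₃ : 2 * h₃ L ∈ L.lattice := by
  unfold h₃; rw [mul_div_cancel₀ _ (two_ne_zero)]
  exact L.lattice.add_mem L.ω₁_mem_lattice L.ω₂_mem_lattice

theorem h₁_add_h₂ : h₁ L + h₂ L = h₃ L := by unfold h₁ h₂ h₃; ring

/-- The superlattice `L + ℤ ω₁/2`. -/
noncomputable def sup₁ : PeriodPair where
  ω₁ := L.ω₁ / 2
  ω₂ := L.ω₂
  indep := by
    rw [LinearIndependent.pair_iff]
    intro s t hst
    have := LinearIndependent.pair_iff.mp L.indep (s / 2) t (by
      rw [← hst]; simp only [Complex.real_smul]; push_cast; ring)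
    refine ⟨?_, this.2⟩
    have h := this.1
    linarith

/-- The superlattice `L + ℤ ω₂/2`. -/
noncomputable def sup₂ : PeriodPair where
  ω₁ := L.ω₁
  ω₂ := L.ω₂ / 2
  indep := by
    rw [LinearIndependent.pair_iff]
    intro s t hst
    have := LinearIndependent.pair_iff.mp L.indep s (t / 2) (by
      rw [← hst]; simp only [Complex.real_smul]; push_cast; ring)
    refine ⟨this.1, ?_⟩
    have h := this.2
    linarith

/-- The superlattice `L + ℤ (ω₁+ω₂)/2`. -/
noncomputable def sup₃ : PeriodPair where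
  ω₁ := (L.ω₁ + L.ω₂) / 2
  ω₂ := L.ω₂
  indep := by
    rw [LinearIndependent.pair_iff]
    intro s t hst
    have := LinearIndependent.pair_iff.mp L.indep (s / 2) (s / 2 + t) (by
      rw [← hst]; simp only [Complex.real_smul]; push_cast; ring)
    have h1 := this.1
    have h2 := this.2
    constructor <;> linarith

theorem sup₁_lattice : (sup₁ L).lattice = L.lattice ⊔ Submodule.span ℤ {h₁ L} := by
  apply le_antisymm
  · unfold PeriodPair.lattice
    rw [Submodule.span_le]
    rintro x (rfl | rfl)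
    · exact (le_sup_right : Submodule.span ℤ {h₁ L} ≤ _) (Submodule.mem_span_singleton_self _)
    · exact (le_sup_left : L.lattice ≤ _) L.ω₂_mem_lattice
  · refine sup_le ?_ ?_
    · unfold PeriodPair.lattice
      rw [Submodule.span_le]
      rintro x (rfl | rfl)
      · have h : L.ω₁ = (2 : ℤ) • (sup₁ L).ω₁ := by
          simp only [sup₁, zsmul_eq_mul, Int.cast_ofNat]
          ring
        rw [h]
        exact Submodule.smul_mem _ _ (sup₁ L).ω₁_mem_lattice
      · exact (sup₁ L).ω₂_mem_lattice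
    · rw [Submodule.span_le]
      rintro x rfl
      exact (sup₁ L).ω₁_mem_lattice

theorem sup₂_lattice : (sup₂ L).lattice = L.lattice ⊔ Submodule.span ℤ {h₂ L} := by
  apply le_antisymm
  · unfold PeriodPair.lattice
    rw [Submodule.span_le]
    rintro x (rfl | rfl)
    · exact (le_sup_left : L.lattice ≤ _) L.ω₁_mem_lattice
    · exact (le_sup_right : Submodule.span ℤ {h₂ L} ≤ _) (Submodule.mem_span_singleton_self _)
  · refine sup_le ?_ ?_
    · unfold PeriodPair.lattice
      rw [Submodule.span_le]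
      rintro x (rfl | rfl)
      · exact (sup₂ L).ω₁_mem_lattice
      · have h : L.ω₂ = (2 : ℤ) • (sup₂ L).ω₂ := by
          simp only [sup₂, zsmul_eq_mul, Int.cast_ofNat]
          ring
        rw [h]
        exact Submodule.smul_mem _ _ (sup₂ L).ω₂_mem_lattice
    · rw [Submodule.span_le]
      rintro x rfl
      exact (sup₂ L).ω₂_mem_lattice

theorem sup₃_lattice : (sup₃ L).lattice = L.lattice ⊔ Submodule.span ℤ {h₃ L} := by
  apply le_antisymm
  · unfold PeriodPair.lattice
    rw [Submodule.span_le]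
    rintro x (rfl | rfl)
    · exact (le_sup_right : Submodule.span ℤ {h₃ L} ≤ _) (Submodule.mem_span_singleton_self _)
    · exact (le_sup_left : L.lattice ≤ _) L.ω₂_mem_lattice
  · refine sup_le ?_ ?_
    · unfold PeriodPair.lattice
      rw [Submodule.span_le]
      rintro x (rfl | rfl)
      · have h : L.ω₁ = (2 : ℤ) • (sup₃ L).ω₁ - (sup₃ L).ω₂ := by
          simp only [sup₃, zsmul_eq_mul, Int.cast_ofNat]
          ring
        rw [h]
        exact Submodule.sub_mem _ (Submodule.smul_mem _ _ (sup₃ L).ω₁_mem_lattice)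
          (sup₃ L).ω₂_mem_lattice
      · exact (sup₃ L).ω₂_mem_lattice
    · rw [Submodule.span_le]
      rintro x rfl
      exact (sup₃ L).ω₁_mem_lattice

theorem cyclicSup_of_half {L'' : PeriodPair} {ω : ℂ}
    (hlat : L''.lattice = L.lattice ⊔ Submodule.span ℤ {ω}) (h2 : 2 * ω ∈ L.lattice)
    (hn : ω ∉ L.lattice) : CyclicSup L L'' 2 ω where
  pos := two_pos
  lat := hlat
  tors := by simpa using h2
  min := by
    intro k hk hk2
    obtain rfl : k = 1 := by omega
    simpa using hn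

theorem cyclicSup₁ : CyclicSup L (sup₁ L) 2 (h₁ L) :=
  cyclicSup_of_half L (sup₁_lattice L) (two_h₁ L) (h₁_notMem L)
theorem cyclicSup₂ : CyclicSup L (sup₂ L) 2 (h₂ L) :=
  cyclicSup_of_half L (sup₂_lattice L) (two_h₂ L) (h₂_notMem L)
theorem cyclicSup₃ : CyclicSup L (sup₃ L) 2 (h₃ L) :=
  cyclicSup_of_half L (sup₃_lattice L) (two_h₃ L) (h₃_notMem L)

end HalfLattices


/-! ### 6. Prime index: the literal shapes used by the other `MAZ/Analytic` files -/

section PrimeIndex

variable {L L' : PeriodPair} {p : ℕ} {z0 : ℂ}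

/-- The standard prime-index hypotheses give a cyclic superlattice. -/
theorem cyclicSup_of_prime (hp : p.Prime) (h1 : (p : ℂ) * z0 ∈ L.lattice) (h0 : z0 ∉ L.lattice)
    (hL' : L'.lattice = L.lattice ⊔ Submodule.span ℤ {z0}) : CyclicSup L L' p z0 where
  pos := hp.pos
  lat := hL'
  tors := h1
  min := by
    intro k hk hkp hmem
    apply h0
    have hcop : IsCoprime (k : ℤ) (p : ℤ) := by
      rw [Int.isCoprime_iff_gcd_eq_one, Int.gcd_natCast_natCast]
      exact (Nat.coprime_of_lt_prime hk.ne' hkp hp).symm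
    obtain ⟨a, b, hab⟩ := hcop
    have h2 := L.lattice.add_mem (L.lattice.smul_mem a hmem) (L.lattice.smul_mem b h1)
    convert h2 using 1
    simp only [zsmul_eq_mul]
    have : ((a * k + b * p : ℤ) : ℂ) = 1 := by exact_mod_cast congrArg (Int.cast : ℤ → ℂ) hab
    push_cast at this
    linear_combination (-z0) * this

theorem coProd_zero (L : PeriodPair) (n : ℕ) (z0 w : ℂ) :
    coProd L n z0 w 0 = ∏ k ∈ Finset.Ico 1 n, (℘[L] ((k : ℂ) * z0) - ℘[L] w) := by
  unfold coProd
  simp

/-- **(PROD)**, explicit form. -/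
theorem prod_formula_explicit {n : ℕ} (hs : CyclicSup L L' n z0) {z w : ℂ}
    (hz : z ∉ L'.lattice) (hw : w ∉ L'.lattice) :
    ∏ k ∈ Finset.range n, (℘[L] (z + (k : ℂ) * z0) - ℘[L] w) =
      (∏ k ∈ Finset.Ico 1 n, (℘[L] ((k : ℂ) * z0) - ℘[L] w)) * (℘[L'] z - ℘[L'] w) := by
  have := prod_formula hs hz hw
  rwa [coProd_zero] at this

/-- **(PROD)** for a superlattice of prime index, in the hypotheses' shape used by the other
MAZ/Analytic files. -/
theorem prod_formula_prime (hp : p.Prime) (h1 : (p : ℂ) * z0 ∈ L.lattice) (h0 : z0 ∉ L.lattice)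
    (hL' : L'.lattice = L.lattice ⊔ Submodule.span ℤ {z0}) {z w : ℂ}
    (hz : z ∉ L'.lattice) (hw : w ∉ L'.lattice) :
    ∏ k ∈ Finset.range p, (℘[L] (z + (k : ℂ) * z0) - ℘[L] w) =
      (∏ k ∈ Finset.Ico 1 p, (℘[L] ((k : ℂ) * z0) - ℘[L] w)) * (℘[L'] z - ℘[L'] w) :=
  prod_formula_explicit (cyclicSup_of_prime hp h1 h0 hL') hz hw

end PrimeIndex


end Fermat.Agent.MAZ.Analytic.DeltaProd49
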