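/-
Program MAZ (S15), chapter Analytic, helper42: brick MOD-GLOBAL (table #1628 item 9), part 0 = the
shared DEFINITIONS (Mathlib only).

For an affine Weierstrass curve `E` over a field `F`:
* `xOf E P`, `yOf E P` : coordinates of a point (`0` at the zero point);
* `psi2 E P = 2y + a₁x + a₃`, `tOf E P = 6x² + b₂x + b₄` (Vélu's quantities; `0`, resp. `b₄`, at `0`);
* `veluC4 E p Q = c₄ + 120 ∑_{k=1}^{p-1} t(kQ)`, `veluPi E p Q = ∏_{k=1}^{p-1} ψ₂(kQ)`,
  `veluJ E p Q = veluC4³ · veluPi⁴ / Δ^p` (the `j`-invariant of `E/⟨Q⟩`);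
* `mapPt E f` : the additive map `E(F) → (E.map f)(K)` along a ring hom `f : F →+* K` of fields,
  injective, compatible with `xOf, yOf, psi2, tOf, veluC4, veluPi, veluJ` and with `addOrderOf`.
-/
import Mathlib

set_option autoImplicit false

open WeierstrassCurve WeierstrassCurve.Affine

noncomputable section

namespace Fermat.Agent.MAZ.Analytic.GlobalDefs42

variable {F : Type*} [Field F] (E : WeierstrassCurve.Affine F)

/-- The `x`-coordinate of a point (`0` at the zero point). -/
def xOf : E.Point → F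
  | .zero => 0
  | .some x _ _ => x

/-- The `y`-coordinate of a point (`0` at the zero point). -/
def yOf : E.Point → F
  | .zero => 0
  | .some _ y _ => y

/-- `ψ₂(P) = 2y + a₁x + a₃` (`0` at the zero point). -/
def psi2 : E.Point → F
  | .zero => 0
  | .some x y _ => 2 * y + E.a₁ * x + E.a₃

/-- `t(P) = 6x² + b₂x + b₄`. -/
def tOf (P : E.Point) : F := 6 * xOf E P ^ 2 + E.b₂ * xOf E P + E.b₄

@[simp] theorem xOf_zero : xOf E (0 : E.Point) = 0 := rfl
@[simp] theorem yOf_zero : yOf E (0 : E.Point) = 0 := rfl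
@[simp] theorem psi2_zero : psi2 E (0 : E.Point) = 0 := rfl
@[simp] theorem xOf_some {x y : F} (h : E.Nonsingular x y) : xOf E (Point.some x y h) = x := rfl
@[simp] theorem yOf_some {x y : F} (h : E.Nonsingular x y) : yOf E (Point.some x y h) = y := rfl
@[simp] theorem psi2_some {x y : F} (h : E.Nonsingular x y) :
    psi2 E (Point.some x y h) = 2 * y + E.a₁ * x + E.a₃ := rfl
theorem tOf_some {x y : F} (h : E.Nonsingular x y) :
    tOf E (Point.some x y h) = 6 * x ^ 2 + E.b₂ * x + E.b₄ := rfl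

theorem psi2_eq (P : E.Point) (hP : P ≠ 0) : psi2 E P = 2 * yOf E P + E.a₁ * xOf E P + E.a₃ := by
  rcases P with _ | ⟨x, y, h⟩
  · exact absurd rfl hP
  · rfl

/-- a nonzero point is `some (xOf P) (yOf P) _`. -/
theorem exists_eq_some (P : E.Point) (hP : P ≠ 0) :
    ∃ h : E.Nonsingular (xOf E P) (yOf E P), P = Point.some (xOf E P) (yOf E P) h := by
  rcases P with _ | ⟨x, y, h⟩
  · exact absurd rfl hP
  · exact ⟨h, rfl⟩

section Velu

variable [DecidableEq F]

/-- `c₄' = c₄ + 120 ∑_{k=1}^{p-1} t(kQ)`. -/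
def veluC4 (p : ℕ) (Q : E.Point) : F := E.c₄ + 120 * ∑ k ∈ Finset.Ico 1 p, tOf E (k • Q)

/-- `Π = ∏_{k=1}^{p-1} ψ₂(kQ)`. -/
def veluPi (p : ℕ) (Q : E.Point) : F := ∏ k ∈ Finset.Ico 1 p, psi2 E (k • Q)

/-- `j(E/⟨Q⟩) = c₄'³ Π⁴ / Δ^p`. -/
def veluJ (p : ℕ) (Q : E.Point) : F := veluC4 E p Q ^ 3 * veluPi E p Q ^ 4 / E.Δ ^ p

end Velu

/-! ### The map on points induced by a ring homomorphism of fields -/

section MapPt

variable {K : Type*} [Field K] (f : F →+* K)

/-- The map `E(F) → (E.map f)(K)` on points. -/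
def mapPt : E.Point → (E.map f).toAffine.Point
  | .zero => 0
  | .some x y h => Point.some (f x) (f y) ((E.map_nonsingular f.injective x y).mpr h)

@[simp] theorem mapPt_zero : mapPt E f 0 = 0 := rfl

@[simp] theorem mapPt_some {x y : F} (h : E.Nonsingular x y) :
    mapPt E f (Point.some x y h) =
      Point.some (f x) (f y) ((E.map_nonsingular f.injective x y).mpr h) := rfl

theorem mapPt_injective : Function.Injective (mapPt E f) := by
  rintro (_ | ⟨x₁, y₁, h₁⟩) (_ | ⟨x₂, y₂, h₂⟩) h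
  · rfl
  · exact absurd h (by simp [mapPt, Point.zero_def])
  · exact absurd h (by simp [mapPt, Point.zero_def])
  · simp only [mapPt, Point.some.injEq] at h
    obtain ⟨hx, hy⟩ := h
    have hx' := f.injective hx
    have hy' := f.injective hy
    subst hx' hy'
    rfl

theorem mapPt_eq_zero_iff (P : E.Point) : mapPt E f P = 0 ↔ P = 0 :=
  ⟨fun h => mapPt_injective E f (by rw [h, mapPt_zero]), fun h => by rw [h, mapPt_zero]⟩

theorem xOf_mapPt (P : E.Point) : xOf (E.map f).toAffine (mapPt E f P) = f (xOf E P) := by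
  rcases P with _ | ⟨x, y, h⟩
  · exact (map_zero f).symm
  · rfl

theorem yOf_mapPt (P : E.Point) : yOf (E.map f).toAffine (mapPt E f P) = f (yOf E P) := by
  rcases P with _ | ⟨x, y, h⟩
  · exact (map_zero f).symm
  · rfl

theorem psi2_mapPt (P : E.Point) : psi2 (E.map f).toAffine (mapPt E f P) = f (psi2 E P) := by
  rcases P with _ | ⟨x, y, h⟩
  · exact (map_zero f).symm
  · simp only [mapPt_some, psi2_some, map_add, map_mul, map_ofNat]
    rfl

theorem tOf_mapPt (P : E.Point) : tOf (E.map f).toAffine (mapPt E f P) = f (tOf E P) := by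
  unfold tOf
  rw [xOf_mapPt, map_add, map_add, map_mul, map_mul, map_pow, map_ofNat]
  simp only [WeierstrassCurve.map_b₂, WeierstrassCurve.map_b₄]

variable [DecidableEq F] [DecidableEq K]

theorem mapPt_add (P Q : E.Point) : mapPt E f (P + Q) = mapPt E f P + mapPt E f Q := by
  rcases P with _ | ⟨x₁, y₁, h₁⟩ <;> rcases Q with _ | ⟨x₂, y₂, h₂⟩
  any_goals rfl
  by_cases hxy : x₁ = x₂ ∧ y₁ = E.negY x₂ y₂
  · rw [Point.add_of_Y_eq hxy.left hxy.right, mapPt_some, mapPt_some,
      Point.add_of_Y_eq (congr_arg _ hxy.left) (by rw [hxy.right, map_negY])]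
    rfl
  · have hxy' : ¬(f x₁ = f x₂ ∧ f y₁ = (E.map f).toAffine.negY (f x₂) (f y₂)) := by
      rintro ⟨hx, hy⟩
      rw [map_negY] at hy
      exact hxy ⟨f.injective hx, f.injective hy⟩
    rw [Point.add_some hxy, mapPt_some, mapPt_some, mapPt_some, Point.add_some hxy']
    simp only [Point.some.injEq]
    exact ⟨by rw [map_slope, map_addX], by rw [map_slope, map_addY]⟩

/-- The additive homomorphism `E(F) →+ (E.map f)(K)`. -/
def mapPtHom : E.Point →+ (E.map f).toAffine.Point where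
  toFun := mapPt E f
  map_zero' := rfl
  map_add' := mapPt_add E f

@[simp] theorem mapPtHom_apply (P : E.Point) : mapPtHom E f P = mapPt E f P := rfl

theorem mapPt_nsmul (k : ℕ) (P : E.Point) : mapPt E f (k • P) = k • mapPt E f P :=
  map_nsmul (mapPtHom E f) k P

theorem addOrderOf_mapPt (P : E.Point) : addOrderOf (mapPt E f P) = addOrderOf P :=
  addOrderOf_injective (mapPtHom E f) (mapPt_injective E f) P

theorem veluC4_mapPt (p : ℕ) (Q : E.Point) :
    veluC4 (E.map f).toAffine p (mapPt E f Q) = f (veluC4 E p Q) := by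
  unfold veluC4
  rw [map_add, map_mul, map_sum, map_ofNat]
  simp only [WeierstrassCurve.map_c₄]
  congr 2
  refine Finset.sum_congr rfl fun k _ => ?_
  rw [← mapPt_nsmul, tOf_mapPt]

theorem veluPi_mapPt (p : ℕ) (Q : E.Point) :
    veluPi (E.map f).toAffine p (mapPt E f Q) = f (veluPi E p Q) := by
  unfold veluPi
  rw [map_prod]
  refine Finset.prod_congr rfl fun k _ => ?_
  rw [← mapPt_nsmul, psi2_mapPt]

theorem veluJ_mapPt (p : ℕ) (Q : E.Point) :
    veluJ (E.map f).toAffine p (mapPt E f Q) = f (veluJ E p Q) := by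
  unfold veluJ
  rw [veluC4_mapPt, veluPi_mapPt, map_div₀, map_mul, map_pow, map_pow, map_pow]
  simp only [WeierstrassCurve.map_Δ]

end MapPt

end Fermat.Agent.MAZ.Analytic.GlobalDefs42
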