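/-
MAZ / Analytic, brick AN3 (helper3): LATTICE NORMALISATION.

For a period pair `L` and an index-`p` superlattice `L' = L + ℤ z0` (`p z0 ∈ L`, `z0 ∉ L`)
there are `τ ∈ ℍ` and `w ≠ 0` with
  `L = w (ℤ τ + ℤ)`,   `L' = (w / p) (ℤ pτ + ℤ)`,   `z0 = g (w / p)`, `p ∤ g`,
and consequently
  `j(τ) = 1728 g₂(L)³ / Δ(L)`, `j(pτ) = 1728 g₂(L')³ / Δ(L')`,
  `Δ(pτ) / Δ(τ) = p⁻¹² Δ(L') / Δ(L)`.
Imports Mathlib + X0/{Defs, AnDefs, LatticeEis} only.
-/
import Mathlib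
import Fermat.Agent.X0.Defs
import Fermat.Agent.X0.AnDefs
import Fermat.Agent.X0.LatticeEis

set_option autoImplicit false

open UpperHalfPlane Complex ModularForm EisensteinSeries
open scoped Real

namespace Fermat.Agent.MAZ.Analytic.LatNorm3

open Fermat.Agent.X0 Fermat.Agent.X0.LatticeEis

noncomputable section

/-! ### lattice invariants depend on the lattice only -/

theorem G_congr {L M : PeriodPair} (h : L.lattice = M.lattice) (k : ℕ) : L.G k = M.G k := by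
  unfold PeriodPair.G
  have key : ∀ (S T : Submodule ℤ ℂ), S = T →
      (∑' l : S, ((l : ℂ) ^ k)⁻¹) = ∑' l : T, ((l : ℂ) ^ k)⁻¹ := by
    rintro S _ rfl; rfl
  exact key _ _ h

theorem g₂_congr {L M : PeriodPair} (h : L.lattice = M.lattice) : L.g₂ = M.g₂ := by
  unfold PeriodPair.g₂; rw [G_congr h]

theorem g₃_congr {L M : PeriodPair} (h : L.lattice = M.lattice) : L.g₃ = M.g₃ := by
  unfold PeriodPair.g₃; rw [G_congr h]

/-- The discriminant `g₂³ - 27 g₃²` of a period pair. -/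
def latDisc (L : PeriodPair) : ℂ := L.g₂ ^ 3 - 27 * L.g₃ ^ 2

theorem latDisc_congr {L M : PeriodPair} (h : L.lattice = M.lattice) :
    latDisc L = latDisc M := by
  unfold latDisc; rw [g₂_congr h, g₃_congr h]

theorem latDisc_scalePair (c : ℂ) (hc : c ≠ 0) (L : PeriodPair) :
    latDisc (scalePair c hc L) = (c ^ 12)⁻¹ * latDisc L := by
  unfold latDisc
  rw [g₂_scalePair, g₃_scalePair]
  field_simp

/-! ### zeta values and the link with the modular discriminant -/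

theorem riemannZeta_six : riemannZeta 6 = (π : ℂ) ^ 6 / 945 := by
  have h := riemannZeta_two_mul_nat (k := 3) (by norm_num)
  have hb : bernoulli 6 = 1 / 42 := by decide +kernel
  have h6 : (2 : ℂ) * ((3 : ℕ) : ℂ) = 6 := by norm_num
  rw [h6] at h
  rw [h]
  have hfact : ((2 * 3).factorial : ℂ) = 720 := by
    norm_num [Nat.factorial]
  rw [show (2 * 3 : ℕ) = 6 from rfl] at *
  rw [hb]
  norm_num [Nat.factorial]
  ring

theorem latDisc_pairOfUHP (τ : ℍ) :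
    latDisc (pairOfUHP τ) = (2 * (π : ℂ)) ^ 12 * ModularForm.discriminant τ := by
  unfold latDisc
  rw [g₂_pairOfUHP, g₃_pairOfUHP, riemannZeta_four, riemannZeta_six,
    discriminant_eq_E₄_cube_sub_E₆_sq]
  ring

theorem g₂_pairOfUHP' (τ : ℍ) : (pairOfUHP τ).g₂ = 4 / 3 * (π : ℂ) ^ 4 * E₄ τ := by
  rw [g₂_pairOfUHP, riemannZeta_four]; ring

theorem pi_ne_zero' : (π : ℂ) ≠ 0 := by exact_mod_cast Real.pi_ne_zero

theorem latDisc_pairOfUHP_ne_zero (τ : ℍ) : latDisc (pairOfUHP τ) ≠ 0 := by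
  rw [latDisc_pairOfUHP]
  exact mul_ne_zero (pow_ne_zero _ (mul_ne_zero two_ne_zero pi_ne_zero'))
    (discriminant_ne_zero τ)

/-- `j(τ)` in terms of the invariants of any period pair with lattice `w (ℤ τ + ℤ)`. -/
theorem jFun_eq_of_lattice {L : PeriodPair} (τ : ℍ) (w : ℂ) (hw : w ≠ 0)
    (h : L.lattice = (scalePair w hw (pairOfUHP τ)).lattice) :
    jFun τ = 1728 * L.g₂ ^ 3 / latDisc L := by
  rw [latDisc_congr h, g₂_congr h, latDisc_scalePair, g₂_scalePair, latDisc_pairOfUHP,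
    g₂_pairOfUHP']
  unfold jFun
  have h1 := discriminant_ne_zero τ
  have h2 := pi_ne_zero'
  field_simp
  ring

theorem latDisc_eq_of_lattice {L : PeriodPair} (τ : ℍ) (w : ℂ) (hw : w ≠ 0)
    (h : L.lattice = (scalePair w hw (pairOfUHP τ)).lattice) :
    latDisc L = (w ^ 12)⁻¹ * ((2 * (π : ℂ)) ^ 12 * ModularForm.discriminant τ) := by
  rw [latDisc_congr h, latDisc_scalePair, latDisc_pairOfUHP]

/-! ### normal form of a period pair -/

/-- Change of basis by an integral matrix of determinant one. -/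
def changeBasis (L : PeriodPair) (c d a b : ℤ) (hdet : c * b - d * a = 1) : PeriodPair where
  ω₁ := c * L.ω₁ + d * L.ω₂
  ω₂ := a * L.ω₁ + b * L.ω₂
  indep := by
    rw [LinearIndependent.pair_iff]
    intro s t h
    have h' : (s * c + t * a : ℝ) • L.ω₁ + (s * d + t * b : ℝ) • L.ω₂ = 0 := by
      rw [← h]
      simp only [real_smul]
      push_cast
      ring
    obtain ⟨h1, h2⟩ := LinearIndependent.pair_iff.mp L.indep _ _ h'
    have hdet' : (c : ℝ) * b - d * a = 1 := by exact_mod_cast hdet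
    constructor
    · linear_combination (b : ℝ) * h1 - (a : ℝ) * h2 - s * hdet'
    · linear_combination -(d : ℝ) * h1 + (c : ℝ) * h2 - t * hdet'

@[simp] lemma changeBasis_ω₁ (L : PeriodPair) (c d a b : ℤ) (hdet : c * b - d * a = 1) :
    (changeBasis L c d a b hdet).ω₁ = c * L.ω₁ + d * L.ω₂ := rfl
@[simp] lemma changeBasis_ω₂ (L : PeriodPair) (c d a b : ℤ) (hdet : c * b - d * a = 1) :
    (changeBasis L c d a b hdet).ω₂ = a * L.ω₁ + b * L.ω₂ := rfl

theorem changeBasis_lattice (L : PeriodPair) (c d a b : ℤ) (hdet : c * b - d * a = 1) :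
    (changeBasis L c d a b hdet).lattice = L.lattice := by
  ext x
  simp only [PeriodPair.mem_lattice, changeBasis_ω₁, changeBasis_ω₂]
  have hdet' : (c : ℂ) * b - d * a = 1 := by exact_mod_cast hdet
  constructor
  · rintro ⟨m, n, rfl⟩
    exact ⟨m * c + n * a, m * d + n * b, by push_cast; ring⟩
  · rintro ⟨m, n, rfl⟩
    refine ⟨b * m - a * n, -d * m + c * n, ?_⟩
    push_cast
    linear_combination ((m : ℂ) * L.ω₁ + (n : ℂ) * L.ω₂) * hdet'

/-- Every period pair is, as a lattice, `ω₂ (ℤ τ + ℤ)` with `τ = ± ω₁ / ω₂ ∈ ℍ`. -/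
theorem normal_of_pair (P : PeriodPair) :
    ∃ (τ : ℍ) (hw : P.ω₂ ≠ 0),
      P.lattice = (scalePair P.ω₂ hw (pairOfUHP τ)).lattice := by
  have hw : P.ω₂ ≠ 0 := by
    have := P.indep.ne_zero 1
    simpa using this
  set t : ℂ := P.ω₁ / P.ω₂ with ht
  have him : t.im ≠ 0 := by
    intro h0
    have ht' : t = (t.re : ℂ) := by
      apply Complex.ext <;> simp [h0]
    have h1 : P.ω₁ = (t.re : ℂ) * P.ω₂ := by
      rw [← ht', ht]; field_simp
    have := LinearIndependent.pair_iff.mp P.indep 1 (-t.re)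
      (by simp only [real_smul]; push_cast; rw [h1]; ring)
    exact one_ne_zero this.1
  rcases lt_or_gt_of_ne him with hneg | hpos
  · -- τ = -t
    have hpos' : 0 < (-t).im := by simpa using hneg
    refine ⟨⟨-t, hpos'⟩, hw, ?_⟩
    ext x
    simp only [PeriodPair.mem_lattice, scalePair_ω₁, scalePair_ω₂, pairOfUHP_ω₁, pairOfUHP_ω₂]
    have e1 : P.ω₂ * (-t) = -P.ω₁ := by rw [ht]; field_simp
    change _ ↔ ∃ m n : ℤ, (m : ℂ) * (P.ω₂ * (-t)) + n * (P.ω₂ * 1) = x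
    rw [e1, mul_one]
    constructor
    · rintro ⟨m, n, rfl⟩
      exact ⟨-m, n, by push_cast; ring⟩
    · rintro ⟨m, n, rfl⟩
      exact ⟨-m, n, by push_cast; ring⟩
  · refine ⟨⟨t, hpos⟩, hw, ?_⟩
    ext x
    simp only [PeriodPair.mem_lattice, scalePair_ω₁, scalePair_ω₂, pairOfUHP_ω₁, pairOfUHP_ω₂]
    have e1 : P.ω₂ * t = P.ω₁ := by rw [ht]; field_simp
    change _ ↔ ∃ m n : ℤ, (m : ℂ) * (P.ω₂ * t) + n * (P.ω₂ * 1) = x
    rw [e1, mul_one]

theorem exists_normal_form (L : PeriodPair) :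
    ∃ (τ : ℍ) (w : ℂ) (hw : w ≠ 0), L.lattice = (scalePair w hw (pairOfUHP τ)).lattice := by
  obtain ⟨τ, hw, h⟩ := normal_of_pair L
  exact ⟨τ, L.ω₂, hw, h⟩

theorem latDisc_ne_zero (L : PeriodPair) : latDisc L ≠ 0 := by
  obtain ⟨τ, w, hw, h⟩ := exists_normal_form L
  rw [latDisc_congr h, latDisc_scalePair]
  exact mul_ne_zero (inv_ne_zero (pow_ne_zero _ hw)) (latDisc_pairOfUHP_ne_zero τ)

/-! ### normal form of an index-`p` superlattice -/

/-- **AN3.** Simultaneous normal form of `L ⊂ L' = L + ℤ z0` (`p z0 ∈ L`, `z0 ∉ L`, `p` prime):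
`L = w (ℤ τ + ℤ)`, `L' = (w / p) (ℤ pτ + ℤ)`, and `z0 = g (w / p)` with `p ∤ g`. -/
theorem exists_normal_form_sup {L L' : PeriodPair} (p : ℕ) [NeZero p] (hp : p.Prime) (z0 : ℂ)
    (hz0 : (p : ℂ) * z0 ∈ L.lattice) (hz0' : z0 ∉ L.lattice)
    (hL' : L'.lattice = L.lattice ⊔ Submodule.span ℤ {z0}) :
    ∃ (τ : ℍ) (w : ℂ) (hw : w ≠ 0) (hwp : w / p ≠ 0) (g : ℤ), ¬ (p : ℤ) ∣ g ∧
      z0 = g * (w / p) ∧
      L.lattice = (scalePair w hw (pairOfUHP τ)).lattice ∧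
      L'.lattice = (scalePair (w / p) hwp (pairOfUHP (scaleH p τ))).lattice := by
  have hp0 : (p : ℂ) ≠ 0 := by exact_mod_cast hp.ne_zero
  obtain ⟨a, b, hab⟩ := PeriodPair.mem_lattice.mp hz0
  -- `p` does not divide both coordinates
  have hndvd : ¬ ((p : ℤ) ∣ a ∧ (p : ℤ) ∣ b) := by
    rintro ⟨⟨a', rfl⟩, ⟨b', rfl⟩⟩
    apply hz0'
    refine PeriodPair.mem_lattice.mpr ⟨a', b', ?_⟩
    push_cast at hab
    have : (p : ℂ) * (a' * L.ω₁ + b' * L.ω₂) = p * z0 := by rw [← hab]; ring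
    exact mul_left_cancel₀ hp0 this
  have hgpos : 0 < Int.gcd a b := by
    rw [Int.gcd_pos_iff]
    by_contra h
    rw [not_or, not_not, not_not] at h
    exact hndvd ⟨h.1 ▸ dvd_zero _, h.2 ▸ dvd_zero _⟩
  obtain ⟨a', b', hcop, ha, hb⟩ := Int.exists_gcd_one hgpos
  set g : ℤ := (Int.gcd a b : ℤ) with hg
  have hpg : ¬ (p : ℤ) ∣ g := by
    intro h
    exact hndvd ⟨ha ▸ Dvd.dvd.mul_left h a', hb ▸ Dvd.dvd.mul_left h b'⟩
  -- Bezout for `a', b'`
  obtain ⟨u, v, huv⟩ : IsCoprime a' b' := Int.isCoprime_iff_gcd_eq_one.mpr hcop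
  let P := changeBasis L v (-u) a' b' (by linear_combination huv)
  obtain ⟨τ, hw, hP⟩ := normal_of_pair P
  have hPL : P.lattice = L.lattice := changeBasis_lattice _ _ _ _ _ _
  have hLw : L.lattice = (scalePair P.ω₂ hw (pairOfUHP τ)).lattice := hPL.symm.trans hP
  have hwp : P.ω₂ / p ≠ 0 := div_ne_zero hw hp0
  have hgw : (g : ℂ) * P.ω₂ = p * z0 := by
    rw [← hab, changeBasis_ω₂, ha, hb]; push_cast; ring
  have hz0eq : z0 = g * (P.ω₂ / p) := by
    field_simp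
    linear_combination -hgw
  -- Bezout for `p, g`
  obtain ⟨s, t, hst⟩ : IsCoprime (p : ℤ) g :=
    ((Nat.prime_iff_prime_int.mp hp).irreducible.coprime_iff_not_dvd).mpr hpg
  have hst' : (s : ℂ) * p + t * g = 1 := by exact_mod_cast hst
  refine ⟨τ, P.ω₂, hw, hwp, g, hpg, hz0eq, hLw, ?_⟩
  rw [hL']
  ext x
  rw [Submodule.mem_sup, PeriodPair.mem_lattice]
  simp only [Submodule.mem_span_singleton, scalePair_ω₁, scalePair_ω₂, pairOfUHP_ω₁,
    pairOfUHP_ω₂, coe_scaleH]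
  constructor
  · rintro ⟨y, hy, _, ⟨k, rfl⟩, rfl⟩
    rw [hLw] at hy
    obtain ⟨m, n, rfl⟩ := PeriodPair.mem_lattice.mp hy
    refine ⟨m, n * p + k * g, ?_⟩
    simp only [scalePair_ω₁, scalePair_ω₂, pairOfUHP_ω₁, pairOfUHP_ω₂, zsmul_eq_mul]
    rw [hz0eq]
    push_cast
    field_simp
    ring
  · rintro ⟨m, n, rfl⟩
    refine ⟨m * (P.ω₂ * τ) + ((n * s : ℤ) : ℂ) * (P.ω₂ * 1), ?_, (n * t) • z0, ⟨n * t, rfl⟩, ?_⟩
    · rw [hLw]
      exact PeriodPair.mem_lattice.mpr ⟨m, n * s, by simp⟩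
    · rw [hz0eq, zsmul_eq_mul]
      push_cast
      field_simp
      linear_combination (n : ℂ) * hst'

/-- **AN3, invariants.** For the `τ` of the normal form:
`j(τ) = j(L)`, `j(pτ) = j(L')`, `Δ(pτ)/Δ(τ) = p⁻¹² Δ(L')/Δ(L)`. -/
theorem main {L L' : PeriodPair} (p : ℕ) [NeZero p] (hp : p.Prime) (z0 : ℂ)
    (hz0 : (p : ℂ) * z0 ∈ L.lattice) (hz0' : z0 ∉ L.lattice)
    (hL' : L'.lattice = L.lattice ⊔ Submodule.span ℤ {z0}) :
    ∃ τ : ℍ, jFun τ = 1728 * L.g₂ ^ 3 / latDisc L ∧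
      jFun (scaleH p τ) = 1728 * L'.g₂ ^ 3 / latDisc L' ∧
      ModularForm.discriminant (scaleH p τ) / ModularForm.discriminant τ =
        ((p : ℂ) ^ 12)⁻¹ * (latDisc L' / latDisc L) := by
  obtain ⟨τ, w, hw, hwp, g, -, -, hL, hL''⟩ := exists_normal_form_sup p hp z0 hz0 hz0' hL'
  refine ⟨τ, jFun_eq_of_lattice τ w hw hL, jFun_eq_of_lattice _ _ hwp hL'', ?_⟩
  rw [latDisc_eq_of_lattice τ w hw hL, latDisc_eq_of_lattice _ _ hwp hL'']
  have hp0 : (p : ℂ) ≠ 0 := by exact_mod_cast hp.ne_zero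
  have h1 := discriminant_ne_zero τ
  have h2 := pi_ne_zero'
  field_simp

end

end Fermat.Agent.MAZ.Analytic.LatNorm3
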