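/-
Program MAZ (S15), chapter Analytic, helper42: brick MODEQ-AN, part 1.

The modular equation at the ANALYTIC level, single-root forms: for every witness `Φ ∈ ℤ[Y][X]` of
the two (P0) identities `Φ(X := j(q^p), Y := j(q)) = 0`, `Φ(X := j(q), Y := j(q^p)) = 0` in `ℤ((q))`
and every `τ` in the upper half plane,
  `Φ(j(pτ), j(τ)) = 0`, `Φ(j(τ), j(pτ)) = 0`, `Φ(j((τ+a)/p), j(τ)) = 0`, `Φ(j(τ), j((τ+a)/p)) = 0`.
Convention of `IG/PR/Interface20.P0`: OUTER variable `X`, INNER variable `Y`;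
`Φ.eval₂ (evY y) x = Φ(X := x, Y := y)`.

The product form `Φ(X, j(τ)) = (X - j(pτ)) ∏_{a<p} (X - j((τ+a)/p))` is in `ModEqProd42`.
-/
import Fermat.Agent.X0.Analytic
import Fermat.Agent.X0.JBasic
import Fermat.Agent.IG.PR.Interface20

set_option autoImplicit false
set_option linter.unusedSectionVars false

open Polynomial UpperHalfPlane ModularCurve
open scoped MatrixGroups

noncomputable section

namespace Fermat.Agent.MAZ.Analytic.ModEqAn42

open Fermat.Agent.X0 Fermat.Agent.IG.PR.Interface20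

/-- Evaluation `ℤ[Y] → A`, `Y ↦ y`. -/
abbrev evY {A : Type*} [CommRing A] (y : A) : Polynomial ℤ →+* A :=
  Polynomial.eval₂RingHom (Int.castRingHom A) y

/-- Ring homomorphisms commute with the evaluation of a two-variable integral polynomial. -/
theorem map_ev {A B : Type*} [CommRing A] [CommRing B] (g : A →+* B)
    (Φ : Polynomial (Polynomial ℤ)) (x y : A) :
    g (Φ.eval₂ (evY y) x) = Φ.eval₂ (evY (g y)) (g x) := by
  rw [Polynomial.hom_eval₂]
  congr 1
  apply Polynomial.ringHom_ext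
  · intro n
    simp [evY]
  · simp [evY]

theorem evalAt_eq_evY {R : Type*} [CommRing R] (y : LaurentSeries R) : evalAt R y = evY y := rfl

variable {p : ℕ} [NeZero p]

/-! ### The point `(τ + a) / p` -/

/-- The point `(τ + a) / p` of the upper half plane. -/
def shiftH (p : ℕ) [NeZero p] (a : ℕ) (τ : ℍ) : ℍ :=
  ⟨((τ : ℂ) + a) / p, by
    have hp : 0 < (p : ℝ) := by exact_mod_cast Nat.pos_of_ne_zero (NeZero.ne p)
    have h : (((τ : ℂ) + a) / p).im = τ.im / p := by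
      have : ((τ : ℂ) + a) / p = ((τ : ℂ) + a) * ((p : ℝ)⁻¹ : ℝ) := by
        push_cast
        rw [div_eq_mul_inv]
      rw [this, Complex.im_mul_ofReal]
      simp [div_eq_mul_inv]
    rw [h]
    exact div_pos τ.im_pos hp⟩

@[simp] theorem coe_shiftH (a : ℕ) (τ : ℍ) : (shiftH p a τ : ℂ) = ((τ : ℂ) + a) / p := rfl

/-- translation by a natural number does not change `j`. -/
theorem jFun_vadd_nat (a : ℕ) (τ τ' : ℍ) (h : (τ' : ℂ) = (τ : ℂ) + a) : jFun τ' = jFun τ := by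
  have h1 : τ' = (ModularGroup.T ^ (a : ℤ)) • τ := by
    apply UpperHalfPlane.ext
    rw [h, UpperHalfPlane.modular_T_zpow_smul]
    simp [add_comm]
  rw [h1, jFun_smul]

theorem scaleH_shiftH (a : ℕ) (τ : ℍ) : (scaleH p (shiftH p a τ) : ℂ) = (τ : ℂ) + a := by
  have hp : (p : ℂ) ≠ 0 := by exact_mod_cast NeZero.ne p
  rw [coe_scaleH, coe_shiftH]
  field_simp

theorem jFun_scaleH_shiftH (a : ℕ) (τ : ℍ) : jFun (scaleH p (shiftH p a τ)) = jFun τ :=
  jFun_vadd_nat a τ _ (scaleH_shiftH a τ)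

/-! ### The (P0) identities inside `ℚbar[j, j_p]` and their analytic realisation -/

theorem jdFun_one' : jdFun 1 = jFun := by
  funext z
  have : scaleH 1 z = z := by
    apply UpperHalfPlane.ext
    simp [coe_scaleH]
  simp [jdFun, this]

/-- `j_p` as an element of `R = ℚbar[j_d]`. -/
def uX (p : ℕ) [NeZero p] : Rsub p :=
  ⟨jdF p p dvd_rfl, Algebra.subset_adjoin ⟨p, inferInstance, dvd_rfl, rfl⟩⟩

/-- `j` as an element of `R = ℚbar[j_d]`. -/
def uY (p : ℕ) [NeZero p] : Rsub p :=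
  ⟨jdF p 1 (one_dvd p), Algebra.subset_adjoin ⟨1, inferInstance, one_dvd p, rfl⟩⟩

theorem realize_uX : realize p (uX p) = jdFun p := realize_jdF p p dvd_rfl

theorem realize_uY : realize p (uY p) = jFun := by
  have h := realize_jdF p 1 (one_dvd p)
  rw [jdFun_one'] at h
  exact h

/-- The embedding `R → ℚbar((q))`. -/
def embL (p : ℕ) [NeZero p] : Rsub p →+* LaurentSeries Kbar :=
  ((ModularCurve.modularFunctionFieldBar p).val.toRingHom).comp (Rsub p).val.toRingHom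

theorem embL_injective : Function.Injective (embL p) := by
  intro u w h
  exact Subtype.ext (Subtype.ext h)

theorem jqModC_Kbar : coeffEmb Kbar jq = jqModC Kbar := by
  rw [← jqModC_rat]
  exact ModularCurve.coeffMap_jqModC (algebraMap ℚ Kbar)

theorem embL_uX : embL p (uX p) = qExpand Kbar p (jqModC Kbar) := by
  show coeffEmb Kbar (qExpand ℚ p jq) = _
  rw [coeffEmb, ModularCurve.coeffMap_qExpand]
  congr 1
  exact jqModC_Kbar

theorem embL_uY : embL p (uY p) = jqModC Kbar := by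
  show coeffEmb Kbar (qExpand ℚ 1 jq) = _
  rw [qExpand_one_apply]
  exact jqModC_Kbar

variable (Φ : Polynomial (Polynomial ℤ))

/-- first (P0) identity in `R`. -/
theorem ev_uX_uY
    (h1 : Φ.eval₂ (evalAt ℤ (jqModC ℤ)) (qExpand ℤ p (jqModC ℤ)) = 0) :
    Φ.eval₂ (evY (uY p)) (uX p) = 0 := by
  apply embL_injective
  rw [map_zero, map_ev, embL_uX, embL_uY]
  have h := congrArg (coeffMap (Int.castRingHom Kbar)) h1
  rw [evalAt_eq_evY, map_ev, map_zero, ModularCurve.coeffMap_qExpand,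
    ModularCurve.coeffMap_jqModC] at h
  exact h

/-- second (P0) identity in `R`. -/
theorem ev_uY_uX
    (h2 : Φ.eval₂ (evalAt ℤ (qExpand ℤ p (jqModC ℤ))) (jqModC ℤ) = 0) :
    Φ.eval₂ (evY (uX p)) (uY p) = 0 := by
  apply embL_injective
  rw [map_zero, map_ev, embL_uX, embL_uY]
  have h := congrArg (coeffMap (Int.castRingHom Kbar)) h2
  rw [evalAt_eq_evY, map_ev, map_zero, ModularCurve.coeffMap_qExpand,
    ModularCurve.coeffMap_jqModC] at h
  exact h

/-- evaluation of functions at a point, as a ring hom. -/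
def evPt (τ : ℍ) : (ℍ → ℂ) →+* ℂ := Pi.evalRingHom (fun _ : ℍ => ℂ) τ

/-- **`Φ(j(pτ), j(τ)) = 0`.** -/
theorem eval_scale_self
    (h1 : Φ.eval₂ (evalAt ℤ (jqModC ℤ)) (qExpand ℤ p (jqModC ℤ)) = 0) (τ : ℍ) :
    Φ.eval₂ (evY (jFun τ)) (jFun (scaleH p τ)) = 0 := by
  have h := congrArg (fun u => evPt τ (realize p u)) (ev_uX_uY Φ h1)
  simp only [map_zero] at h
  rw [map_ev, map_ev, realize_uX, realize_uY] at h
  exact h

/-- **`Φ(j(τ), j(pτ)) = 0`.** -/
theorem eval_self_scale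
    (h2 : Φ.eval₂ (evalAt ℤ (qExpand ℤ p (jqModC ℤ))) (jqModC ℤ) = 0) (τ : ℍ) :
    Φ.eval₂ (evY (jFun (scaleH p τ))) (jFun τ) = 0 := by
  have h := congrArg (fun u => evPt τ (realize p u)) (ev_uY_uX Φ h2)
  simp only [map_zero] at h
  rw [map_ev, map_ev, realize_uX, realize_uY] at h
  exact h

/-- **`Φ(j((τ+a)/p), j(τ)) = 0`.** -/
theorem eval_shift_self
    (h2 : Φ.eval₂ (evalAt ℤ (qExpand ℤ p (jqModC ℤ))) (jqModC ℤ) = 0) (a : ℕ) (τ : ℍ) :
    Φ.eval₂ (evY (jFun τ)) (jFun (shiftH p a τ)) = 0 := by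
  have h := eval_self_scale Φ h2 (shiftH p a τ)
  rwa [jFun_scaleH_shiftH] at h

/-- **`Φ(j(τ), j((τ+a)/p)) = 0`.** -/
theorem eval_self_shift
    (h1 : Φ.eval₂ (evalAt ℤ (jqModC ℤ)) (qExpand ℤ p (jqModC ℤ)) = 0) (a : ℕ) (τ : ℍ) :
    Φ.eval₂ (evY (jFun (shiftH p a τ))) (jFun τ) = 0 := by
  have h := eval_scale_self Φ h1 (shiftH p a τ)
  rwa [jFun_scaleH_shiftH] at h

end Fermat.Agent.MAZ.Analytic.ModEqAn42
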