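/-
MAZ / Analytic, brick AN0 (helper80): every pair `(g₂, g₃)` with `g₂³ - 27 g₃² ≠ 0` is the pair of
invariants of a period pair (uniformisation of complex elliptic curves, existence half).

Route: surjectivity of `j` (`X0/JBasic.jFun_surjective`) gives `τ` with the right `j`-invariant,
`X0/JInjective.exists_scaling` rescales the lattice `ℤ τ + ℤ`.
Imports Mathlib + X0/{JBasic, JInjective, LatticeEis} + MAZ/Analytic/LatNorm3.
-/
import Mathlib
import Fermat.Agent.X0.JBasic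
import Fermat.Agent.X0.JInjective
import Fermat.Agent.X0.LatticeEis
import Fermat.Agent.MAZ.Analytic.LatNorm3

set_option autoImplicit false

open UpperHalfPlane Complex ModularForm EisensteinSeries
open scoped Real

namespace Fermat.Agent.MAZ.Analytic.PeriodPairExists80

open Fermat.Agent.X0 Fermat.Agent.X0.LatticeEis Fermat.Agent.MAZ.Analytic.LatNorm3

/-- **AN0.** Every `(g₂, g₃)` with nonzero discriminant comes from a period pair; the period pair
can be taken of the form `c • (ℤ τ + ℤ)`. -/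
theorem exists_scalePair (g2 g3 : ℂ) (h : g2 ^ 3 - 27 * g3 ^ 2 ≠ 0) :
    ∃ (τ : ℍ) (c : ℂ) (hc : c ≠ 0),
      (scalePair c hc (pairOfUHP τ)).g₂ = g2 ∧ (scalePair c hc (pairOfUHP τ)).g₃ = g3 := by
  have hπ : (π : ℂ) ≠ 0 := pi_ne_zero'
  -- normalised invariants
  set A : ℂ := 4 / 3 * (π : ℂ) ^ 4 with hA
  set B : ℂ := 8 / 27 * (π : ℂ) ^ 6 with hB
  have hA0 : A ≠ 0 := by
    rw [hA]; exact mul_ne_zero (by norm_num) (pow_ne_zero _ hπ)
  have hB0 : B ≠ 0 := by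
    rw [hB]; exact mul_ne_zero (by norm_num) (pow_ne_zero _ hπ)
  have hAB : A ^ 3 = 27 * B ^ 2 := by rw [hA, hB]; ring
  set a₁ : ℂ := g2 / A with ha₁
  set b₁ : ℂ := g3 / B with hb₁
  have hΔ₁ : a₁ ^ 3 - b₁ ^ 2 ≠ 0 := by
    have : a₁ ^ 3 - b₁ ^ 2 = (g2 ^ 3 - 27 * g3 ^ 2) / A ^ 3 := by
      rw [ha₁, hb₁]
      field_simp
      linear_combination (g3 ^ 2 * 27) * hAB
    rw [this]
    exact div_ne_zero h (pow_ne_zero _ hA0)
  obtain ⟨τ, hτ⟩ := jFun_surjective (1728 * a₁ ^ 3 / (a₁ ^ 3 - b₁ ^ 2))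
  have hΔτ : E₄ τ ^ 3 - E₆ τ ^ 2 ≠ 0 := by
    have := discriminant_ne_zero τ
    rw [discriminant_eq_E₄_cube_sub_E₆_sq] at this
    intro h0
    exact this (by rw [h0]; simp)
  have hrel : a₁ ^ 3 * E₆ τ ^ 2 = E₄ τ ^ 3 * b₁ ^ 2 := by
    unfold jFun at hτ
    rw [discriminant_eq_E₄_cube_sub_E₆_sq] at hτ
    field_simp at hτ
    linear_combination hτ
  obtain ⟨c, hc0, hc4, hc6⟩ := JInjective.exists_scaling hΔ₁ hΔτ hrel
  refine ⟨τ, c, hc0, ?_, ?_⟩
  · rw [g₂_scalePair, g₂_pairOfUHP']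
    have : g2 = A * a₁ := by rw [ha₁]; field_simp
    rw [this, ← hc4, hA]; ring
  · rw [g₃_scalePair, g₃_pairOfUHP, riemannZeta_six]
    have : g3 = B * b₁ := by rw [hb₁]; field_simp
    rw [this, ← hc6, hB]; ring

/-- **AN0.** Every `(g₂, g₃)` with nonzero discriminant comes from a period pair. -/
theorem exists_periodPair (g2 g3 : ℂ) (h : g2 ^ 3 - 27 * g3 ^ 2 ≠ 0) :
    ∃ L : PeriodPair, L.g₂ = g2 ∧ L.g₃ = g3 := by
  obtain ⟨τ, c, hc, h2, h3⟩ := exists_scalePair g2 g3 h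
  exact ⟨_, h2, h3⟩

end Fermat.Agent.MAZ.Analytic.PeriodPairExists80
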