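/-
Programme MAZ (S15), analytic side, brick AN2a (helper27): THE WEIERSTRASS FUNCTIONS OF A
SUPERLATTICE `L' = L + ℤ z0` OF PRIME INDEX.

Setting: `L L' : PeriodPair`, `p` prime, `(p : ℂ) * z0 ∈ L.lattice`, `z0 ∉ L.lattice`,
`L'.lattice = L.lattice ⊔ Submodule.span ℤ {z0}`.

* `cosetEquiv` : `Fin p × L.lattice ≃ L'.lattice`, `(k, l) ↦ l - k z0`;
* `weierstrassP_superlattice` : `℘[L'] z = ℘[L] z + ∑ k ∈ Ico 1 p, (℘[L] (z + k z0) - ℘[L] (k z0))`;
* `derivWeierstrassP_superlattice` : `℘'[L'] z = ∑ k ∈ range p, ℘'[L] (z + k z0)`;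
* `g₂_superlattice` : `L'.g₂ = L.g₂ + 10 * ∑ k ∈ Ico 1 p, (6 * ℘[L] (k z0) ^ 2 - L.g₂ / 2)`.

No Liouville argument: pure regrouping of the defining sums over `L' = ⨆ₖ (L - k z0)`.
-/
import Mathlib
import Fermat.Agent.MAZ.Analytic.Elliptic32

set_option autoImplicit false

open Filter Topology
open scoped PeriodPair

namespace Fermat.Agent.MAZ.Analytic.SubLattice27

open Fermat.Agent.MAZ.Analytic.Elliptic32

variable {L L' : PeriodPair} {p : ℕ} {z0 : ℂ}

/-! ### Arithmetic of the cosets -/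

section Cosets

variable (hp : p.Prime) (h1 : (p : ℂ) * z0 ∈ L.lattice) (h0 : z0 ∉ L.lattice)

include hp h1 h0 in
/-- `m z0 ∈ L ↔ p ∣ m`. -/
theorem intCast_mul_mem_iff (m : ℤ) : (m : ℂ) * z0 ∈ L.lattice ↔ (p : ℤ) ∣ m := by
  constructor
  · intro hm
    by_contra hnd
    have hcop : IsCoprime m (p : ℤ) := by
      rw [Int.isCoprime_iff_gcd_eq_one]
      have h2 : ¬ p ∣ m.natAbs := fun h => hnd (Int.natCast_dvd.mpr h)
      have h3 : Nat.Coprime p m.natAbs := (Nat.Prime.coprime_iff_not_dvd hp).mpr h2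
      rw [Int.gcd_comm]
      simpa [Int.gcd] using h3
    obtain ⟨a, b, hab⟩ := hcop
    apply h0
    have hz : z0 = a • ((m : ℂ) * z0) + b • ((p : ℂ) * z0) := by
      have hab' : ((a * m + b * p : ℤ) : ℂ) = 1 := by rw [hab]; simp
      have : (a : ℂ) * m + b * p = 1 := by exact_mod_cast hab'
      simp only [zsmul_eq_mul]
      linear_combination (-z0) * this
    rw [hz]
    exact L.lattice.add_mem (L.lattice.smul_mem a hm) (L.lattice.smul_mem b h1)
  · rintro ⟨c, rfl⟩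
    have : ((p * c : ℤ) : ℂ) * z0 = c • ((p : ℂ) * z0) := by
      simp only [zsmul_eq_mul]
      push_cast
      ring
    rw [this]
    exact L.lattice.smul_mem c h1

include hp h1 h0 in
/-- `k z0 ∉ L` for `0 < k < p`. -/
theorem natCast_mul_notMem {k : ℕ} (hk : 0 < k) (hkp : k < p) : (k : ℂ) * z0 ∉ L.lattice := by
  intro h
  have h' : ((k : ℤ) : ℂ) * z0 ∈ L.lattice := by simpa using h
  rw [intCast_mul_mem_iff hp h1 h0] at h'
  have := Int.le_of_dvd (by exact_mod_cast hk) h'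
  omega

variable (hL' : L'.lattice = L.lattice ⊔ Submodule.span ℤ {z0})

include hL' in
theorem lattice_le : L.lattice ≤ L'.lattice := by
  rw [hL']
  exact le_sup_left

include hL' in
theorem z0_mem : z0 ∈ L'.lattice := by
  rw [hL']
  exact (le_sup_right : Submodule.span ℤ {z0} ≤ _) (Submodule.mem_span_singleton_self z0)

include hL' in
theorem sub_mul_mem (k : ℕ) (l : L.lattice) : (l : ℂ) - (k : ℂ) * z0 ∈ L'.lattice := by
  have h2 : (k : ℂ) * z0 = (k : ℤ) • z0 := by simp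
  rw [h2]
  exact L'.lattice.sub_mem (lattice_le hL' l.2) (L'.lattice.smul_mem _ (z0_mem hL'))

/-- The coset map `(k, l) ↦ l - k z0`. -/
def cosetMap (hL' : L'.lattice = L.lattice ⊔ Submodule.span ℤ {z0}) :
    Fin p × L.lattice → L'.lattice :=
  fun x => ⟨(x.2 : ℂ) - ((x.1 : ℕ) : ℂ) * z0, sub_mul_mem hL' x.1 x.2⟩

include hp h1 h0 in
theorem cosetMap_injective : Function.Injective (cosetMap (p := p) hL') := by
  rintro ⟨k, l⟩ ⟨k', l'⟩ h
  have h2 : (l : ℂ) - ((k : ℕ) : ℂ) * z0 = (l' : ℂ) - ((k' : ℕ) : ℂ) * z0 :=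
    congrArg Subtype.val h
  have h3 : (((k : ℕ) : ℤ) - ((k' : ℕ) : ℤ) : ℤ) * z0 = (l : ℂ) - l' := by
    push_cast
    linear_combination (-1 : ℂ) * h2
  have h4 : ((((k : ℕ) : ℤ) - ((k' : ℕ) : ℤ) : ℤ) : ℂ) * z0 ∈ L.lattice := by
    rw [h3]
    exact L.lattice.sub_mem l.2 l'.2
  rw [intCast_mul_mem_iff hp h1 h0] at h4
  have hk : (k : ℕ) = (k' : ℕ) := by
    have hk1 := k.2
    have hk2 := k'.2
    obtain ⟨c, hc⟩ := h4
    have hc0 : c = 0 := by
      by_contra hne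
      have : (p : ℤ) ≤ |((k : ℕ) : ℤ) - ((k' : ℕ) : ℤ)| := by
        rw [hc, abs_mul]
        have h5 : (1 : ℤ) ≤ |c| := Int.one_le_abs hne
        have h6 : (0 : ℤ) ≤ |(p : ℤ)| := abs_nonneg _
        calc (p : ℤ) = |(p : ℤ)| * 1 := by simp
          _ ≤ |(p : ℤ)| * |c| := by gcongr
      have h7 : |((k : ℕ) : ℤ) - ((k' : ℕ) : ℤ)| < p := by
        rw [abs_lt]
        constructor <;> omega
      omega
    rw [hc0, mul_zero] at hc
    omega
  have hkk : k = k' := Fin.ext hk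
  subst hkk
  have hl : (l : ℂ) = l' := by linear_combination h2
  have hll : l = l' := Subtype.ext hl
  rw [hll]

include hp h1 hL' in
theorem cosetMap_surjective : Function.Surjective (cosetMap (p := p) hL') := by
  rintro ⟨x, hx⟩
  rw [hL', Submodule.mem_sup] at hx
  obtain ⟨l, hl, y, hy, rfl⟩ := hx
  obtain ⟨m, rfl⟩ := Submodule.mem_span_singleton.mp hy
  -- `-m = p * q + r`, `0 ≤ r < p`
  have hp0 : (p : ℤ) ≠ 0 := by exact_mod_cast hp.ne_zero
  have hppos : (0 : ℤ) < p := by exact_mod_cast hp.pos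
  set r : ℤ := (-m) % p with hr
  set q : ℤ := (-m) / p with hq
  have hr0 : 0 ≤ r := Int.emod_nonneg _ hp0
  have hrp : r < p := Int.emod_lt_of_pos _ hppos
  have hdiv : (p : ℤ) * q + r = -m := Int.mul_ediv_add_emod (-m) p
  have hrn : r.toNat < p := by
    have : (r.toNat : ℤ) = r := Int.toNat_of_nonneg hr0
    omega
  refine ⟨(⟨r.toNat, hrn⟩, ⟨l - q • ((p : ℂ) * z0), L.lattice.sub_mem hl (L.lattice.smul_mem q h1)⟩),
    Subtype.ext ?_⟩
  simp only [cosetMap]
  have hrc : ((r.toNat : ℕ) : ℂ) = (r : ℂ) := by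
    have : (r.toNat : ℤ) = r := Int.toNat_of_nonneg hr0
    exact_mod_cast congrArg (fun n : ℤ => (n : ℂ)) this
  rw [hrc]
  have hdivc : (p : ℂ) * q + r = -m := by exact_mod_cast congrArg (fun n : ℤ => (n : ℂ)) hdiv
  simp only [zsmul_eq_mul]
  linear_combination (-z0) * hdivc

/-- **The coset decomposition** `L' = ⨆ₖ (L - k z0)`, `0 ≤ k < p`. -/
noncomputable def cosetEquiv : Fin p × L.lattice ≃ L'.lattice :=
  Equiv.ofBijective (cosetMap hL')
    ⟨cosetMap_injective hp h1 h0 hL', cosetMap_surjective hp h1 hL'⟩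

theorem cosetEquiv_apply (k : Fin p) (l : L.lattice) :
    ((cosetEquiv hp h1 h0 hL' (k, l) : L'.lattice) : ℂ) = (l : ℂ) - ((k : ℕ) : ℂ) * z0 := rfl

include hp h1 h0 hL' in
/-- **Regrouping a sum over `L'` along the cosets of `L`.** -/
theorem regroup (F : ℂ → ℂ) {S : ℂ} {T : ℕ → ℂ}
    (hS : HasSum (fun l' : L'.lattice => F l') S)
    (hT : ∀ k < p, HasSum (fun l : L.lattice => F ((l : ℂ) - (k : ℂ) * z0)) (T k)) :
    S = ∑ k ∈ Finset.range p, T k := by
  have h2 : HasSum ((fun l' : L'.lattice => F l') ∘ cosetEquiv hp h1 h0 hL') S :=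
    (Equiv.hasSum_iff (cosetEquiv hp h1 h0 hL')).mpr hS
  have h3 : HasSum (fun k : Fin p => T k) S := by
    refine HasSum.prod_fiberwise h2 fun k => ?_
    exact hT k k.2
  have h4 : HasSum (fun k : Fin p => T k) (∑ k : Fin p, T k) := hasSum_fintype _
  rw [h3.unique h4, Fin.sum_univ_eq_sum_range]

end Cosets

/-! ### The Weierstrass functions of `L'` -/

section Formulas

variable (hp : p.Prime) (h1 : (p : ℂ) * z0 ∈ L.lattice) (h0 : z0 ∉ L.lattice)
  (hL' : L'.lattice = L.lattice ⊔ Submodule.span ℤ {z0})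

include hp h1 h0 hL' in
/-- **`℘` of the superlattice.**  (True for every `z`, with Mathlib's junk values.) -/
theorem weierstrassP_superlattice (z : ℂ) :
    ℘[L'] z = ℘[L] z +
      ∑ k ∈ Finset.Ico 1 p, (℘[L] (z + (k : ℂ) * z0) - ℘[L] ((k : ℂ) * z0)) := by
  have hreg := regroup hp h1 h0 hL' (fun w => 1 / (z - w) ^ 2 - 1 / w ^ 2)
    (T := fun k => if k = 0 then ℘[L] z else ℘[L] (z + (k : ℂ) * z0) - ℘[L] ((k : ℂ) * z0))
    (L'.hasSum_weierstrassP z) ?_
  · rw [hreg, Finset.range_eq_Ico, Finset.sum_eq_sum_Ico_succ_bot hp.pos]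
    simp only [if_true, zero_add]
    congr 1
    refine Finset.sum_congr rfl fun k hk => ?_
    rw [if_neg]
    have := (Finset.mem_Ico.mp hk).1
    omega
  · intro k hk
    by_cases hk0 : k = 0
    · subst hk0
      simpa using L.hasSum_weierstrassP z
    · rw [if_neg hk0]
      have ha := L.hasSum_weierstrassP (z + (k : ℂ) * z0)
      have hb := L.hasSum_weierstrassP ((k : ℂ) * z0)
      have hc := ha.sub hb
      refine hc.congr_fun ?_ |> fun h => h
      intro l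
      have e1 : z - ((l : ℂ) - (k : ℂ) * z0) = z + (k : ℂ) * z0 - l := by ring
      have e2 : ((l : ℂ) - (k : ℂ) * z0) ^ 2 = ((k : ℂ) * z0 - l) ^ 2 := by ring
      rw [e1, e2]
      ring

include hp h1 h0 hL' in
/-- **`℘'` of the superlattice.** -/
theorem derivWeierstrassP_superlattice (z : ℂ) :
    ℘'[L'] z = ∑ k ∈ Finset.range p, ℘'[L] (z + (k : ℂ) * z0) := by
  refine regroup hp h1 h0 hL' (fun w => -2 / (z - w) ^ 3)
    (T := fun k => ℘'[L] (z + (k : ℂ) * z0)) (L'.hasSum_derivWeierstrassP z) ?_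
  intro k _
  have ha := L.hasSum_derivWeierstrassP (z + (k : ℂ) * z0)
  refine ha.congr_fun ?_ |> fun h => h
  intro l
  have e1 : z - ((l : ℂ) - (k : ℂ) * z0) = z + (k : ℂ) * z0 - l := by ring
  rw [e1]

/-- `∑ (l - x)⁻⁴ = ℘(x)² - g₂ / 12` for `x ∉ L`. -/
theorem sumInvPow_four {x : ℂ} (hx : x ∉ L.lattice) :
    L.sumInvPow x 4 = ℘[L] x ^ 2 - L.g₂ / 12 := by
  have h2 : deriv ℘'[L] x = 6 * L.sumInvPow x 4 := by
    have := L.deriv_derivWeierstrassPExcept_self x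
    rwa [L.derivWeierstrassPExcept_of_notMem x hx] at this
  have h3 : deriv ℘'[L] x = 6 * ℘[L] x ^ 2 - L.g₂ / 2 := wp2_eq L hx
  have h4 : 6 * L.sumInvPow x 4 = 6 * ℘[L] x ^ 2 - L.g₂ / 2 := by rw [← h2, h3]
  linear_combination h4 / 6

include hp h1 h0 hL' in
/-- **`G₄` of the superlattice.** -/
theorem G_four_superlattice :
    L'.G 4 = L.G 4 + ∑ k ∈ Finset.Ico 1 p, (℘[L] ((k : ℂ) * z0) ^ 2 - L.g₂ / 12) := by
  have hS : HasSum (fun l' : L'.lattice => ((l' : ℂ) ^ 4)⁻¹) (L'.G 4) := by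
    have := L'.hasSum_sumInvPow 0 (r := 4) (by norm_num)
    simpa using this
  have hreg := regroup hp h1 h0 hL' (fun w => (w ^ 4)⁻¹)
    (T := fun k => L.sumInvPow ((k : ℂ) * z0) 4) hS ?_
  · rw [hreg, Finset.range_eq_Ico, Finset.sum_eq_sum_Ico_succ_bot hp.pos]
    congr 1
    · simp
    · refine Finset.sum_congr rfl fun k hk => ?_
      have hk' := Finset.mem_Ico.mp hk
      exact sumInvPow_four (natCast_mul_notMem hp h1 h0 (by omega) hk'.2)
  · intro k _
    exact L.hasSum_sumInvPow ((k : ℂ) * z0) (r := 4) (by norm_num)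

include hp h1 h0 hL' in
/-- **`g₂` of the superlattice.** -/
theorem g₂_superlattice :
    L'.g₂ = L.g₂ + 10 * ∑ k ∈ Finset.Ico 1 p, (6 * ℘[L] ((k : ℂ) * z0) ^ 2 - L.g₂ / 2) := by
  have h := G_four_superlattice hp h1 h0 hL'
  unfold PeriodPair.g₂ at *
  rw [h, mul_add, Finset.mul_sum, Finset.mul_sum]
  congr 1
  refine Finset.sum_congr rfl fun k _ => ?_
  ring

end Formulas

end Fermat.Agent.MAZ.Analytic.SubLattice27
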