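import Fermat.Agent.MAZ.Analytic.AddThm32

set_option autoImplicit false

open Filter Topology
open scoped PeriodPair

namespace Fermat.Agent.MAZ.Analytic.Unif32

open Fermat.Agent.MAZ.Analytic.Elliptic32 Fermat.Agent.MAZ.Analytic.AddThm32
open WeierstrassCurve

variable (W : WeierstrassCurve ℂ) (L : PeriodPair)

/-- The lattice `L` uniformises the Weierstrass curve `W` over `ℂ`. -/
structure IsUnif : Prop where
  g₂ : L.g₂ = W.c₄ / 12
  g₃ : L.g₃ = W.c₆ / 216
  Δ : W.Δ ≠ 0

/-- The `x`-coordinate of the point attached to `z`. -/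
noncomputable def xC (z : ℂ) : ℂ := ℘[L] z - W.b₂ / 12

/-- The `y`-coordinate of the point attached to `z`. -/
noncomputable def yC (z : ℂ) : ℂ := (℘'[L] z - W.a₁ * xC W L z - W.a₃) / 2

variable {W L}

theorem two_yC_add (z : ℂ) : 2 * yC W L z + W.a₁ * xC W L z + W.a₃ = ℘'[L] z := by
  unfold yC; ring

theorem equation_xC_yC (h : IsUnif W L) {z : ℂ} (hz : z ∉ L.lattice) :
    W.toAffine.Equation (xC W L z) (yC W L z) := by
  rw [Affine.equation_iff]
  have h1 := L.derivWeierstrassP_sq z hz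
  rw [h.g₂, h.g₃] at h1
  have h2 := two_yC_add (W := W) (L := L) z
  have hx : ℘[L] z = xC W L z + W.b₂ / 12 := by unfold xC; ring
  rw [← h2, hx] at h1
  simp only [WeierstrassCurve.c₄, WeierstrassCurve.c₆, WeierstrassCurve.b₂, WeierstrassCurve.b₄,
    WeierstrassCurve.b₆] at h1
  linear_combination h1 / 4

theorem nonsingular_xC_yC (h : IsUnif W L) {z : ℂ} (hz : z ∉ L.lattice) :
    W.toAffine.Nonsingular (xC W L z) (yC W L z) :=
  (Affine.equation_iff_nonsingular_of_Δ_ne_zero h.Δ).1 (equation_xC_yC h hz)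

open Classical in
/-- The point of `W(ℂ)` attached to `z ∈ ℂ`. -/
noncomputable def pt (h : IsUnif W L) (z : ℂ) : W.toAffine.Point :=
  if hz : z ∈ L.lattice then 0 else Affine.Point.some _ _ (nonsingular_xC_yC h hz)

theorem pt_of_mem (h : IsUnif W L) {z : ℂ} (hz : z ∈ L.lattice) : pt h z = 0 := by
  simp [pt, hz]

theorem pt_of_notMem (h : IsUnif W L) {z : ℂ} (hz : z ∉ L.lattice) :
    pt h z = Affine.Point.some _ _ (nonsingular_xC_yC h hz) := by
  simp [pt, hz]

theorem pt_eq_zero_iff (h : IsUnif W L) {z : ℂ} : pt h z = 0 ↔ z ∈ L.lattice := by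
  constructor
  · intro h0
    by_contra hz
    rw [pt_of_notMem h hz] at h0
    exact Affine.Point.some_ne_zero _ h0
  · exact pt_of_mem h

theorem xC_neg (z : ℂ) : xC W L (-z) = xC W L z := by
  unfold xC; rw [L.weierstrassP_neg]

theorem yC_neg (z : ℂ) : yC W L (-z) = W.toAffine.negY (xC W L z) (yC W L z) := by
  unfold yC Affine.negY
  rw [L.derivWeierstrassP_neg, xC_neg]
  ring

theorem pt_neg (h : IsUnif W L) (z : ℂ) : pt h (-z) = -pt h z := by
  by_cases hz : z ∈ L.lattice
  · rw [pt_of_mem h hz, pt_of_mem h (neg_mem hz), neg_zero]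
  · have hz' : -z ∉ L.lattice := neg_notMem_lattice L hz
    rw [pt_of_notMem h hz, pt_of_notMem h hz', Affine.Point.neg_some]
    congr 1
    · exact xC_neg z
    · exact yC_neg z

theorem pt_eq_of_sub_mem (h : IsUnif W L) {z w : ℂ} (hzw : z - w ∈ L.lattice) : pt h z = pt h w := by
  by_cases hw : w ∈ L.lattice
  · have hz : z ∈ L.lattice := by
      have := add_mem hzw hw
      simpa using this
    rw [pt_of_mem h hz, pt_of_mem h hw]
  · have hz : z ∉ L.lattice := by
      intro hz
      apply hw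
      have := sub_mem hz hzw
      simpa using this
    rw [pt_of_notMem h hz, pt_of_notMem h hw]
    congr 1
    · unfold xC; rw [weierstrassP_eq_of_sub_mem L hzw]
    · unfold yC xC
      rw [weierstrassP_eq_of_sub_mem L hzw, derivWeierstrassP_eq_of_sub_mem L hzw]

theorem sub_mem_of_pt_eq (h : IsUnif W L) {z w : ℂ} (hzw : pt h z = pt h w) : z - w ∈ L.lattice := by
  by_cases hw : w ∈ L.lattice
  · rw [pt_of_mem h hw, pt_eq_zero_iff] at hzw
    exact sub_mem hzw hw
  · have hz : z ∉ L.lattice := by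
      intro hz
      rw [pt_of_mem h hz, eq_comm, pt_eq_zero_iff] at hzw
      exact hw hzw
    rw [pt_of_notMem h hz, pt_of_notMem h hw] at hzw
    injection hzw with hx hy
    have h1 : ℘[L] z = ℘[L] w := by
      unfold xC at hx; linear_combination hx
    have h2 : ℘'[L] z = ℘'[L] w := by
      rw [← two_yC_add (W := W) z, ← two_yC_add (W := W) w, hx, hy]
    exact sub_mem_lattice_of_eq L hz hw h1 h2


/-- Vieta on a line: the third intersection point. -/
theorem addX_of_collinear {K : Type*} [Field K] (W : WeierstrassCurve K) {x₁ x₂ x₃ y₁ y₂ y₃ ℓ : K}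
    (h₁ : W.toAffine.Equation x₁ y₁) (h₂ : W.toAffine.Equation x₂ y₂)
    (h₃ : W.toAffine.Equation x₃ y₃)
    (hℓ₂ : y₂ = y₁ + ℓ * (x₂ - x₁)) (hℓ₃ : y₃ = y₁ + ℓ * (x₃ - x₁))
    (h12 : x₁ ≠ x₂) (h13 : x₁ ≠ x₃) (h23 : x₂ ≠ x₃) :
    x₃ = W.toAffine.addX x₁ x₂ ℓ := by
  rw [Affine.equation_iff] at h₁ h₂ h₃
  subst hℓ₂ hℓ₃
  unfold Affine.addX
  have h12' : x₁ - x₂ ≠ 0 := sub_ne_zero.2 h12
  have h13' : x₁ - x₃ ≠ 0 := sub_ne_zero.2 h13
  have h23' : x₂ - x₃ ≠ 0 := sub_ne_zero.2 h23
  have key : (x₁ - x₂) * (x₁ - x₃) * (x₂ - x₃) * (x₁ + x₂ + x₃ + W.a₂ - ℓ ^ 2 - W.a₁ * ℓ) = 0 := by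
    linear_combination (-(x₂ - x₃)) * h₁ + (x₁ - x₃) * h₂ - (x₁ - x₂) * h₃
  have := (mul_eq_zero.1 key).resolve_left (mul_ne_zero (mul_ne_zero h12' h13') h23')
  linear_combination this

theorem xC_eq_iff {z w : ℂ} (hz : z ∉ L.lattice) (hw : w ∉ L.lattice) :
    xC W L z = xC W L w ↔ z - w ∈ L.lattice ∨ z + w ∈ L.lattice := by
  rw [← weierstrassP_eq_iff L hz hw]
  unfold xC
  constructor
  · intro h; linear_combination h
  · intro h; rw [h]

/-- Collinearity in Weierstrass coordinates. -/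
theorem collinear_xC_yC {z w : ℂ} (hz : z ∉ L.lattice) (hw : w ∉ L.lattice)
    (hzw : z + w ∉ L.lattice) :
    (xC W L w - xC W L z) * (yC W L (-(z + w)) - yC W L w) +
      (yC W L z - yC W L w) * (xC W L (z + w) - xC W L w) = 0 := by
  have h := Dfun_eq_zero (L := L) hw hz hzw
  unfold Dfun bfun cfun at h
  have e1 := two_yC_add (W := W) (L := L) z
  have e2 := two_yC_add (W := W) (L := L) w
  have e3 := two_yC_add (W := W) (L := L) (-(z + w))
  rw [L.derivWeierstrassP_neg, xC_neg] at e3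
  have x1 : ℘[L] z = xC W L z + W.b₂ / 12 := by unfold xC; ring
  have x2 : ℘[L] w = xC W L w + W.b₂ / 12 := by unfold xC; ring
  have x3 : ℘[L] (z + w) = xC W L (z + w) + W.b₂ / 12 := by unfold xC; ring
  rw [← e1, ← e2, x1, x2, x3] at h
  have e3' : -℘'[L] (z + w) = 2 * yC W L (-(z + w)) + W.a₁ * xC W L (z + w) + W.a₃ := by
    rw [e3]
  rw [e3'] at h
  linear_combination h / 2

/-- Generic addition. -/
theorem pt_add_generic (h : IsUnif W L) {z w : ℂ} (hz : z ∉ L.lattice) (hw : w ∉ L.lattice)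
    (hzw : z + w ∉ L.lattice) (hzw' : z - w ∉ L.lattice)
    (h2zw : z + z + w ∉ L.lattice) (hz2w : z + w + w ∉ L.lattice) :
    pt h z + pt h w = pt h (z + w) := by
  have hzw_neg : -(z + w) ∉ L.lattice := neg_notMem_lattice L hzw
  have hx12 : xC W L z ≠ xC W L w := by
    rw [Ne, xC_eq_iff hz hw]; push Not; exact ⟨hzw', hzw⟩
  have hx13 : xC W L z ≠ xC W L (-(z + w)) := by
    rw [Ne, xC_eq_iff hz hzw_neg]; push Not
    refine ⟨?_, ?_⟩
    · rw [show z - -(z + w) = z + z + w by ring]; exact h2zw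
    · rw [show z + -(z + w) = -w by ring]; exact neg_notMem_lattice L hw
  have hx23 : xC W L w ≠ xC W L (-(z + w)) := by
    rw [Ne, xC_eq_iff hw hzw_neg]; push Not
    refine ⟨?_, ?_⟩
    · rw [show w - -(z + w) = z + w + w by ring]; exact hz2w
    · rw [show w + -(z + w) = -z by ring]; exact neg_notMem_lattice L hz
  rw [pt_of_notMem h hz, pt_of_notMem h hw, Affine.Point.add_of_X_ne' hx12,
    ← neg_neg (pt h (z + w)), ← pt_neg, pt_of_notMem h hzw_neg]
  congr 1
  have hsl : W.toAffine.slope (xC W L z) (xC W L w) (yC W L z) (yC W L w) =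
      (yC W L z - yC W L w) / (xC W L z - xC W L w) := Affine.slope_of_X_ne hx12
  set ℓ := W.toAffine.slope (xC W L z) (xC W L w) (yC W L z) (yC W L w) with hℓ
  have h12' : xC W L z - xC W L w ≠ 0 := sub_ne_zero.2 hx12
  have hl2 : yC W L w = yC W L z + ℓ * (xC W L w - xC W L z) := by
    rw [hsl]; field_simp; ring
  have hcol := collinear_xC_yC (W := W) hz hw hzw
  have hl3 : yC W L (-(z + w)) = yC W L z + ℓ * (xC W L (-(z + w)) - xC W L z) := by
    rw [xC_neg, hsl]
    field_simp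
    linear_combination (-1 : ℂ) * hcol
  have hX : xC W L (-(z + w)) = W.toAffine.addX (xC W L z) (xC W L w) ℓ :=
    addX_of_collinear W (equation_xC_yC h hz) (equation_xC_yC h hw) (equation_xC_yC h hzw_neg)
      hl2 hl3 hx12 hx13 hx23
  have hY : yC W L (-(z + w)) = W.toAffine.negAddY (xC W L z) (xC W L w) (yC W L z) ℓ := by
    unfold Affine.negAddY
    rw [← hX, hl3]; ring
  congr 1
  · exact hX.symm
  · exact hY.symm


theorem countable_bad (L : PeriodPair) (k c : ℂ) (hk : k ≠ 0) :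
    {v : ℂ | k * v + c ∈ L.lattice}.Countable := by
  have : {v : ℂ | k * v + c ∈ L.lattice} = (fun l : ℂ => (l - c) / k) '' (L.lattice : Set ℂ) := by
    ext v
    simp only [Set.mem_ofPred_eq, Set.mem_image, SetLike.mem_coe]
    constructor
    · intro hv
      exact ⟨k * v + c, hv, by field_simp; ring⟩
    · rintro ⟨l, hl, rfl⟩
      have : k * ((l - c) / k) + c = l := by field_simp; ring
      rw [this]; exact hl
  rw [this]
  exact (countable_lattice L).image _

/-- A point avoiding finitely many translated and scaled copies of the lattice. -/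
theorem exists_generic (L : PeriodPair) (l : List (ℂ × ℂ)) (hl : ∀ p ∈ l, p.1 ≠ 0) :
    ∃ v : ℂ, ∀ p ∈ l, p.1 * v + p.2 ∉ L.lattice := by
  by_contra hcon
  push Not at hcon
  apply not_countable_complex
  have hS : (⋃ p ∈ (l.toFinset : Set (ℂ × ℂ)), {v : ℂ | p.1 * v + p.2 ∈ L.lattice}).Countable := by
    apply Set.Countable.biUnion (Finset.countable_toSet _)
    intro p hp
    exact countable_bad L p.1 p.2 (hl p (by simpa using hp))
  apply hS.mono
  intro v _
  obtain ⟨p, hp, hv⟩ := hcon v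
  simp only [Set.mem_iUnion]
  exact ⟨p, by simpa using hp, hv⟩

theorem pt_add (h : IsUnif W L) (z w : ℂ) : pt h z + pt h w = pt h (z + w) := by
  by_cases hz : z ∈ L.lattice
  · rw [pt_of_mem h hz, zero_add]
    exact (pt_eq_of_sub_mem h (by simpa using hz)).symm
  by_cases hw : w ∈ L.lattice
  · rw [pt_of_mem h hw, add_zero]
    exact (pt_eq_of_sub_mem h (by simpa using hw)).symm
  by_cases hzw : z + w ∈ L.lattice
  · rw [pt_of_mem h hzw]
    have : pt h w = pt h (-z) := pt_eq_of_sub_mem h (by rw [sub_neg_eq_add, add_comm]; exact hzw)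
    rw [this, pt_neg, add_neg_cancel]
  -- generic `v`
  obtain ⟨v, hv⟩ := exists_generic L
    [(-1, w), (1, 0), (-2, w), (-1, w + w), (1, w), (-1, z + w), (1, z - w), (-1, z + z + w),
      (-2, z + w + w), (-2, z + w), (-1, z + w + z + w), (1, z + w)]
    (by simp)
  have key : ∀ k c : ℂ, (k, c) ∈ [(-1, w), (1, 0), (-2, w), (-1, w + w), (1, w), (-1, z + w),
      (1, z - w), (-1, z + z + w), (-2, z + w + w), (-2, z + w), (-1, z + w + z + w),
      ((1 : ℂ), z + w)] → k * v + c ∉ L.lattice := fun k c hkc => hv (k, c) hkc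
  have c1 : w - v ∉ L.lattice := by
    have := key (-1) w (by simp); rwa [show (-1 : ℂ) * v + w = w - v by ring] at this
  have c2 : v ∉ L.lattice := by
    have := key 1 0 (by simp); rwa [show (1 : ℂ) * v + 0 = v by ring] at this
  have c3 : w - v - v ∉ L.lattice := by
    have := key (-2) w (by simp); rwa [show (-2 : ℂ) * v + w = w - v - v by ring] at this
  have c4 : w - v + (w - v) + v ∉ L.lattice := by
    have := key (-1) (w + w) (by simp)
    rwa [show (-1 : ℂ) * v + (w + w) = w - v + (w - v) + v by ring] at this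
  have c5 : w - v + v + v ∉ L.lattice := by
    have := key 1 w (by simp); rwa [show (1 : ℂ) * v + w = w - v + v + v by ring] at this
  have c6 : z + (w - v) ∉ L.lattice := by
    have := key (-1) (z + w) (by simp)
    rwa [show (-1 : ℂ) * v + (z + w) = z + (w - v) by ring] at this
  have c7 : z - (w - v) ∉ L.lattice := by
    have := key 1 (z - w) (by simp)
    rwa [show (1 : ℂ) * v + (z - w) = z - (w - v) by ring] at this
  have c8 : z + z + (w - v) ∉ L.lattice := by
    have := key (-1) (z + z + w) (by simp)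
    rwa [show (-1 : ℂ) * v + (z + z + w) = z + z + (w - v) by ring] at this
  have c9 : z + (w - v) + (w - v) ∉ L.lattice := by
    have := key (-2) (z + w + w) (by simp)
    rwa [show (-2 : ℂ) * v + (z + w + w) = z + (w - v) + (w - v) by ring] at this
  have c10 : z + (w - v) - v ∉ L.lattice := by
    have := key (-2) (z + w) (by simp)
    rwa [show (-2 : ℂ) * v + (z + w) = z + (w - v) - v by ring] at this
  have c11 : z + (w - v) + (z + (w - v)) + v ∉ L.lattice := by
    have := key (-1) (z + w + z + w) (by simp)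
    rwa [show (-1 : ℂ) * v + (z + w + z + w) = z + (w - v) + (z + (w - v)) + v by ring] at this
  have c12 : z + (w - v) + v + v ∉ L.lattice := by
    have := key 1 (z + w) (by simp)
    rwa [show (1 : ℂ) * v + (z + w) = z + (w - v) + v + v by ring] at this
  have e1 : pt h (w - v) + pt h v = pt h w := by
    have := pt_add_generic h c1 c2 (by rw [sub_add_cancel]; exact hw) c3 c4 c5
    rwa [sub_add_cancel] at this
  have e2 : pt h z + pt h (w - v) = pt h (z + (w - v)) := pt_add_generic h hz c1 c6 c7 c8 c9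
  have e3 : pt h (z + (w - v)) + pt h v = pt h (z + w) := by
    have hzw' : z + (w - v) + v = z + w := by ring
    have := pt_add_generic h c6 c2 (by rw [hzw']; exact hzw) c10 c11 c12
    rwa [hzw'] at this
  rw [← e1, ← add_assoc, e2, e3]


/-- The uniformisation as an additive homomorphism `ℂ →+ W(ℂ)`. -/
noncomputable def ptHom (h : IsUnif W L) : ℂ →+ W.toAffine.Point where
  toFun := pt h
  map_zero' := pt_of_mem h (zero_mem _)
  map_add' z w := (pt_add h z w).symm

@[simp] theorem ptHom_apply (h : IsUnif W L) (z : ℂ) : ptHom h z = pt h z := rfl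

theorem nsmul_pt (h : IsUnif W L) (n : ℕ) (z : ℂ) : n • pt h z = pt h ((n : ℂ) * z) := by
  have := map_nsmul (ptHom h) n z
  rw [ptHom_apply, ptHom_apply, nsmul_eq_mul] at this
  exact this.symm

theorem zsmul_pt (h : IsUnif W L) (n : ℤ) (z : ℂ) : n • pt h z = pt h ((n : ℂ) * z) := by
  have := map_zsmul (ptHom h) n z
  rw [ptHom_apply, ptHom_apply, zsmul_eq_mul] at this
  exact this.symm

theorem pt_sub (h : IsUnif W L) (z w : ℂ) : pt h z - pt h w = pt h (z - w) := by
  rw [sub_eq_add_neg, ← pt_neg, pt_add, ← sub_eq_add_neg]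

theorem pt_eq_iff (h : IsUnif W L) {z w : ℂ} : pt h z = pt h w ↔ z - w ∈ L.lattice :=
  ⟨sub_mem_of_pt_eq h, pt_eq_of_sub_mem h⟩

theorem pt_surjective (h : IsUnif W L) : Function.Surjective (pt h) := by
  rintro (_ | ⟨x, y, hxy⟩)
  · exact ⟨0, pt_of_mem h (zero_mem _)⟩
  · obtain ⟨z, hz, hzx⟩ := exists_weierstrassP_eq L (x + W.b₂ / 12)
    have hx : xC W L z = x := by unfold xC; rw [hzx]; ring
    have hE := equation_xC_yC h hz
    rcases Affine.Y_eq_of_X_eq hxy.1 hE hx.symm with hy | hy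
    · refine ⟨z, ?_⟩
      rw [pt_of_notMem h hz]
      congr 1
      exact hy.symm
    · refine ⟨-z, ?_⟩
      rw [pt_neg, pt_of_notMem h hz, Affine.Point.neg_some]
      congr 1
      exact hy.symm

/-- Coordinates of `pt h z`. -/
theorem coords_of_pt_eq_some (h : IsUnif W L) {z x y : ℂ} {hxy : W.toAffine.Nonsingular x y}
    (e : pt h z = Affine.Point.some x y hxy) :
    z ∉ L.lattice ∧ x = ℘[L] z - W.b₂ / 12 ∧ 2 * y + W.a₁ * x + W.a₃ = ℘'[L] z := by
  have hz : z ∉ L.lattice := by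
    intro hz
    rw [pt_of_mem h hz] at e
    exact Affine.Point.some_ne_zero _ e.symm
  rw [pt_of_notMem h hz] at e
  injection e with hx hy
  refine ⟨hz, ?_, ?_⟩
  · rw [← hx]; rfl
  · rw [← hx, ← hy]; exact two_yC_add z

/-- If `pt h z₀` has exact order `p` (prime), then `p z₀ ∈ Λ` and `k z₀ ∉ Λ` for `0 < k < p`. -/
theorem mul_mem_of_addOrderOf (h : IsUnif W L) {z₀ : ℂ} {n : ℕ}
    (ho : addOrderOf (pt h z₀) = n) : (n : ℂ) * z₀ ∈ L.lattice := by
  rw [← pt_eq_zero_iff h, ← nsmul_pt, ← ho]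
  exact addOrderOf_nsmul_eq_zero _

theorem mul_notMem_of_addOrderOf (h : IsUnif W L) {z₀ : ℂ} {n k : ℕ}
    (ho : addOrderOf (pt h z₀) = n) (hk : 0 < k) (hkn : k < n) : (k : ℂ) * z₀ ∉ L.lattice := by
  rw [← pt_eq_zero_iff h, ← nsmul_pt]
  intro h0
  have := addOrderOf_dvd_of_nsmul_eq_zero h0
  rw [ho] at this
  exact absurd (Nat.le_of_dvd hk this) (not_le.2 hkn)

end Fermat.Agent.MAZ.Analytic.Unif32
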