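/-
Program MAZ (S15), chapter Analytic, helper42: brick MOD-GLOBAL (table #1628 item 9) =
AN4 (the point place of `τ` with prescribed values of `j`, `j_p`) + the assembly of the analytic side.

`modGlobal_of_deltaIdentity (hp : p.Prime) (hD : DeltaIdentity p) : ModAsm62.ModGlobal p`:
a point `Q` of exact order `p` on an elliptic curve `E` over `ℚbar` gives a place `x` of `FF p` with
`j(x) = c₄³/Δ` and `j_p(x) = velJ p Q = c₄'³ Π⁴ / Δ^p`.

The only open input is the Δ-identity (D) `Δ(L') (∏ ℘'[L](k z₀))⁴ = Δ(L)^p`, taken as the hypothesis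
`DeltaIdentity p` in its literal shape of table #1628.
-/
import Fermat.Agent.MAZ.Analytic.GlobalDefs42
import Fermat.Agent.MAZ.Analytic.ModEqAn42
import Fermat.Agent.MAZ.Analytic.Unif32
import Fermat.Agent.MAZ.Analytic.PeriodPairExists80
import Fermat.Agent.MAZ.Analytic.LatNorm3
import Fermat.Agent.MAZ.Analytic.SuperLattice32
import Fermat.Agent.MAZ.Analytic.SubLattice27
import Fermat.Agent.MAZ.Point.ModAsm62
import Fermat.Agent.X0.PointPlacesD
import Fermat.Agent.X0.RealizeData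

set_option autoImplicit false
set_option linter.unusedSectionVars false

open UpperHalfPlane AlgebraicCurve ModularCurve
open WeierstrassCurve WeierstrassCurve.Affine
open scoped PeriodPair

noncomputable section

namespace Fermat.Agent.MAZ.Analytic.Global42

open Fermat.Agent.X0 Fermat.Agent.MAZ.Spec.XSpec62 Fermat.Agent.MAZ.Analytic.GlobalDefs42
open Fermat.Agent.MAZ.Analytic.ModEqAn42

/-! ### AN4: the point place of `τ` -/

section AN4

variable {p : ℕ} [NeZero p]

/-- `j_p - b` as an element of `R = ℚbar[j, j_p]`. -/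
def jpSub (p : ℕ) [NeZero p] (b : Kbar) : Rsub p := uX p - algebraMap Kbar (Rsub p) b

theorem coe_jpSub (b : Kbar) :
    ((jpSub p b : Rsub p) : FF p) = jpF p - algebraMap Kbar (FF p) b := rfl

theorem realize_jpSub (b : Kbar) : realize p (jpSub p b) = fun z => jdFun p z - iotaK b := by
  rw [jpSub, map_sub, realize_uX, realize_algebraMap]
  rfl

theorem jpSub_ne_zero (b : Kbar) : jpSub p b ≠ 0 := by
  intro h
  have h1 : realize p (jpSub p b) = 0 := by rw [h, map_zero]
  rw [realize_jpSub] at h1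
  obtain ⟨τ₁, hτ₁⟩ := jFun_surjective (iotaK b + 1)
  have h2 := congrFun h1 (shiftH p 0 τ₁)
  simp only [jdFun, Pi.zero_apply] at h2
  rw [jFun_scaleH_shiftH, hτ₁] at h2
  simp at h2

/-- **AN4.** If `j(τ) = ι(a)` and `j(pτ) = ι(b)` with `a, b ∈ ℚbar`, the point place of `τ` is a place
of `FF p` at which `j` takes the value `a` and `j_p` the value `b`. -/
theorem exists_place_of_tau (τ : ℍ) (a b : Kbar) (ha : jFun τ = iotaK a)
    (hb : jFun (scaleH p τ) = iotaK b) :
    ∃ x : Place Qb (FF p), HasValue x (jF p) a ∧ HasValue x (jpF p) b := by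
  refine ⟨PointPlacesD.pointPlaceD (realizeData p) τ a ha 1,
    PointPlacesD.pointPlaceD_ord_pos (realizeData p) τ a ha 1, ?_⟩
  have hu := jpSub_ne_zero (p := p) b
  have hspec := PointPlacesD.pointPlaceD_spec (realizeData p) τ a ha 1 (jpSub p b) hu
  have hm := PointPlacesD.pointMultD_pos (realizeData p) τ a ha 1
  have hne := PointPlacesD.ordH_ne_top_D (realizeData p) τ 1 (jpSub p b) hu
  rw [inv_one, compSL_one, realizeData_Θ] at hspec hne
  have hH : realize p (jpSub p b) ∈ HolH := realize_mem_HolH p _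
  have h0 : ordH (realize p (jpSub p b)) τ ≠ 0 := by
    rw [Ne, ordH_eq_zero_iff hH, not_not, realize_jpSub]
    simp only [jdFun]
    rw [hb, sub_self]
  have hpos : 0 < (ordH (realize p (jpSub p b)) τ).toNat := by
    rw [Nat.pos_iff_ne_zero, Ne, ENat.toNat_eq_zero, not_or]
    exact ⟨h0, hne⟩
  rw [coe_jpSub] at hspec
  unfold HasValue
  have hm' : (0 : ℤ) < PointPlacesD.pointMultD (realizeData p) τ a ha 1 := by exact_mod_cast hm
  have hpos' : (0 : ℤ) < ((ordH (realize p (jpSub p b)) τ).toNat : ℤ) := by exact_mod_cast hpos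
  rw [hspec] at hpos'
  exact (mul_pos_iff_of_pos_left hm').mp hpos'

end AN4

/-! ### Bridge between the definitions of `ModAsm62` and of `GlobalDefs42` -/

section Bridge

open Fermat.Agent.MAZ.Point

variable {F : Type*} [Field F] [DecidableEq F] {E : WeierstrassCurve.Affine F}

theorem psi2_bridge (P : E.Point) : ModAsm62.psi2 P = psi2 E P := by
  rcases P with _ | ⟨x, y, h⟩ <;> rfl

theorem xOf_bridge (P : E.Point) : ModAsm62.xOf P = xOf E P := by
  rcases P with _ | ⟨x, y, h⟩ <;> rfl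

theorem tOf_bridge (P : E.Point) (hP : P ≠ 0) : ModAsm62.tOf P = tOf E P := by
  rcases P with _ | ⟨x, y, h⟩
  · exact absurd rfl hP
  · rfl

theorem velPi_bridge (p : ℕ) (Q : E.Point) : ModAsm62.velPi p Q = veluPi E p Q := by
  unfold ModAsm62.velPi veluPi
  exact Finset.prod_congr rfl fun k _ => psi2_bridge _

theorem velC4_bridge (p : ℕ) (Q : E.Point) (hQ : ∀ k ∈ Finset.Ico 1 p, k • Q ≠ 0) :
    ModAsm62.velC4 p Q = veluC4 E p Q := by
  unfold ModAsm62.velC4 veluC4
  congr 2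
  exact Finset.sum_congr rfl fun k hk => tOf_bridge _ (hQ k hk)

theorem velJ_bridge (p : ℕ) (Q : E.Point) (hQ : ∀ k ∈ Finset.Ico 1 p, k • Q ≠ 0) :
    ModAsm62.velJ p Q = veluJ E p Q := by
  unfold ModAsm62.velJ veluJ
  rw [velC4_bridge p Q hQ, velPi_bridge]

theorem nsmul_ne_zero_of_addOrderOf {p : ℕ} {Q : E.Point} (hQ : addOrderOf Q = p) :
    ∀ k ∈ Finset.Ico 1 p, k • Q ≠ 0 := by
  intro k hk h0
  rw [Finset.mem_Ico] at hk
  have := addOrderOf_dvd_of_nsmul_eq_zero h0
  rw [hQ] at this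
  exact absurd (Nat.le_of_dvd (by omega) this) (by omega)

end Bridge

/-! ### The assembly -/

section Assembly

open Fermat.Agent.MAZ.Point Fermat.Agent.MAZ.Analytic.Unif32
open Fermat.Agent.MAZ.Analytic.LatNorm3

/-- **(D)** the Δ-identity, in the literal shape of table #1628 (item 6). -/
def DeltaIdentity (p : ℕ) : Prop :=
  ∀ (L L' : PeriodPair) (z0 : ℂ), (p : ℂ) * z0 ∈ L.lattice → z0 ∉ L.lattice →
    L'.lattice = L.lattice ⊔ Submodule.span ℤ {z0} →
    (L'.g₂ ^ 3 - 27 * L'.g₃ ^ 2) * (∏ k ∈ Finset.Ico 1 p, ℘'[L] ((k : ℂ) * z0)) ^ 4 =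
      (L.g₂ ^ 3 - 27 * L.g₃ ^ 2) ^ p

variable {p : ℕ} [NeZero p]

/-- complexification of a curve over `ℚbar`. -/
abbrev toC (E : WeierstrassCurve.Affine Qb) : WeierstrassCurve ℂ := E.map iotaK

theorem exists_isUnif (W : WeierstrassCurve ℂ) (hΔ : W.Δ ≠ 0) : ∃ L : PeriodPair, IsUnif W L := by
  have h : (W.c₄ / 12) ^ 3 - 27 * (W.c₆ / 216) ^ 2 ≠ 0 := by
    have : (W.c₄ / 12) ^ 3 - 27 * (W.c₆ / 216) ^ 2 = W.Δ := by
      have := W.c_relation
      linear_combination (-1 / 1728 : ℂ) * this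
    rw [this]
    exact hΔ
  obtain ⟨L, h2, h3⟩ := PeriodPairExists80.exists_periodPair _ _ h
  exact ⟨L, h2, h3, hΔ⟩

theorem latDisc_of_isUnif {W : WeierstrassCurve ℂ} {L : PeriodPair} (h : IsUnif W L) :
    latDisc L = W.Δ := by
  unfold latDisc
  rw [h.g₂, h.g₃]
  have := W.c_relation
  linear_combination (-1 / 1728 : ℂ) * this

/-- **MOD-GLOBAL** from the Δ-identity (D). -/
theorem modGlobal_of_deltaIdentity (hp : p.Prime) (hD : DeltaIdentity p) : ModAsm62.ModGlobal p := by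
  intro E hΔ Q hQ
  have hQk := nsmul_ne_zero_of_addOrderOf hQ
  rw [velJ_bridge p Q hQk]
  -- complexify
  have hWΔ : (toC E).Δ ≠ 0 := by
    rw [WeierstrassCurve.map_Δ]
    exact (map_ne_zero iotaK).mpr hΔ
  obtain ⟨L, hU⟩ := exists_isUnif (toC E) hWΔ
  have hQc : addOrderOf (mapPt E iotaK Q) = p := by rw [addOrderOf_mapPt]; exact hQ
  obtain ⟨z0, hz0⟩ := pt_surjective hU (mapPt E iotaK Q)
  rw [← hz0] at hQc
  have h1 : (p : ℂ) * z0 ∈ L.lattice := mul_mem_of_addOrderOf hU hQc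
  have hk : ∀ k : ℕ, 0 < k → k < p → (k : ℂ) * z0 ∉ L.lattice := fun k hk0 hkp =>
    mul_notMem_of_addOrderOf hU hQc hk0 hkp
  have h0 : z0 ∉ L.lattice := by
    have := hk 1 one_pos hp.one_lt
    simpa using this
  obtain ⟨L', hL'⟩ := SuperLattice32.exists_superlattice L p hp z0 h1 h0
  -- coordinates of the multiples of `Q`
  have hcoord : ∀ k ∈ Finset.Ico 1 p,
      iotaK (xOf E (k • Q)) = ℘[L] ((k : ℂ) * z0) - (toC E).b₂ / 12 ∧
      iotaK (psi2 E (k • Q)) = ℘'[L] ((k : ℂ) * z0) := by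
    intro k hkI
    obtain ⟨hns, hsome⟩ := exists_eq_some E (k • Q) (hQk k hkI)
    have e : pt hU ((k : ℂ) * z0) = mapPt E iotaK (k • Q) := by
      rw [← nsmul_pt, hz0, mapPt_nsmul]
    rw [hsome, mapPt_some] at e
    obtain ⟨-, hx, hy⟩ := coords_of_pt_eq_some hU e
    refine ⟨hx, ?_⟩
    rw [← hy, psi2_eq E _ (hQk k hkI), map_add, map_add, map_mul, map_mul, map_ofNat]
    simp only [WeierstrassCurve.map_a₁, WeierstrassCurve.map_a₃]
  -- the invariants of `L'`
  have hg2' : L'.g₂ = iotaK (veluC4 E p Q) / 12 := by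
    rw [SubLattice27.g₂_superlattice hp h1 h0 hL', hU.g₂]
    unfold veluC4
    rw [map_add, map_mul, map_sum, map_ofNat, add_div, mul_div_assoc, Finset.sum_div,
      Finset.mul_sum, Finset.mul_sum]
    simp only [WeierstrassCurve.map_c₄]
    congr 1
    refine Finset.sum_congr rfl fun k hkI => ?_
    have hx := (hcoord k hkI).1
    have hx' : ℘[L] ((k : ℂ) * z0) = iotaK (xOf E (k • Q)) + (toC E).b₂ / 12 := by
      rw [hx]; ring
    rw [hx']
    unfold tOf
    rw [map_add, map_add, map_mul, map_mul, map_pow, map_ofNat]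
    have hb2 : iotaK E.b₂ = (toC E).b₂ := (WeierstrassCurve.map_b₂ E iotaK).symm
    have hb4 : iotaK E.b₄ = (toC E).b₄ := (WeierstrassCurve.map_b₄ E iotaK).symm
    have hc4 : iotaK E.c₄ = (toC E).b₂ ^ 2 - 24 * (toC E).b₄ := by
      rw [← WeierstrassCurve.map_c₄]
      rfl
    rw [hb2, hb4, hc4]
    ring
  have hPi : ∏ k ∈ Finset.Ico 1 p, ℘'[L] ((k : ℂ) * z0) = iotaK (veluPi E p Q) := by
    unfold veluPi
    rw [map_prod]
    exact Finset.prod_congr rfl fun k hkI => ((hcoord k hkI).2).symm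
  have hDisc : latDisc L' * iotaK (veluPi E p Q) ^ 4 = (toC E).Δ ^ p := by
    have := hD L L' z0 h1 h0 hL'
    rw [hPi] at this
    rw [← latDisc_of_isUnif hU]
    exact this
  have hL'ne : latDisc L' ≠ 0 := latDisc_ne_zero L'
  -- the point `τ`
  obtain ⟨τ, hτ, hτp, -⟩ := LatNorm3.main p hp z0 h1 h0 hL'
  have hΔι : iotaK E.Δ = (toC E).Δ := (WeierstrassCurve.map_Δ E iotaK).symm
  have hc4ι : iotaK E.c₄ = (toC E).c₄ := (WeierstrassCurve.map_c₄ E iotaK).symm
  have ha : jFun τ = iotaK (E.c₄ ^ 3 / E.Δ) := by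
    rw [hτ, latDisc_of_isUnif hU, hU.g₂, map_div₀, map_pow, hΔι, hc4ι]
    field_simp
    ring
  have hb : jFun (scaleH p τ) = iotaK (veluJ E p Q) := by
    rw [hτp, hg2']
    unfold veluJ
    rw [map_div₀, map_mul, map_pow, map_pow, map_pow, hΔι, ← hDisc]
    have hPine : iotaK (veluPi E p Q) ≠ 0 := by
      intro h
      rw [h, zero_pow (by norm_num), mul_zero] at hDisc
      exact pow_ne_zero p hWΔ hDisc.symm
    field_simp
    ring
  exact exists_place_of_tau τ _ _ ha hb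

end Assembly

end Fermat.Agent.MAZ.Analytic.Global42
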