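/-
Program MAZ (S15), chapter Analytic, helper42: brick MOD-GLOBAL (table #1628 item 9), FINAL FORM.

`modGlobal (hp : p.Prime) (hp2 : p ≠ 2) : ModAsm62.ModGlobal p`, unconditional:
`Global42.modGlobal_of_deltaIdentity` fed with the Δ-identity (D) of helper80
(`DeltaIdentity80.delta_identity`; helper86's `DeltaId86.delta_identity` is the same statement).
-/
import Fermat.Agent.MAZ.Analytic.Global42
import Fermat.Agent.MAZ.Analytic.DeltaIdentity80

set_option autoImplicit false

open AlgebraicCurve ModularCurve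

noncomputable section

namespace Fermat.Agent.MAZ.Analytic.GlobalFinal42

open Fermat.Agent.MAZ.Analytic.Global42 Fermat.Agent.MAZ.Point

variable {p : ℕ} [NeZero p]

/-- **(D)** in the hypothesis shape of `Global42`. -/
theorem deltaIdentity (hp : p.Prime) (hp2 : p ≠ 2) : DeltaIdentity p :=
  fun L L' z0 h1 h0 hL' => DeltaIdentity80.delta_identity L L' hp hp2 z0 h1 h0 hL'

/-- **MOD-GLOBAL** (contract `ModAsm62.ModGlobal p`): a point `Q` of exact order `p` (an odd prime) on
an elliptic curve `E` over `ℚbar` gives a place `x` of `FF p = ℚbar(j, j_p)` with `j(x) = c₄³/Δ` and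
`j_p(x) = velJ p Q = c₄'³ Π⁴ / Δ^p`. -/
theorem modGlobal (hp : p.Prime) (hp2 : p ≠ 2) : ModAsm62.ModGlobal p :=
  modGlobal_of_deltaIdentity hp (deltaIdentity hp hp2)

end Fermat.Agent.MAZ.Analytic.GlobalFinal42
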