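/-
Program MAZ (S15), chapter Analytic, brick HP (helper76): THE HALF-PERIOD PACKAGE.

Mathlib only (`Mathlib.Analysis.SpecialFunctions.Elliptic.Weierstrass`).  `L : PeriodPair`,
`℘[L]`, `℘'[L]`, `L.g₂`, `L.g₃`.  A HALF PERIOD is `ω : ℂ` with `2 * ω ∈ L.lattice`, `ω ∉ L.lattice`.

* `isPreconnected_compl_lattice`, `not_eventually_weierstrassP_eq` (`℘` is not locally constant);
* `deriv_derivWeierstrassP` : `℘'' = 6 ℘² - g₂/2` off the lattice;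
* (HP0) `derivWeierstrassP_half` : `℘'(ω) = 0`;
* (HP2) `mul_translate_half` : `(℘(z+ω) - ℘ ω)(℘ z - ℘ ω) = 3 (℘ ω)² - g₂/4` (Liouville),
  `translate_const_ne_zero`, `deriv_translate_half`, `add_mem_of_weierstrassP_eq_half`;
* `HalfTriple L η₁ η₂ η₃` : three pairwise inequivalent half periods; for such a triple
  (HP1) `HalfTriple.derivWeierstrassP_sq_eq_prod`, `sum_eq_zero`, `g₂_eq`, `g₃_eq`,
  (HP3) `HalfTriple.disc_eq`, (HP5) `HalfTriple.deriv_deriv₁/₂/₃`, `disc_eq_prod_deriv`,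
  (HP4) `HalfTriple.prod_derivWeierstrassP_translates`, `HalfTriple.derivWeierstrassP_ne_zero`,
  `HalfTriple.of_le` (a triple for `L` is a triple for every overlattice of odd index);
* `halfTriple_std` : the triple `ω₁/2, ω₂/2, (ω₁+ω₂)/2`, and the corollaries for
  `e₁ L, e₂ L, e₃ L`, in particular `disc_ne_zero : L.g₂ ^ 3 - 27 * L.g₃ ^ 2 ≠ 0`.
-/
import Mathlib

set_option autoImplicit false

open Complex Filter Topology Set
open PeriodPair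

noncomputable section

namespace Fermat.Agent.MAZ.Analytic.HalfPeriod76

variable (L : PeriodPair)

/-- The period lattice is countable. -/
theorem countable_lattice : (L.lattice : Set ℂ).Countable := by
  have : Countable L.lattice := Countable.of_equiv _ L.latticeEquivProd.toEquiv.symm
  exact Set.countable_coe_iff.mp this

/-- The complement of the period lattice is preconnected. -/
theorem isPreconnected_compl_lattice : IsPreconnected (L.lattice : Set ℂ)ᶜ :=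
  ((countable_lattice L).isPathConnected_compl_of_one_lt_rank
    (by simp [Complex.rank_real_complex])).isConnected.isPreconnected

theorem isOpen_compl_lattice : IsOpen (L.lattice : Set ℂ)ᶜ :=
  L.isClosed_lattice.isOpen_compl

/-- Near `0` (punctured), we are outside the lattice. -/
theorem eventually_notMem_lattice : ∀ᶠ z in 𝓝[≠] (0 : ℂ), z ∉ L.lattice := by
  have h := L.compl_lattice_sdiff_singleton_mem_nhds 0
  filter_upwards [mem_nhdsWithin_of_mem_nhds h, self_mem_nhdsWithin] with z hz hz0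
  intro hzl
  exact hz ⟨hzl, hz0⟩

theorem weierstrassP_eq_except_zero (z : ℂ) :
    ℘[L] z = ℘[L - (0 : ℂ)] z + 1 / z ^ 2 := by
  have := L.weierstrassPExcept_add (0 : L.lattice) z
  simpa using this.symm

theorem derivWeierstrassP_eq_except_zero (z : ℂ) :
    ℘'[L] z = ℘'[L - (0 : ℂ)] z - 2 / z ^ 3 := by
  have := L.derivWeierstrassPExcept_sub (0 : L.lattice) z
  simpa using this.symm

/-- `℘` does not take a given value near `0`. -/
theorem eventually_weierstrassP_ne (c : ℂ) : ∀ᶠ z in 𝓝[≠] (0 : ℂ), ℘[L] z ≠ c := by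
  have hP : ContinuousAt ℘[L - (0 : ℂ)] 0 := (L.analyticAt_weierstrassPExcept 0).continuousAt
  have hφ : ContinuousAt (fun z : ℂ => z ^ 2 * (℘[L - (0 : ℂ)] z - c) + 1) 0 := by fun_prop
  have h1 : ∀ᶠ z in 𝓝 (0 : ℂ), z ^ 2 * (℘[L - (0 : ℂ)] z - c) + 1 ≠ 0 := by
    apply hφ.eventually_ne
    simp
  filter_upwards [mem_nhdsWithin_of_mem_nhds h1, self_mem_nhdsWithin] with z hz hz0 hc
  apply hz
  have hz0' : z ≠ 0 := hz0
  rw [weierstrassP_eq_except_zero] at hc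
  have : ℘[L - (0 : ℂ)] z - c = - (1 / z ^ 2) := by rw [← hc]; ring
  rw [this]
  field_simp
  ring

/-- `℘'` does not vanish near `0`. -/
theorem eventually_derivWeierstrassP_ne_zero : ∀ᶠ z in 𝓝[≠] (0 : ℂ), ℘'[L] z ≠ 0 := by
  have hP : ContinuousAt ℘'[L - (0 : ℂ)] 0 :=
    (L.analyticAt_derivWeierstrassPExcept 0).continuousAt
  have hφ : ContinuousAt (fun z : ℂ => z ^ 3 * ℘'[L - (0 : ℂ)] z - 2) 0 := by fun_prop
  have h1 : ∀ᶠ z in 𝓝 (0 : ℂ), z ^ 3 * ℘'[L - (0 : ℂ)] z - 2 ≠ 0 := by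
    apply hφ.eventually_ne
    simp
  filter_upwards [mem_nhdsWithin_of_mem_nhds h1, self_mem_nhdsWithin] with z hz hz0 hc
  apply hz
  have hz0' : z ≠ 0 := hz0
  rw [derivWeierstrassP_eq_except_zero] at hc
  have : ℘'[L - (0 : ℂ)] z = 2 / z ^ 3 := by linear_combination hc
  rw [this]
  field_simp
  ring

/-- `℘` is not locally constant. -/
theorem not_eventually_weierstrassP_eq (c : ℂ) (z₀ : ℂ) (hz₀ : z₀ ∉ L.lattice) :
    ¬ ∀ᶠ z in 𝓝 z₀, ℘[L] z = c := by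
  intro h
  have hEq : EqOn ℘[L] (fun _ => c) (L.lattice : Set ℂ)ᶜ := by
    apply L.analyticOnNhd_weierstrassP.eqOn_of_preconnected_of_eventuallyEq analyticOnNhd_const
      (isPreconnected_compl_lattice L) hz₀ h
  have h2 := (eventually_notMem_lattice L).and (eventually_weierstrassP_ne L c)
  obtain ⟨z, hz, hzc⟩ := h2.exists
  exact hzc (hEq hz)

theorem hasDerivAt_weierstrassP (w : ℂ) (hw : w ∉ L.lattice) :
    HasDerivAt ℘[L] (℘'[L] w) w := by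
  have := (L.analyticOnNhd_weierstrassP w hw).differentiableAt.hasDerivAt
  rwa [L.deriv_weierstrassP] at this

theorem hasDerivAt_derivWeierstrassP (w : ℂ) (hw : w ∉ L.lattice) :
    HasDerivAt ℘'[L] (deriv ℘'[L] w) w :=
  (L.analyticOnNhd_derivWeierstrassP w hw).differentiableAt.hasDerivAt

/-- **The second derivative**: `℘'' = 6 ℘² - g₂/2` off the lattice. -/
theorem deriv_derivWeierstrassP (z : ℂ) (hz : z ∉ L.lattice) :
    deriv ℘'[L] z = 6 * ℘[L] z ^ 2 - L.g₂ / 2 := by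
  have hU : IsOpen (L.lattice : Set ℂ)ᶜ := isOpen_compl_lattice L
  -- the derivative of the differential equation
  have hode : ∀ w ∈ (L.lattice : Set ℂ)ᶜ,
      ℘'[L] w * (2 * deriv ℘'[L] w - 12 * ℘[L] w ^ 2 + L.g₂) = 0 := by
    intro w hw
    have hev : (fun z => ℘'[L] z ^ 2) =ᶠ[𝓝 w]
        fun z => 4 * ℘[L] z ^ 3 - L.g₂ * ℘[L] z - L.g₃ := by
      filter_upwards [hU.mem_nhds hw] with z hz using L.derivWeierstrassP_sq z hz
    have hd := hev.deriv_eq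
    have hP := hasDerivAt_weierstrassP L w hw
    have hP' := hasDerivAt_derivWeierstrassP L w hw
    have h1 : deriv (fun z => ℘'[L] z ^ 2) w = 2 * ℘'[L] w * deriv ℘'[L] w := by
      have hh : HasDerivAt (fun z => ℘'[L] z ^ 2) (2 * ℘'[L] w * deriv ℘'[L] w) w := by
        simpa using hP'.fun_pow 2
      exact hh.deriv
    have h2 : deriv (fun z => 4 * ℘[L] z ^ 3 - L.g₂ * ℘[L] z - L.g₃) w =
        12 * ℘[L] w ^ 2 * ℘'[L] w - L.g₂ * ℘'[L] w := by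
      have hh : HasDerivAt (fun z => 4 * ℘[L] z ^ 3 - L.g₂ * ℘[L] z - L.g₃)
          (4 * (3 * ℘[L] w ^ 2 * ℘'[L] w) - L.g₂ * ℘'[L] w) w := by
        simpa using (((hP.fun_pow 3).const_mul 4).sub (hP.const_mul L.g₂)).sub_const L.g₃
      rw [hh.deriv]
      ring
    rw [h1, h2] at hd
    linear_combination hd
  have hA : AnalyticOnNhd ℂ (fun w => 2 * deriv ℘'[L] w - 12 * ℘[L] w ^ 2 + L.g₂)
      (L.lattice : Set ℂ)ᶜ := by
    intro w hw
    have a1 : AnalyticAt ℂ (deriv ℘'[L]) w := L.analyticOnNhd_derivWeierstrassP.deriv w hw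
    have a2 : AnalyticAt ℂ ℘[L] w := L.analyticOnNhd_weierstrassP w hw
    fun_prop
  rcases L.analyticOnNhd_derivWeierstrassP.eq_zero_or_eq_zero_of_mul_eq_zero hA hode
    (isPreconnected_compl_lattice L) with h | h
  · exfalso
    obtain ⟨w, hw, hw'⟩ :=
      ((eventually_notMem_lattice L).and (eventually_derivWeierstrassP_ne_zero L)).exists
    exact hw' (h w hw)
  · have := h z hz
    linear_combination this / 2

/-! ### Half periods -/

section HalfPeriod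

variable {L} {ω : ℂ}

/-- **(HP0)** `℘'` vanishes at the half periods. -/
theorem derivWeierstrassP_half (hω : 2 * ω ∈ L.lattice) : ℘'[L] ω = 0 := by
  have h1 : ℘'[L] (ω - ((⟨2 * ω, hω⟩ : L.lattice) : ℂ)) = ℘'[L] ω :=
    L.derivWeierstrassP_sub_coe ω ⟨2 * ω, hω⟩
  have h2 : ω - 2 * ω = -ω := by ring
  simp only [h2, L.derivWeierstrassP_neg] at h1
  linear_combination (-1 / 2 : ℂ) * h1

theorem add_half_mem_iff (hω : 2 * ω ∈ L.lattice) (z : ℂ) :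
    z + ω + ω ∈ L.lattice ↔ z ∈ L.lattice := by
  have : z + ω + ω = z + 2 * ω := by ring
  rw [this]
  exact L.lattice.add_mem_iff_left hω

theorem weierstrassP_add_half_add_half (hω : 2 * ω ∈ L.lattice) (z : ℂ) :
    ℘[L] (z + ω + ω) = ℘[L] z := by
  have : z + ω + ω = z + ((⟨2 * ω, hω⟩ : L.lattice) : ℂ) := by push_cast; ring
  rw [this, L.weierstrassP_add_coe]

theorem eventually_add_notMem (hω' : ω ∉ L.lattice) :
    ∀ᶠ z in 𝓝 (0 : ℂ), z + ω ∉ L.lattice := by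
  have h : Tendsto (fun z : ℂ => z + ω) (𝓝 0) (𝓝 ω) := by
    have : ContinuousAt (fun z : ℂ => z + ω) 0 := by fun_prop
    simpa [ContinuousAt] using this
  exact h.eventually ((isOpen_compl_lattice L).mem_nhds hω')

variable (L ω) in
/-- The product `(℘(z+ω) - ℘ ω)(℘ z - ℘ ω)`, with the removable singularities removed. -/
def transProd (z : ℂ) : ℂ :=
  open Classical in
  if z ∈ L.lattice ∨ z + ω ∈ L.lattice then 3 * ℘[L] ω ^ 2 - L.g₂ / 4
  else (℘[L] (z + ω) - ℘[L] ω) * (℘[L] z - ℘[L] ω)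

theorem transProd_add_coe (z : ℂ) (l : L.lattice) :
    transProd L ω (z + l) = transProd L ω z := by
  have h1 : z + l ∈ L.lattice ↔ z ∈ L.lattice := L.lattice.add_mem_iff_left l.2
  have h2 : z + l + ω ∈ L.lattice ↔ z + ω ∈ L.lattice := by
    rw [add_right_comm]; exact L.lattice.add_mem_iff_left l.2
  have h3 : ℘[L] (z + l + ω) = ℘[L] (z + ω) := by
    rw [add_right_comm, L.weierstrassP_add_coe]
  have hiff : (z + l ∈ L.lattice ∨ z + l + ω ∈ L.lattice) ↔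
      (z ∈ L.lattice ∨ z + ω ∈ L.lattice) := by rw [h1, h2]
  unfold transProd
  by_cases h : z ∈ L.lattice ∨ z + ω ∈ L.lattice
  · rw [if_pos h, if_pos (hiff.mpr h)]
  · rw [if_neg h, if_neg (mt hiff.mp h), h3, L.weierstrassP_add_coe]

theorem transProd_add_half (hω : 2 * ω ∈ L.lattice) (z : ℂ) :
    transProd L ω (z + ω) = transProd L ω z := by
  have hiff : (z + ω ∈ L.lattice ∨ z + ω + ω ∈ L.lattice) ↔
      (z ∈ L.lattice ∨ z + ω ∈ L.lattice) := by rw [add_half_mem_iff hω, or_comm]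
  unfold transProd
  by_cases h : z ∈ L.lattice ∨ z + ω ∈ L.lattice
  · rw [if_pos h, if_pos (hiff.mpr h)]
  · rw [if_neg h, if_neg (mt hiff.mp h), weierstrassP_add_half_add_half hω, mul_comm]

theorem transProd_of_notMem {z : ℂ} (hz : z ∉ L.lattice) (hz' : z + ω ∉ L.lattice) :
    transProd L ω z = (℘[L] (z + ω) - ℘[L] ω) * (℘[L] z - ℘[L] ω) := by
  simp [transProd, hz, hz']

theorem transProd_zero : transProd L ω 0 = 3 * ℘[L] ω ^ 2 - L.g₂ / 4 := by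
  simp [transProd]

theorem analyticAt_transProd_zero (hω : 2 * ω ∈ L.lattice) (hω' : ω ∉ L.lattice) :
    AnalyticAt ℂ (transProd L ω) 0 := by
  set e := ℘[L] ω with he
  set c := 3 * e ^ 2 - L.g₂ / 4 with hc
  let g : ℂ → ℂ := fun z => ℘[L] (z + ω) - e
  have hg : AnalyticAt ℂ g 0 := by
    have h1 : AnalyticAt ℂ ℘[L] (0 + ω) := by simpa using L.analyticOnNhd_weierstrassP ω hω'
    have h2 : AnalyticAt ℂ (fun z : ℂ => z + ω) 0 := by fun_prop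
    have h3 : AnalyticAt ℂ (fun z : ℂ => ℘[L] (z + ω)) 0 :=
      AnalyticAt.comp (g := ℘[L]) (f := fun z : ℂ => z + ω) (x := 0) h1 h2
    exact h3.fun_sub analyticAt_const
  have hev : ∀ᶠ z in 𝓝 (0 : ℂ), z + ω ∉ L.lattice := eventually_add_notMem hω'
  have hdg : deriv g =ᶠ[𝓝 0] fun z => ℘'[L] (z + ω) := by
    filter_upwards [hev] with z hz
    have h1 := hasDerivAt_weierstrassP L (z + ω) hz
    have h2 : HasDerivAt g (℘'[L] (z + ω)) z := (h1.comp_add_const z ω).sub_const e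
    exact h2.deriv
  have hg0 : iteratedDeriv 0 g 0 = 0 := by simp [g, he]
  have hg1 : iteratedDeriv 1 g 0 = 0 := by
    rw [iteratedDeriv_one, hdg.self_of_nhds]
    simpa using derivWeierstrassP_half hω
  have hg2 : iteratedDeriv 2 g 0 = 2 * c := by
    rw [iteratedDeriv_succ, iteratedDeriv_one, hdg.deriv_eq, deriv_comp_add_const]
    simp only [zero_add]
    rw [deriv_derivWeierstrassP L ω hω']
    ring
  obtain ⟨F, hF, hFg⟩ := hg.exists_eventuallyEq_sum_add_pow_mul 3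
  have hP : AnalyticAt ℂ ℘[L - (0 : ℂ)] 0 := L.analyticAt_weierstrassPExcept 0
  have hmain : transProd L ω =ᶠ[𝓝 0]
      fun z => (c + z * F z) * (z ^ 2 * (℘[L - (0 : ℂ)] z - e) + 1) := by
    filter_upwards [hev, L.compl_lattice_sdiff_singleton_mem_nhds 0, hFg] with z hz1 hz2 hz3
    by_cases hz0 : z = 0
    · subst hz0
      simp [transProd_zero, hc, he]
    · have hzL : z ∉ L.lattice := fun h => hz2 ⟨h, hz0⟩
      rw [transProd_of_notMem hzL hz1]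
      have hgz : ℘[L] (z + ω) - e = z ^ 2 * (c + z * F z) := by
        have h4 : g z = _ := hz3
        simp only [Finset.sum_range_succ, Finset.sum_range_zero, hg0, hg1, hg2, smul_eq_mul] at h4
        rw [show ℘[L] (z + ω) - e = g z from rfl, h4]
        simp [Nat.factorial]
        ring
      rw [hgz, weierstrassP_eq_except_zero]
      field_simp
      ring
  refine AnalyticAt.congr ?_ hmain.symm
  fun_prop

theorem analyticAt_transProd (hω : 2 * ω ∈ L.lattice) (hω' : ω ∉ L.lattice) (z₀ : ℂ) :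
    AnalyticAt ℂ (transProd L ω) z₀ := by
  have hL : ∀ x : ℂ, x ∈ L.lattice → AnalyticAt ℂ (transProd L ω) x := by
    intro x hx
    have h0 := analyticAt_transProd_zero hω hω'
    have h1 : AnalyticAt ℂ (fun z : ℂ => z - x) x := by fun_prop
    have h0' : AnalyticAt ℂ (transProd L ω) ((fun z : ℂ => z - x) x) := by simpa using h0
    have h2 : AnalyticAt ℂ (fun z => transProd L ω (z - x)) x :=
      AnalyticAt.comp (g := transProd L ω) (f := fun z : ℂ => z - x) (x := x) h0' h1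
    refine h2.congr (Eventually.of_forall fun z => ?_)
    have := transProd_add_coe (L := L) (ω := ω) (z - x) ⟨x, hx⟩
    simpa using this.symm
  by_cases h1 : z₀ ∈ L.lattice
  · exact hL z₀ h1
  by_cases h2 : z₀ + ω ∈ L.lattice
  · have h3 := hL (z₀ + ω) h2
    have h4 : AnalyticAt ℂ (fun z : ℂ => z + ω) z₀ := by fun_prop
    have h5 : AnalyticAt ℂ (fun z => transProd L ω (z + ω)) z₀ :=
      AnalyticAt.comp (g := transProd L ω) (f := fun z : ℂ => z + ω) (x := z₀) h3 h4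
    exact h5.congr (Eventually.of_forall fun z => transProd_add_half hω z)
  · have hopen1 : ∀ᶠ z in 𝓝 z₀, z ∉ L.lattice := (isOpen_compl_lattice L).mem_nhds h1
    have hopen2 : ∀ᶠ z in 𝓝 z₀, z + ω ∉ L.lattice := by
      have h : Tendsto (fun z : ℂ => z + ω) (𝓝 z₀) (𝓝 (z₀ + ω)) :=
        (continuous_add_const ω).tendsto z₀
      exact h.eventually ((isOpen_compl_lattice L).mem_nhds h2)
    have hprod : AnalyticAt ℂ (fun z => (℘[L] (z + ω) - ℘[L] ω) * (℘[L] z - ℘[L] ω)) z₀ := by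
      have a1 : AnalyticAt ℂ ℘[L] z₀ := L.analyticOnNhd_weierstrassP z₀ h1
      have a2 : AnalyticAt ℂ (fun z => ℘[L] (z + ω)) z₀ :=
        AnalyticAt.comp (g := ℘[L]) (f := fun z : ℂ => z + ω) (x := z₀)
          (L.analyticOnNhd_weierstrassP _ h2) (by fun_prop)
      fun_prop
    refine hprod.congr ?_
    filter_upwards [hopen1, hopen2] with z hz1 hz2
    exact (transProd_of_notMem hz1 hz2).symm

/-- Liouville: the patched product is constant. -/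
theorem transProd_eq_const (hω : 2 * ω ∈ L.lattice) (hω' : ω ∉ L.lattice) (z : ℂ) :
    transProd L ω z = 3 * ℘[L] ω ^ 2 - L.g₂ / 4 := by
  have hd : Differentiable ℂ (transProd L ω) :=
    fun x => (analyticAt_transProd hω hω' x).differentiableAt
  have hb := (IsZLattice.isCompact_range_of_periodic L.lattice _ hd.continuous
    (fun z w hw => by lift w to L.lattice using hw; exact transProd_add_coe z w)).isBounded
  rw [hd.apply_eq_apply_of_bounded hb z 0, transProd_zero]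

/-- **(HP2)** Translation by a half period: `(℘(z+ω) - e)(℘ z - e) = 3e² - g₂/4`, `e = ℘ ω`. -/
theorem mul_translate_half (hω : 2 * ω ∈ L.lattice) (hω' : ω ∉ L.lattice) (z : ℂ)
    (hz : z ∉ L.lattice) (hz' : z + ω ∉ L.lattice) :
    (℘[L] (z + ω) - ℘[L] ω) * (℘[L] z - ℘[L] ω) = 3 * ℘[L] ω ^ 2 - L.g₂ / 4 := by
  rw [← transProd_of_notMem hz hz', transProd_eq_const hω hω']

/-- The constant of (HP2) does not vanish. -/
theorem translate_const_ne_zero (hω : 2 * ω ∈ L.lattice) (hω' : ω ∉ L.lattice) :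
    3 * ℘[L] ω ^ 2 - L.g₂ / 4 ≠ 0 := by
  intro hc
  have h1 : ∀ᶠ z in 𝓝[≠] (0 : ℂ), ℘[L] (z + ω) = ℘[L] ω := by
    filter_upwards [eventually_notMem_lattice L, eventually_weierstrassP_ne L (℘[L] ω),
      (eventually_add_notMem hω').filter_mono nhdsWithin_le_nhds] with z hz1 hz2 hz3
    have := mul_translate_half hω hω' z hz1 hz3
    rw [hc, mul_eq_zero] at this
    rcases this with h | h
    · exact sub_eq_zero.mp h
    · exact absurd (sub_eq_zero.mp h) hz2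
  have h2 : ∀ᶠ z in 𝓝 (0 : ℂ), ℘[L] (z + ω) = ℘[L] ω := by
    rw [eventually_nhdsWithin_iff] at h1
    filter_upwards [h1] with z hz
    by_cases hz0 : z = 0
    · simp [hz0]
    · exact hz hz0
  have h3 : ∀ᶠ w in 𝓝 ω, ℘[L] w = ℘[L] ω := by
    have ht : Tendsto (fun w : ℂ => w - ω) (𝓝 ω) (𝓝 0) := by
      have : ContinuousAt (fun w : ℂ => w - ω) ω := by fun_prop
      simpa [ContinuousAt] using this
    filter_upwards [ht.eventually h2] with w hw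
    simpa using hw
  exact not_eventually_weierstrassP_eq L _ ω hω' h3

/-- `℘` takes the value `℘ ω` (`ω` a half period) only at the translates of `ω`. -/
theorem add_mem_of_weierstrassP_eq_half (hω : 2 * ω ∈ L.lattice) (hω' : ω ∉ L.lattice) {η : ℂ}
    (hη' : η ∉ L.lattice) (h : ℘[L] η = ℘[L] ω) : η + ω ∈ L.lattice := by
  by_contra hne
  have := mul_translate_half hω hω' η hη' hne
  rw [h, sub_self, mul_zero] at this
  exact translate_const_ne_zero hω hω' this.symm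

/-- The derivative of (HP2). -/
theorem deriv_translate_half (hω : 2 * ω ∈ L.lattice) (hω' : ω ∉ L.lattice) (z : ℂ)
    (hz : z ∉ L.lattice) (hz' : z + ω ∉ L.lattice) :
    ℘'[L] (z + ω) * (℘[L] z - ℘[L] ω) + (℘[L] (z + ω) - ℘[L] ω) * ℘'[L] z = 0 := by
  have h1 : HasDerivAt (fun w => ℘[L] (w + ω) - ℘[L] ω) (℘'[L] (z + ω)) z :=
    ((hasDerivAt_weierstrassP L (z + ω) hz').comp_add_const z ω).sub_const _
  have h2 : HasDerivAt (fun w => ℘[L] w - ℘[L] ω) (℘'[L] z) z :=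
    (hasDerivAt_weierstrassP L z hz).sub_const _
  have h3 := h1.mul h2
  have hopen1 : ∀ᶠ w in 𝓝 z, w ∉ L.lattice := (isOpen_compl_lattice L).mem_nhds hz
  have hopen2 : ∀ᶠ w in 𝓝 z, w + ω ∉ L.lattice := by
    have h : Tendsto (fun w : ℂ => w + ω) (𝓝 z) (𝓝 (z + ω)) :=
      (continuous_add_const ω).tendsto z
    exact h.eventually ((isOpen_compl_lattice L).mem_nhds hz')
  have h4 : (fun w => (℘[L] (w + ω) - ℘[L] ω) * (℘[L] w - ℘[L] ω)) =ᶠ[𝓝 z]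
      fun _ => 3 * ℘[L] ω ^ 2 - L.g₂ / 4 := by
    filter_upwards [hopen1, hopen2] with w hw1 hw2 using mul_translate_half hω hω' w hw1 hw2
  have h5 := h4.deriv_eq
  rw [deriv_const] at h5
  have h6 := h3.deriv
  rw [← h5]
  rw [← h6]
  rfl

/-- The value of `℘` at a half period is a root of `4X³ - g₂X - g₃`. -/
theorem cubic_half (hω : 2 * ω ∈ L.lattice) (hω' : ω ∉ L.lattice) :
    4 * ℘[L] ω ^ 3 - L.g₂ * ℘[L] ω - L.g₃ = 0 := by
  rw [← L.derivWeierstrassP_sq ω hω', derivWeierstrassP_half hω]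
  ring

end HalfPeriod

/-! ### Triples of pairwise inequivalent half periods -/

/-- Three half periods of `L`, pairwise inequivalent modulo `L`. -/
structure HalfTriple (L : PeriodPair) (η₁ η₂ η₃ : ℂ) : Prop where
  two₁ : 2 * η₁ ∈ L.lattice
  two₂ : 2 * η₂ ∈ L.lattice
  two₃ : 2 * η₃ ∈ L.lattice
  notMem₁ : η₁ ∉ L.lattice
  notMem₂ : η₂ ∉ L.lattice
  notMem₃ : η₃ ∉ L.lattice
  add₁₂ : η₁ + η₂ ∉ L.lattice
  add₁₃ : η₁ + η₃ ∉ L.lattice
  add₂₃ : η₂ + η₃ ∉ L.lattice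

namespace HalfTriple

variable {L} {η₁ η₂ η₃ : ℂ} (H : HalfTriple L η₁ η₂ η₃)

include H

theorem ne₁₂ : ℘[L] η₁ ≠ ℘[L] η₂ := fun h =>
  H.add₁₂ (add_mem_of_weierstrassP_eq_half H.two₂ H.notMem₂ H.notMem₁ h)

theorem ne₁₃ : ℘[L] η₁ ≠ ℘[L] η₃ := fun h =>
  H.add₁₃ (add_mem_of_weierstrassP_eq_half H.two₃ H.notMem₃ H.notMem₁ h)

theorem ne₂₃ : ℘[L] η₂ ≠ ℘[L] η₃ := fun h =>
  H.add₂₃ (add_mem_of_weierstrassP_eq_half H.two₃ H.notMem₃ H.notMem₂ h)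

/-- `e₁ + e₂ + e₃ = 0`. -/
theorem sum_eq_zero : ℘[L] η₁ + ℘[L] η₂ + ℘[L] η₃ = 0 := by
  have h1 := cubic_half H.two₁ H.notMem₁
  have h2 := cubic_half H.two₂ H.notMem₂
  have h3 := cubic_half H.two₃ H.notMem₃
  have h12 : ℘[L] η₁ - ℘[L] η₂ ≠ 0 := sub_ne_zero.mpr H.ne₁₂
  have h13 : ℘[L] η₁ - ℘[L] η₃ ≠ 0 := sub_ne_zero.mpr H.ne₁₃
  have h23 : ℘[L] η₂ - ℘[L] η₃ ≠ 0 := sub_ne_zero.mpr H.ne₂₃
  have hA : L.g₂ = 4 * (℘[L] η₁ ^ 2 + ℘[L] η₁ * ℘[L] η₂ + ℘[L] η₂ ^ 2) := by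
    apply mul_left_cancel₀ h12
    linear_combination h2 - h1
  have hB : L.g₂ = 4 * (℘[L] η₁ ^ 2 + ℘[L] η₁ * ℘[L] η₃ + ℘[L] η₃ ^ 2) := by
    apply mul_left_cancel₀ h13
    linear_combination h3 - h1
  have : (℘[L] η₂ - ℘[L] η₃) * (℘[L] η₁ + ℘[L] η₂ + ℘[L] η₃) = (℘[L] η₂ - ℘[L] η₃) * 0 := by
    linear_combination (-1 / 4 : ℂ) * hA + (1 / 4 : ℂ) * hB
  exact mul_left_cancel₀ h23 this

theorem e₃_eq : ℘[L] η₃ = -℘[L] η₁ - ℘[L] η₂ := by
  linear_combination H.sum_eq_zero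

/-- `g₂ = -4 (e₁e₂ + e₁e₃ + e₂e₃)`. -/
theorem g₂_eq : L.g₂ =
    -4 * (℘[L] η₁ * ℘[L] η₂ + ℘[L] η₁ * ℘[L] η₃ + ℘[L] η₂ * ℘[L] η₃) := by
  have h1 := cubic_half H.two₁ H.notMem₁
  have h2 := cubic_half H.two₂ H.notMem₂
  have h12 : ℘[L] η₁ - ℘[L] η₂ ≠ 0 := sub_ne_zero.mpr H.ne₁₂
  have hA : L.g₂ = 4 * (℘[L] η₁ ^ 2 + ℘[L] η₁ * ℘[L] η₂ + ℘[L] η₂ ^ 2) := by
    apply mul_left_cancel₀ h12
    linear_combination h2 - h1
  rw [hA, H.e₃_eq]
  ring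

/-- `g₃ = 4 e₁e₂e₃`. -/
theorem g₃_eq : L.g₃ = 4 * (℘[L] η₁ * ℘[L] η₂ * ℘[L] η₃) := by
  have h1 := cubic_half H.two₁ H.notMem₁
  rw [H.g₂_eq, H.e₃_eq] at h1
  rw [H.e₃_eq]
  linear_combination -h1

/-- **(HP1)** `℘'² = 4 (℘ - e₁)(℘ - e₂)(℘ - e₃)`. -/
theorem derivWeierstrassP_sq_eq_prod (z : ℂ) (hz : z ∉ L.lattice) :
    ℘'[L] z ^ 2 = 4 * (℘[L] z - ℘[L] η₁) * (℘[L] z - ℘[L] η₂) * (℘[L] z - ℘[L] η₃) := by
  rw [L.derivWeierstrassP_sq z hz, H.g₂_eq, H.g₃_eq, H.e₃_eq]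
  ring

/-- **(HP3)** The discriminant in terms of the `eᵢ`. -/
theorem disc_eq : L.g₂ ^ 3 - 27 * L.g₃ ^ 2 =
    16 * ((℘[L] η₁ - ℘[L] η₂) * (℘[L] η₁ - ℘[L] η₃) * (℘[L] η₂ - ℘[L] η₃)) ^ 2 := by
  rw [H.g₂_eq, H.g₃_eq, H.e₃_eq]
  ring

theorem const₁_eq : 3 * ℘[L] η₁ ^ 2 - L.g₂ / 4 =
    (℘[L] η₁ - ℘[L] η₂) * (℘[L] η₁ - ℘[L] η₃) := by
  rw [H.g₂_eq, H.e₃_eq]
  ring

theorem const₂_eq : 3 * ℘[L] η₂ ^ 2 - L.g₂ / 4 =
    (℘[L] η₂ - ℘[L] η₁) * (℘[L] η₂ - ℘[L] η₃) := by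
  rw [H.g₂_eq, H.e₃_eq]
  ring

theorem const₃_eq : 3 * ℘[L] η₃ ^ 2 - L.g₂ / 4 =
    (℘[L] η₃ - ℘[L] η₁) * (℘[L] η₃ - ℘[L] η₂) := by
  rw [H.g₂_eq, H.e₃_eq]
  ring

/-- **(HP2)** for `η₁`. -/
theorem mul_translate₁ (z : ℂ) (hz : z ∉ L.lattice) (hz' : z + η₁ ∉ L.lattice) :
    (℘[L] (z + η₁) - ℘[L] η₁) * (℘[L] z - ℘[L] η₁) =
      (℘[L] η₁ - ℘[L] η₂) * (℘[L] η₁ - ℘[L] η₃) := by
  rw [← H.const₁_eq]
  exact mul_translate_half H.two₁ H.notMem₁ z hz hz'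

/-- **(HP2)** for `η₂`. -/
theorem mul_translate₂ (z : ℂ) (hz : z ∉ L.lattice) (hz' : z + η₂ ∉ L.lattice) :
    (℘[L] (z + η₂) - ℘[L] η₂) * (℘[L] z - ℘[L] η₂) =
      (℘[L] η₂ - ℘[L] η₁) * (℘[L] η₂ - ℘[L] η₃) := by
  rw [← H.const₂_eq]
  exact mul_translate_half H.two₂ H.notMem₂ z hz hz'

/-- **(HP2)** for `η₃`. -/
theorem mul_translate₃ (z : ℂ) (hz : z ∉ L.lattice) (hz' : z + η₃ ∉ L.lattice) :
    (℘[L] (z + η₃) - ℘[L] η₃) * (℘[L] z - ℘[L] η₃) =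
      (℘[L] η₃ - ℘[L] η₁) * (℘[L] η₃ - ℘[L] η₂) := by
  rw [← H.const₃_eq]
  exact mul_translate_half H.two₃ H.notMem₃ z hz hz'

/-- **(HP5)** `℘''(η₁) = 2 (e₁ - e₂)(e₁ - e₃)`. -/
theorem deriv_deriv₁ :
    deriv ℘'[L] η₁ = 2 * (℘[L] η₁ - ℘[L] η₂) * (℘[L] η₁ - ℘[L] η₃) := by
  rw [deriv_derivWeierstrassP L _ H.notMem₁]
  linear_combination 2 * H.const₁_eq

/-- **(HP5)** `℘''(η₂) = 2 (e₂ - e₁)(e₂ - e₃)`. -/
theorem deriv_deriv₂ :
    deriv ℘'[L] η₂ = 2 * (℘[L] η₂ - ℘[L] η₁) * (℘[L] η₂ - ℘[L] η₃) := by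
  rw [deriv_derivWeierstrassP L _ H.notMem₂]
  linear_combination 2 * H.const₂_eq

/-- **(HP5)** `℘''(η₃) = 2 (e₃ - e₁)(e₃ - e₂)`. -/
theorem deriv_deriv₃ :
    deriv ℘'[L] η₃ = 2 * (℘[L] η₃ - ℘[L] η₁) * (℘[L] η₃ - ℘[L] η₂) := by
  rw [deriv_derivWeierstrassP L _ H.notMem₃]
  linear_combination 2 * H.const₃_eq

/-- **(HP5')** `Δ = -2 ℘''(η₁) ℘''(η₂) ℘''(η₃)`. -/
theorem disc_eq_prod_deriv : L.g₂ ^ 3 - 27 * L.g₃ ^ 2 =
    -2 * (deriv ℘'[L] η₁ * deriv ℘'[L] η₂ * deriv ℘'[L] η₃) := by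
  rw [H.deriv_deriv₁, H.deriv_deriv₂, H.deriv_deriv₃, H.disc_eq]
  ring

/-- The second derivative of `℘` does not vanish at the half periods. -/
theorem deriv_deriv₁_ne_zero : deriv ℘'[L] η₁ ≠ 0 := by
  rw [H.deriv_deriv₁]
  exact mul_ne_zero (mul_ne_zero (by norm_num) (sub_ne_zero.mpr H.ne₁₂)) (sub_ne_zero.mpr H.ne₁₃)

/-- `℘'` vanishes (off the lattice) only at the half periods. -/
theorem derivWeierstrassP_ne_zero {t : ℂ} (ht : 2 * t ∉ L.lattice) : ℘'[L] t ≠ 0 := by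
  have ht0 : t ∉ L.lattice := fun h => ht (by rw [two_mul]; exact add_mem h h)
  have hmem : ∀ ω : ℂ, 2 * ω ∈ L.lattice → t + ω ∉ L.lattice := by
    intro ω hω h
    apply ht
    have : 2 * t = 2 • (t + ω) - 2 * ω := by rw [two_smul]; ring
    rw [this]
    exact sub_mem (L.lattice.smul_mem 2 h) hω
  intro h0
  have hsq := H.derivWeierstrassP_sq_eq_prod t ht0
  rw [h0] at hsq
  have hprod : (℘[L] t - ℘[L] η₁) * (℘[L] t - ℘[L] η₂) * (℘[L] t - ℘[L] η₃) = 0 := by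
    linear_combination (-1 / 4 : ℂ) * hsq
  rcases mul_eq_zero.mp hprod with h | h
  · rcases mul_eq_zero.mp h with h | h
    · have := mul_translate_half H.two₁ H.notMem₁ t ht0 (hmem _ H.two₁)
      rw [h, mul_zero] at this
      exact translate_const_ne_zero H.two₁ H.notMem₁ this.symm
    · have := mul_translate_half H.two₂ H.notMem₂ t ht0 (hmem _ H.two₂)
      rw [h, mul_zero] at this
      exact translate_const_ne_zero H.two₂ H.notMem₂ this.symm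
  · have := mul_translate_half H.two₃ H.notMem₃ t ht0 (hmem _ H.two₃)
    rw [h, mul_zero] at this
    exact translate_const_ne_zero H.two₃ H.notMem₃ this.symm

/-- **(HP4)** `℘'(t) ℘'(t+η₁) ℘'(t+η₂) ℘'(t+η₃) = g₂³ - 27 g₃²` for `2t ∉ Λ`. -/
theorem prod_derivWeierstrassP_translates (t : ℂ) (ht : 2 * t ∉ L.lattice) :
    ℘'[L] t * ℘'[L] (t + η₁) * ℘'[L] (t + η₂) * ℘'[L] (t + η₃) =
      L.g₂ ^ 3 - 27 * L.g₃ ^ 2 := by
  have ht0 : t ∉ L.lattice := fun h => ht (by rw [two_mul]; exact add_mem h h)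
  have hmem : ∀ ω : ℂ, 2 * ω ∈ L.lattice → t + ω ∉ L.lattice := by
    intro ω hω h
    apply ht
    have : 2 * t = 2 • (t + ω) - 2 * ω := by rw [two_smul]; ring
    rw [this]
    exact sub_mem (L.lattice.smul_mem 2 h) hω
  have hP : ℘'[L] t ≠ 0 := H.derivWeierstrassP_ne_zero ht
  have hsq := H.derivWeierstrassP_sq_eq_prod t ht0
  have d1 := deriv_translate_half H.two₁ H.notMem₁ t ht0 (hmem _ H.two₁)
  have d2 := deriv_translate_half H.two₂ H.notMem₂ t ht0 (hmem _ H.two₂)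
  have d3 := deriv_translate_half H.two₃ H.notMem₃ t ht0 (hmem _ H.two₃)
  have m1 := H.mul_translate₁ t ht0 (hmem _ H.two₁)
  have m2 := H.mul_translate₂ t ht0 (hmem _ H.two₂)
  have m3 := H.mul_translate₃ t ht0 (hmem _ H.two₃)
  have k1 : ℘'[L] (t + η₁) * (℘[L] t - ℘[L] η₁) ^ 2 =
      -((℘[L] η₁ - ℘[L] η₂) * (℘[L] η₁ - ℘[L] η₃)) * ℘'[L] t := by
    linear_combination (℘[L] t - ℘[L] η₁) * d1 - ℘'[L] t * m1
  have k2 : ℘'[L] (t + η₂) * (℘[L] t - ℘[L] η₂) ^ 2 =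
      -((℘[L] η₂ - ℘[L] η₁) * (℘[L] η₂ - ℘[L] η₃)) * ℘'[L] t := by
    linear_combination (℘[L] t - ℘[L] η₂) * d2 - ℘'[L] t * m2
  have k3 : ℘'[L] (t + η₃) * (℘[L] t - ℘[L] η₃) ^ 2 =
      -((℘[L] η₃ - ℘[L] η₁) * (℘[L] η₃ - ℘[L] η₂)) * ℘'[L] t := by
    linear_combination (℘[L] t - ℘[L] η₃) * d3 - ℘'[L] t * m3
  have hk : (℘'[L] (t + η₁) * (℘[L] t - ℘[L] η₁) ^ 2) *
      (℘'[L] (t + η₂) * (℘[L] t - ℘[L] η₂) ^ 2) *
      (℘'[L] (t + η₃) * (℘[L] t - ℘[L] η₃) ^ 2) =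
      (-((℘[L] η₁ - ℘[L] η₂) * (℘[L] η₁ - ℘[L] η₃)) * ℘'[L] t) *
      (-((℘[L] η₂ - ℘[L] η₁) * (℘[L] η₂ - ℘[L] η₃)) * ℘'[L] t) *
      (-((℘[L] η₃ - ℘[L] η₁) * (℘[L] η₃ - ℘[L] η₂)) * ℘'[L] t) := by
    rw [k1, k2, k3]
  rw [H.disc_eq]
  apply mul_left_cancel₀ (pow_ne_zero 3 hP)
  linear_combination (℘'[L] (t + η₁) * ℘'[L] (t + η₂) * ℘'[L] (t + η₃) *
    (℘'[L] t ^ 2 + 4 * (℘[L] t - ℘[L] η₁) * (℘[L] t - ℘[L] η₂) * (℘[L] t - ℘[L] η₃))) * hsq
    + 16 * hk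

omit H in
/-- A triple of half periods of `L` is a triple of half periods of every lattice `L'` containing
`L` with odd index (in the form: an odd multiple of every element of `L'` lies in `L`). -/
theorem of_le (H : HalfTriple L η₁ η₂ η₃) {L' : PeriodPair} (hle : L.lattice ≤ L'.lattice)
    {n : ℕ} (hn : Odd n) (hL' : ∀ x ∈ L'.lattice, (n : ℂ) * x ∈ L.lattice) :
    HalfTriple L' η₁ η₂ η₃ := by
  have key : ∀ x : ℂ, 2 * x ∈ L.lattice → x ∉ L.lattice → x ∉ L'.lattice := by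
    intro x h2 hx hx'
    apply hx
    obtain ⟨k, rfl⟩ := hn
    have h1 := hL' x hx'
    have h3 : x = ((2 * k + 1 : ℕ) : ℂ) * x - k • (2 * x) := by
      push_cast
      rw [nsmul_eq_mul]
      ring
    rw [h3]
    exact sub_mem h1 (L.lattice.smul_mem k h2)
  have two_add : ∀ x y : ℂ, 2 * x ∈ L.lattice → 2 * y ∈ L.lattice → 2 * (x + y) ∈ L.lattice := by
    intro x y hx hy
    rw [mul_add]
    exact add_mem hx hy
  exact
    { two₁ := hle H.two₁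
      two₂ := hle H.two₂
      two₃ := hle H.two₃
      notMem₁ := key _ H.two₁ H.notMem₁
      notMem₂ := key _ H.two₂ H.notMem₂
      notMem₃ := key _ H.two₃ H.notMem₃
      add₁₂ := key _ (two_add _ _ H.two₁ H.two₂) H.add₁₂
      add₁₃ := key _ (two_add _ _ H.two₁ H.two₃) H.add₁₃
      add₂₃ := key _ (two_add _ _ H.two₂ H.two₃) H.add₂₃ }

end HalfTriple

/-! ### The standard triple `ω₁/2`, `ω₂/2`, `(ω₁+ω₂)/2` -/

section Named

theorem two_mul_half₁ : 2 * (L.ω₁ / 2) ∈ L.lattice := by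
  rw [show 2 * (L.ω₁ / 2) = L.ω₁ by ring]
  exact L.ω₁_mem_lattice

theorem two_mul_half₂ : 2 * (L.ω₂ / 2) ∈ L.lattice := by
  rw [show 2 * (L.ω₂ / 2) = L.ω₂ by ring]
  exact L.ω₂_mem_lattice

theorem two_mul_half₃ : 2 * ((L.ω₁ + L.ω₂) / 2) ∈ L.lattice := by
  rw [show 2 * ((L.ω₁ + L.ω₂) / 2) = L.ω₁ + L.ω₂ by ring]
  exact add_mem L.ω₁_mem_lattice L.ω₂_mem_lattice

theorem rat_comb_notMem (α β : ℚ) (h : ¬ (α.den = 1 ∧ β.den = 1)) :
    (α : ℂ) * L.ω₁ + (β : ℂ) * L.ω₂ ∉ L.lattice :=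
  (L.mul_ω₁_add_mul_ω₂_mem_lattice (α := α) (β := β)).not.mpr h

theorem half₃_notMem : (L.ω₁ + L.ω₂) / 2 ∉ L.lattice := by
  have := rat_comb_notMem L (1 / 2) (1 / 2) (by norm_num)
  convert this using 2
  push_cast
  ring

theorem half₁_add_half₂_notMem : L.ω₁ / 2 + L.ω₂ / 2 ∉ L.lattice := by
  have := rat_comb_notMem L (1 / 2) (1 / 2) (by norm_num)
  convert this using 2
  push_cast
  ring

theorem half₁_add_half₃_notMem : L.ω₁ / 2 + (L.ω₁ + L.ω₂) / 2 ∉ L.lattice := by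
  have := rat_comb_notMem L 1 (1 / 2) (by norm_num)
  convert this using 2
  push_cast
  ring

theorem half₂_add_half₃_notMem : L.ω₂ / 2 + (L.ω₁ + L.ω₂) / 2 ∉ L.lattice := by
  have := rat_comb_notMem L (1 / 2) 1 (by norm_num)
  convert this using 2
  push_cast
  ring

/-- The standard triple of half periods. -/
theorem halfTriple_std : HalfTriple L (L.ω₁ / 2) (L.ω₂ / 2) ((L.ω₁ + L.ω₂) / 2) where
  two₁ := two_mul_half₁ L
  two₂ := two_mul_half₂ L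
  two₃ := two_mul_half₃ L
  notMem₁ := L.ω₁_div_two_notMem_lattice
  notMem₂ := L.ω₂_div_two_notMem_lattice
  notMem₃ := half₃_notMem L
  add₁₂ := half₁_add_half₂_notMem L
  add₁₃ := half₁_add_half₃_notMem L
  add₂₃ := half₂_add_half₃_notMem L

/-- `e₁ = ℘(ω₁/2)`. -/
def e₁ : ℂ := ℘[L] (L.ω₁ / 2)

/-- `e₂ = ℘(ω₂/2)`. -/
def e₂ : ℂ := ℘[L] (L.ω₂ / 2)

/-- `e₃ = ℘((ω₁+ω₂)/2)`. -/
def e₃ : ℂ := ℘[L] ((L.ω₁ + L.ω₂) / 2)

theorem e_pairwise_ne : e₁ L ≠ e₂ L ∧ e₁ L ≠ e₃ L ∧ e₂ L ≠ e₃ L :=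
  ⟨(halfTriple_std L).ne₁₂, (halfTriple_std L).ne₁₃, (halfTriple_std L).ne₂₃⟩

theorem e_sum : e₁ L + e₂ L + e₃ L = 0 := (halfTriple_std L).sum_eq_zero

theorem g₂_eq : L.g₂ = -4 * (e₁ L * e₂ L + e₁ L * e₃ L + e₂ L * e₃ L) :=
  (halfTriple_std L).g₂_eq

theorem g₃_eq : L.g₃ = 4 * (e₁ L * e₂ L * e₃ L) := (halfTriple_std L).g₃_eq

/-- **(HP1)** -/
theorem derivWeierstrassP_sq_eq_prod (z : ℂ) (hz : z ∉ L.lattice) :
    ℘'[L] z ^ 2 = 4 * (℘[L] z - e₁ L) * (℘[L] z - e₂ L) * (℘[L] z - e₃ L) :=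
  (halfTriple_std L).derivWeierstrassP_sq_eq_prod z hz

/-- **(HP3)** -/
theorem disc_eq : L.g₂ ^ 3 - 27 * L.g₃ ^ 2 =
    16 * ((e₁ L - e₂ L) * (e₁ L - e₃ L) * (e₂ L - e₃ L)) ^ 2 :=
  (halfTriple_std L).disc_eq

/-- The discriminant of a lattice does not vanish. -/
theorem disc_ne_zero : L.g₂ ^ 3 - 27 * L.g₃ ^ 2 ≠ 0 := by
  rw [disc_eq]
  obtain ⟨h12, h13, h23⟩ := e_pairwise_ne L
  exact mul_ne_zero (by norm_num) (pow_ne_zero 2 (mul_ne_zero (mul_ne_zero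
    (sub_ne_zero.mpr h12) (sub_ne_zero.mpr h13)) (sub_ne_zero.mpr h23)))

/-- **(HP5')** `Δ = -2 ℘''(ω₁/2) ℘''(ω₂/2) ℘''((ω₁+ω₂)/2)`. -/
theorem disc_eq_prod_deriv : L.g₂ ^ 3 - 27 * L.g₃ ^ 2 =
    -2 * (deriv ℘'[L] (L.ω₁ / 2) * deriv ℘'[L] (L.ω₂ / 2) *
      deriv ℘'[L] ((L.ω₁ + L.ω₂) / 2)) :=
  (halfTriple_std L).disc_eq_prod_deriv

variable {L} in
/-- `℘'` vanishes (off the lattice) only at the half periods. -/
theorem derivWeierstrassP_ne_zero {t : ℂ} (ht : 2 * t ∉ L.lattice) : ℘'[L] t ≠ 0 :=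
  (halfTriple_std L).derivWeierstrassP_ne_zero ht

/-- **(HP4)** `℘'(t) ℘'(t+ω₁/2) ℘'(t+ω₂/2) ℘'(t+(ω₁+ω₂)/2) = g₂³ - 27 g₃²` for `2t ∉ Λ`. -/
theorem prod_derivWeierstrassP_translates (t : ℂ) (ht : 2 * t ∉ L.lattice) :
    ℘'[L] t * ℘'[L] (t + L.ω₁ / 2) * ℘'[L] (t + L.ω₂ / 2) * ℘'[L] (t + (L.ω₁ + L.ω₂) / 2) =
      L.g₂ ^ 3 - 27 * L.g₃ ^ 2 :=
  (halfTriple_std L).prod_derivWeierstrassP_translates t ht

end Named

end Fermat.Agent.MAZ.Analytic.HalfPeriod76
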