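/-
Program MAZ (S15), X-side brick 7 = HP, helper86.  THE HALF-PERIOD PACKAGE FOR `℘` (Mathlib only).

`L : PeriodPair`, half periods `h₁ L = ω₁/2`, `h₂ L = ω₂/2`, `h₃ L = (ω₁+ω₂)/2`, `e_i L = ℘(h_i)`.

* (HP0) `derivWeierstrassP_half` : `ω + ω ∈ L → ℘'(ω) = 0`;
* (HP2) `mul_shift_eq` : for `ω ∉ L`, `ω + ω ∈ L`, `z ∉ L`, `z + ω ∉ L`:
  `(℘(z+ω) - ℘ ω)(℘ z - ℘ ω) = ℘''(ω)/2` (Liouville: the product, suitably patched on
  `L ∪ (L - ω)`, is entire and `L`-periodic);  `deriv_derivWeierstrassP_half_ne_zero` : `℘''(ω) ≠ 0`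
  (the identity theorem on the connected set `ℂ ∖ L` + the pole of `℘`);
  `mul_shift_h₁/h₂/h₃` : the constant is `(e_i - e_j)(e_i - e_k)`;  `weierstrassP_ne_half`;
  `deriv_mul_shift`, `deriv_shift_mul_sq` : the derivative of (HP2);
* (HP1) `e_distinct`, `e_sum`, `g₂_eq`, `g₃_eq`, `cubic_eq`, `derivWeierstrassP_sq_eq_prod` :
  `℘'² = 4 (℘ - e₁)(℘ - e₂)(℘ - e₃)`;
* (HP3) `disc_eq` : `g₂³ - 27 g₃² = 16 ((e₁-e₂)(e₁-e₃)(e₂-e₃))²`, `disc_ne_zero`;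
* (HP4) `prod_deriv_shift`, `prod_deriv_shift'` : `℘'(t) ℘'(t+h₁) ℘'(t+h₂) ℘'(t+h₃) = g₂³ - 27 g₃²`
  for `2 t ∉ L`;  `derivWeierstrassP_ne_zero`;
* (HP5) `deriv_derivWeierstrassP_h₁/h₂/h₃` : `℘''(h_i) = 2 (e_i - e_j)(e_i - e_k)`,
  `disc_eq_neg_two_mul_prod` : `g₂³ - 27 g₃² = -2 ℘''(h₁) ℘''(h₂) ℘''(h₃)`.
-/
import Mathlib

set_option autoImplicit false

open Complex Filter Topology

namespace Fermat.Agent.MAZ.Analytic.HalfPeriod86

open PeriodPair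

variable (L : PeriodPair)

/-! ### (HP0) -/

theorem derivWeierstrassP_half {ω : ℂ} (h2 : ω + ω ∈ L.lattice) : ℘'[L] ω = 0 := by
  have h1 : ℘'[L] (-ω + ((⟨ω + ω, h2⟩ : L.lattice) : ℂ)) = ℘'[L] (-ω) :=
    L.derivWeierstrassP_add_coe _ _
  have h3 : (-ω + ((⟨ω + ω, h2⟩ : L.lattice) : ℂ)) = ω := by
    show -ω + (ω + ω) = ω
    ring
  rw [h3, L.derivWeierstrassP_neg] at h1
  linear_combination (1 / 2 : ℂ) * h1

theorem weierstrassP_add_of_mem (z : ℂ) {l : ℂ} (hl : l ∈ L.lattice) : ℘[L] (z + l) = ℘[L] z :=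
  L.weierstrassP_add_coe z ⟨l, hl⟩

theorem derivWeierstrassP_add_of_mem (z : ℂ) {l : ℂ} (hl : l ∈ L.lattice) :
    ℘'[L] (z + l) = ℘'[L] z :=
  L.derivWeierstrassP_add_coe z ⟨l, hl⟩

theorem add_mem_lattice_iff (z : ℂ) {l : ℂ} (hl : l ∈ L.lattice) :
    z + l ∈ L.lattice ↔ z ∈ L.lattice :=
  L.lattice.toAddSubgroup.add_mem_cancel_right hl

/-! ### The patched product -/

/-- The product `(℘(z+ω) - ℘ ω)(℘ z - ℘ ω)`, with the value `c` on the exceptional set. -/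
noncomputable def patched (ω c : ℂ) (z : ℂ) : ℂ := by
  classical
  exact if z ∈ L.lattice ∨ z + ω ∈ L.lattice then c
    else (℘[L] (z + ω) - ℘[L] ω) * (℘[L] z - ℘[L] ω)

theorem patched_of_mem {ω c z : ℂ} (h : z ∈ L.lattice ∨ z + ω ∈ L.lattice) :
    patched L ω c z = c := by
  classical
  unfold patched
  exact if_pos h

theorem patched_of_notMem {ω c z : ℂ} (h1 : z ∉ L.lattice) (h2 : z + ω ∉ L.lattice) :
    patched L ω c z = (℘[L] (z + ω) - ℘[L] ω) * (℘[L] z - ℘[L] ω) := by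
  classical
  unfold patched
  exact if_neg (by tauto)

theorem patched_add_of_mem (ω c z : ℂ) {l : ℂ} (hl : l ∈ L.lattice) :
    patched L ω c (z + l) = patched L ω c z := by
  classical
  have e1 : z + l + ω = (z + ω) + l := by ring
  by_cases h : z ∈ L.lattice ∨ z + ω ∈ L.lattice
  · rw [patched_of_mem L h, patched_of_mem L]
    rcases h with h | h
    · exact Or.inl ((add_mem_lattice_iff L z hl).mpr h)
    · right
      rw [e1]
      exact (add_mem_lattice_iff L _ hl).mpr h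
  · have h1 : z ∉ L.lattice := fun h' => h (Or.inl h')
    have h2 : z + ω ∉ L.lattice := fun h' => h (Or.inr h')
    rw [patched_of_notMem L h1 h2, patched_of_notMem L]
    · rw [e1, weierstrassP_add_of_mem L _ hl, weierstrassP_add_of_mem L _ hl]
    · exact fun h' => h1 ((add_mem_lattice_iff L z hl).mp h')
    · rw [e1]
      exact fun h' => h2 ((add_mem_lattice_iff L _ hl).mp h')

theorem patched_add_half (ω c z : ℂ) (hω2 : ω + ω ∈ L.lattice) :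
    patched L ω c (z + ω) = patched L ω c z := by
  classical
  have e1 : z + ω + ω = z + (ω + ω) := by ring
  by_cases h : z ∈ L.lattice ∨ z + ω ∈ L.lattice
  · rw [patched_of_mem L h, patched_of_mem L]
    rcases h with h | h
    · right
      rw [e1]
      exact (add_mem_lattice_iff L z hω2).mpr h
    · exact Or.inl h
  · have h1 : z ∉ L.lattice := fun h' => h (Or.inl h')
    have h2 : z + ω ∉ L.lattice := fun h' => h (Or.inr h')
    rw [patched_of_notMem L h1 h2, patched_of_notMem L h2]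
    · rw [e1, weierstrassP_add_of_mem L _ hω2]
      ring
    · rw [e1]
      exact fun h' => h1 ((add_mem_lattice_iff L z hω2).mp h')

/-- The shifted function `℘(z+ω) - ℘ ω` is analytic at `0` and vanishes there to order two. -/
theorem exists_factor {ω : ℂ} (hω : ω ∉ L.lattice) (hω2 : ω + ω ∈ L.lattice) :
    ∃ k : ℂ → ℂ, AnalyticAt ℂ k 0 ∧
      ∀ᶠ z in 𝓝 (0 : ℂ), ℘[L] (z + ω) - ℘[L] ω = z ^ 2 * k z := by
  have hP : AnalyticAt ℂ ℘[L] ((fun z : ℂ => z + ω) 0) := by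
    simpa using L.analyticOnNhd_weierstrassP ω hω
  have hcomp : AnalyticAt ℂ (fun z : ℂ => ℘[L] (z + ω)) 0 :=
    hP.comp (f := fun z : ℂ => z + ω) (by fun_prop)
  have hh : AnalyticAt ℂ (fun z : ℂ => ℘[L] (z + ω) - ℘[L] ω) 0 := hcomp.sub analyticAt_const
  have hord : ((2 : ℕ) : ℕ∞) ≤ analyticOrderAt (fun z : ℂ => ℘[L] (z + ω) - ℘[L] ω) 0 := by
    rw [natCast_le_analyticOrderAt_iff_iteratedDeriv_eq_zero hh]
    intro i hi
    interval_cases i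
    · simp
    · rw [iteratedDeriv_one, deriv_sub_const]
      rw [deriv_comp_add_const, L.deriv_weierstrassP, zero_add]
      exact derivWeierstrassP_half L hω2
  obtain ⟨k, hk, hev⟩ := (natCast_le_analyticOrderAt hh).mp hord
  refine ⟨k, hk, ?_⟩
  filter_upwards [hev] with z hz
  rw [hz]
  simp


theorem isOpen_shift_compl (ω : ℂ) : IsOpen {z : ℂ | z + ω ∉ L.lattice} := by
  have h1 : IsOpen ((L.lattice : Set ℂ)ᶜ) := L.isClosed_lattice.isOpen_compl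
  exact h1.preimage (by fun_prop : Continuous fun z : ℂ => z + ω)

/-- The patched product is analytic at `0` for the right value of `c`. -/
theorem analyticAt_patched_zero {ω : ℂ} (hω : ω ∉ L.lattice) {k : ℂ → ℂ} (hk : AnalyticAt ℂ k 0)
    (hev : ∀ᶠ z in 𝓝 (0 : ℂ), ℘[L] (z + ω) - ℘[L] ω = z ^ 2 * k z) :
    AnalyticAt ℂ (patched L ω (k 0)) 0 := by
  have hEx : AnalyticAt ℂ ℘[L - (0 : ℂ)] 0 := L.analyticAt_weierstrassPExcept 0
  have hg : AnalyticAt ℂ (fun z : ℂ => k z * (1 + z ^ 2 * (℘[L - (0 : ℂ)] z - ℘[L] ω))) 0 := by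
    fun_prop
  refine hg.congr ?_
  have hU2 : {z : ℂ | z + ω ∉ L.lattice} ∈ 𝓝 (0 : ℂ) :=
    (isOpen_shift_compl L ω).mem_nhds (by simpa using hω)
  filter_upwards [hev, L.compl_lattice_sdiff_singleton_mem_nhds 0, hU2] with z hz1 hz2 hz3
  by_cases hz0 : z = 0
  · subst hz0
    rw [patched_of_mem L (Or.inl (zero_mem _))]
    simp
  · have hzL : z ∉ L.lattice := by
      intro h
      exact hz2 ⟨h, hz0⟩
    rw [patched_of_notMem L hzL hz3, hz1]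
    have hdef := L.weierstrassPExcept_def (0 : L.lattice) z
    simp only [ZeroMemClass.coe_zero, sub_zero] at hdef
    rw [hdef]
    field_simp
    ring

theorem analyticAt_patched_of_mem {ω : ℂ} (hω : ω ∉ L.lattice)
    {k : ℂ → ℂ} (hk : AnalyticAt ℂ k 0)
    (hev : ∀ᶠ z in 𝓝 (0 : ℂ), ℘[L] (z + ω) - ℘[L] ω = z ^ 2 * k z) {x : ℂ}
    (hx : x ∈ L.lattice) : AnalyticAt ℂ (patched L ω (k 0)) x := by
  have h0 := analyticAt_patched_zero L hω hk hev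
  have h1 : AnalyticAt ℂ (patched L ω (k 0)) ((fun z : ℂ => z - x) x) := by simpa using h0
  have h2 := h1.comp (f := fun z : ℂ => z - x) (by fun_prop)
  refine h2.congr (Eventually.of_forall fun z => ?_)
  show patched L ω (k 0) (z - x) = patched L ω (k 0) z
  have := patched_add_of_mem L ω (k 0) (z - x) hx
  rw [sub_add_cancel] at this
  exact this.symm

theorem analyticAt_patched {ω : ℂ} (hω : ω ∉ L.lattice) (hω2 : ω + ω ∈ L.lattice)
    {k : ℂ → ℂ} (hk : AnalyticAt ℂ k 0)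
    (hev : ∀ᶠ z in 𝓝 (0 : ℂ), ℘[L] (z + ω) - ℘[L] ω = z ^ 2 * k z) (x : ℂ) :
    AnalyticAt ℂ (patched L ω (k 0)) x := by
  by_cases hx : x ∈ L.lattice
  · exact analyticAt_patched_of_mem L hω hk hev hx
  by_cases hx' : x + ω ∈ L.lattice
  · -- use the `ω`-periodicity
    have h1 : AnalyticAt ℂ (patched L ω (k 0)) ((fun z : ℂ => z + ω) x) :=
      analyticAt_patched_of_mem L hω hk hev hx'
    have h2 := h1.comp (f := fun z : ℂ => z + ω) (by fun_prop)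
    refine h2.congr (Eventually.of_forall fun z => ?_)
    show patched L ω (k 0) (z + ω) = patched L ω (k 0) z
    exact patched_add_half L ω (k 0) z hω2
  · -- a regular point
    have hP1 : AnalyticAt ℂ ℘[L] ((fun z : ℂ => z + ω) x) := L.analyticOnNhd_weierstrassP _ hx'
    have hc1 : AnalyticAt ℂ (fun z : ℂ => ℘[L] (z + ω)) x :=
      hP1.comp (f := fun z : ℂ => z + ω) (by fun_prop)
    have hP2 : AnalyticAt ℂ ℘[L] x := L.analyticOnNhd_weierstrassP _ hx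
    have hg : AnalyticAt ℂ (fun z : ℂ => (℘[L] (z + ω) - ℘[L] ω) * (℘[L] z - ℘[L] ω)) x := by
      fun_prop
    refine hg.congr ?_
    have hU1 : ((L.lattice : Set ℂ)ᶜ) ∈ 𝓝 x := L.isClosed_lattice.isOpen_compl.mem_nhds hx
    have hU2 : {z : ℂ | z + ω ∉ L.lattice} ∈ 𝓝 x := (isOpen_shift_compl L ω).mem_nhds hx'
    filter_upwards [hU1, hU2] with z hz1 hz2
    rw [patched_of_notMem L hz1 hz2]

/-- **Liouville**: the product `(℘(z+ω) - ℘ ω)(℘ z - ℘ ω)` is constant. -/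
theorem exists_mul_shift_eq {ω : ℂ} (hω : ω ∉ L.lattice) (hω2 : ω + ω ∈ L.lattice) :
    ∃ c : ℂ, ∀ z : ℂ, z ∉ L.lattice → z + ω ∉ L.lattice →
      (℘[L] (z + ω) - ℘[L] ω) * (℘[L] z - ℘[L] ω) = c := by
  obtain ⟨k, hk, hev⟩ := exists_factor L hω hω2
  refine ⟨k 0, fun z hz1 hz2 => ?_⟩
  have hdiff : Differentiable ℂ (patched L ω (k 0)) := fun x =>
    (analyticAt_patched L hω hω2 hk hev x).differentiableAt
  have hb := (IsZLattice.isCompact_range_of_periodic L.lattice _ hdiff.continuous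
    fun z w hw => patched_add_of_mem L ω (k 0) z hw).isBounded
  have h1 := hdiff.apply_eq_apply_of_bounded hb z 0
  rw [patched_of_notMem L hz1 hz2, patched_of_mem L (Or.inl (zero_mem _))] at h1
  exact h1


/-! ### `℘` is nowhere locally constant -/

theorem countable_lattice : (L.lattice : Set ℂ).Countable := by
  have : Countable L.lattice := Countable.of_equiv (ℤ × ℤ) L.latticeEquivProd.symm.toEquiv
  exact Set.countable_coe_iff.mp this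

theorem isPreconnected_compl_lattice : IsPreconnected ((L.lattice : Set ℂ)ᶜ) := by
  have h : 1 < Module.rank ℝ ℂ := by
    rw [Complex.rank_real_complex]
    norm_num
  exact ((countable_lattice L).isPathConnected_compl_of_one_lt_rank h).isConnected.isPreconnected

theorem not_eventually_weierstrassP_eq {x : ℂ} (hx : x ∉ L.lattice) (e : ℂ) :
    ¬ ∀ᶠ z in 𝓝 x, ℘[L] z = e := by
  classical
  intro hev
  have hEq : Set.EqOn ℘[L] (fun _ => e) ((L.lattice : Set ℂ)ᶜ) :=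
    L.analyticOnNhd_weierstrassP.eqOn_of_preconnected_of_eventuallyEq
      (fun _ _ => analyticAt_const) (isPreconnected_compl_lattice L) hx hev
  have hcongr : ℘[L] =ᶠ[𝓝[≠] (0 : ℂ)] fun _ => e := by
    have h1 : ∀ᶠ z in 𝓝[≠] (0 : ℂ), z ∈ ((L.lattice : Set ℂ) \ {0})ᶜ :=
      mem_nhdsWithin_of_mem_nhds (L.compl_lattice_sdiff_singleton_mem_nhds 0)
    filter_upwards [h1, self_mem_nhdsWithin] with z hz1 hz2
    refine hEq ?_
    intro hz
    exact hz1 ⟨hz, hz2⟩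
  have hord := meromorphicOrderAt_congr hcongr
  rw [L.order_weierstrassP 0 (zero_mem _), meromorphicOrderAt_const] at hord
  split_ifs at hord
  · exact absurd hord (by simp)
  · have h2 : ((-2 : ℤ) : WithTop ℤ) = ((0 : ℤ) : WithTop ℤ) := hord
    have h3 : (-2 : ℤ) = 0 := WithTop.coe_injective h2
    omega

/-! ### The constant is nonzero -/

theorem exists_regular_point (ω : ℂ) (hω : ω ∉ L.lattice) :
    ∃ z : ℂ, z ∉ L.lattice ∧ z + ω ∉ L.lattice := by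
  have hU2 : {z : ℂ | z + ω ∉ L.lattice} ∈ 𝓝 (0 : ℂ) :=
    (isOpen_shift_compl L ω).mem_nhds (by simpa using hω)
  have h1 : ∀ᶠ z in 𝓝[≠] (0 : ℂ), z ∈ ((L.lattice : Set ℂ) \ {0})ᶜ :=
    mem_nhdsWithin_of_mem_nhds (L.compl_lattice_sdiff_singleton_mem_nhds 0)
  have h2 : ∀ᶠ z in 𝓝[≠] (0 : ℂ), z + ω ∉ L.lattice := mem_nhdsWithin_of_mem_nhds hU2
  obtain ⟨z, ⟨hz1, hz2⟩, hz3⟩ := ((h1.and h2).and self_mem_nhdsWithin).exists
  exact ⟨z, fun hz => hz1 ⟨hz, hz3⟩, hz2⟩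

theorem const_ne_zero {ω : ℂ} (hω : ω ∉ L.lattice) {c : ℂ}
    (hc : ∀ z : ℂ, z ∉ L.lattice → z + ω ∉ L.lattice →
      (℘[L] (z + ω) - ℘[L] ω) * (℘[L] z - ℘[L] ω) = c) : c ≠ 0 := by
  rintro rfl
  obtain ⟨z₀, hz1, hz2⟩ := exists_regular_point L ω hω
  have hP1 : AnalyticAt ℂ ℘[L] ((fun z : ℂ => z + ω) z₀) := L.analyticOnNhd_weierstrassP _ hz2
  have hc1 : AnalyticAt ℂ (fun z : ℂ => ℘[L] (z + ω)) z₀ :=
    hP1.comp (f := fun z : ℂ => z + ω) (by fun_prop)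
  have hP2 : AnalyticAt ℂ ℘[L] z₀ := L.analyticOnNhd_weierstrassP _ hz1
  have hf1 : AnalyticAt ℂ (fun z : ℂ => ℘[L] (z + ω) - ℘[L] ω) z₀ := by fun_prop
  have hf2 : AnalyticAt ℂ (fun z : ℂ => ℘[L] z - ℘[L] ω) z₀ := by fun_prop
  have hne1 : ∀ᶠ z in 𝓝[≠] z₀, ℘[L] (z + ω) - ℘[L] ω ≠ 0 := by
    rcases hf1.eventually_eq_zero_or_eventually_ne_zero with h | h
    · exfalso
      refine not_eventually_weierstrassP_eq L hz2 (℘[L] ω) ?_
      have ht : Tendsto (fun w : ℂ => w - ω) (𝓝 (z₀ + ω)) (𝓝 z₀) := by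
        have : Tendsto (fun w : ℂ => w - ω) (𝓝 (z₀ + ω)) (𝓝 (z₀ + ω - ω)) :=
          (by fun_prop : Continuous fun w : ℂ => w - ω).tendsto _
        simpa using this
      filter_upwards [ht.eventually h] with w hw
      rw [sub_add_cancel] at hw
      exact sub_eq_zero.mp hw
    · exact h
  have hne2 : ∀ᶠ z in 𝓝[≠] z₀, ℘[L] z - ℘[L] ω ≠ 0 := by
    rcases hf2.eventually_eq_zero_or_eventually_ne_zero with h | h
    · exfalso
      refine not_eventually_weierstrassP_eq L hz1 (℘[L] ω) ?_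
      filter_upwards [h] with w hw
      exact sub_eq_zero.mp hw
    · exact h
  have hV1 : ∀ᶠ z in 𝓝[≠] z₀, z ∉ L.lattice :=
    mem_nhdsWithin_of_mem_nhds (L.isClosed_lattice.isOpen_compl.mem_nhds hz1)
  have hV2 : ∀ᶠ z in 𝓝[≠] z₀, z + ω ∉ L.lattice :=
    mem_nhdsWithin_of_mem_nhds ((isOpen_shift_compl L ω).mem_nhds hz2)
  obtain ⟨z, ⟨⟨h1, h2⟩, h3⟩, h4⟩ := (((hne1.and hne2).and hV1).and hV2).exists
  exact mul_ne_zero h1 h2 (hc z h3 h4)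


/-! ### The value of the constant: `℘''(ω) / 2` -/

theorem deriv_shift (ω : ℂ) :
    deriv (fun z : ℂ => ℘[L] (z + ω) - ℘[L] ω) = fun z => ℘'[L] (z + ω) := by
  funext z
  rw [deriv_sub_const, deriv_comp_add_const, L.deriv_weierstrassP]

theorem factor_value {ω : ℂ} {k : ℂ → ℂ} (hk : AnalyticAt ℂ k 0)
    (hev : ∀ᶠ z in 𝓝 (0 : ℂ), ℘[L] (z + ω) - ℘[L] ω = z ^ 2 * k z) :
    k 0 = deriv ℘'[L] ω / 2 := by
  have hev' : (fun z : ℂ => ℘[L] (z + ω) - ℘[L] ω) =ᶠ[𝓝 (0 : ℂ)] fun z => z ^ 2 * k z := hev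
  have h1 : deriv (deriv fun z : ℂ => ℘[L] (z + ω) - ℘[L] ω) 0 =
      deriv (deriv fun z : ℂ => z ^ 2 * k z) 0 := hev'.deriv.deriv_eq
  rw [deriv_shift, deriv_comp_add_const, zero_add] at h1
  -- the first derivative of `z² k`
  have h2 : deriv (fun z : ℂ => z ^ 2 * k z) =ᶠ[𝓝 (0 : ℂ)]
      fun z => 2 * z * k z + z ^ 2 * deriv k z := by
    filter_upwards [hk.eventually_analyticAt] with z hz
    have hd : HasDerivAt (fun z : ℂ => z ^ 2 * k z) (2 * z ^ (2 - 1) * k z + z ^ 2 * deriv k z) z :=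
      (hasDerivAt_pow 2 z).mul hz.differentiableAt.hasDerivAt
    rw [hd.deriv]
    norm_num
  rw [h2.deriv_eq] at h1
  -- the second derivative at `0`
  have hk' : DifferentiableAt ℂ (deriv k) 0 := hk.deriv.differentiableAt
  have hd1 : HasDerivAt (fun z : ℂ => 2 * z * k z) (2 * 1 * k 0 + 2 * 0 * deriv k 0) 0 :=
    ((hasDerivAt_id (0 : ℂ)).const_mul 2).mul hk.differentiableAt.hasDerivAt
  have hd2 : HasDerivAt (fun z : ℂ => z ^ 2 * deriv k z)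
      (2 * (0 : ℂ) ^ (2 - 1) * deriv k 0 + (0 : ℂ) ^ 2 * deriv (deriv k) 0) 0 :=
    (hasDerivAt_pow 2 (0 : ℂ)).mul hk'.hasDerivAt
  have hd := (hd1.add hd2).deriv
  have h3 : deriv (fun z : ℂ => 2 * z * k z + z ^ 2 * deriv k z) 0 = 2 * k 0 := by
    rw [show (fun z : ℂ => 2 * z * k z + z ^ 2 * deriv k z) =
      ((fun z : ℂ => 2 * z * k z) + fun z : ℂ => z ^ 2 * deriv k z) from rfl, hd]
    norm_num
  rw [h3] at h1
  rw [h1]
  ring

/-- **(HP2)** with the explicit constant `℘''(ω) / 2`. -/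
theorem mul_shift_eq {ω : ℂ} (hω : ω ∉ L.lattice) (hω2 : ω + ω ∈ L.lattice) (z : ℂ)
    (hz1 : z ∉ L.lattice) (hz2 : z + ω ∉ L.lattice) :
    (℘[L] (z + ω) - ℘[L] ω) * (℘[L] z - ℘[L] ω) = deriv ℘'[L] ω / 2 := by
  obtain ⟨k, hk, hev⟩ := exists_factor L hω hω2
  have hdiff : Differentiable ℂ (patched L ω (k 0)) := fun x =>
    (analyticAt_patched L hω hω2 hk hev x).differentiableAt
  have hb := (IsZLattice.isCompact_range_of_periodic L.lattice _ hdiff.continuous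
    fun z w hw => patched_add_of_mem L ω (k 0) z hw).isBounded
  have h1 := hdiff.apply_eq_apply_of_bounded hb z 0
  rw [patched_of_notMem L hz1 hz2, patched_of_mem L (Or.inl (zero_mem _))] at h1
  rw [h1, factor_value L hk hev]

theorem deriv_derivWeierstrassP_half_ne_zero {ω : ℂ} (hω : ω ∉ L.lattice)
    (hω2 : ω + ω ∈ L.lattice) : deriv ℘'[L] ω ≠ 0 := by
  have h := const_ne_zero L hω (fun z hz1 hz2 => mul_shift_eq L hω hω2 z hz1 hz2)
  intro h0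
  rw [h0] at h
  simp at h

/-- `℘ z ≠ ℘ ω` away from the exceptional set. -/
theorem weierstrassP_ne_half {ω : ℂ} (hω : ω ∉ L.lattice) (hω2 : ω + ω ∈ L.lattice) (z : ℂ)
    (hz1 : z ∉ L.lattice) (hz2 : z + ω ∉ L.lattice) : ℘[L] z ≠ ℘[L] ω := by
  intro h
  have h1 := mul_shift_eq L hω hω2 z hz1 hz2
  rw [h, sub_self, mul_zero] at h1
  exact deriv_derivWeierstrassP_half_ne_zero L hω hω2 (by
    have := h1.symm
    simpa using this)

/-- The derivative of (HP2). -/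
theorem deriv_mul_shift {ω : ℂ} (hω : ω ∉ L.lattice) (hω2 : ω + ω ∈ L.lattice) (z : ℂ)
    (hz1 : z ∉ L.lattice) (hz2 : z + ω ∉ L.lattice) :
    ℘'[L] (z + ω) * (℘[L] z - ℘[L] ω) + (℘[L] (z + ω) - ℘[L] ω) * ℘'[L] z = 0 := by
  have hP1 : AnalyticAt ℂ ℘[L] (z + ω) := L.analyticOnNhd_weierstrassP _ hz2
  have hP2 : AnalyticAt ℂ ℘[L] z := L.analyticOnNhd_weierstrassP _ hz1
  have hd1 : HasDerivAt (fun w : ℂ => ℘[L] (w + ω) - ℘[L] ω) (℘'[L] (z + ω)) z := by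
    have h := hP1.differentiableAt.hasDerivAt
    rw [L.deriv_weierstrassP] at h
    exact (h.comp_add_const z ω).sub_const _
  have hd2 : HasDerivAt (fun w : ℂ => ℘[L] w - ℘[L] ω) (℘'[L] z) z := by
    have h := hP2.differentiableAt.hasDerivAt
    rw [L.deriv_weierstrassP] at h
    exact h.sub_const _
  have hd := (hd1.mul hd2).deriv
  have hconst : (fun w : ℂ => (℘[L] (w + ω) - ℘[L] ω) * (℘[L] w - ℘[L] ω)) =ᶠ[𝓝 z]
      fun _ => deriv ℘'[L] ω / 2 := by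
    have hV1 : ∀ᶠ w in 𝓝 z, w ∉ L.lattice := L.isClosed_lattice.isOpen_compl.mem_nhds hz1
    have hV2 : ∀ᶠ w in 𝓝 z, w + ω ∉ L.lattice := (isOpen_shift_compl L ω).mem_nhds hz2
    filter_upwards [hV1, hV2] with w hw1 hw2
    exact mul_shift_eq L hω hω2 w hw1 hw2
  have h0 : deriv (fun w : ℂ => (℘[L] (w + ω) - ℘[L] ω) * (℘[L] w - ℘[L] ω)) z = 0 := by
    rw [hconst.deriv_eq, deriv_const]
  rw [← h0]
  exact hd.symm


/-! ### The three half periods -/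

/-- The half period `ω₁ / 2`. -/
noncomputable def h₁ : ℂ := L.ω₁ / 2
/-- The half period `ω₂ / 2`. -/
noncomputable def h₂ : ℂ := L.ω₂ / 2
/-- The half period `(ω₁ + ω₂) / 2`. -/
noncomputable def h₃ : ℂ := (L.ω₁ + L.ω₂) / 2

/-- `e₁ = ℘(ω₁/2)`. -/
noncomputable def e₁ : ℂ := ℘[L] (h₁ L)
/-- `e₂ = ℘(ω₂/2)`. -/
noncomputable def e₂ : ℂ := ℘[L] (h₂ L)
/-- `e₃ = ℘((ω₁+ω₂)/2)`. -/
noncomputable def e₃ : ℂ := ℘[L] (h₃ L)

theorem h₁_notMem : h₁ L ∉ L.lattice := L.ω₁_div_two_notMem_lattice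
theorem h₂_notMem : h₂ L ∉ L.lattice := L.ω₂_div_two_notMem_lattice
theorem h₃_notMem : h₃ L ∉ L.lattice := by
  have h := (PeriodPair.mul_ω₁_add_mul_ω₂_mem_lattice (L := L) (α := 1 / 2) (β := 1 / 2)).not.mpr
    (by norm_num)
  intro hmem
  apply h
  have e : ((1 / 2 : ℚ) : ℂ) * L.ω₁ + ((1 / 2 : ℚ) : ℂ) * L.ω₂ = h₃ L := by
    unfold h₃
    push_cast
    ring
  rw [e]
  exact hmem

theorem h₁_add_self : h₁ L + h₁ L ∈ L.lattice := by
  have : h₁ L + h₁ L = L.ω₁ := by unfold h₁; ring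
  rw [this]; exact L.ω₁_mem_lattice
theorem h₂_add_self : h₂ L + h₂ L ∈ L.lattice := by
  have : h₂ L + h₂ L = L.ω₂ := by unfold h₂; ring
  rw [this]; exact L.ω₂_mem_lattice
theorem h₃_add_self : h₃ L + h₃ L ∈ L.lattice := by
  have : h₃ L + h₃ L = L.ω₁ + L.ω₂ := by unfold h₃; ring
  rw [this]; exact add_mem L.ω₁_mem_lattice L.ω₂_mem_lattice

/-- The value of (HP2) at another half period. -/
theorem key {ω ω' ω'' : ℂ} (hω : ω ∉ L.lattice) (hω' : ω' ∉ L.lattice) (hω'' : ω'' ∉ L.lattice)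
    (hω2 : ω + ω ∈ L.lattice) {l : ℂ} (hl : l ∈ L.lattice) (hsum : ω' + ω = ω'' + l) :
    (℘[L] ω'' - ℘[L] ω) * (℘[L] ω' - ℘[L] ω) = deriv ℘'[L] ω / 2 := by
  have h2 : ω' + ω ∉ L.lattice := by
    rw [hsum]
    exact fun h => hω'' ((add_mem_lattice_iff L _ hl).mp h)
  have h := mul_shift_eq L hω hω2 ω' hω' h2
  rwa [hsum, weierstrassP_add_of_mem L _ hl] at h

theorem key₁ : (e₃ L - e₁ L) * (e₂ L - e₁ L) = deriv ℘'[L] (h₁ L) / 2 :=
  key L (h₁_notMem L) (h₂_notMem L) (h₃_notMem L) (h₁_add_self L) (zero_mem _)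
    (by unfold h₁ h₂ h₃; ring)

theorem key₂ : (e₃ L - e₂ L) * (e₁ L - e₂ L) = deriv ℘'[L] (h₂ L) / 2 :=
  key L (h₂_notMem L) (h₁_notMem L) (h₃_notMem L) (h₂_add_self L) (zero_mem _)
    (by unfold h₁ h₂ h₃; ring)

theorem key₃ : (e₂ L - e₃ L) * (e₁ L - e₃ L) = deriv ℘'[L] (h₃ L) / 2 :=
  key L (h₃_notMem L) (h₁_notMem L) (h₂_notMem L) (h₃_add_self L) L.ω₁_mem_lattice
    (by unfold h₁ h₂ h₃; ring)

/-- **(HP1), distinctness.** -/
theorem e_distinct : e₁ L ≠ e₂ L ∧ e₁ L ≠ e₃ L ∧ e₂ L ≠ e₃ L := by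
  have c1 := deriv_derivWeierstrassP_half_ne_zero L (h₁_notMem L) (h₁_add_self L)
  have c2 := deriv_derivWeierstrassP_half_ne_zero L (h₂_notMem L) (h₂_add_self L)
  have k1 := key₁ L
  have k2 := key₂ L
  refine ⟨?_, ?_, ?_⟩
  · intro h
    rw [h, sub_self, mul_zero] at k1
    exact c1 (by have := k1.symm; simpa using this)
  · intro h
    rw [h, sub_self, zero_mul] at k1
    exact c1 (by have := k1.symm; simpa using this)
  · intro h
    rw [h, sub_self, zero_mul] at k2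
    exact c2 (by have := k2.symm; simpa using this)

/-- The `e_i` are roots of the cubic. -/
theorem cubic_root {ω : ℂ} (hω : ω ∉ L.lattice) (hω2 : ω + ω ∈ L.lattice) :
    4 * ℘[L] ω ^ 3 - L.g₂ * ℘[L] ω - L.g₃ = 0 := by
  have h := L.derivWeierstrassP_sq ω hω
  rw [derivWeierstrassP_half L hω2] at h
  rw [← h]
  ring

theorem e_sum : e₁ L + e₂ L + e₃ L = 0 := by
  obtain ⟨h12, h13, h23⟩ := e_distinct L
  have p1 : 4 * e₁ L ^ 3 - L.g₂ * e₁ L - L.g₃ = 0 := cubic_root L (h₁_notMem L) (h₁_add_self L)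
  have p2 : 4 * e₂ L ^ 3 - L.g₂ * e₂ L - L.g₃ = 0 := cubic_root L (h₂_notMem L) (h₂_add_self L)
  have p3 : 4 * e₃ L ^ 3 - L.g₂ * e₃ L - L.g₃ = 0 := cubic_root L (h₃_notMem L) (h₃_add_self L)
  have hA : (e₁ L - e₂ L) * (4 * (e₁ L ^ 2 + e₁ L * e₂ L + e₂ L ^ 2) - L.g₂) = 0 := by
    linear_combination p1 - p2
  have hB : (e₁ L - e₃ L) * (4 * (e₁ L ^ 2 + e₁ L * e₃ L + e₃ L ^ 2) - L.g₂) = 0 := by
    linear_combination p1 - p3
  have hA' := (mul_eq_zero.mp hA).resolve_left (sub_ne_zero.mpr h12)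
  have hB' := (mul_eq_zero.mp hB).resolve_left (sub_ne_zero.mpr h13)
  have hC : (e₂ L - e₃ L) * (4 * (e₁ L + e₂ L + e₃ L)) = 0 := by
    linear_combination hA' - hB'
  have hC' := (mul_eq_zero.mp hC).resolve_left (sub_ne_zero.mpr h23)
  linear_combination (1 / 4 : ℂ) * hC'

theorem g₂_eq : L.g₂ = -4 * (e₁ L * e₂ L + e₁ L * e₃ L + e₂ L * e₃ L) := by
  obtain ⟨h12, h13, h23⟩ := e_distinct L
  have p1 : 4 * e₁ L ^ 3 - L.g₂ * e₁ L - L.g₃ = 0 := cubic_root L (h₁_notMem L) (h₁_add_self L)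
  have p2 : 4 * e₂ L ^ 3 - L.g₂ * e₂ L - L.g₃ = 0 := cubic_root L (h₂_notMem L) (h₂_add_self L)
  have hA : (e₁ L - e₂ L) * (4 * (e₁ L ^ 2 + e₁ L * e₂ L + e₂ L ^ 2) - L.g₂) = 0 := by
    linear_combination p1 - p2
  have hA' := (mul_eq_zero.mp hA).resolve_left (sub_ne_zero.mpr h12)
  have hs := e_sum L
  have he3 : e₃ L = -e₁ L - e₂ L := by linear_combination hs
  rw [he3]
  linear_combination -hA'

theorem g₃_eq : L.g₃ = 4 * (e₁ L * e₂ L * e₃ L) := by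
  have p1 : 4 * e₁ L ^ 3 - L.g₂ * e₁ L - L.g₃ = 0 := cubic_root L (h₁_notMem L) (h₁_add_self L)
  have hg := g₂_eq L
  have hs := e_sum L
  have he3 : e₃ L = -e₁ L - e₂ L := by linear_combination hs
  rw [he3] at hg ⊢
  rw [hg] at p1
  linear_combination -p1

/-- The cubic factors. -/
theorem cubic_eq (x : ℂ) :
    4 * x ^ 3 - L.g₂ * x - L.g₃ = 4 * (x - e₁ L) * (x - e₂ L) * (x - e₃ L) := by
  rw [g₂_eq L, g₃_eq L]
  linear_combination (4 * x ^ 2) * e_sum L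

/-- **(HP1)** `℘'² = 4 (℘ - e₁)(℘ - e₂)(℘ - e₃)`. -/
theorem derivWeierstrassP_sq_eq_prod (z : ℂ) (hz : z ∉ L.lattice) :
    ℘'[L] z ^ 2 = 4 * (℘[L] z - e₁ L) * (℘[L] z - e₂ L) * (℘[L] z - e₃ L) := by
  rw [L.derivWeierstrassP_sq z hz, cubic_eq]

/-- **(HP3)** the discriminant. -/
theorem disc_eq :
    L.g₂ ^ 3 - 27 * L.g₃ ^ 2 =
      16 * ((e₁ L - e₂ L) * (e₁ L - e₃ L) * (e₂ L - e₃ L)) ^ 2 := by
  have hs := e_sum L
  have he3 : e₃ L = -e₁ L - e₂ L := by linear_combination hs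
  rw [g₂_eq L, g₃_eq L, he3]
  ring

theorem disc_ne_zero : L.g₂ ^ 3 - 27 * L.g₃ ^ 2 ≠ 0 := by
  obtain ⟨h12, h13, h23⟩ := e_distinct L
  rw [disc_eq]
  have := mul_ne_zero (mul_ne_zero (sub_ne_zero.mpr h12) (sub_ne_zero.mpr h13))
    (sub_ne_zero.mpr h23)
  exact mul_ne_zero (by norm_num) (pow_ne_zero 2 this)

/-- **(HP5)** the second derivative at the half periods. -/
theorem deriv_derivWeierstrassP_h₁ :
    deriv ℘'[L] (h₁ L) = 2 * (e₁ L - e₂ L) * (e₁ L - e₃ L) := by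
  linear_combination (-2 : ℂ) * key₁ L

theorem deriv_derivWeierstrassP_h₂ :
    deriv ℘'[L] (h₂ L) = 2 * (e₂ L - e₁ L) * (e₂ L - e₃ L) := by
  linear_combination (-2 : ℂ) * key₂ L

theorem deriv_derivWeierstrassP_h₃ :
    deriv ℘'[L] (h₃ L) = 2 * (e₃ L - e₁ L) * (e₃ L - e₂ L) := by
  linear_combination (-2 : ℂ) * key₃ L

theorem disc_eq_neg_two_mul_prod :
    L.g₂ ^ 3 - 27 * L.g₃ ^ 2 =
      -2 * (deriv ℘'[L] (h₁ L) * deriv ℘'[L] (h₂ L) * deriv ℘'[L] (h₃ L)) := by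
  rw [disc_eq, deriv_derivWeierstrassP_h₁, deriv_derivWeierstrassP_h₂,
    deriv_derivWeierstrassP_h₃]
  ring

/-- **(HP2)** at the three half periods. -/
theorem mul_shift_h₁ (z : ℂ) (hz1 : z ∉ L.lattice) (hz2 : z + h₁ L ∉ L.lattice) :
    (℘[L] (z + h₁ L) - e₁ L) * (℘[L] z - e₁ L) = (e₁ L - e₂ L) * (e₁ L - e₃ L) := by
  have h := mul_shift_eq L (h₁_notMem L) (h₁_add_self L) z hz1 hz2
  rw [deriv_derivWeierstrassP_h₁] at h
  have h' : (℘[L] (z + h₁ L) - e₁ L) * (℘[L] z - e₁ L) =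
      2 * (e₁ L - e₂ L) * (e₁ L - e₃ L) / 2 := h
  rw [h']
  ring

theorem mul_shift_h₂ (z : ℂ) (hz1 : z ∉ L.lattice) (hz2 : z + h₂ L ∉ L.lattice) :
    (℘[L] (z + h₂ L) - e₂ L) * (℘[L] z - e₂ L) = (e₂ L - e₁ L) * (e₂ L - e₃ L) := by
  have h := mul_shift_eq L (h₂_notMem L) (h₂_add_self L) z hz1 hz2
  rw [deriv_derivWeierstrassP_h₂] at h
  have h' : (℘[L] (z + h₂ L) - e₂ L) * (℘[L] z - e₂ L) =
      2 * (e₂ L - e₁ L) * (e₂ L - e₃ L) / 2 := h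
  rw [h']
  ring

theorem mul_shift_h₃ (z : ℂ) (hz1 : z ∉ L.lattice) (hz2 : z + h₃ L ∉ L.lattice) :
    (℘[L] (z + h₃ L) - e₃ L) * (℘[L] z - e₃ L) = (e₃ L - e₁ L) * (e₃ L - e₂ L) := by
  have h := mul_shift_eq L (h₃_notMem L) (h₃_add_self L) z hz1 hz2
  rw [deriv_derivWeierstrassP_h₃] at h
  have h' : (℘[L] (z + h₃ L) - e₃ L) * (℘[L] z - e₃ L) =
      2 * (e₃ L - e₁ L) * (e₃ L - e₂ L) / 2 := h
  rw [h']
  ring


/-! ### (HP4) -/

/-- The derivative relation `℘'(t+ω) (℘ t - ℘ ω)² = - (℘''(ω)/2) ℘'(t)`. -/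
theorem deriv_shift_mul_sq {ω : ℂ} (hω : ω ∉ L.lattice) (hω2 : ω + ω ∈ L.lattice) (t : ℂ)
    (ht1 : t ∉ L.lattice) (ht2 : t + ω ∉ L.lattice) :
    ℘'[L] (t + ω) * (℘[L] t - ℘[L] ω) ^ 2 = -(deriv ℘'[L] ω / 2) * ℘'[L] t := by
  have h1 := deriv_mul_shift L hω hω2 t ht1 ht2
  have h2 := mul_shift_eq L hω hω2 t ht1 ht2
  linear_combination (℘[L] t - ℘[L] ω) * h1 - ℘'[L] t * h2

/-- **(HP4)** `℘'(t) ℘'(t+h₁) ℘'(t+h₂) ℘'(t+h₃) = g₂³ - 27 g₃²` away from the half lattice. -/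
theorem prod_deriv_shift (t : ℂ) (ht : t ∉ L.lattice) (ht1 : t + h₁ L ∉ L.lattice)
    (ht2 : t + h₂ L ∉ L.lattice) (ht3 : t + h₃ L ∉ L.lattice) :
    ℘'[L] t * ℘'[L] (t + h₁ L) * ℘'[L] (t + h₂ L) * ℘'[L] (t + h₃ L) =
      L.g₂ ^ 3 - 27 * L.g₃ ^ 2 := by
  have r1 : ℘'[L] (t + h₁ L) * (℘[L] t - e₁ L) ^ 2 = -(deriv ℘'[L] (h₁ L) / 2) * ℘'[L] t :=
    deriv_shift_mul_sq L (h₁_notMem L) (h₁_add_self L) t ht ht1
  have r2 : ℘'[L] (t + h₂ L) * (℘[L] t - e₂ L) ^ 2 = -(deriv ℘'[L] (h₂ L) / 2) * ℘'[L] t :=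
    deriv_shift_mul_sq L (h₂_notMem L) (h₂_add_self L) t ht ht2
  have r3 : ℘'[L] (t + h₃ L) * (℘[L] t - e₃ L) ^ 2 = -(deriv ℘'[L] (h₃ L) / 2) * ℘'[L] t :=
    deriv_shift_mul_sq L (h₃_notMem L) (h₃_add_self L) t ht ht3
  have a1 : ℘[L] t - e₁ L ≠ 0 :=
    sub_ne_zero.mpr (weierstrassP_ne_half L (h₁_notMem L) (h₁_add_self L) t ht ht1)
  have a2 : ℘[L] t - e₂ L ≠ 0 :=
    sub_ne_zero.mpr (weierstrassP_ne_half L (h₂_notMem L) (h₂_add_self L) t ht ht2)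
  have a3 : ℘[L] t - e₃ L ≠ 0 :=
    sub_ne_zero.mpr (weierstrassP_ne_half L (h₃_notMem L) (h₃_add_self L) t ht ht3)
  have hsq := derivWeierstrassP_sq_eq_prod L t ht
  have hP : ℘'[L] t ≠ 0 := by
    intro h0
    rw [h0] at hsq
    have : (4 : ℂ) * (℘[L] t - e₁ L) * (℘[L] t - e₂ L) * (℘[L] t - e₃ L) ≠ 0 :=
      mul_ne_zero (mul_ne_zero (mul_ne_zero (by norm_num) a1) a2) a3
    exact this (by rw [← hsq]; ring)
  have e1 : ℘'[L] t ^ 4 =
      16 * ((℘[L] t - e₁ L) ^ 2 * (℘[L] t - e₂ L) ^ 2 * (℘[L] t - e₃ L) ^ 2) := by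
    calc ℘'[L] t ^ 4 = (℘'[L] t ^ 2) ^ 2 := by ring
      _ = (4 * (℘[L] t - e₁ L) * (℘[L] t - e₂ L) * (℘[L] t - e₃ L)) ^ 2 := by rw [hsq]
      _ = _ := by ring
  have e2 : ℘'[L] t ^ 4 * (℘'[L] t * ℘'[L] (t + h₁ L) * ℘'[L] (t + h₂ L) * ℘'[L] (t + h₃ L)) =
      16 * ℘'[L] t * (℘'[L] (t + h₁ L) * (℘[L] t - e₁ L) ^ 2) *
        (℘'[L] (t + h₂ L) * (℘[L] t - e₂ L) ^ 2) * (℘'[L] (t + h₃ L) * (℘[L] t - e₃ L) ^ 2) := by
    rw [e1]
    ring
  rw [r1, r2, r3] at e2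
  refine mul_left_cancel₀ (pow_ne_zero 4 hP) ?_
  rw [e2, disc_eq_neg_two_mul_prod]
  ring

theorem notMem_of_two_mul_notMem {t : ℂ} (ht : (2 : ℂ) * t ∉ L.lattice) : t ∉ L.lattice := by
  intro h
  apply ht
  rw [two_mul]
  exact add_mem h h

theorem add_notMem_of_two_mul_notMem {t ω : ℂ} (hω2 : ω + ω ∈ L.lattice)
    (ht : (2 : ℂ) * t ∉ L.lattice) : t + ω ∉ L.lattice := by
  intro h
  apply ht
  have h1 : (t + ω) + (t + ω) ∈ L.lattice := add_mem h h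
  have h2 : (2 : ℂ) * t = (t + ω) + (t + ω) - (ω + ω) := by ring
  rw [h2]
  exact sub_mem h1 hω2

/-- **(HP4)**, for `t ∉ ½ L`. -/
theorem prod_deriv_shift' (t : ℂ) (ht : (2 : ℂ) * t ∉ L.lattice) :
    ℘'[L] t * ℘'[L] (t + h₁ L) * ℘'[L] (t + h₂ L) * ℘'[L] (t + h₃ L) =
      L.g₂ ^ 3 - 27 * L.g₃ ^ 2 :=
  prod_deriv_shift L t (notMem_of_two_mul_notMem L ht)
    (add_notMem_of_two_mul_notMem L (h₁_add_self L) ht)
    (add_notMem_of_two_mul_notMem L (h₂_add_self L) ht)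
    (add_notMem_of_two_mul_notMem L (h₃_add_self L) ht)

/-- `℘'(t) ≠ 0` for `t ∉ ½ L`. -/
theorem derivWeierstrassP_ne_zero (t : ℂ) (ht : (2 : ℂ) * t ∉ L.lattice) : ℘'[L] t ≠ 0 := by
  intro h0
  have h := prod_deriv_shift' L t ht
  rw [h0] at h
  exact disc_ne_zero L (by rw [← h]; ring)

end Fermat.Agent.MAZ.Analytic.HalfPeriod86
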