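/-
Program MAZ (S15), chapter Analytic, helper42: brick MODEQ-AN, part 2 = PRODUCT FORM.

For every witness `Φ ∈ ℤ[Y][X]` (monic of `X`-degree `p + 1`) of the two (P0) identities and every
`τ` in the upper half plane,
  `Φ(X, j(τ)) = (X - j(pτ)) ∏_{a<p} (X - j((τ+a)/p))`   in `ℂ[X]`.

Proof: the `p + 1` values are roots (`ModEqAn42`); they are pairwise distinct for `Im τ` large
(`q j = jDisc(q) → 1`); there the two monic polynomials coincide; identity theorem on `ℍ`.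
-/
import Fermat.Agent.MAZ.Analytic.ModEqAn42
import Fermat.Agent.X0.JQExp
import Fermat.Agent.X0.HolOrder

set_option autoImplicit false
set_option linter.unusedSectionVars false

open Polynomial UpperHalfPlane ModularCurve Filter Topology
open scoped MatrixGroups Manifold

noncomputable section

namespace Fermat.Agent.MAZ.Analytic.ModEqProd42

open Fermat.Agent.X0 Fermat.Agent.X0.JQExp Fermat.Agent.IG.PR.Interface20
  Fermat.Agent.MAZ.Analytic.ModEqAn42

local notation "𝕢" => Function.Periodic.qParam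

variable {p : ℕ} [NeZero p]

/-! ### Holomorphy of the roots -/

theorem jFun_mem_HolH : jFun ∈ HolH := jFun_mdifferentiable

theorem jdFun_mem_HolH : jdFun p ∈ HolH := by
  rw [← realize_uX]
  exact realize_mem_HolH p (uX p)

/-- `τ ↦ j((τ + a)/p)`. -/
def jsFun (p : ℕ) [NeZero p] (a : ℕ) : ℍ → ℂ := fun τ => jFun (shiftH p a τ)

theorem jsFun_mem_HolH (a : ℕ) : jsFun p a ∈ HolH := by
  rw [mem_HolH, UpperHalfPlane.mdifferentiable_iff]
  have hp : (0 : ℝ) < p := by exact_mod_cast Nat.pos_of_ne_zero (NeZero.ne p)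
  have hj : DifferentiableOn ℂ (jFun ∘ ofComplex) upperHalfPlaneSet :=
    UpperHalfPlane.mdifferentiable_iff.mp jFun_mdifferentiable
  have hmap : DifferentiableOn ℂ (fun w : ℂ => (w + a) / p) upperHalfPlaneSet := by
    intro w _
    exact ((differentiableAt_id.add_const (a : ℂ)).div_const (p : ℂ)).differentiableWithinAt
  have him : ∀ w : ℂ, ((w + a) / p).im = w.im / p := by
    intro w
    have : (w + a) / p = (w + a) * ((p : ℝ)⁻¹ : ℝ) := by
      push_cast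
      rw [div_eq_mul_inv]
    rw [this, Complex.im_mul_ofReal]
    simp [div_eq_mul_inv]
  have hmaps : Set.MapsTo (fun w : ℂ => (w + a) / p) upperHalfPlaneSet upperHalfPlaneSet := by
    intro w hw
    show 0 < ((w + a) / p).im
    rw [him]
    exact div_pos hw hp
  refine (hj.comp hmap hmaps).congr ?_
  intro w hw
  have hw' : 0 < ((w + a) / p).im := hmaps hw
  simp only [Function.comp, jsFun]
  congr 1
  apply UpperHalfPlane.ext
  rw [coe_shiftH, ofComplex_apply_of_im_pos hw, ofComplex_apply_of_im_pos hw']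

/-! ### `q`-parameters of the `p + 1` points -/

/-- `r(τ) = exp(2πiτ/p)`. -/
def rP (p : ℕ) (τ : ℍ) : ℂ := 𝕢 (p : ℝ) (τ : ℂ)

/-- `ζ = exp(2πi/p)`. -/
def zetaP (p : ℕ) : ℂ := Complex.exp (2 * Real.pi * Complex.I / p)

theorem rP_ne_zero (τ : ℍ) : rP p τ ≠ 0 := Function.Periodic.qParam_ne_zero _

theorem zetaP_ne_zero : zetaP p ≠ 0 := Complex.exp_ne_zero _

theorem isPrimitiveRoot_zetaP : IsPrimitiveRoot (zetaP p) p :=
  Complex.isPrimitiveRoot_exp p (NeZero.ne p)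

theorem tendsto_rP : Tendsto (rP p) atImInfty (𝓝 0) := by
  have hp : (0 : ℝ) < p := by exact_mod_cast Nat.pos_of_ne_zero (NeZero.ne p)
  exact UpperHalfPlane.qParam_tendsto_atImInfty hp

theorem qParam_shiftH (a : ℕ) (τ : ℍ) :
    𝕢 1 (shiftH p a τ : ℂ) = zetaP p ^ a * rP p τ := by
  have hp : (p : ℂ) ≠ 0 := by exact_mod_cast NeZero.ne p
  rw [rP, zetaP, Function.Periodic.qParam, Function.Periodic.qParam, coe_shiftH, ← Complex.exp_nat_mul,
    ← Complex.exp_add]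
  congr 1
  push_cast
  field_simp
  ring

theorem qParam_scaleH (τ : ℍ) : 𝕢 1 (scaleH p τ : ℂ) = rP p τ ^ (p ^ 2) := by
  have hp : (p : ℂ) ≠ 0 := by exact_mod_cast NeZero.ne p
  rw [rP, Function.Periodic.qParam, Function.Periodic.qParam, coe_scaleH, ← Complex.exp_nat_mul]
  congr 1
  push_cast
  field_simp

/-- `q j = jDisc(q)`. -/
theorem qParam_mul_jFun (τ : ℍ) : 𝕢 1 (τ : ℂ) * jFun τ = jDisc (𝕢 1 (τ : ℂ)) := by
  rw [jDisc_qParam, jFun]

theorem continuousAt_jDisc_zero : ContinuousAt jDisc 0 :=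
  (differentiableOn_jDisc.continuousOn).continuousAt (Metric.ball_mem_nhds 0 one_pos)

/-- The normalised root `r · j((τ+a)/p) = ζ^{-a} jDisc(ζ^a r)`. -/
theorem rP_mul_jsFun (a : ℕ) (τ : ℍ) :
    rP p τ * jsFun p a τ = (zetaP p ^ a)⁻¹ * jDisc (zetaP p ^ a * rP p τ) := by
  have hz : zetaP p ^ a ≠ 0 := pow_ne_zero _ zetaP_ne_zero
  rw [← qParam_shiftH, ← qParam_mul_jFun, qParam_shiftH, jsFun]
  field_simp

theorem tendsto_rP_mul_jsFun (a : ℕ) :
    Tendsto (fun τ => rP p τ * jsFun p a τ) atImInfty (𝓝 (zetaP p ^ a)⁻¹) := by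
  have h1 : Tendsto (fun τ => zetaP p ^ a * rP p τ) atImInfty (𝓝 0) := by
    simpa using (tendsto_rP (p := p)).const_mul (zetaP p ^ a)
  have h2 : Tendsto (fun τ => jDisc (zetaP p ^ a * rP p τ)) atImInfty (𝓝 1) := by
    have := continuousAt_jDisc_zero.tendsto.comp h1
    rwa [jDisc_zero] at this
  have h3 := h2.const_mul (zetaP p ^ a)⁻¹
  rw [mul_one] at h3
  refine h3.congr fun τ => ?_
  rw [rP_mul_jsFun]

theorem rP_pow_mul_jdFun (τ : ℍ) :
    rP p τ ^ (p ^ 2) * jdFun p τ = jDisc (rP p τ ^ (p ^ 2)) := by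
  rw [← qParam_scaleH, jdFun, qParam_mul_jFun]

theorem tendsto_rP_pow_mul_jdFun :
    Tendsto (fun τ => rP p τ ^ (p ^ 2) * jdFun p τ) atImInfty (𝓝 1) := by
  have h0 : p ^ 2 ≠ 0 := pow_ne_zero _ (NeZero.ne p)
  have h1 : Tendsto (fun τ => rP p τ ^ (p ^ 2)) atImInfty (𝓝 0) := by
    have := (tendsto_rP (p := p)).pow (p ^ 2)
    rwa [zero_pow h0] at this
  have h2 := continuousAt_jDisc_zero.tendsto.comp h1
  rw [jDisc_zero] at h2
  refine h2.congr fun τ => ?_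
  rw [Function.comp, rP_pow_mul_jdFun]

/-! ### Distinctness of the roots near the cusp -/

theorem eventually_jsFun_ne {a b : ℕ} (ha : a < p) (hb : b < p) (hab : a ≠ b) :
    ∀ᶠ τ in atImInfty, jsFun p a τ ≠ jsFun p b τ := by
  have hne : (zetaP p ^ a)⁻¹ ≠ (zetaP p ^ b)⁻¹ := by
    intro h
    exact hab (isPrimitiveRoot_zetaP.pow_inj ha hb (inv_injective h))
  have h := ((tendsto_rP_mul_jsFun (p := p) a).sub (tendsto_rP_mul_jsFun (p := p) b)).eventually_ne
    (sub_ne_zero.mpr hne)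
  refine h.mono fun τ hτ heq => hτ ?_
  simp only [heq, sub_self]

theorem eventually_jdFun_ne (hp2 : 2 ≤ p) (a : ℕ) :
    ∀ᶠ τ in atImInfty, jdFun p τ ≠ jsFun p a τ := by
  have hk : p ^ 2 - 1 ≠ 0 := by
    have : 4 ≤ p ^ 2 := by nlinarith
    omega
  have h1 : Tendsto (fun τ => rP p τ ^ (p ^ 2 - 1)) atImInfty (𝓝 0) := by
    have := (tendsto_rP (p := p)).pow (p ^ 2 - 1)
    rwa [zero_pow hk] at this
  have h2 := h1.mul (tendsto_rP_mul_jsFun (p := p) a)
  rw [zero_mul] at h2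
  have h3 := ((tendsto_rP_pow_mul_jdFun (p := p)).sub h2).eventually_ne
    (by rw [sub_zero]; exact one_ne_zero)
  refine h3.mono fun τ hτ heq => hτ ?_
  have hpow : rP p τ ^ (p ^ 2) = rP p τ ^ (p ^ 2 - 1) * rP p τ := by
    rw [← pow_succ]
    congr 1
    have : 1 ≤ p ^ 2 := Nat.one_le_iff_ne_zero.mpr (pow_ne_zero _ (NeZero.ne p))
    omega
  rw [heq, hpow]
  ring

/-! ### The product polynomial -/

/-- The `p + 1` roots, indexed by `Option (Fin p)`. -/
def rootFn (p : ℕ) [NeZero p] (τ : ℍ) : Option (Fin p) → ℂ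
  | none => jdFun p τ
  | some a => jsFun p (a : ℕ) τ

/-- `(X - j(pτ)) ∏_{a<p} (X - j((τ+a)/p))`. -/
def prodPoly (p : ℕ) [NeZero p] (τ : ℍ) : ℂ[X] :=
  (X - C (jFun (scaleH p τ))) * ∏ a ∈ Finset.range p, (X - C (jFun (shiftH p a τ)))

theorem prodPoly_eq_prod (τ : ℍ) : prodPoly p τ = ∏ i : Option (Fin p), (X - C (rootFn p τ i)) := by
  rw [Fintype.prod_option, prodPoly, Finset.prod_range]
  rfl

theorem prodPoly_monic (τ : ℍ) : (prodPoly p τ).Monic := by
  rw [prodPoly_eq_prod]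
  exact monic_prod_of_monic _ _ fun i _ => monic_X_sub_C _

theorem prodPoly_natDegree (τ : ℍ) : (prodPoly p τ).natDegree = p + 1 := by
  rw [prodPoly_eq_prod, natDegree_prod_of_monic _ _ fun i _ => monic_X_sub_C _]
  simp

theorem eventually_rootFn_injective (hp2 : 2 ≤ p) :
    ∀ᶠ τ in atImInfty, Function.Injective (rootFn p τ) := by
  have h1 : ∀ᶠ τ in atImInfty, ∀ a : Fin p, jdFun p τ ≠ jsFun p (a : ℕ) τ :=
    eventually_all.mpr fun a => eventually_jdFun_ne hp2 a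
  have h2 : ∀ᶠ τ in atImInfty, ∀ a : Fin p, ∀ b : Fin p, a ≠ b →
      jsFun p (a : ℕ) τ ≠ jsFun p (b : ℕ) τ := by
    refine eventually_all.mpr fun a => eventually_all.mpr fun b => ?_
    by_cases hab : a = b
    · exact Eventually.of_forall fun τ h => absurd hab h
    · have hab' : (a : ℕ) ≠ (b : ℕ) := fun h => hab (Fin.ext h)
      exact (eventually_jsFun_ne a.2 b.2 hab').mono fun τ hτ _ => hτ
  filter_upwards [h1, h2] with τ hτ1 hτ2
  intro i j hij
  rcases i with _ | a <;> rcases j with _ | b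
  · rfl
  · exact absurd hij (hτ1 b)
  · exact absurd hij.symm (hτ1 a)
  · by_contra hne
    exact hτ2 a b (fun h => hne (by rw [h])) hij

variable (Φ : Polynomial (Polynomial ℤ))

/-- `Φ(X, j(τ)) ∈ ℂ[X]`. -/
def specPoly (τ : ℍ) : ℂ[X] := Φ.map (evY (jFun τ))

theorem specPoly_monic (hm : Φ.Monic) (τ : ℍ) : (specPoly Φ τ).Monic := hm.map _

theorem specPoly_natDegree (hm : Φ.Monic) (hd : Φ.natDegree = p + 1) (τ : ℍ) :
    (specPoly Φ τ).natDegree = p + 1 := by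
  rw [specPoly, hm.natDegree_map, hd]

theorem rootFn_isRoot
    (h1 : Φ.eval₂ (evalAt ℤ (jqModC ℤ)) (qExpand ℤ p (jqModC ℤ)) = 0)
    (h2 : Φ.eval₂ (evalAt ℤ (qExpand ℤ p (jqModC ℤ))) (jqModC ℤ) = 0) (τ : ℍ)
    (i : Option (Fin p)) : (specPoly Φ τ).IsRoot (rootFn p τ i) := by
  rw [IsRoot.def, specPoly, eval_map]
  rcases i with _ | a
  · exact eval_scale_self Φ h1 τ
  · exact eval_shift_self Φ h2 (a : ℕ) τ

/-- Where the roots are distinct the two polynomials coincide. -/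
theorem specPoly_eq_prodPoly_of_injective (hm : Φ.Monic) (hd : Φ.natDegree = p + 1)
    (h1 : Φ.eval₂ (evalAt ℤ (jqModC ℤ)) (qExpand ℤ p (jqModC ℤ)) = 0)
    (h2 : Φ.eval₂ (evalAt ℤ (qExpand ℤ p (jqModC ℤ))) (jqModC ℤ) = 0) (τ : ℍ)
    (hinj : Function.Injective (rootFn p τ)) : specPoly Φ τ = prodPoly p τ := by
  have hdvd : prodPoly p τ ∣ specPoly Φ τ := by
    rw [prodPoly_eq_prod]
    exact Fintype.prod_dvd_of_coprime (pairwise_coprime_X_sub_C hinj)
      fun i => dvd_iff_isRoot.mpr (rootFn_isRoot Φ h1 h2 τ i)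
  exact eq_of_monic_of_dvd_of_natDegree_le (prodPoly_monic τ) (specPoly_monic Φ hm τ) hdvd
    (by rw [specPoly_natDegree Φ hm hd, prodPoly_natDegree])

/-! ### The difference of the two sides at a fixed `x`, as a holomorphic function -/

/-- `j` as an element of `HolH`. -/
def jH : HolH := ⟨jFun, jFun_mem_HolH⟩

/-- `τ ↦ Φ(x, j(τ)) - (x - j(pτ)) ∏ (x - j((τ+a)/p))` as an element of `HolH`. -/
def diffH (p : ℕ) [NeZero p] (x : ℂ) : HolH :=
  Φ.eval₂ (evY jH) (algebraMap ℂ HolH x) -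
    (algebraMap ℂ HolH x - ⟨jdFun p, jdFun_mem_HolH⟩) *
      ∏ a ∈ Finset.range p, (algebraMap ℂ HolH x - ⟨jsFun p a, jsFun_mem_HolH a⟩)

/-- evaluation `HolH → ℂ` at a point. -/
def evH (τ : ℍ) : HolH →+* ℂ := (evPt τ).comp HolH.val.toRingHom

theorem evH_apply (τ : ℍ) (f : HolH) : evH τ f = (f : ℍ → ℂ) τ := rfl

theorem diffH_apply (x : ℂ) (τ : ℍ) :
    ((diffH Φ p x : HolH) : ℍ → ℂ) τ = (specPoly Φ τ).eval x - (prodPoly p τ).eval x := by
  rw [← evH_apply, diffH, map_sub, map_mul, map_sub, map_prod, map_ev, specPoly, eval_map, prodPoly,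
    eval_mul, eval_sub, eval_X, eval_C, eval_prod]
  congr 1
  congr 1
  refine Finset.prod_congr rfl fun a _ => ?_
  rw [map_sub, eval_sub, eval_X, eval_C]
  rfl

/-- **The modular equation in product form**, for every `τ`. -/
theorem modEq_prod (hp2 : 2 ≤ p) (hm : Φ.Monic) (hd : Φ.natDegree = p + 1)
    (h1 : Φ.eval₂ (evalAt ℤ (jqModC ℤ)) (qExpand ℤ p (jqModC ℤ)) = 0)
    (h2 : Φ.eval₂ (evalAt ℤ (qExpand ℤ p (jqModC ℤ))) (jqModC ℤ) = 0) (τ : ℍ) :
    Φ.map (evY (jFun τ)) =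
      (X - C (jFun (scaleH p τ))) * ∏ a ∈ Finset.range p, (X - C (jFun (shiftH p a τ))) := by
  obtain ⟨A, hA⟩ := (UpperHalfPlane.atImInfty_mem _).mp (eventually_rootFn_injective (p := p) hp2)
  -- a base point in the region of distinct roots
  have hBpos : 0 < max A 0 + 1 := by positivity
  have hAB : A < max A 0 + 1 := lt_of_le_of_lt (le_max_left A 0) (lt_add_one _)
  let z₀ : ℍ := ⟨⟨0, max A 0 + 1⟩, hBpos⟩
  have key : ∀ x : ℂ, ((diffH Φ p x : HolH) : ℍ → ℂ) = 0 := by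
    intro x
    apply eq_zero_of_ordH_eq_top (diffH Φ p x).2 z₀
    rw [ordH, analyticOrderAt_eq_top]
    have hopen : IsOpen {w : ℂ | max A 0 < w.im} :=
      isOpen_lt continuous_const Complex.continuous_im
    have hmem : (z₀ : ℂ) ∈ {w : ℂ | max A 0 < w.im} := by
      show max A 0 < max A 0 + 1
      exact lt_add_one _
    filter_upwards [hopen.mem_nhds hmem] with w hw
    have hw0 : 0 < w.im := lt_of_le_of_lt (le_max_right A 0) hw
    have hwA : A ≤ w.im := le_of_lt (lt_of_le_of_lt (le_max_left A 0) hw)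
    rw [Function.comp, ofComplex_apply_of_im_pos hw0, diffH_apply,
      specPoly_eq_prodPoly_of_injective Φ hm hd h1 h2 _ (hA ⟨w, hw0⟩ hwA), sub_self]
  have h : specPoly Φ τ = prodPoly p τ := by
    apply Polynomial.funext
    intro x
    have := congrFun (key x) τ
    rw [diffH_apply] at this
    exact sub_eq_zero.mp this
  exact h

/-- The multiset of roots of `Φ(X, j(τ))`. -/
theorem roots_map (hp2 : 2 ≤ p) (hm : Φ.Monic) (hd : Φ.natDegree = p + 1)
    (h1 : Φ.eval₂ (evalAt ℤ (jqModC ℤ)) (qExpand ℤ p (jqModC ℤ)) = 0)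
    (h2 : Φ.eval₂ (evalAt ℤ (qExpand ℤ p (jqModC ℤ))) (jqModC ℤ) = 0) (τ : ℍ) :
    (Φ.map (evY (jFun τ))).roots =
      jFun (scaleH p τ) ::ₘ (Multiset.range p).map (fun a => jFun (shiftH p a τ)) := by
  have h : Φ.map (evY (jFun τ)) =
      ((jFun (scaleH p τ) ::ₘ (Multiset.range p).map (fun a => jFun (shiftH p a τ))).map
        fun z => X - C z).prod := by
    rw [modEq_prod Φ hp2 hm hd h1 h2 τ, Multiset.map_cons, Multiset.prod_cons, Multiset.map_map,
      Finset.prod_eq_multiset_prod, Finset.range_val]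
    rfl
  rw [h, roots_multiset_prod_X_sub_C]

/-- Every root of `Φ(X, j(τ))` is `j` of one of the `p + 1` points `pτ`, `(τ + a)/p`. -/
theorem eq_of_isRoot (hp2 : 2 ≤ p) (hm : Φ.Monic) (hd : Φ.natDegree = p + 1)
    (h1 : Φ.eval₂ (evalAt ℤ (jqModC ℤ)) (qExpand ℤ p (jqModC ℤ)) = 0)
    (h2 : Φ.eval₂ (evalAt ℤ (qExpand ℤ p (jqModC ℤ))) (jqModC ℤ) = 0) (τ : ℍ) (y : ℂ)
    (hy : Φ.eval₂ (evY (jFun τ)) y = 0) :
    y = jFun (scaleH p τ) ∨ ∃ a, a < p ∧ y = jFun (shiftH p a τ) := by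
  have h := congrArg (Polynomial.eval y) (modEq_prod Φ hp2 hm hd h1 h2 τ)
  rw [eval_map, hy, eval_mul, eval_sub, eval_X, eval_C, eval_prod] at h
  rcases mul_eq_zero.mp h.symm with h0 | h0
  · exact Or.inl (sub_eq_zero.mp h0)
  · obtain ⟨a, ha, ha0⟩ := Finset.prod_eq_zero_iff.mp h0
    rw [eval_sub, eval_X, eval_C] at ha0
    exact Or.inr ⟨a, Finset.mem_range.mp ha, sub_eq_zero.mp ha0⟩

/-- Every solution `(y, c)` of `Φ(y, c) = 0` over `ℂ` comes from a pair of lattices: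
`c = j(τ)` and `y = j(pτ)` or `y = j((τ + a)/p)`. -/
theorem exists_of_eval_eq_zero (hp2 : 2 ≤ p) (hm : Φ.Monic) (hd : Φ.natDegree = p + 1)
    (h1 : Φ.eval₂ (evalAt ℤ (jqModC ℤ)) (qExpand ℤ p (jqModC ℤ)) = 0)
    (h2 : Φ.eval₂ (evalAt ℤ (qExpand ℤ p (jqModC ℤ))) (jqModC ℤ) = 0) (c y : ℂ)
    (hy : Φ.eval₂ (evY c) y = 0) :
    ∃ τ : ℍ, jFun τ = c ∧ (y = jFun (scaleH p τ) ∨ ∃ a, a < p ∧ y = jFun (shiftH p a τ)) := by
  obtain ⟨τ, rfl⟩ := jFun_surjective c
  exact ⟨τ, rfl, eq_of_isRoot Φ hp2 hm hd h1 h2 τ y hy⟩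

end Fermat.Agent.MAZ.Analytic.ModEqProd42
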