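import Fermat.Agent.MAZ.Analytic.QuotIsogMain32
import Fermat.Agent.MAZ.Analytic.DeltaIdentity80

set_option autoImplicit false

open scoped PeriodPair

namespace Fermat.Agent.MAZ.Analytic.QuotDelta32

open Fermat.Agent.MAZ.Analytic.Unif32 Fermat.Agent.MAZ.Analytic.QuotIsog32
open Fermat.Agent.MAZ.Analytic.QuotIsogMain32 Fermat.Agent.MAZ.Analytic.GlobalDefs42
open WeierstrassCurve

variable {W : WeierstrassCurve ℂ} {L : PeriodPair} {p : ℕ}

/-- The discriminant of a uniformised curve is the lattice discriminant. -/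
theorem Δ_eq_of_isUnif (h : IsUnif W L) : W.Δ = L.g₂ ^ 3 - 27 * L.g₃ ^ 2 := by
  rw [h.g₂, h.g₃]
  have hc := W.c_relation
  linear_combination hc / 1728

/-- **The discriminant of Vélu's quotient curve** (given a uniformising lattice). -/
theorem veluCurve_Δ_mul_of_isUnif (h : IsUnif W L) (hp : p.Prime) (hp2 : p ≠ 2)
    (Q₀ : W.toAffine.Point) (hQ : addOrderOf Q₀ = p) {t w : ℂ}
    (ht : 2 * t = ∑ k ∈ Finset.Ico 1 p, tOf W.toAffine (k • Q₀))
    (hw : 2 * w = ∑ k ∈ Finset.Ico 1 p, wPoly W (xOf W.toAffine (k • Q₀))) :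
    (veluCurve W t w).Δ * (∏ k ∈ Finset.Ico 1 p, psi2 W.toAffine (k • Q₀)) ^ 4 = W.Δ ^ p := by
  obtain ⟨z0, rfl⟩ := pt_surjective h Q₀
  have h1 : (p : ℂ) * z0 ∈ L.lattice := mul_mem_of_addOrderOf h hQ
  have h0 : z0 ∉ L.lattice := by
    have := mul_notMem_of_addOrderOf h hQ (k := 1) one_pos hp.one_lt
    simpa using this
  obtain ⟨L', hL'⟩ := SuperLattice32.exists_superlattice L p hp z0 h1 h0
  have hk : ∀ k ∈ Finset.Ico 1 p, (k : ℂ) * z0 ∉ L.lattice := by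
    intro k hk
    have hk' := Finset.mem_Ico.mp hk
    exact SubLattice27.natCast_mul_notMem hp h1 h0 (by omega) hk'.2
  have ht' : 2 * t = ∑ k ∈ Finset.Ico 1 p, tPoly W (xC W L ((k : ℂ) * z0)) := by
    rw [ht]
    refine Finset.sum_congr rfl fun k hkm => ?_
    rw [nsmul_pt, tOf_nsmul_pt h (hk k hkm)]
  have hw' : 2 * w = ∑ k ∈ Finset.Ico 1 p, wPoly W (xC W L ((k : ℂ) * z0)) := by
    rw [hw]
    refine Finset.sum_congr rfl fun k hkm => ?_
    rw [nsmul_pt, xOf_pt h (hk k hkm)]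
  have h' : IsUnif (veluCurve W t w) L' := isUnif_velu hp h1 h0 hL' h ht' hw'
  have hD := DeltaIdentity80.delta_identity L L' hp hp2 z0 h1 h0 hL'
  rw [Δ_eq_of_isUnif h', Δ_eq_of_isUnif h, ← hD]
  congr 2
  refine Finset.prod_congr rfl fun k _ => ?_
  rw [nsmul_pt, psi2_pt]

/-- **The discriminant of Vélu's quotient curve over `ℂ`.** -/
theorem veluCurve_Δ_mul (W : WeierstrassCurve ℂ) (hΔ : W.Δ ≠ 0) (hp : p.Prime) (hp2 : p ≠ 2)
    (Q₀ : W.toAffine.Point) (hQ : addOrderOf Q₀ = p) {t w : ℂ}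
    (ht : 2 * t = ∑ k ∈ Finset.Ico 1 p, tOf W.toAffine (k • Q₀))
    (hw : 2 * w = ∑ k ∈ Finset.Ico 1 p, wPoly W (xOf W.toAffine (k • Q₀))) :
    (veluCurve W t w).Δ * (∏ k ∈ Finset.Ico 1 p, psi2 W.toAffine (k • Q₀)) ^ 4 = W.Δ ^ p := by
  obtain ⟨L, h⟩ := exists_isUnif W hΔ
  exact veluCurve_Δ_mul_of_isUnif h hp hp2 Q₀ hQ ht hw

end Fermat.Agent.MAZ.Analytic.QuotDelta32
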