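/-
Programme MAZ (S15 / S12), analytic side (helper27): `g₃` OF A SUPERLATTICE OF PRIME INDEX.

* `iteratedDeriv_three_derivWeierstrassP` : `℘'''' = 120 ℘³ - 18 g₂ ℘ - 12 g₃` off the lattice;
* `sumInvPow_six` : `∑ (l - x)⁻⁶ = ℘(x)³ - (3/20) g₂ ℘(x) - g₃ / 10` for `x ∉ L`;
* `g₃_superlattice` : `L'.g₃ = L.g₃ + ∑ k ∈ Ico 1 p, (140 ℘³ - 21 g₂ ℘ - 14 g₃)(k z0)`.

Together with `SubLattice27.g₂_superlattice` these are Vélu's formulas for `c₄`, `c₆` of the
quotient curve.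
-/
import Mathlib
import Fermat.Agent.MAZ.Analytic.SubLattice27

set_option autoImplicit false

open Filter Topology
open scoped PeriodPair

namespace Fermat.Agent.MAZ.Analytic.SubLatticeG3_27

open Fermat.Agent.MAZ.Analytic.Elliptic32 Fermat.Agent.MAZ.Analytic.SubLattice27

variable {L L' : PeriodPair} {p : ℕ} {z0 : ℂ}

/-- `℘''` near a point off the lattice. -/
theorem deriv_derivWeierstrassP_eventuallyEq {x : ℂ} (hx : x ∉ L.lattice) :
    deriv ℘'[L] =ᶠ[𝓝 x] fun z => 6 * ℘[L] z ^ 2 - L.g₂ / 2 := by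
  filter_upwards [(isOpen_compl_lattice L).mem_nhds hx] with z hz
  exact wp2_eq L hz

/-- `℘''' = 12 ℘ ℘'` off the lattice. -/
theorem deriv_deriv_derivWeierstrassP {x : ℂ} (hx : x ∉ L.lattice) :
    deriv (deriv ℘'[L]) x = 12 * ℘[L] x * ℘'[L] x := by
  rw [(deriv_derivWeierstrassP_eventuallyEq hx).deriv_eq]
  have h1 : HasDerivAt (fun z => 6 * ℘[L] z ^ 2 - L.g₂ / 2)
      (6 * (2 * ℘[L] x ^ 1 * ℘'[L] x)) x := by
    have h2 := (hasDerivAt_weierstrassP L hx).fun_pow 2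
    have h3 := (h2.const_mul 6).sub_const (L.g₂ / 2)
    simpa using h3
  rw [h1.deriv]
  ring

theorem deriv_deriv_derivWeierstrassP_eventuallyEq {x : ℂ} (hx : x ∉ L.lattice) :
    deriv (deriv ℘'[L]) =ᶠ[𝓝 x] fun z => 12 * ℘[L] z * ℘'[L] z := by
  filter_upwards [(isOpen_compl_lattice L).mem_nhds hx] with z hz
  exact deriv_deriv_derivWeierstrassP hz

/-- `℘'''' = 120 ℘³ - 18 g₂ ℘ - 12 g₃` off the lattice. -/
theorem iteratedDeriv_three_derivWeierstrassP {x : ℂ} (hx : x ∉ L.lattice) :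
    iteratedDeriv 3 ℘'[L] x = 120 * ℘[L] x ^ 3 - 18 * L.g₂ * ℘[L] x - 12 * L.g₃ := by
  have h0 : iteratedDeriv 3 ℘'[L] x = deriv (deriv (deriv ℘'[L])) x := by
    simp [iteratedDeriv_succ, iteratedDeriv_zero]
  rw [h0, (deriv_deriv_derivWeierstrassP_eventuallyEq hx).deriv_eq]
  have h1 : HasDerivAt (fun z => 12 * ℘[L] z * ℘'[L] z)
      (12 * ℘'[L] x * ℘'[L] x + 12 * ℘[L] x * wp2 L x) x := by
    have h2 := ((hasDerivAt_weierstrassP L hx).const_mul 12).fun_mul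
      (hasDerivAt_derivWeierstrassP L hx)
    exact h2
  rw [h1.deriv, wp2_eq L hx]
  have hode := L.derivWeierstrassP_sq x hx
  linear_combination 12 * hode

/-- `∑ (l - x)⁻⁶ = ℘(x)³ - (3/20) g₂ ℘(x) - g₃ / 10` for `x ∉ L`. -/
theorem sumInvPow_six {x : ℂ} (hx : x ∉ L.lattice) :
    L.sumInvPow x 6 = ℘[L] x ^ 3 - 3 / 20 * L.g₂ * ℘[L] x - L.g₃ / 10 := by
  have h2 : iteratedDeriv 3 ℘'[L] x = 120 * L.sumInvPow x 6 := by
    have := L.iteratedDeriv_derivWeierstrassPExcept_self x (n := 3)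
    rw [L.derivWeierstrassPExcept_of_notMem x hx] at this
    rw [this]
    norm_num [Nat.factorial]
  have h3 := iteratedDeriv_three_derivWeierstrassP hx
  rw [h2] at h3
  linear_combination h3 / 120

section Formulas

variable (hp : p.Prime) (h1 : (p : ℂ) * z0 ∈ L.lattice) (h0 : z0 ∉ L.lattice)
  (hL' : L'.lattice = L.lattice ⊔ Submodule.span ℤ {z0})

include hp h1 h0 hL' in
/-- **`G₆` of the superlattice.** -/
theorem G_six_superlattice :
    L'.G 6 = L.G 6 + ∑ k ∈ Finset.Ico 1 p,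
      (℘[L] ((k : ℂ) * z0) ^ 3 - 3 / 20 * L.g₂ * ℘[L] ((k : ℂ) * z0) - L.g₃ / 10) := by
  have hS : HasSum (fun l' : L'.lattice => ((l' : ℂ) ^ 6)⁻¹) (L'.G 6) := by
    have := L'.hasSum_sumInvPow 0 (r := 6) (by norm_num)
    simpa using this
  have hreg := regroup hp h1 h0 hL' (fun w => (w ^ 6)⁻¹)
    (T := fun k => L.sumInvPow ((k : ℂ) * z0) 6) hS ?_
  · rw [hreg, Finset.range_eq_Ico, Finset.sum_eq_sum_Ico_succ_bot hp.pos]
    congr 1
    · simp
    · refine Finset.sum_congr rfl fun k hk => ?_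
      have hk' := Finset.mem_Ico.mp hk
      exact sumInvPow_six (natCast_mul_notMem hp h1 h0 (by omega) hk'.2)
  · intro k _
    exact L.hasSum_sumInvPow ((k : ℂ) * z0) (r := 6) (by norm_num)

include hp h1 h0 hL' in
/-- **`g₃` of the superlattice.** -/
theorem g₃_superlattice :
    L'.g₃ = L.g₃ + ∑ k ∈ Finset.Ico 1 p,
      (140 * ℘[L] ((k : ℂ) * z0) ^ 3 - 21 * L.g₂ * ℘[L] ((k : ℂ) * z0) - 14 * L.g₃) := by
  have h := G_six_superlattice hp h1 h0 hL'
  have e1 : L'.g₃ = 140 * L'.G 6 := rfl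
  have e2 : L.G 6 = L.g₃ / 140 := by
    have : L.g₃ = 140 * L.G 6 := rfl
    rw [this]
    ring
  rw [e1, h, e2, mul_add, Finset.mul_sum]
  congr 1
  · ring
  · refine Finset.sum_congr rfl fun k _ => ?_
    ring

end Formulas

end Fermat.Agent.MAZ.Analytic.SubLatticeG3_27
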