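import Fermat.Agent.MAZ.Analytic.Unif32
import Fermat.Agent.MAZ.Analytic.SuperLattice32
import Fermat.Agent.MAZ.Analytic.SubLatticeG3_27
import Fermat.Agent.MAZ.Analytic.HalfPeriod76
import Fermat.Agent.MAZ.Analytic.GlobalDefs42

set_option autoImplicit false

open scoped PeriodPair

namespace Fermat.Agent.MAZ.Analytic.QuotIsog32

open Fermat.Agent.MAZ.Analytic.Elliptic32 Fermat.Agent.MAZ.Analytic.Unif32
open Fermat.Agent.MAZ.Analytic.SubLattice27 Fermat.Agent.MAZ.Analytic.SubLatticeG3_27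
open WeierstrassCurve

/-- Vélu's quotient curve with parameters `t = ∑_{R ∈ S} t(R)`, `w = ∑_{R ∈ S} (u(R) + x(R) t(R))`
(`S` a system of representatives of `(N ∖ 0)/±`). -/
def veluCurve {K : Type*} [CommRing K] (W : WeierstrassCurve K) (t w : K) : WeierstrassCurve K :=
  ⟨W.a₁, W.a₂, W.a₃, W.a₄ - 5 * t, W.a₆ - W.b₂ * t - 7 * w⟩

section velu_alg

variable {K : Type*} [CommRing K] (W : WeierstrassCurve K) (t w : K)

@[simp] theorem veluCurve_a₁ : (veluCurve W t w).a₁ = W.a₁ := rfl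
@[simp] theorem veluCurve_a₂ : (veluCurve W t w).a₂ = W.a₂ := rfl
@[simp] theorem veluCurve_a₃ : (veluCurve W t w).a₃ = W.a₃ := rfl
@[simp] theorem veluCurve_a₄ : (veluCurve W t w).a₄ = W.a₄ - 5 * t := rfl
@[simp] theorem veluCurve_a₆ : (veluCurve W t w).a₆ = W.a₆ - W.b₂ * t - 7 * w := rfl

theorem veluCurve_b₂ : (veluCurve W t w).b₂ = W.b₂ := by
  simp [WeierstrassCurve.b₂]

theorem veluCurve_b₄ : (veluCurve W t w).b₄ = W.b₄ - 10 * t := by
  simp only [WeierstrassCurve.b₄, veluCurve_a₁, veluCurve_a₃, veluCurve_a₄]; ring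

theorem veluCurve_b₆ : (veluCurve W t w).b₆ = W.b₆ - 4 * W.b₂ * t - 28 * w := by
  simp only [WeierstrassCurve.b₆, veluCurve_a₃, veluCurve_a₆]; ring

theorem veluCurve_c₄ : (veluCurve W t w).c₄ = W.c₄ + 240 * t := by
  simp only [WeierstrassCurve.c₄, veluCurve_b₂, veluCurve_b₄]; ring

theorem veluCurve_c₆ : (veluCurve W t w).c₆ = W.c₆ + 504 * W.b₂ * t + 6048 * w := by
  simp only [WeierstrassCurve.c₆, veluCurve_b₂, veluCurve_b₄, veluCurve_b₆]; ring

end velu_alg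


open Fermat.Agent.MAZ.Analytic.GlobalDefs42

/-- Vélu's `w`-summand `u(R) + x(R) t(R) = 10x³ + 2b₂x² + 3b₄x + b₆` as a function of `x`. -/
def wPoly {K : Type*} [CommRing K] (W : WeierstrassCurve K) (x : K) : K :=
  10 * x ^ 3 + 2 * W.b₂ * x ^ 2 + 3 * W.b₄ * x + W.b₆

/-- Vélu's `t`-summand `6x² + b₂x + b₄` as a function of `x`. -/
def tPoly {K : Type*} [CommRing K] (W : WeierstrassCurve K) (x : K) : K :=
  6 * x ^ 2 + W.b₂ * x + W.b₄

section analytic

variable {W : WeierstrassCurve ℂ} {L L' : PeriodPair} {p : ℕ} {z0 : ℂ}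

theorem xOf_pt (h : IsUnif W L) {z : ℂ} (hz : z ∉ L.lattice) :
    xOf W.toAffine (pt h z) = xC W L z := by
  rw [pt_of_notMem h hz]; rfl

theorem psi2_pt (h : IsUnif W L) (z : ℂ) : psi2 W.toAffine (pt h z) = ℘'[L] z := by
  by_cases hz : z ∈ L.lattice
  · rw [pt_of_mem h hz]
    have := L.derivWeierstrassP_coe ⟨z, hz⟩
    simpa using this.symm
  · rw [pt_of_notMem h hz]
    exact two_yC_add z

theorem tPoly_xC (h : IsUnif W L) (z : ℂ) :
    tPoly W (xC W L z) = 6 * ℘[L] z ^ 2 - L.g₂ / 2 := by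
  unfold tPoly xC
  rw [h.g₂]
  simp only [WeierstrassCurve.c₄]
  ring

theorem wPoly_xC (h : IsUnif W L) (z : ℂ) :
    252 * W.b₂ * tPoly W (xC W L z) + 3024 * wPoly W (xC W L z) =
      216 * (140 * ℘[L] z ^ 3 - 21 * L.g₂ * ℘[L] z - 14 * L.g₃) := by
  unfold tPoly wPoly xC
  rw [h.g₂, h.g₃]
  simp only [WeierstrassCurve.c₄, WeierstrassCurve.c₆]
  ring

variable (hp : p.Prime) (h1 : (p : ℂ) * z0 ∈ L.lattice) (h0 : z0 ∉ L.lattice)
  (hL' : L'.lattice = L.lattice ⊔ Submodule.span ℤ {z0})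

include hp h1 h0 hL' in
/-- **The superlattice uniformises Vélu's curve.** -/
theorem isUnif_velu (h : IsUnif W L) {t w : ℂ}
    (ht : 2 * t = ∑ k ∈ Finset.Ico 1 p, tPoly W (xC W L ((k : ℂ) * z0)))
    (hw : 2 * w = ∑ k ∈ Finset.Ico 1 p, wPoly W (xC W L ((k : ℂ) * z0))) :
    IsUnif (veluCurve W t w) L' := by
  have hg₂ : L'.g₂ = (veluCurve W t w).c₄ / 12 := by
    rw [veluCurve_c₄, g₂_superlattice hp h1 h0 hL', h.g₂]
    have : ∑ k ∈ Finset.Ico 1 p, (6 * ℘[L] ((k : ℂ) * z0) ^ 2 - W.c₄ / 12 / 2) = 2 * t := by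
      rw [ht]
      refine Finset.sum_congr rfl fun k _ => ?_
      rw [tPoly_xC h, h.g₂]
    rw [this]; ring
  have hg₃ : L'.g₃ = (veluCurve W t w).c₆ / 216 := by
    rw [veluCurve_c₆, g₃_superlattice hp h1 h0 hL']
    have : 216 * ∑ k ∈ Finset.Ico 1 p,
        (140 * ℘[L] ((k : ℂ) * z0) ^ 3 - 21 * L.g₂ * ℘[L] ((k : ℂ) * z0) - 14 * L.g₃) =
        252 * W.b₂ * (2 * t) + 3024 * (2 * w) := by
      rw [ht, hw, Finset.mul_sum, Finset.mul_sum, Finset.mul_sum, ← Finset.sum_add_distrib]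
      refine Finset.sum_congr rfl fun k _ => ?_
      rw [wPoly_xC h]
    linear_combination h.g₃ + this / 216
  refine ⟨hg₂, hg₃, ?_⟩
  have hd := HalfPeriod76.disc_ne_zero L'
  rw [hg₂, hg₃] at hd
  intro hΔ
  apply hd
  have hc := (veluCurve W t w).c_relation
  rw [hΔ] at hc
  linear_combination (-(1 : ℂ) / 1728) * hc

end analytic


section isog

variable {W W' : WeierstrassCurve ℂ} {L L' : PeriodPair}

theorem ptHom_surjective (h : IsUnif W L) : Function.Surjective (ptHom h) := pt_surjective h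

theorem ker_ptHom_le (h : IsUnif W L) (h' : IsUnif W' L') (hle : L.lattice ≤ L'.lattice) :
    (ptHom h).ker ≤ (ptHom h').ker := by
  intro z hz
  rw [AddMonoidHom.mem_ker, ptHom_apply, pt_eq_zero_iff] at hz ⊢
  exact hle hz

/-- **The analytic quotient isogeny** `W(ℂ) = ℂ/L → ℂ/L' = W'(ℂ)` for `L ≤ L'`. -/
noncomputable def quotIsog (h : IsUnif W L) (h' : IsUnif W' L') (hle : L.lattice ≤ L'.lattice) :
    W.toAffine.Point →+ W'.toAffine.Point :=
  (ptHom h).liftOfRightInverse (Function.surjInv (ptHom_surjective h))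
    (Function.rightInverse_surjInv (ptHom_surjective h)) ⟨ptHom h', ker_ptHom_le h h' hle⟩

theorem quotIsog_pt (h : IsUnif W L) (h' : IsUnif W' L') (hle : L.lattice ≤ L'.lattice) (z : ℂ) :
    quotIsog h h' hle (pt h z) = pt h' z := by
  have := AddMonoidHom.liftOfRightInverse_comp_apply (ptHom h)
    (Function.surjInv (ptHom_surjective h)) (Function.rightInverse_surjInv (ptHom_surjective h))
    ⟨ptHom h', ker_ptHom_le h h' hle⟩ z
  simpa [quotIsog] using this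

theorem quotIsog_surjective (h : IsUnif W L) (h' : IsUnif W' L') (hle : L.lattice ≤ L'.lattice) :
    Function.Surjective (quotIsog h h' hle) := by
  intro P
  obtain ⟨z, rfl⟩ := pt_surjective h' P
  exact ⟨pt h z, quotIsog_pt h h' hle z⟩

theorem quotIsog_eq_zero_iff (h : IsUnif W L) (h' : IsUnif W' L') (hle : L.lattice ≤ L'.lattice)
    (z : ℂ) : quotIsog h h' hle (pt h z) = 0 ↔ z ∈ L'.lattice := by
  rw [quotIsog_pt, pt_eq_zero_iff]

theorem mem_ker_quotIsog_iff (h : IsUnif W L) (h' : IsUnif W' L') (hle : L.lattice ≤ L'.lattice)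
    (P : W.toAffine.Point) :
    P ∈ (quotIsog h h' hle).ker ↔ ∃ z ∈ L'.lattice, pt h z = P := by
  rw [AddMonoidHom.mem_ker]
  constructor
  · intro hP
    obtain ⟨z, rfl⟩ := pt_surjective h P
    exact ⟨z, (quotIsog_eq_zero_iff h h' hle z).1 hP, rfl⟩
  · rintro ⟨z, hz, rfl⟩
    exact (quotIsog_eq_zero_iff h h' hle z).2 hz

/-- The kernel of the quotient isogeny for `L' = L + ℤ z₀` is generated by `pt h z₀`. -/
theorem ker_quotIsog (h : IsUnif W L) (h' : IsUnif W' L') {z0 : ℂ}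
    (hL' : L'.lattice = L.lattice ⊔ Submodule.span ℤ {z0}) :
    (quotIsog h h' (hL' ▸ le_sup_left)).ker = AddSubgroup.zmultiples (pt h z0) := by
  ext P
  rw [mem_ker_quotIsog_iff, AddSubgroup.mem_zmultiples_iff]
  constructor
  · rintro ⟨z, hz, rfl⟩
    rw [hL', SuperLattice32.mem_sup_span_iff] at hz
    obtain ⟨k, hk⟩ := hz
    refine ⟨k, ?_⟩
    rw [zsmul_pt]
    exact (pt_eq_of_sub_mem h hk).symm
  · rintro ⟨k, rfl⟩
    refine ⟨(k : ℂ) * z0, ?_, (zsmul_pt h k z0).symm⟩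
    rw [hL', SuperLattice32.mem_sup_span_iff]
    exact ⟨k, by simp⟩

end isog


section velu_formulas

variable {W W' : WeierstrassCurve ℂ} {L L' : PeriodPair} {p : ℕ} {z0 : ℂ}
variable (hp : p.Prime) (h1 : (p : ℂ) * z0 ∈ L.lattice) (h0 : z0 ∉ L.lattice)
  (hL' : L'.lattice = L.lattice ⊔ Submodule.span ℤ {z0})

theorem pt_add_nsmul (h : IsUnif W L) (z : ℂ) (k : ℕ) :
    pt h z + k • pt h z0 = pt h (z + (k : ℂ) * z0) := by
  rw [nsmul_pt, pt_add]

include hp h1 h0 hL' in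
/-- **Vélu's formula for `ψ₂ = 2y + a₁x + a₃`** of the image point. -/
theorem psi2_quotIsog (h : IsUnif W L) (h' : IsUnif W' L') (P : W.toAffine.Point) :
    psi2 W'.toAffine (quotIsog h h' (hL' ▸ le_sup_left) P) =
      ∑ k ∈ Finset.range p, psi2 W.toAffine (P + k • pt h z0) := by
  obtain ⟨z, rfl⟩ := pt_surjective h P
  rw [quotIsog_pt, psi2_pt, derivWeierstrassP_superlattice hp h1 h0 hL']
  refine Finset.sum_congr rfl fun k _ => ?_
  rw [pt_add_nsmul, psi2_pt]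

include hp h1 h0 hL' in
/-- **Vélu's formula for the `x`-coordinate** of the image point. -/
theorem xOf_quotIsog (h : IsUnif W L) (h' : IsUnif W' L') (hb₂ : W'.b₂ = W.b₂)
    (P : W.toAffine.Point) (hP : P ∉ (quotIsog h h' (hL' ▸ le_sup_left)).ker) :
    xOf W'.toAffine (quotIsog h h' (hL' ▸ le_sup_left) P) =
      xOf W.toAffine P + ∑ k ∈ Finset.Ico 1 p,
        (xOf W.toAffine (P + k • pt h z0) - xOf W.toAffine (k • pt h z0)) := by
  obtain ⟨z, rfl⟩ := pt_surjective h P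
  have hz' : z ∉ L'.lattice := by
    intro hz
    exact hP ((mem_ker_quotIsog_iff h h' _ _).2 ⟨z, hz, rfl⟩)
  have hle : L.lattice ≤ L'.lattice := hL' ▸ le_sup_left
  have hz : z ∉ L.lattice := fun hz => hz' (hle hz)
  rw [quotIsog_pt, xOf_pt h' hz', xOf_pt h hz]
  unfold xC
  rw [weierstrassP_superlattice hp h1 h0 hL', hb₂]
  have : ∀ k ∈ Finset.Ico 1 p, xOf W.toAffine (pt h z + k • pt h z0) -
      xOf W.toAffine (k • pt h z0) = ℘[L] (z + (k : ℂ) * z0) - ℘[L] ((k : ℂ) * z0) := by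
    intro k hk
    have hk' := Finset.mem_Ico.mp hk
    have hk0 : (k : ℂ) * z0 ∉ L.lattice :=
      SubLattice27.natCast_mul_notMem hp h1 h0 (by omega) hk'.2
    have hzk : z + (k : ℂ) * z0 ∉ L.lattice := by
      intro hmem
      apply hz'
      rw [hL', SuperLattice32.mem_sup_span_iff]
      exact ⟨-(k : ℤ), by push_cast; rw [show z - -(k : ℂ) * z0 = z + (k : ℂ) * z0 by ring]; exact hmem⟩
    rw [pt_add_nsmul, nsmul_pt, xOf_pt h hzk, xOf_pt h hk0]
    unfold xC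
    ring
  rw [Finset.sum_congr rfl this]
  ring

end velu_formulas


section packaged

variable {W : WeierstrassCurve ℂ} {L : PeriodPair} {p : ℕ}

theorem tOf_nsmul_pt (h : IsUnif W L) {z : ℂ} (hz : z ∉ L.lattice) :
    tOf W.toAffine (pt h z) = tPoly W (xC W L z) := by
  unfold tOf tPoly
  rw [xOf_pt h hz]

/-- **Packaged form** (given a uniformising lattice): for a point `Q₀` of prime order `p` and
Vélu parameters `t`, `w` (half sums), Vélu's curve is nonsingular and there is a surjective additive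
map `φ : W(ℂ) → W'(ℂ)` with kernel `⟨Q₀⟩` given by Vélu's formulas. -/
theorem exists_quotIsog_of_isUnif (h : IsUnif W L) (hp : p.Prime) (Q₀ : W.toAffine.Point)
    (hQ : addOrderOf Q₀ = p) {t w : ℂ}
    (ht : 2 * t = ∑ k ∈ Finset.Ico 1 p, tOf W.toAffine (k • Q₀))
    (hw : 2 * w = ∑ k ∈ Finset.Ico 1 p, wPoly W (xOf W.toAffine (k • Q₀))) :
    (veluCurve W t w).Δ ≠ 0 ∧
    ∃ φ : W.toAffine.Point →+ (veluCurve W t w).toAffine.Point,
      Function.Surjective φ ∧ φ.ker = AddSubgroup.zmultiples Q₀ ∧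
      (∀ P, psi2 (veluCurve W t w).toAffine (φ P) =
        ∑ k ∈ Finset.range p, psi2 W.toAffine (P + k • Q₀)) ∧
      (∀ P, P ∉ φ.ker → xOf (veluCurve W t w).toAffine (φ P) =
        xOf W.toAffine P + ∑ k ∈ Finset.Ico 1 p,
          (xOf W.toAffine (P + k • Q₀) - xOf W.toAffine (k • Q₀))) := by
  obtain ⟨z0, rfl⟩ := pt_surjective h Q₀
  have h1 : (p : ℂ) * z0 ∈ L.lattice := mul_mem_of_addOrderOf h hQ
  have h0 : z0 ∉ L.lattice := by
    have := mul_notMem_of_addOrderOf h hQ (k := 1) one_pos hp.one_lt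
    simpa using this
  obtain ⟨L', hL'⟩ := SuperLattice32.exists_superlattice L p hp z0 h1 h0
  have hk : ∀ k ∈ Finset.Ico 1 p, (k : ℂ) * z0 ∉ L.lattice := by
    intro k hk
    have hk' := Finset.mem_Ico.mp hk
    exact SubLattice27.natCast_mul_notMem hp h1 h0 (by omega) hk'.2
  have ht' : 2 * t = ∑ k ∈ Finset.Ico 1 p, tPoly W (xC W L ((k : ℂ) * z0)) := by
    rw [ht]
    refine Finset.sum_congr rfl fun k hkm => ?_
    rw [nsmul_pt, tOf_nsmul_pt h (hk k hkm)]
  have hw' : 2 * w = ∑ k ∈ Finset.Ico 1 p, wPoly W (xC W L ((k : ℂ) * z0)) := by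
    rw [hw]
    refine Finset.sum_congr rfl fun k hkm => ?_
    rw [nsmul_pt, xOf_pt h (hk k hkm)]
  have h' : IsUnif (veluCurve W t w) L' := isUnif_velu hp h1 h0 hL' h ht' hw'
  refine ⟨h'.Δ, quotIsog h h' (hL' ▸ le_sup_left), quotIsog_surjective h h' _,
    ker_quotIsog h h' hL', ?_, ?_⟩
  · intro P
    exact psi2_quotIsog hp h1 h0 hL' h h' P
  · intro P hP
    exact xOf_quotIsog hp h1 h0 hL' h h' (veluCurve_b₂ W t w) P hP

end packaged

end Fermat.Agent.MAZ.Analytic.QuotIsog32
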