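import Fermat.Agent.MAZ.Analytic.QuotIsog32
import Fermat.Agent.MAZ.Analytic.PeriodPairExists80

set_option autoImplicit false

namespace Fermat.Agent.MAZ.Analytic.QuotIsogMain32

open Fermat.Agent.MAZ.Analytic.Unif32 Fermat.Agent.MAZ.Analytic.QuotIsog32
open Fermat.Agent.MAZ.Analytic.GlobalDefs42
open WeierstrassCurve

/-- Every elliptic curve over `ℂ` is uniformised by a lattice. -/
theorem exists_isUnif (W : WeierstrassCurve ℂ) (hΔ : W.Δ ≠ 0) : ∃ L : PeriodPair, IsUnif W L := by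
  have hd : (W.c₄ / 12) ^ 3 - 27 * (W.c₆ / 216) ^ 2 ≠ 0 := by
    have hc := W.c_relation
    intro h0
    apply hΔ
    have : (1728 : ℂ) * W.Δ = 0 := by rw [hc]; linear_combination 1728 * h0
    simpa using this
  obtain ⟨L, h2, h3⟩ := PeriodPairExists80.exists_periodPair _ _ hd
  exact ⟨L, h2, h3, hΔ⟩

/-- **The complex quotient isogeny by a point of prime order, with Vélu's formulas.** -/
theorem exists_quotIsog (W : WeierstrassCurve ℂ) (hΔ : W.Δ ≠ 0) {p : ℕ} (hp : p.Prime)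
    (Q₀ : W.toAffine.Point) (hQ : addOrderOf Q₀ = p) {t w : ℂ}
    (ht : 2 * t = ∑ k ∈ Finset.Ico 1 p, tOf W.toAffine (k • Q₀))
    (hw : 2 * w = ∑ k ∈ Finset.Ico 1 p, wPoly W (xOf W.toAffine (k • Q₀))) :
    (veluCurve W t w).Δ ≠ 0 ∧
    ∃ φ : W.toAffine.Point →+ (veluCurve W t w).toAffine.Point,
      Function.Surjective φ ∧ φ.ker = AddSubgroup.zmultiples Q₀ ∧
      (∀ P, psi2 (veluCurve W t w).toAffine (φ P) =
        ∑ k ∈ Finset.range p, psi2 W.toAffine (P + k • Q₀)) ∧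
      (∀ P, P ∉ φ.ker → xOf (veluCurve W t w).toAffine (φ P) =
        xOf W.toAffine P + ∑ k ∈ Finset.Ico 1 p,
          (xOf W.toAffine (P + k • Q₀) - xOf W.toAffine (k • Q₀))) := by
  obtain ⟨L, h⟩ := exists_isUnif W hΔ
  exact exists_quotIsog_of_isUnif h hp Q₀ hQ ht hw

end Fermat.Agent.MAZ.Analytic.QuotIsogMain32
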