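/-
MAZ / Analytic (helper80): every complex Weierstrass curve with nonzero discriminant is uniformised
by a period pair, in the vocabulary `Unif32.IsUnif` of helper32 (AN0 + AN1 glue, requested by the
MOD-GLOBAL brick).
-/
import Mathlib
import Fermat.Agent.MAZ.Analytic.PeriodPairExists80
import Fermat.Agent.MAZ.Analytic.Unif32

set_option autoImplicit false

open UpperHalfPlane

namespace Fermat.Agent.MAZ.Analytic.UnifExists80

open Fermat.Agent.MAZ.Analytic.PeriodPairExists80 Fermat.Agent.MAZ.Analytic.Unif32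
open Fermat.Agent.X0.LatticeEis

theorem disc_ne_zero (W : WeierstrassCurve ℂ) (hΔ : W.Δ ≠ 0) :
    (W.c₄ / 12) ^ 3 - 27 * (W.c₆ / 216) ^ 2 ≠ 0 := by
  have h := W.c_relation
  have : (W.c₄ / 12) ^ 3 - 27 * (W.c₆ / 216) ^ 2 = W.Δ := by
    field_simp
    linear_combination (-46656 : ℂ) * h
  rw [this]
  exact hΔ

/-- Every complex Weierstrass curve with `Δ ≠ 0` is uniformised by a period pair. -/
theorem exists_isUnif (W : WeierstrassCurve ℂ) (hΔ : W.Δ ≠ 0) : ∃ L : PeriodPair, IsUnif W L := by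
  obtain ⟨L, h2, h3⟩ := exists_periodPair (W.c₄ / 12) (W.c₆ / 216) (disc_ne_zero W hΔ)
  exact ⟨L, ⟨h2, h3, hΔ⟩⟩

/-- The same with an explicit lattice `c (ℤ τ + ℤ)`. -/
theorem exists_isUnif_scalePair (W : WeierstrassCurve ℂ) (hΔ : W.Δ ≠ 0) :
    ∃ (τ : ℍ) (c : ℂ) (hc : c ≠ 0), IsUnif W (scalePair c hc (pairOfUHP τ)) := by
  obtain ⟨τ, c, hc, h2, h3⟩ := exists_scalePair (W.c₄ / 12) (W.c₆ / 216) (disc_ne_zero W hΔ)
  exact ⟨τ, c, hc, ⟨h2, h3, hΔ⟩⟩

end Fermat.Agent.MAZ.Analytic.UnifExists80
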